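/-
Program E (S14), piece (C0-1) (helper21): the Artin map of an abelian extension `L/K` of number
fields as a multiplicative map on (nonzero) integral ideals of `𝓞 K`.

`frobAt K L q` is a Frobenius element at (any prime over) the nonzero prime `q` of `𝓞 K`
(value `1` if `q` is not a nonzero prime); `artin K L I` is the product of `frobAt` over the
prime factors of `I`.  No modulus appears in the definition: at a ramified prime the value is
some Frobenius lift; unramifiedness is a hypothesis only where it is needed.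
-/
import Mathlib

set_option autoImplicit false
set_option linter.unusedSectionVars false
set_option linter.style.haveILetI false

open NumberField UniqueFactorizationMonoid
open scoped Pointwise IsMulCommutative

namespace Fermat.Agent.CFT.ArtinMap

variable (K L : Type*) [Field K] [Field L] [NumberField K] [NumberField L] [Algebra K L]
  [IsGalois K L]

/-! ### A chosen prime over a prime -/

/-- A chosen prime of `𝓞 L` over the prime `q` of `𝓞 K`. -/
noncomputable def primeOver (q : Ideal (𝓞 K)) [q.IsPrime] : Ideal (𝓞 L) :=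
  (Classical.arbitrary (q.primesOver (𝓞 L))).1

instance primeOver_isPrime (q : Ideal (𝓞 K)) [q.IsPrime] : (primeOver K L q).IsPrime :=
  (Classical.arbitrary (q.primesOver (𝓞 L))).2.1

instance primeOver_liesOver (q : Ideal (𝓞 K)) [q.IsPrime] : (primeOver K L q).LiesOver q :=
  (Classical.arbitrary (q.primesOver (𝓞 L))).2.2

theorem primeOver_ne_bot (q : Ideal (𝓞 K)) [q.IsPrime] (hq : q ≠ ⊥) : primeOver K L q ≠ ⊥ :=
  Ideal.ne_bot_of_liesOver_of_ne_bot hq _

variable {L} in
theorem finite_quotient (Q : Ideal (𝓞 L)) (hQ : Q ≠ ⊥) : Finite (𝓞 L ⧸ Q) :=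
  Ideal.finiteQuotientOfFreeOfNeBot Q hQ

/-! ### The Frobenius at a prime of `K` -/

open Classical in
/-- A Frobenius element at the nonzero prime `q` of `𝓞 K` (`1` if `q` is not a nonzero prime). -/
noncomputable def frobAt (q : Ideal (𝓞 K)) : (L ≃ₐ[K] L) :=
  if h : q.IsPrime ∧ q ≠ ⊥ then
    haveI := h.1
    haveI := finite_quotient (primeOver K L q) (primeOver_ne_bot K L q h.2)
    arithFrobAt (𝓞 K) (L ≃ₐ[K] L) (primeOver K L q)
  else 1

theorem frobAt_of_not (q : Ideal (𝓞 K)) (h : ¬ (q.IsPrime ∧ q ≠ ⊥)) : frobAt K L q = 1 := by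
  simp [frobAt, h]

theorem isArithFrobAt_frobAt_primeOver (q : Ideal (𝓞 K)) [hq' : q.IsPrime] (hq : q ≠ ⊥) :
    IsArithFrobAt (𝓞 K) (frobAt K L q) (primeOver K L q) := by
  haveI := finite_quotient (primeOver K L q) (primeOver_ne_bot K L q hq)
  have h : q.IsPrime ∧ q ≠ ⊥ := ⟨hq', hq⟩
  simp only [frobAt, h, and_self, ne_eq, not_false_eq_true, dite_true]
  exact IsArithFrobAt.arithFrobAt (𝓞 K) (L ≃ₐ[K] L) (primeOver K L q)


variable [IsMulCommutative (L ≃ₐ[K] L)]

/-- In an abelian extension, `frobAt K L q` is a Frobenius at *every* prime over `q`. -/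
theorem isArithFrobAt_frobAt (q : Ideal (𝓞 K)) [q.IsPrime] (hq : q ≠ ⊥)
    (Q : Ideal (𝓞 L)) [Q.IsPrime] [Q.LiesOver q] :
    IsArithFrobAt (𝓞 K) (frobAt K L q) Q := by
  have hunder : (primeOver K L q).under (𝓞 K) = Q.under (𝓞 K) := by
    rw [← Ideal.over_def (primeOver K L q) q, ← Ideal.over_def Q q]
  obtain ⟨τ, hτ⟩ := Algebra.IsInvariant.exists_smul_of_under_eq (𝓞 K) (𝓞 L) (L ≃ₐ[K] L)
    (primeOver K L q) Q hunder
  have h := (isArithFrobAt_frobAt_primeOver K L q hq).conj τ
  rw [← hτ] at h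
  have hc : τ * frobAt K L q * τ⁻¹ = frobAt K L q := by
    rw [mul_comm' τ, mul_assoc, mul_inv_cancel, mul_one]
  rwa [hc] at h


/-! ### The Artin map on integral ideals -/

/-- The Artin map of the abelian extension `L/K` on integral ideals of `𝓞 K`: the product of the
Frobenius elements over the prime factors (with multiplicity). `artin K L ⊥ = 1`. -/
noncomputable def artin (I : Ideal (𝓞 K)) : (L ≃ₐ[K] L) :=
  ((normalizedFactors I).map (frobAt K L)).prod

@[simp] theorem artin_one : artin K L 1 = 1 := by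
  unfold artin
  rw [normalizedFactors_one, Multiset.map_zero, Multiset.prod_zero]

@[simp] theorem artin_top : artin K L ⊤ = 1 := by
  rw [← Ideal.one_eq_top]; exact artin_one K L

@[simp] theorem artin_bot : artin K L ⊥ = 1 := by
  rw [← Ideal.zero_eq_bot]
  unfold artin
  rw [normalizedFactors_zero, Multiset.map_zero, Multiset.prod_zero]

variable {K} in
theorem artin_mul {I J : Ideal (𝓞 K)} (hI : I ≠ ⊥) (hJ : J ≠ ⊥) :
    artin K L (I * J) = artin K L I * artin K L J := by
  rw [← Ideal.zero_eq_bot] at hI hJ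
  simp [artin, normalizedFactors_mul hI hJ]

variable {K} in
theorem artin_pow (I : Ideal (𝓞 K)) (n : ℕ) : artin K L (I ^ n) = artin K L I ^ n := by
  simp [artin, normalizedFactors_pow, Multiset.map_nsmul, Multiset.prod_nsmul]

variable {K} in
theorem artin_prime (q : Ideal (𝓞 K)) [hq' : q.IsPrime] (hq : q ≠ ⊥) :
    artin K L q = frobAt K L q := by
  have hp : Prime q := Ideal.prime_of_isPrime hq hq'
  simp [artin, normalizedFactors_irreducible hp.irreducible]

variable {K} in
/-- The Artin symbol of a nonzero prime `q` is a Frobenius at every prime over `q`. -/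
theorem isArithFrobAt_artin (q : Ideal (𝓞 K)) [q.IsPrime] (hq : q ≠ ⊥)
    (Q : Ideal (𝓞 L)) [Q.IsPrime] [Q.LiesOver q] :
    IsArithFrobAt (𝓞 K) (artin K L q) Q := by
  rw [artin_prime L q hq]
  exact isArithFrobAt_frobAt K L q hq Q


variable {K} in
/-- Uniqueness: at an unramified prime, any Frobenius is the Artin symbol. -/
theorem eq_artin_of_isArithFrobAt (q : Ideal (𝓞 K)) [q.IsPrime] (hq : q ≠ ⊥)
    (Q : Ideal (𝓞 L)) [Q.IsPrime] [Q.LiesOver q] (hunr : Q.inertia (L ≃ₐ[K] L) = ⊥)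
    {σ : L ≃ₐ[K] L} (h : IsArithFrobAt (𝓞 K) σ Q) : σ = artin K L q := by
  have h1 := h.mul_inv_mem_inertia (isArithFrobAt_artin L q hq Q)
  rw [hunr, Subgroup.mem_bot] at h1
  exact mul_inv_eq_one.mp h1

variable {K} in
/-- A prime that splits completely has trivial Artin symbol. -/
theorem artin_eq_one_of_stabilizer_eq_bot (q : Ideal (𝓞 K)) [q.IsPrime] (hq : q ≠ ⊥)
    (Q : Ideal (𝓞 L)) [Q.IsPrime] [Q.LiesOver q]
    (h : MulAction.stabilizer (L ≃ₐ[K] L) Q = ⊥) : artin K L q = 1 := by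
  have h1 := (isArithFrobAt_artin L q hq Q).mem_stabilizer
  rwa [h, Subgroup.mem_bot] at h1

/-! ### Induction on nonzero ideals of a Dedekind domain -/

/-- Induction principle for nonzero ideals of a Dedekind domain: `1`, and `q * I` for a nonzero
prime `q`. -/
theorem ideal_induction {R : Type*} [CommRing R] [IsDedekindDomain R] {P : Ideal R → Prop}
    (h1 : P 1)
    (hmul : ∀ q I : Ideal R, q.IsPrime → q ≠ ⊥ → I ≠ ⊥ → P I → P (q * I)) :
    ∀ I : Ideal R, I ≠ ⊥ → P I := by
  intro I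
  refine UniqueFactorizationMonoid.induction_on_prime (P := fun I => I ≠ ⊥ → P I) I ?_ ?_ ?_
  · intro h; exact absurd Ideal.zero_eq_bot h
  · intro x hx _
    rw [Ideal.isUnit_iff] at hx
    rw [hx, ← Ideal.one_eq_top]; exact h1
  · intro a p ha hp hPa _
    have ha' : a ≠ ⊥ := by rwa [← Ideal.zero_eq_bot]
    exact hmul p a (Ideal.isPrime_of_prime hp) (by rw [← Ideal.zero_eq_bot]; exact hp.ne_zero)
      ha' (hPa ha')

variable {K} in
/-- Characterisation of `artin` on nonzero ideals. -/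
theorem artin_ext {H : Type*} [Monoid H] (g : (L ≃ₐ[K] L) →* H) (f : Ideal (𝓞 K) → H)
    (h1 : f 1 = 1)
    (hmul : ∀ q I : Ideal (𝓞 K), q.IsPrime → q ≠ ⊥ → I ≠ ⊥ → f (q * I) = f q * f I)
    (hq : ∀ q : Ideal (𝓞 K), q.IsPrime → q ≠ ⊥ → f q = g (frobAt K L q)) :
    ∀ I : Ideal (𝓞 K), I ≠ ⊥ → f I = g (artin K L I) := by
  refine ideal_induction (by rw [h1, artin_one, map_one]) ?_
  intro q I hqp hq0 hI hfI
  haveI := hqp
  rw [hmul q I hqp hq0 hI, artin_mul L hq0 hI, map_mul, hfI, hq q hqp hq0, artin_prime L q hq0]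

/-! ### Bundled versions -/

variable {K} in
/-- The Artin map as a monoid hom on a submonoid of nonzero ideals
(e.g. the ideals coprime to a modulus). -/
noncomputable def artinHom (S : Submonoid (Ideal (𝓞 K))) (hS : ∀ I ∈ S, I ≠ ⊥) :
    S →* (L ≃ₐ[K] L) where
  toFun I := artin K L I.1
  map_one' := artin_one K L
  map_mul' I J := artin_mul L (hS _ I.2) (hS _ J.2)

variable {K} in
@[simp] theorem artinHom_apply (S : Submonoid (Ideal (𝓞 K))) (hS : ∀ I ∈ S, I ≠ ⊥) (I : S) :
    artinHom L S hS I = artin K L I.1 := rfl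


/-! ### Descent to the class group when principal ideals are killed -/

open scoped nonZeroDivisors

theorem coe_ne_bot' (I : (Ideal (𝓞 K))⁰) : (I : Ideal (𝓞 K)) ≠ ⊥ := by
  have := mem_nonZeroDivisors_iff_ne_zero.mp I.2
  rwa [Ideal.zero_eq_bot] at this

variable {K} in
/-- The Artin map as a monoid hom on the nonzero integral ideals. -/
noncomputable def artinHom0 : (Ideal (𝓞 K))⁰ →* (L ≃ₐ[K] L) where
  toFun I := artin K L I.1
  map_one' := artin_one K L
  map_mul' I J := artin_mul L (coe_ne_bot' K I) (coe_ne_bot' K J)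

variable {K} in
@[simp] theorem artinHom0_apply (I : (Ideal (𝓞 K))⁰) : artinHom0 L I = artin K L I.1 := rfl

variable {K} in
theorem artin_eq_of_mk0_eq (hprinc : ∀ a : 𝓞 K, a ≠ 0 → artin K L (Ideal.span {a}) = 1)
    {I J : (Ideal (𝓞 K))⁰} (h : ClassGroup.mk0 I = ClassGroup.mk0 J) :
    artin K L (I : Ideal (𝓞 K)) = artin K L (J : Ideal (𝓞 K)) := by
  obtain ⟨x, y, hx, hy, hxy⟩ := ClassGroup.mk0_eq_mk0_iff.mp h
  have hI : (I : Ideal (𝓞 K)) ≠ ⊥ := by
    have := mem_nonZeroDivisors_iff_ne_zero.mp I.2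
    rwa [Ideal.zero_eq_bot] at this
  have hJ : (J : Ideal (𝓞 K)) ≠ ⊥ := by
    have := mem_nonZeroDivisors_iff_ne_zero.mp J.2
    rwa [Ideal.zero_eq_bot] at this
  have hsx : Ideal.span {x} ≠ (⊥ : Ideal (𝓞 K)) := by
    rwa [Ne, Ideal.span_singleton_eq_bot]
  have hsy : Ideal.span {y} ≠ (⊥ : Ideal (𝓞 K)) := by
    rwa [Ne, Ideal.span_singleton_eq_bot]
  have h2 := congrArg (artin K L) hxy
  rwa [artin_mul L hsx hI, artin_mul L hsy hJ, hprinc x hx, hprinc y hy, one_mul, one_mul] at h2

variable {K} in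
/-- Underlying function of `artinClass`. -/
noncomputable def artinClassFun (c : ClassGroup (𝓞 K)) : (L ≃ₐ[K] L) :=
  artin K L ((Classical.choose (ClassGroup.mk0_surjective c) : (Ideal (𝓞 K))⁰) : Ideal (𝓞 K))

variable {K} in
theorem artinClassFun_mk0 (hprinc : ∀ a : 𝓞 K, a ≠ 0 → artin K L (Ideal.span {a}) = 1)
    (I : (Ideal (𝓞 K))⁰) :
    artinClassFun L (ClassGroup.mk0 I) = artin K L (I : Ideal (𝓞 K)) :=
  artin_eq_of_mk0_eq L hprinc
    (Classical.choose_spec (ClassGroup.mk0_surjective (ClassGroup.mk0 I)))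

variable {K} in
/-- If the Artin map kills all principal ideals it descends to the class group. -/
noncomputable def artinClass (hprinc : ∀ a : 𝓞 K, a ≠ 0 → artin K L (Ideal.span {a}) = 1) :
    ClassGroup (𝓞 K) →* (L ≃ₐ[K] L) where
  toFun := artinClassFun L
  map_one' := by
    have h := artinClassFun_mk0 L hprinc 1
    rw [map_one] at h
    rw [h, OneMemClass.coe_one, artin_one]
  map_mul' c d := by
    obtain ⟨I, rfl⟩ := ClassGroup.mk0_surjective c
    obtain ⟨J, rfl⟩ := ClassGroup.mk0_surjective d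
    rw [← map_mul, artinClassFun_mk0 L hprinc, artinClassFun_mk0 L hprinc,
      artinClassFun_mk0 L hprinc, Submonoid.coe_mul]
    exact artin_mul L (coe_ne_bot' K I) (coe_ne_bot' K J)

variable {K} in
theorem artinClass_mk0 (hprinc : ∀ a : 𝓞 K, a ≠ 0 → artin K L (Ideal.span {a}) = 1)
    (I : (Ideal (𝓞 K))⁰) :
    artinClass L hprinc (ClassGroup.mk0 I) = artin K L (I : Ideal (𝓞 K)) :=
  artinClassFun_mk0 L hprinc I


variable {K} in
/-- The consumer form (ART) of the glue file: if the Artin map kills principal ideals, there is a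
hom from the class group sending the class of every nonzero prime to a Frobenius. -/
theorem exists_classGroup_hom (hprinc : ∀ a : 𝓞 K, a ≠ 0 → artin K L (Ideal.span {a}) = 1) :
    ∃ Art : ClassGroup (𝓞 K) →* (L ≃ₐ[K] L),
      ∀ (q : Ideal (𝓞 K)) (hq : q ∈ (Ideal (𝓞 K))⁰) (P : Ideal (𝓞 L)), q.IsPrime → P.IsPrime →
        P.under (𝓞 K) = q → IsArithFrobAt (𝓞 K) (Art (ClassGroup.mk0 ⟨q, hq⟩)) P := by
  refine ⟨artinClass L hprinc, fun q hq P hqp hPp hPq => ?_⟩
  haveI := hqp
  haveI := hPp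
  haveI : P.LiesOver q := ⟨hPq.symm⟩
  rw [artinClass_mk0]
  exact isArithFrobAt_artin L q (coe_ne_bot' K ⟨q, hq⟩) P

end Fermat.Agent.CFT.ArtinMap
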