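/-
Program E (S14), C0: the concrete Artin symbol on ideals for a finite abelian extension of
number fields (helper17).

Conventions as in `Fermat/Agent/S14/Interface.lean`: `K L` number fields, `[IsGalois K L]`,
`G := L ≃ₐ[K] L` with the Mathlib-canonical action on `𝓞 L`, unramifiedness at a prime `P` of
`𝓞 L` is `P.inertia G = ⊥`.
-/
import Mathlib

set_option autoImplicit false
set_option linter.unusedSectionVars false
set_option linter.style.haveILetI false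

namespace Fermat.Agent.CFT.ArtinSymbol

open NumberField UniqueFactorizationMonoid
open scoped Pointwise IsMulCommutative nonZeroDivisors

variable (K L : Type*) [Field K] [Field L] [NumberField K] [NumberField L] [Algebra K L]
  [IsGalois K L]

/-! ### Primes over a given prime -/

lemma exists_prime_over (q : Ideal (𝓞 K)) [hq : q.IsPrime] :
    ∃ P : Ideal (𝓞 L), P.IsPrime ∧ P.under (𝓞 K) = q := by
  obtain ⟨P, -, hP, hPq⟩ := Ideal.exists_ideal_over_prime_of_isIntegral q (⊥ : Ideal (𝓞 L))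
    (by
      rw [Ideal.comap_bot_of_injective _ (RingOfIntegers.algebraMap.injective K L)]
      exact bot_le)
  exact ⟨P, hP, hPq⟩

variable {K L}

lemma ne_bot_of_under_ne_bot {q : Ideal (𝓞 K)} {P : Ideal (𝓞 L)} (hP : P.under (𝓞 K) = q)
    (hq0 : q ≠ ⊥) : P ≠ ⊥ := by
  rintro rfl
  apply hq0
  rw [← hP]
  exact Ideal.comap_bot_of_injective _ (RingOfIntegers.algebraMap.injective K L)

lemma under_ne_bot_of_ne_bot {P : Ideal (𝓞 L)} (hP0 : P ≠ ⊥) : P.under (𝓞 K) ≠ ⊥ := by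
  intro h
  exact hP0 (Ideal.eq_bot_of_comap_eq_bot (R := 𝓞 K) h)

lemma finite_quotient_of_ne_bot {P : Ideal (𝓞 L)} (hP0 : P ≠ ⊥) : Finite (𝓞 L ⧸ P) :=
  Ideal.finiteQuotientOfFreeOfNeBot P hP0

/-- Existence of a Frobenius at any nonzero prime of `𝓞 L`. -/
lemma exists_isArithFrobAt (P : Ideal (𝓞 L)) [P.IsPrime] (hP0 : P ≠ ⊥) :
    ∃ σ : L ≃ₐ[K] L, IsArithFrobAt (𝓞 K) σ P := by
  haveI := finite_quotient_of_ne_bot hP0
  exact IsArithFrobAt.exists_of_isInvariant (𝓞 K) (L ≃ₐ[K] L) P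

/-- Uniqueness of the Frobenius at an unramified prime. -/
lemma isArithFrobAt_unique {P : Ideal (𝓞 L)} {σ τ : L ≃ₐ[K] L}
    (hunr : P.inertia (L ≃ₐ[K] L) = ⊥)
    (hσ : IsArithFrobAt (𝓞 K) σ P) (hτ : IsArithFrobAt (𝓞 K) τ P) : σ = τ := by
  have h := hσ.mul_inv_mem_inertia hτ
  rw [hunr, Subgroup.mem_bot] at h
  exact mul_inv_eq_one.mp h

variable (K L)

/-! ### The Frobenius of a prime of `K` (abelian case) -/

/-- The Frobenius attached to an ideal `q` of `𝓞 K`: a Frobenius at some nonzero prime over `q`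
if there is one (i.e. if `q` is a nonzero prime), and `1` otherwise. -/
noncomputable def frobOf (q : Ideal (𝓞 K)) : L ≃ₐ[K] L := by
  classical
  exact if h : ∃ (σ : L ≃ₐ[K] L) (P : Ideal (𝓞 L)), P.IsPrime ∧ P ≠ ⊥ ∧ P.under (𝓞 K) = q ∧
      IsArithFrobAt (𝓞 K) σ P then h.choose else 1

variable {K L}

lemma frobOf_spec {q : Ideal (𝓞 K)} (hq : q.IsPrime) (hq0 : q ≠ ⊥) :
    ∃ P : Ideal (𝓞 L), P.IsPrime ∧ P ≠ ⊥ ∧ P.under (𝓞 K) = q ∧
      IsArithFrobAt (𝓞 K) (frobOf K L q) P := by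
  classical
  have hex : ∃ (σ : L ≃ₐ[K] L) (P : Ideal (𝓞 L)), P.IsPrime ∧ P ≠ ⊥ ∧ P.under (𝓞 K) = q ∧
      IsArithFrobAt (𝓞 K) σ P := by
    obtain ⟨P, hP, hPq⟩ := exists_prime_over K L q
    have hP0 : P ≠ ⊥ := ne_bot_of_under_ne_bot hPq hq0
    obtain ⟨σ, hσ⟩ := exists_isArithFrobAt (K := K) P hP0
    exact ⟨σ, P, hP, hP0, hPq, hσ⟩
  have : frobOf K L q = hex.choose := by
    unfold frobOf
    rw [dif_pos hex]
  rw [this]
  exact hex.choose_spec

/-- In the abelian case `frobOf q` is a Frobenius at EVERY prime over `q`. -/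
theorem isArithFrobAt_frobOf [IsMulCommutative (L ≃ₐ[K] L)] {q : Ideal (𝓞 K)} (hq : q.IsPrime)
    (hq0 : q ≠ ⊥) (P : Ideal (𝓞 L)) [hP : P.IsPrime] (hPq : P.under (𝓞 K) = q) :
    IsArithFrobAt (𝓞 K) (frobOf K L q) P := by
  obtain ⟨P₀, hP₀, -, hP₀q, hfrob⟩ := frobOf_spec (L := L) hq hq0
  obtain ⟨τ, hτ⟩ := Algebra.IsInvariant.exists_smul_of_under_eq (𝓞 K) (𝓞 L) (L ≃ₐ[K] L) P₀ P
    (by rw [hP₀q, hPq])
  have h := hfrob.conj τ
  rw [← hτ] at h
  have hcomm : τ * frobOf K L q * τ⁻¹ = frobOf K L q := by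
    rw [mul_comm' τ, mul_assoc, mul_inv_cancel, mul_one]
  rwa [hcomm] at h

/-- Characterisation of `frobOf` at an unramified prime. -/
theorem eq_frobOf_of_isArithFrobAt [IsMulCommutative (L ≃ₐ[K] L)] {q : Ideal (𝓞 K)}
    (hq : q.IsPrime) (hq0 : q ≠ ⊥) {P : Ideal (𝓞 L)} [P.IsPrime] (hPq : P.under (𝓞 K) = q)
    (hunr : P.inertia (L ≃ₐ[K] L) = ⊥) {σ : L ≃ₐ[K] L} (hσ : IsArithFrobAt (𝓞 K) σ P) :
    σ = frobOf K L q :=
  isArithFrobAt_unique hunr hσ (isArithFrobAt_frobOf hq hq0 P hPq)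

lemma frobOf_of_not_isPrime {q : Ideal (𝓞 K)} (hq : ¬ q.IsPrime) : frobOf K L q = 1 := by
  classical
  unfold frobOf
  rw [dif_neg]
  rintro ⟨σ, P, hP, -, hPq, -⟩
  apply hq
  rw [← hPq]
  exact Ideal.IsPrime.under (𝓞 K) P

lemma frobOf_bot : frobOf K L (⊥ : Ideal (𝓞 K)) = 1 := by
  classical
  unfold frobOf
  rw [dif_neg]
  rintro ⟨σ, P, hP, hP0, hPq, -⟩
  exact under_ne_bot_of_ne_bot (K := K) hP0 hPq

/-! ### Powers of the Frobenius -/

lemma isArithFrobAt_pow_apply {P : Ideal (𝓞 L)} [P.IsPrime] {σ : L ≃ₐ[K] L}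
    (hσ : IsArithFrobAt (𝓞 K) σ P) (n : ℕ) (x : 𝓞 L) :
    (σ ^ n) • x - x ^ (Nat.card (𝓞 K ⧸ P.under (𝓞 K)) ^ n) ∈ P := by
  induction n generalizing x with
  | zero => simp
  | succ n ih =>
    have hstab : σ • P = P := hσ.mem_stabilizer
    have h1 : σ • ((σ ^ n) • x - x ^ (Nat.card (𝓞 K ⧸ P.under (𝓞 K)) ^ n)) ∈ P := by
      have := Ideal.smul_mem_pointwise_smul σ _ P (ih x)
      rwa [hstab] at this
    have h2 : σ • (x ^ (Nat.card (𝓞 K ⧸ P.under (𝓞 K)) ^ n)) -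
        (x ^ (Nat.card (𝓞 K ⧸ P.under (𝓞 K)) ^ n)) ^ Nat.card (𝓞 K ⧸ P.under (𝓞 K)) ∈ P :=
      hσ (x ^ (Nat.card (𝓞 K ⧸ P.under (𝓞 K)) ^ n))
    have := add_mem h1 h2
    rw [smul_sub, ← mul_smul, ← pow_succ', ← pow_mul, ← pow_succ] at this
    simpa using this

lemma card_quotient_eq_pow_inertiaDeg {P : Ideal (𝓞 L)} [P.IsPrime] (hP0 : P ≠ ⊥) :
    Nat.card (𝓞 L ⧸ P) = Nat.card (𝓞 K ⧸ P.under (𝓞 K)) ^ P.inertiaDeg (𝓞 K) := by
  have hq0 : P.under (𝓞 K) ≠ ⊥ := under_ne_bot_of_ne_bot hP0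
  haveI : (P.under (𝓞 K)).IsMaximal :=
    Ring.DimensionLEOne.maximalOfPrime hq0 (Ideal.IsPrime.under (𝓞 K) P)
  haveI : P.IsMaximal := Ring.DimensionLEOne.maximalOfPrime hP0 inferInstance
  haveI : P.LiesOver (P.under (𝓞 K)) := ⟨rfl⟩
  rw [Ideal.inertiaDeg_eq_of_isMaximal (P.under (𝓞 K)) P]
  letI := Ideal.Quotient.field (P.under (𝓞 K))
  exact Module.natCard_eq_pow_finrank (K := 𝓞 K ⧸ P.under (𝓞 K)) (V := 𝓞 L ⧸ P)

/-- At an unramified prime, the `f`-th power of a Frobenius is trivial. -/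
theorem pow_inertiaDeg_eq_one {P : Ideal (𝓞 L)} [P.IsPrime] (hP0 : P ≠ ⊥)
    (hunr : P.inertia (L ≃ₐ[K] L) = ⊥) {σ : L ≃ₐ[K] L} (hσ : IsArithFrobAt (𝓞 K) σ P) :
    σ ^ P.inertiaDeg (𝓞 K) = 1 := by
  have hmem : σ ^ P.inertiaDeg (𝓞 K) ∈ P.inertia (L ≃ₐ[K] L) := by
    intro x
    have h1 := isArithFrobAt_pow_apply hσ (P.inertiaDeg (𝓞 K)) x
    rw [← card_quotient_eq_pow_inertiaDeg hP0] at h1
    have h2 : x ^ Nat.card (𝓞 L ⧸ P) - x ∈ P := by
      haveI := finite_quotient_of_ne_bot hP0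
      haveI : P.IsMaximal := Ring.DimensionLEOne.maximalOfPrime hP0 inferInstance
      letI := Ideal.Quotient.field P
      letI := Fintype.ofFinite (𝓞 L ⧸ P)
      rw [← Ideal.Quotient.eq, map_pow, Nat.card_eq_fintype_card, FiniteField.pow_card]
    have := add_mem h1 h2
    simpa using this
  rw [hunr, Subgroup.mem_bot] at hmem
  exact hmem

/-! ### The Artin symbol of an ideal -/

variable (K L)

/-- The Artin symbol of an ideal of `𝓞 K` in the abelian extension `L/K`: the product of the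
Frobenius elements over the prime factorisation (`1` for the zero ideal).  It is only meaningful
on ideals prime to the ramified primes. -/
noncomputable def artin [IsMulCommutative (L ≃ₐ[K] L)] (a : Ideal (𝓞 K)) : L ≃ₐ[K] L :=
  ((normalizedFactors a).map (frobOf K L)).prod

variable {K L}

section Artin

variable [IsMulCommutative (L ≃ₐ[K] L)]

lemma artin_bot : artin K L (⊥ : Ideal (𝓞 K)) = 1 := by
  unfold artin
  rw [← Ideal.zero_eq_bot, normalizedFactors_zero]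
  simp

lemma artin_one : artin K L (1 : Ideal (𝓞 K)) = 1 := by
  unfold artin
  rw [normalizedFactors_one]
  simp

lemma artin_top : artin K L (⊤ : Ideal (𝓞 K)) = 1 := by
  rw [← Ideal.one_eq_top]; exact artin_one

lemma artin_mul {a b : Ideal (𝓞 K)} (ha : a ≠ ⊥) (hb : b ≠ ⊥) :
    artin K L (a * b) = artin K L a * artin K L b := by
  unfold artin
  rw [normalizedFactors_mul (by rwa [Ne, Ideal.zero_eq_bot]) (by rwa [Ne, Ideal.zero_eq_bot]),
    Multiset.map_add, Multiset.prod_add]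

lemma artin_of_isPrime {q : Ideal (𝓞 K)} (hq : q.IsPrime) (hq0 : q ≠ ⊥) :
    artin K L q = frobOf K L q := by
  unfold artin
  rw [normalizedFactors_irreducible (Ideal.prime_of_isPrime hq0 hq).irreducible, normalize_eq]
  simp

lemma artin_pow {a : Ideal (𝓞 K)} (ha : a ≠ ⊥) (n : ℕ) :
    artin K L (a ^ n) = artin K L a ^ n := by
  induction n with
  | zero => rw [pow_zero, pow_zero]; exact artin_one
  | succ n ih =>
    rw [pow_succ, artin_mul (pow_ne_zero n ha) ha, ih, pow_succ]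

/-- The Artin symbol kills the relative norm of an unramified prime. -/
theorem artin_relNorm_of_isPrime {P : Ideal (𝓞 L)} [hP : P.IsPrime] (hP0 : P ≠ ⊥)
    (hunr : P.inertia (L ≃ₐ[K] L) = ⊥) :
    artin K L (Ideal.relNorm (𝓞 K) P) = 1 := by
  have hq0 : P.under (𝓞 K) ≠ ⊥ := under_ne_bot_of_ne_bot hP0
  have hq : (P.under (𝓞 K)).IsPrime := Ideal.IsPrime.under (𝓞 K) P
  haveI : (P.under (𝓞 K)).IsMaximal := Ring.DimensionLEOne.maximalOfPrime hq0 hq
  haveI : P.IsMaximal := Ring.DimensionLEOne.maximalOfPrime hP0 hP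
  haveI : P.LiesOver (P.under (𝓞 K)) := ⟨rfl⟩
  rw [Ideal.relNorm_eq_pow_of_isMaximal P (P.under (𝓞 K)), artin_pow hq0,
    artin_of_isPrime hq hq0]
  exact pow_inertiaDeg_eq_one hP0 hunr (isArithFrobAt_frobOf hq hq0 P rfl)

/-- The Artin symbol kills relative norms of ideals all of whose prime factors are unramified. -/
theorem artin_relNorm {A : Ideal (𝓞 L)} (hA : A ≠ ⊥)
    (hunr : ∀ P : Ideal (𝓞 L), P.IsPrime → P ≠ ⊥ → A ≤ P → P.inertia (L ≃ₐ[K] L) = ⊥) :
    artin K L (Ideal.relNorm (𝓞 K) A) = 1 := by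
  revert hA hunr
  refine UniqueFactorizationMonoid.induction_on_prime A ?_ ?_ ?_
  · intro h; exact absurd rfl h
  · intro x hx _ _
    rw [Ideal.isUnit_iff] at hx
    rw [hx, Ideal.relNorm_top]
    exact artin_top
  · intro a p ha0 hp ih hpa hunr
    have hpP : p.IsPrime := Ideal.isPrime_of_prime hp
    have hp0 : p ≠ ⊥ := hp.ne_zero
    have ha0' : a ≠ ⊥ := ha0
    rw [map_mul, artin_mul (by rwa [Ne, Ideal.relNorm_eq_bot_iff])
      (by rwa [Ne, Ideal.relNorm_eq_bot_iff]),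
      artin_relNorm_of_isPrime hp0 (hunr p hpP hp0 (Ideal.mul_le_left)), one_mul]
    exact ih ha0' (fun P hP hP0 hle => hunr P hP hP0 (le_trans Ideal.mul_le_right hle))

/-- If every prime over `q` has trivial decomposition group (`q` splits completely), the Frobenius
of `q` is trivial. -/
theorem frobOf_eq_one_of_stabilizer_eq_bot {q : Ideal (𝓞 K)} (hq : q.IsPrime) (hq0 : q ≠ ⊥)
    (hsplit : ∀ P : Ideal (𝓞 L), P.IsPrime → P.under (𝓞 K) = q →
      MulAction.stabilizer (L ≃ₐ[K] L) P = ⊥) : frobOf K L q = 1 := by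
  obtain ⟨P, hP, -, hPq, hfrob⟩ := frobOf_spec (L := L) hq hq0
  have := hfrob.mem_stabilizer
  rw [hsplit P hP hPq, Subgroup.mem_bot] at this
  exact this

/-- The Artin symbol as a monoid homomorphism on the nonzero ideals. -/
noncomputable def artinHom : (Ideal (𝓞 K))⁰ →* (L ≃ₐ[K] L) where
  toFun a := artin K L (a : Ideal (𝓞 K))
  map_one' := artin_one
  map_mul' a b := artin_mul (mem_nonZeroDivisors_iff_ne_zero.mp a.2)
    (mem_nonZeroDivisors_iff_ne_zero.mp b.2)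

@[simp] lemma artinHom_apply (a : (Ideal (𝓞 K))⁰) :
    artinHom (K := K) (L := L) a = artin K L (a : Ideal (𝓞 K)) := rfl

/-- If the Artin symbol kills the principal ideals, it factors through the class group; the
resulting homomorphism sends the class of every nonzero prime `q` to a Frobenius at every prime
over `q`.  This is the shape `(ART)` consumed by `S14/Glue`. -/
theorem exists_classGroup_hom
    (hprinc : ∀ x : 𝓞 K, x ≠ 0 → artin K L (Ideal.span {x}) = 1) :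
    ∃ Art : ClassGroup (𝓞 K) →* (L ≃ₐ[K] L),
      (∀ a : (Ideal (𝓞 K))⁰, Art (ClassGroup.mk0 a) = artin K L (a : Ideal (𝓞 K))) ∧
      ∀ (q : Ideal (𝓞 K)) (hq : q ∈ (Ideal (𝓞 K))⁰) (P : Ideal (𝓞 L)), q.IsPrime → P.IsPrime →
        P.under (𝓞 K) = q → IsArithFrobAt (𝓞 K) (Art (ClassGroup.mk0 ⟨q, hq⟩)) P := by
  classical
  -- well-definedness on classes
  have hwd : ∀ a b : (Ideal (𝓞 K))⁰, ClassGroup.mk0 a = ClassGroup.mk0 b →
      artin K L (a : Ideal (𝓞 K)) = artin K L (b : Ideal (𝓞 K)) := by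
    intro a b hab
    obtain ⟨x, y, hx, hy, hxy⟩ := ClassGroup.mk0_eq_mk0_iff.mp hab
    have ha0 : (a : Ideal (𝓞 K)) ≠ ⊥ := mem_nonZeroDivisors_iff_ne_zero.mp a.2
    have hb0 : (b : Ideal (𝓞 K)) ≠ ⊥ := mem_nonZeroDivisors_iff_ne_zero.mp b.2
    have hx0 : Ideal.span {x} ≠ (⊥ : Ideal (𝓞 K)) := by
      rwa [Ne, Ideal.span_singleton_eq_bot]
    have hy0 : Ideal.span {y} ≠ (⊥ : Ideal (𝓞 K)) := by
      rwa [Ne, Ideal.span_singleton_eq_bot]
    have := congrArg (artin K L) hxy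
    rwa [artin_mul hx0 ha0, artin_mul hy0 hb0, hprinc x hx, hprinc y hy, one_mul, one_mul] at this
  let rep : ClassGroup (𝓞 K) → (Ideal (𝓞 K))⁰ := Function.surjInv ClassGroup.mk0_surjective
  have hrep : ∀ c, ClassGroup.mk0 (rep c) = c := Function.surjInv_eq ClassGroup.mk0_surjective
  have hval : ∀ a : (Ideal (𝓞 K))⁰, artin K L (rep (ClassGroup.mk0 a) : Ideal (𝓞 K)) =
      artin K L (a : Ideal (𝓞 K)) := fun a => hwd _ _ (hrep _)
  let Art : ClassGroup (𝓞 K) →* (L ≃ₐ[K] L) :=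
    { toFun := fun c => artin K L (rep c : Ideal (𝓞 K))
      map_one' := by
        have h1 : ClassGroup.mk0 (rep (1 : ClassGroup (𝓞 K))) =
            ClassGroup.mk0 (1 : (Ideal (𝓞 K))⁰) := by rw [hrep, map_one]
        have := hwd _ _ h1
        rw [this]
        exact artin_one
      map_mul' := by
        intro c d
        have h1 : ClassGroup.mk0 (rep (c * d)) = ClassGroup.mk0 (rep c * rep d) := by
          rw [hrep, map_mul, hrep, hrep]
        have := hwd _ _ h1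
        rw [this]
        exact artin_mul (mem_nonZeroDivisors_iff_ne_zero.mp (rep c).2)
          (mem_nonZeroDivisors_iff_ne_zero.mp (rep d).2) }
  refine ⟨Art, hval, ?_⟩
  intro q hq P hqP hP hPq
  have hq0 : q ≠ ⊥ := mem_nonZeroDivisors_iff_ne_zero.mp hq
  have : Art (ClassGroup.mk0 ⟨q, hq⟩) = frobOf K L q := by
    show artin K L (rep (ClassGroup.mk0 ⟨q, hq⟩) : Ideal (𝓞 K)) = frobOf K L q
    rw [hval ⟨q, hq⟩]
    exact artin_of_isPrime hqP hq0
  rw [this]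
  exact isArithFrobAt_frobOf hqP hq0 P hPq

end Artin

end Fermat.Agent.CFT.ArtinSymbol
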