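/-
Program E (S14), piece (C0-1b) (helper21): bridge between the two landed definitions of the
Artin symbol, `ArtinMap.artin` (helper21, THE definition per lead ruling) and
`ArtinSymbol.artin` (helper17), and the norm lemmas for `ArtinMap.artin`:
the Artin symbol kills relative norms of ideals with unramified support.
-/
import Mathlib
import Fermat.Agent.CFT.ArtinMap
import Fermat.Agent.CFT.ArtinSymbol

set_option autoImplicit false
set_option linter.unusedSectionVars false
set_option linter.style.haveILetI false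

open NumberField UniqueFactorizationMonoid
open scoped Pointwise IsMulCommutative

namespace Fermat.Agent.CFT.ArtinBridge

variable {K L : Type*} [Field K] [Field L] [NumberField K] [NumberField L] [Algebra K L]
  [IsGalois K L] [IsMulCommutative (L ≃ₐ[K] L)]

/-- The two Frobenius choices agree at a prime which is unramified at the chosen prime above. -/
theorem frobOf_eq_frobAt (q : Ideal (𝓞 K))
    (hunr : ∀ P : Ideal (𝓞 L), P.IsPrime → P ≠ ⊥ → P.under (𝓞 K) = q →
      P.inertia (L ≃ₐ[K] L) = ⊥) :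
    ArtinSymbol.frobOf K L q = ArtinMap.frobAt K L q := by
  by_cases h : q.IsPrime ∧ q ≠ ⊥
  · obtain ⟨hq, hq0⟩ := h
    haveI := hq
    have hPq : (ArtinMap.primeOver K L q).under (𝓞 K) = q :=
      (Ideal.over_def (ArtinMap.primeOver K L q) q).symm
    exact (ArtinSymbol.eq_frobOf_of_isArithFrobAt hq hq0 hPq
      (hunr _ inferInstance (ArtinMap.primeOver_ne_bot K L q hq0) hPq)
      (ArtinMap.isArithFrobAt_frobAt_primeOver K L q hq0)).symm
  · rw [ArtinMap.frobAt_of_not K L q h]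
    by_cases hq : q.IsPrime
    · have hq0 : q = ⊥ := by
        by_contra h0; exact h ⟨hq, h0⟩
      rw [hq0]; exact ArtinSymbol.frobOf_bot
    · exact ArtinSymbol.frobOf_of_not_isPrime hq

/-- The two Artin symbols agree on ideals with unramified support. -/
theorem artinSymbol_eq_artin (I : Ideal (𝓞 K))
    (hunr : ∀ P : Ideal (𝓞 L), P.IsPrime → P ≠ ⊥ → I ≤ P.under (𝓞 K) →
      P.inertia (L ≃ₐ[K] L) = ⊥) :
    ArtinSymbol.artin K L I = ArtinMap.artin K L I := by
  unfold ArtinSymbol.artin ArtinMap.artin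
  refine congrArg Multiset.prod (Multiset.map_congr rfl fun q hq => ?_)
  refine frobOf_eq_frobAt q fun P hP hP0 hPq => hunr P hP hP0 ?_
  rw [hPq]
  exact Ideal.le_of_dvd (dvd_of_mem_normalizedFactors hq)

/-- At an unramified prime `Q` over `q`, the `f`-th power of the Artin symbol of `q` is trivial. -/
theorem artin_pow_inertiaDeg (q : Ideal (𝓞 K)) [q.IsPrime] (hq : q ≠ ⊥)
    (Q : Ideal (𝓞 L)) [Q.IsPrime] [Q.LiesOver q] (hunr : Q.inertia (L ≃ₐ[K] L) = ⊥) :
    ArtinMap.artin K L q ^ Q.inertiaDeg (𝓞 K) = 1 :=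
  ArtinSymbol.pow_inertiaDeg_eq_one (Ideal.ne_bot_of_liesOver_of_ne_bot hq Q) hunr
    (ArtinMap.isArithFrobAt_artin L q hq Q)

/-- The Artin symbol kills the relative norm of an unramified prime. -/
theorem artin_relNorm_of_isPrime {P : Ideal (𝓞 L)} [hP : P.IsPrime] (hP0 : P ≠ ⊥)
    (hunr : P.inertia (L ≃ₐ[K] L) = ⊥) :
    ArtinMap.artin K L (Ideal.relNorm (𝓞 K) P) = 1 := by
  have hq0 : P.under (𝓞 K) ≠ ⊥ := ArtinSymbol.under_ne_bot_of_ne_bot hP0
  have hq : (P.under (𝓞 K)).IsPrime := Ideal.IsPrime.under (𝓞 K) P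
  haveI : (P.under (𝓞 K)).IsMaximal := Ring.DimensionLEOne.maximalOfPrime hq0 hq
  haveI : P.IsMaximal := Ring.DimensionLEOne.maximalOfPrime hP0 hP
  haveI : P.LiesOver (P.under (𝓞 K)) := ⟨rfl⟩
  rw [Ideal.relNorm_eq_pow_of_isMaximal P (P.under (𝓞 K)), ArtinMap.artin_pow]
  exact artin_pow_inertiaDeg (P.under (𝓞 K)) hq0 P hunr

/-- The Artin symbol kills relative norms of ideals all of whose prime factors are unramified. -/
theorem artin_relNorm {A : Ideal (𝓞 L)} (hA : A ≠ ⊥)
    (hunr : ∀ P : Ideal (𝓞 L), P.IsPrime → P ≠ ⊥ → A ≤ P → P.inertia (L ≃ₐ[K] L) = ⊥) :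
    ArtinMap.artin K L (Ideal.relNorm (𝓞 K) A) = 1 := by
  revert hunr
  refine ArtinMap.ideal_induction (P := fun A => (∀ P : Ideal (𝓞 L), P.IsPrime → P ≠ ⊥ →
    A ≤ P → P.inertia (L ≃ₐ[K] L) = ⊥) → ArtinMap.artin K L (Ideal.relNorm (𝓞 K) A) = 1)
    ?_ ?_ A hA
  · intro _
    rw [map_one]; exact ArtinMap.artin_one K L
  · intro p a hpP hp0 ha0 ih hunr
    haveI := hpP
    rw [map_mul, ArtinMap.artin_mul L (by rwa [Ne, Ideal.relNorm_eq_bot_iff])
      (by rwa [Ne, Ideal.relNorm_eq_bot_iff]),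
      artin_relNorm_of_isPrime hp0 (hunr p hpP hp0 Ideal.mul_le_left), one_mul]
    exact ih fun P hP hP0 hle => hunr P hP hP0 (le_trans Ideal.mul_le_right hle)

/-- The everywhere unramified case. -/
theorem artin_relNorm_of_unramified
    (hunr : ∀ P : Ideal (𝓞 L), P.IsPrime → P ≠ ⊥ → P.inertia (L ≃ₐ[K] L) = ⊥)
    {A : Ideal (𝓞 L)} (hA : A ≠ ⊥) : ArtinMap.artin K L (Ideal.relNorm (𝓞 K) A) = 1 :=
  artin_relNorm hA fun P hP hP0 _ => hunr P hP hP0

end Fermat.Agent.CFT.ArtinBridge
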