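/-
E-C4a (helper14): the number-theoretic half of Artin's lemma (Lang, ANT, X §2, Lemma 1)
for a prime degree `p`.  Mathlib only.
-/
import Mathlib

set_option autoImplicit false

namespace Fermat.Agent.CFT.ArtinLemmaNT

open Finset

/-- geometric sum `Φ = 1 + y + ... + y^(p-1)` over `ℕ`. -/
def geomP (p y : ℕ) : ℕ := ∑ i ∈ range p, y ^ i

theorem geomP_mul (p y : ℕ) (R : Type*) [CommRing R] :
    ((geomP p y : ℕ) : R) * ((y : R) - 1) = (y : R) ^ p - 1 := by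
  unfold geomP
  push_cast
  exact geom_sum_mul (y : R) p

theorem lt_geomP {p y : ℕ} (hp : 2 ≤ p) (hy : p ≤ y) : p < geomP p y := by
  unfold geomP
  have h2 : range 2 ⊆ range p := range_subset_range.mpr hp
  calc p < 1 + y := by omega
    _ = ∑ i ∈ range 2, y ^ i := by simp [sum_range_succ]
    _ ≤ ∑ i ∈ range p, y ^ i := sum_le_sum_of_subset h2

/-- If `p ∣ Φ(y)` then `y ≡ 1 mod p`. -/
theorem modEq_one_of_dvd_geomP {p y : ℕ} (hp : p.Prime) (h : p ∣ geomP p y) :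
    (y : ZMod p) = 1 := by
  have : Fact p.Prime := ⟨hp⟩
  have h0 : ((geomP p y : ℕ) : ZMod p) = 0 := (ZMod.natCast_eq_zero_iff _ _).mpr h
  have h1 := geomP_mul p y (ZMod p)
  rw [h0, zero_mul, ZMod.pow_card] at h1
  exact (sub_eq_zero.mp h1.symm)

/-- `p^2 ∤ Φ(y)` for an odd prime `p`. -/
theorem not_sq_dvd_geomP_odd {p y : ℕ} (hp : p.Prime) (hodd : Odd p) :
    ¬ p ^ 2 ∣ geomP p y := by
  intro h
  have hpd : p ∣ geomP p y := dvd_trans (dvd_pow_self p two_ne_zero) h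
  have hy1 := modEq_one_of_dvd_geomP hp hpd
  have hpZ : Prime (p : ℤ) := Nat.prime_iff_prime_int.mp hp
  have hxy : (p : ℤ) ∣ (y : ℤ) - 1 := by
    have : ((y : ℤ) - 1 : ℤ) = ((y : ℤ) - (1 : ℤ)) := rfl
    rw [← ZMod.intCast_zmod_eq_zero_iff_dvd]
    push_cast
    rw [hy1, sub_self]
  have hx : ¬ (p : ℤ) ∣ (y : ℤ) := by
    intro hd
    have h1 : (p : ℤ) ∣ 1 := by
      have := dvd_sub hd hxy
      simpa using this
    exact hpZ.not_dvd_one h1
  have hm := emultiplicity_geom_sum₂_eq_one (R := ℤ) (p := p) (x := (y : ℤ)) (y := 1)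
    hpZ hodd hxy hx
  have hsum : (∑ i ∈ range p, (y : ℤ) ^ i * 1 ^ (p - 1 - i)) = ((geomP p y : ℕ) : ℤ) := by
    unfold geomP
    push_cast
    exact sum_congr rfl fun i _ => by rw [one_pow, mul_one]
  rw [hsum] at hm
  have h2 : ((p : ℤ)) ^ 2 ∣ ((geomP p y : ℕ) : ℤ) := by
    exact_mod_cast Int.natCast_dvd_natCast.mpr h
  have : (2 : ℕ∞) ≤ emultiplicity (p : ℤ) ((geomP p y : ℕ) : ℤ) := by
    exact le_emultiplicity_of_pow_dvd h2
  rw [hm] at this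
  exact absurd this (by norm_num)

/-- `4 ∤ 1 + z^2`. -/
theorem not_four_dvd_one_add_sq (z : ℕ) : ¬ 4 ∣ 1 + z ^ 2 := by
  intro h
  have h4 : (1 + z ^ 2) % 4 = 0 := Nat.mod_eq_zero_of_dvd h
  have hz : z % 4 = 0 ∨ z % 4 = 1 ∨ z % 4 = 2 ∨ z % 4 = 3 := by omega
  have : (1 + z ^ 2) % 4 = (1 + (z % 4) ^ 2) % 4 := by
    rw [Nat.add_mod, Nat.pow_mod, ← Nat.add_mod]
  rw [this] at h4
  rcases hz with h | h | h | h <;> rw [h] at h4 <;> omega

/-- **Lemma P**: a prime `l ≠ p` such that `a` has order exactly `p^(k+1)` modulo `l`. -/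
theorem exists_prime_orderOf_eq (a p k : ℕ) (hp : p.Prime) (ha : 2 ≤ a) (hk : 1 ≤ k) :
    ∃ l : ℕ, l.Prime ∧ l ≠ p ∧ orderOf ((a : ℕ) : ZMod l) = p ^ (k + 1) := by
  have : Fact p.Prime := ⟨hp⟩
  set y : ℕ := a ^ p ^ k with hy
  have hpy : p ≤ y := by
    calc p ≤ 2 ^ p := (Nat.lt_two_pow_self).le
      _ ≤ 2 ^ p ^ k := Nat.pow_le_pow_right (by norm_num)
          (by calc p = p ^ 1 := (pow_one p).symm
                _ ≤ p ^ k := Nat.pow_le_pow_right hp.pos hk)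
      _ ≤ a ^ p ^ k := Nat.pow_le_pow_left ha _
  have hΦ : p < geomP p y := lt_geomP hp.two_le hpy
  -- a prime factor different from p
  obtain ⟨l, hl, hlΦ, hlp⟩ : ∃ l : ℕ, l.Prime ∧ l ∣ geomP p y ∧ l ≠ p := by
    by_contra hcon
    push Not at hcon
    have hΦ0 : geomP p y ≠ 0 := by omega
    have hall : ∀ {d : ℕ}, d.Prime → d ∣ geomP p y → d = p := fun hd hdv => hcon _ hd hdv
    have hpow : geomP p y = p ^ (geomP p y).primeFactorsList.length :=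
      Nat.eq_prime_pow_of_unique_prime_dvd hΦ0 hall
    set e := (geomP p y).primeFactorsList.length with he
    have he2 : 2 ≤ e := by
      by_contra hlt
      push Not at hlt
      have : geomP p y ≤ p := by
        rw [hpow]
        calc p ^ e ≤ p ^ 1 := Nat.pow_le_pow_right hp.pos (by omega)
          _ = p := pow_one p
      omega
    have hsq : p ^ 2 ∣ geomP p y := by
      rw [hpow]; exact pow_dvd_pow p he2
    rcases hp.eq_two_or_odd' with h2 | hodd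
    · -- p = 2
      subst h2
      have hk' : k = (k - 1) + 1 := by omega
      have hyz : y = (a ^ 2 ^ (k - 1)) ^ 2 := by
        rw [hy, ← pow_mul]
        congr 1
        conv_lhs => rw [hk', pow_succ]
      have hg : geomP 2 y = 1 + y := by
        unfold geomP; simp [sum_range_succ]
      rw [hg, hyz] at hsq
      exact not_four_dvd_one_add_sq _ (by simpa using hsq)
    · exact not_sq_dvd_geomP_odd hp hodd hsq
  refine ⟨l, hl, hlp, ?_⟩
  have : Fact l.Prime := ⟨hl⟩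
  have h0 : ((geomP p y : ℕ) : ZMod l) = 0 := (ZMod.natCast_eq_zero_iff _ _).mpr hlΦ
  have h1 := geomP_mul p y (ZMod l)
  rw [h0, zero_mul] at h1
  have hyp : ((y : ℕ) : ZMod l) ^ p = 1 := (sub_eq_zero.mp h1.symm)
  have hy_ne : ((y : ℕ) : ZMod l) ≠ 1 := by
    intro hy1
    have : ((geomP p y : ℕ) : ZMod l) = (p : ZMod l) := by
      unfold geomP
      push_cast
      rw [hy1]
      simp
    rw [h0] at this
    have hdvd : l ∣ p := (ZMod.natCast_eq_zero_iff _ _).mp this.symm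
    exact hlp ((Nat.prime_dvd_prime_iff_eq hl hp).mp hdvd)
  have hycast : ((y : ℕ) : ZMod l) = ((a : ℕ) : ZMod l) ^ p ^ k := by
    rw [hy]; push_cast; rfl
  apply orderOf_eq_prime_pow
  · rw [← hycast]; exact hy_ne
  · rw [pow_succ, pow_mul, ← hycast]; exact hyp

/-- consequences of `orderOf (a : ZMod l) = p^k` with `k ≥ 1`. -/
theorem facts_of_orderOf {a p k l : ℕ} (hp : p.Prime) (hl : l.Prime) (_hk : 1 ≤ k)
    (ho : orderOf ((a : ℕ) : ZMod l) = p ^ k) :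
    ¬ l ∣ a ∧ p ^ k < l := by
  have : Fact l.Prime := ⟨hl⟩
  have hane : ((a : ℕ) : ZMod l) ≠ 0 := by
    intro h0
    have h1 : ((a : ℕ) : ZMod l) ^ p ^ k = 1 := by rw [← ho]; exact pow_orderOf_eq_one _
    rw [h0, zero_pow (pow_ne_zero _ hp.ne_zero)] at h1
    exact zero_ne_one h1
  refine ⟨fun hd => hane ((ZMod.natCast_eq_zero_iff _ _).mpr hd), ?_⟩
  have hdvd : orderOf ((a : ℕ) : ZMod l) ∣ l - 1 :=
    orderOf_dvd_of_pow_eq_one (ZMod.pow_card_sub_one_eq_one hane)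
  rw [ho] at hdvd
  have hl1 : 0 < l - 1 := by have := hl.two_le; omega
  have := Nat.le_of_dvd hl1 hdvd
  omega

/-- **(1) two auxiliary primes**: orders `p^k1` and `p^k2` with `K ≤ k1 < k2`, both primes
larger than `s`, different from `p`, prime to `a`. -/
theorem exists_two_primes (a p s K : ℕ) (hp : p.Prime) (ha : 2 ≤ a) :
    ∃ l1 l2 k1 k2 : ℕ, l1.Prime ∧ l2.Prime ∧ l1 ≠ l2 ∧ l1 ≠ p ∧ l2 ≠ p ∧
      s < l1 ∧ s < l2 ∧ ¬ l1 ∣ a ∧ ¬ l2 ∣ a ∧ 1 ≤ k1 ∧ K ≤ k1 ∧ k1 < k2 ∧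
      orderOf ((a : ℕ) : ZMod l1) = p ^ k1 ∧ orderOf ((a : ℕ) : ZMod l2) = p ^ k2 := by
  set k := max (s + 1) (K + 1) with hk
  have hk1 : 1 ≤ k := le_trans (by omega) (le_max_left _ _)
  obtain ⟨l1, hl1, hl1p, ho1⟩ := exists_prime_orderOf_eq a p k hp ha hk1
  obtain ⟨l2, hl2, hl2p, ho2⟩ := exists_prime_orderOf_eq a p (k + 1) hp ha (by omega)
  obtain ⟨hna1, hlt1⟩ := facts_of_orderOf hp hl1 (by omega) ho1
  obtain ⟨hna2, hlt2⟩ := facts_of_orderOf hp hl2 (by omega) ho2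
  have hs : s < p ^ (k + 1) := by
    calc s < 2 ^ s := Nat.lt_two_pow_self
      _ ≤ p ^ s := Nat.pow_le_pow_left hp.two_le _
      _ ≤ p ^ (k + 1) := Nat.pow_le_pow_right hp.pos
          (le_trans (by omega) (le_trans (le_max_left (s + 1) (K + 1)) (by omega)))
  have hs2 : p ^ (k + 1) ≤ p ^ (k + 1 + 1) := Nat.pow_le_pow_right hp.pos (by omega)
  refine ⟨l1, l2, k + 1, k + 1 + 1, hl1, hl2, ?_, hl1p, hl2p, by omega, by omega, hna1, hna2,
    by omega, ?_, by omega, ho1, ho2⟩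
  · intro h12
    subst h12
    rw [ho1] at ho2
    have := Nat.pow_right_injective hp.two_le ho2
    omega
  · exact le_trans (le_trans (Nat.le_succ K) (le_max_right (s + 1) (K + 1))) (by omega)



/-! ### (2) consumer form in `(ZMod (l1 * l2))ˣ` -/

section CRT

variable {l1 l2 : ℕ}

/-- CRT on units. -/
noncomputable def unitsCRT (h : l1.Coprime l2) :
    (ZMod (l1 * l2))ˣ ≃* (ZMod l1)ˣ × (ZMod l2)ˣ :=
  (Units.mapEquiv (ZMod.chineseRemainder h).toMulEquiv).trans MulEquiv.prodUnits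

theorem unitsCRT_fst (h : l1.Coprime l2) (u : (ZMod (l1 * l2))ˣ) :
    (((unitsCRT h u).1 : (ZMod l1)ˣ) : ZMod l1) = (ZMod.chineseRemainder h (u : ZMod (l1 * l2))).1 :=
  rfl

theorem unitsCRT_snd (h : l1.Coprime l2) (u : (ZMod (l1 * l2))ˣ) :
    (((unitsCRT h u).2 : (ZMod l2)ˣ) : ZMod l2) = (ZMod.chineseRemainder h (u : ZMod (l1 * l2))).2 :=
  rfl

end CRT

/-- **(2) Artin's lemma, number-theoretic half** (consumer form).  For `a ≥ 2`, a prime `p`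
and bounds `s`, `K`, there are distinct primes `l1 l2 > s`, different from `p` and prime to `a`,
and, for `m = l1 * l2`, units `ua ub : (ZMod m)ˣ` with `ua = a mod m`, of orders `p^k2`, `p^k1`
(`1 ≤ k1`, `K ≤ k1 < k2`), such that `ub^x * ua^y = 1` forces `p^k1 ∣ x` and `p^k2 ∣ y`
(so `⟨ua⟩ ⊓ ⟨ub⟩ = ⊥`). -/
theorem exists_modulus (a p s K : ℕ) (hp : p.Prime) (ha : 2 ≤ a) :
    ∃ l1 l2 k1 k2 : ℕ, l1.Prime ∧ l2.Prime ∧ l1 ≠ l2 ∧ l1 ≠ p ∧ l2 ≠ p ∧
      s < l1 ∧ s < l2 ∧ ¬ l1 ∣ a ∧ ¬ l2 ∣ a ∧ 1 ≤ k1 ∧ K ≤ k1 ∧ k1 < k2 ∧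
      ∃ ua ub : (ZMod (l1 * l2))ˣ, ((ua : (ZMod (l1 * l2))ˣ) : ZMod (l1 * l2)) = (a : ℕ) ∧
        orderOf ua = p ^ k2 ∧ orderOf ub = p ^ k1 ∧
        (∀ x y : ℕ, ub ^ x * ua ^ y = 1 → p ^ k1 ∣ x ∧ p ^ k2 ∣ y) ∧
        (∀ x y : ℤ, ub ^ x * ua ^ y = 1 → ((p ^ k1 : ℕ) : ℤ) ∣ x ∧ ((p ^ k2 : ℕ) : ℤ) ∣ y) ∧
        Subgroup.zpowers ua ⊓ Subgroup.zpowers ub = ⊥ := by
  obtain ⟨l1, l2, k1, k2, hl1, hl2, h12, hl1p, hl2p, hs1, hs2, hna1, hna2, hk1, hK, hk12, ho1, ho2⟩ :=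
    exists_two_primes a p s K hp ha
  refine ⟨l1, l2, k1, k2, hl1, hl2, h12, hl1p, hl2p, hs1, hs2, hna1, hna2, hk1, hK, hk12, ?_⟩
  have : Fact l1.Prime := ⟨hl1⟩
  have : Fact l2.Prime := ⟨hl2⟩
  have hcop : l1.Coprime l2 := (Nat.coprime_primes hl1 hl2).mpr h12
  have hca1 : a.Coprime l1 := (Nat.Coprime.symm ((Nat.Prime.coprime_iff_not_dvd hl1).mpr hna1))
  have hca2 : a.Coprime l2 := (Nat.Coprime.symm ((Nat.Prime.coprime_iff_not_dvd hl2).mpr hna2))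
  have hcam : a.Coprime (l1 * l2) := Nat.Coprime.mul_right hca1 hca2
  set e := unitsCRT hcop with he
  set u1 : (ZMod l1)ˣ := ZMod.unitOfCoprime a hca1 with hu1
  set u2 : (ZMod l2)ˣ := ZMod.unitOfCoprime a hca2 with hu2
  set ua : (ZMod (l1 * l2))ˣ := ZMod.unitOfCoprime a hcam with hua
  have hou1 : orderOf u1 = p ^ k1 := by
    rw [← orderOf_units, hu1, ZMod.coe_unitOfCoprime]; exact ho1
  have hou2 : orderOf u2 = p ^ k2 := by
    rw [← orderOf_units, hu2, ZMod.coe_unitOfCoprime]; exact ho2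
  have heua : e ua = (u1, u2) := by
    apply Prod.ext
    · apply Units.ext
      rw [unitsCRT_fst, hua, ZMod.coe_unitOfCoprime, map_natCast, hu1, ZMod.coe_unitOfCoprime]
      rfl
    · apply Units.ext
      rw [unitsCRT_snd, hua, ZMod.coe_unitOfCoprime, map_natCast, hu2, ZMod.coe_unitOfCoprime]
      rfl
  set ub : (ZMod (l1 * l2))ˣ := e.symm (u1, 1) with hub
  have heub : e ub = (u1, 1) := by rw [hub, MulEquiv.apply_symm_apply]
  have hdvd12 : p ^ k1 ∣ p ^ k2 := pow_dvd_pow p hk12.le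
  have houa : orderOf ua = p ^ k2 := by
    rw [← MulEquiv.orderOf_eq e, heua, Prod.orderOf_mk, hou1, hou2]
    exact Nat.lcm_eq_right hdvd12
  have houb : orderOf ub = p ^ k1 := by
    rw [← MulEquiv.orderOf_eq e, heub, Prod.orderOf_mk, hou1, orderOf_one]
    exact Nat.lcm_one_right _
  -- the key independence statement over ℤ
  have hkeyZ : ∀ x y : ℤ, ub ^ x * ua ^ y = 1 →
      ((p ^ k1 : ℕ) : ℤ) ∣ x ∧ ((p ^ k2 : ℕ) : ℤ) ∣ y := by
    intro x y hxy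
    have h := congrArg e hxy
    rw [map_mul, map_zpow, map_zpow, heua, heub, map_one] at h
    have h1 := congrArg Prod.fst h
    have h2 := congrArg Prod.snd h
    simp only [Prod.pow_mk, Prod.mk_mul_mk, Prod.fst_one, Prod.snd_one, one_zpow, one_mul] at h1 h2
    have hy : ((p ^ k2 : ℕ) : ℤ) ∣ y := by
      rw [← hou2]; exact orderOf_dvd_iff_zpow_eq_one.mpr h2
    have hy1 : ((p ^ k1 : ℕ) : ℤ) ∣ y := dvd_trans (Int.natCast_dvd_natCast.mpr hdvd12) hy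
    have hu1y : u1 ^ y = 1 := by
      rw [← hou1] at hy1; exact orderOf_dvd_iff_zpow_eq_one.mp hy1
    rw [hu1y, mul_one] at h1
    refine ⟨?_, hy⟩
    rw [← hou1]; exact orderOf_dvd_iff_zpow_eq_one.mpr h1
  refine ⟨ua, ub, ?_, houa, houb, ?_, hkeyZ, ?_⟩
  · rw [hua, ZMod.coe_unitOfCoprime]
  · intro x y hxy
    have := hkeyZ x y (by rw [zpow_natCast, zpow_natCast]; exact hxy)
    exact ⟨Int.natCast_dvd_natCast.mp this.1, Int.natCast_dvd_natCast.mp this.2⟩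
  · rw [eq_bot_iff]
    intro g hg
    rw [Subgroup.mem_inf] at hg
    obtain ⟨⟨y, hy⟩, ⟨x, hx⟩⟩ := hg
    rw [Subgroup.mem_bot]
    have hrel : ub ^ x * ua ^ (-y) = 1 := by
      rw [zpow_neg]
      have hx' : ub ^ x = g := hx
      have hy' : ua ^ y = g := hy
      rw [hx', hy', mul_inv_cancel]
    have hd := (hkeyZ x (-y) hrel).2
    rw [dvd_neg, ← houa] at hd
    have : ua ^ y = 1 := orderOf_dvd_iff_zpow_eq_one.mp hd
    rw [← hy]; exact this

end Fermat.Agent.CFT.ArtinLemmaNT
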