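/-
Program E (S14), piece C0-core (helper26): the Artin map of an abelian extension of number fields
as a PREDICATE on functions `Ideal (𝓞 K) → Gal(L/K)`.

* `IsArtinMap K L Φ` : `Φ` is multiplicative on nonzero ideals and `Φ q` is an arithmetic Frobenius
  at every prime `P` of `𝓞 L` over the nonzero prime `q`.
* `exists_isArtinMap` : existence for abelian `Gal(L/K)` (no ramification hypothesis).
* for unramified `L/K`: uniqueness (`IsArtinMap.unique`, `IsArtinMap.eq_of_isArithFrobAt`).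
* `IsArtinMap.exists_classGroup_hom` : if `Φ` kills principal ideals it descends to
  `ClassGroup (𝓞 K) →* Gal(L/K)` (the shape `ArtinShape` of `S14/ArtinGlue`).
* `IsArtinMap.map_span_eq_one_of_index` : the index argument (prime degree, `ker Φ ⊆ P·N`,
  `P·N ≠ everything` ⇒ `Φ` kills principal ideals).
-/
import Mathlib

set_option autoImplicit false
set_option linter.unusedSectionVars false
set_option linter.style.haveILetI false

namespace Fermat.Agent.CFT.ArtinMapDef

open NumberField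
open scoped Pointwise

variable (K L : Type) [Field K] [Field L] [NumberField K] [NumberField L] [Algebra K L]
  [IsGalois K L]

/-- `Φ` is an Artin map for `L/K`: multiplicative on nonzero ideals, with the Frobenius property at
every prime over every nonzero prime. -/
structure IsArtinMap (Φ : Ideal (𝓞 K) → (L ≃ₐ[K] L)) : Prop where
  map_one : Φ ⊤ = 1
  map_mul : ∀ a b : Ideal (𝓞 K), a ≠ ⊥ → b ≠ ⊥ → Φ (a * b) = Φ a * Φ b
  frob : ∀ (q : Ideal (𝓞 K)) (P : Ideal (𝓞 L)), q.IsPrime → q ≠ ⊥ → P.IsPrime →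
    P.under (𝓞 K) = q → IsArithFrobAt (𝓞 K) (Φ q) P

/-- The commutative group structure on an abelian Galois group. -/
@[reducible] def commGroupOfComm (hab : ∀ σ τ : L ≃ₐ[K] L, σ * τ = τ * σ) :
    CommGroup (L ≃ₐ[K] L) :=
  { (inferInstance : Group (L ≃ₐ[K] L)) with mul_comm := hab }

variable {K L}

theorem ne_bot_of_under_ne_bot {P : Ideal (𝓞 L)} (h : P.under (𝓞 K) ≠ ⊥) : P ≠ ⊥ := by
  rintro rfl
  apply h
  rw [Ideal.under_def, eq_bot_iff]
  intro x hx
  rw [Ideal.mem_comap, Ideal.mem_bot] at hx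
  rw [Ideal.mem_bot]
  exact (FaithfulSMul.algebraMap_injective (𝓞 K) (𝓞 L)) (by rw [hx, map_zero])

/-- For an abelian extension there is one Frobenius element working at all primes over `q`. -/
theorem exists_frob (hab : ∀ σ τ : L ≃ₐ[K] L, σ * τ = τ * σ) (q : Ideal (𝓞 K)) (hq : q.IsPrime)
    (hq0 : q ≠ ⊥) :
    ∃ σ : L ≃ₐ[K] L, ∀ P : Ideal (𝓞 L), P.IsPrime → P.under (𝓞 K) = q →
      IsArithFrobAt (𝓞 K) σ P := by
  obtain ⟨P₀, -, hP₀, hP₀q⟩ := Ideal.exists_ideal_over_prime_of_isIntegral q (⊥ : Ideal (𝓞 L))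
    (by
      intro x hx
      rw [Ideal.mem_comap, Ideal.mem_bot] at hx
      have : x = 0 := (FaithfulSMul.algebraMap_injective (𝓞 K) (𝓞 L)) (by rw [hx, map_zero])
      rw [this]; exact q.zero_mem)
  have hP₀0 : P₀ ≠ ⊥ := ne_bot_of_under_ne_bot (K := K) (by rw [Ideal.under_def, hP₀q]; exact hq0)
  haveI : Finite (𝓞 L ⧸ P₀) := Ideal.finiteQuotientOfFreeOfNeBot P₀ hP₀0
  obtain ⟨σ, hσ⟩ := IsArithFrobAt.exists_of_isInvariant (𝓞 K) (L ≃ₐ[K] L) P₀
  refine ⟨σ, fun P hP hPq => ?_⟩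
  obtain ⟨g, rfl⟩ := Algebra.IsInvariant.exists_smul_of_under_eq (𝓞 K) (𝓞 L) (L ≃ₐ[K] L) P₀ P
    (by rw [hPq, Ideal.under_def, hP₀q])
  have := hσ.conj g
  rwa [hab g σ, mul_inv_cancel_right] at this

open Classical in
/-- The Frobenius at the nonzero prime `q` (and `1` if `q` is not a nonzero prime). -/
noncomputable def frobOf (hab : ∀ σ τ : L ≃ₐ[K] L, σ * τ = τ * σ) (q : Ideal (𝓞 K)) :
    L ≃ₐ[K] L :=
  if h : q.IsPrime ∧ q ≠ ⊥ then (exists_frob hab q h.1 h.2).choose else 1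

theorem frobOf_spec (hab : ∀ σ τ : L ≃ₐ[K] L, σ * τ = τ * σ) (q : Ideal (𝓞 K)) (hq : q.IsPrime)
    (hq0 : q ≠ ⊥) (P : Ideal (𝓞 L)) (hP : P.IsPrime) (hPq : P.under (𝓞 K) = q) :
    IsArithFrobAt (𝓞 K) (frobOf hab q) P := by
  have h : q.IsPrime ∧ q ≠ ⊥ := ⟨hq, hq0⟩
  rw [frobOf, dif_pos h]
  exact (exists_frob hab q h.1 h.2).choose_spec P hP hPq

/-- The Artin map on ideals: the product of the Frobenius elements over the prime factors. -/
noncomputable def artinFun (hab : ∀ σ τ : L ≃ₐ[K] L, σ * τ = τ * σ) (a : Ideal (𝓞 K)) :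
    L ≃ₐ[K] L :=
  letI : CommGroup (L ≃ₐ[K] L) := commGroupOfComm K L hab
  ((UniqueFactorizationMonoid.normalizedFactors a).map (frobOf hab)).prod

theorem artinFun_top (hab : ∀ σ τ : L ≃ₐ[K] L, σ * τ = τ * σ) : artinFun hab (⊤ : Ideal (𝓞 K)) = 1 := by
  letI : CommGroup (L ≃ₐ[K] L) := commGroupOfComm K L hab
  rw [artinFun, ← Ideal.one_eq_top, UniqueFactorizationMonoid.normalizedFactors_one]
  rfl

theorem artinFun_mul (hab : ∀ σ τ : L ≃ₐ[K] L, σ * τ = τ * σ) (a b : Ideal (𝓞 K)) (ha : a ≠ ⊥)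
    (hb : b ≠ ⊥) : artinFun hab (a * b) = artinFun hab a * artinFun hab b := by
  letI : CommGroup (L ≃ₐ[K] L) := commGroupOfComm K L hab
  have h := UniqueFactorizationMonoid.normalizedFactors_mul (x := a) (y := b) ha hb
  show ((UniqueFactorizationMonoid.normalizedFactors (a * b)).map (frobOf hab)).prod = _
  rw [h, Multiset.map_add, Multiset.prod_add]
  rfl

theorem artinFun_prime (hab : ∀ σ τ : L ≃ₐ[K] L, σ * τ = τ * σ) (q : Ideal (𝓞 K)) (hq : q.IsPrime)
    (hq0 : q ≠ ⊥) : artinFun hab q = frobOf hab q := by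
  letI : CommGroup (L ≃ₐ[K] L) := commGroupOfComm K L hab
  have h := UniqueFactorizationMonoid.normalizedFactors_irreducible
    (Ideal.prime_of_isPrime hq0 hq).irreducible
  show ((UniqueFactorizationMonoid.normalizedFactors q).map (frobOf hab)).prod = _
  rw [h, normalize_eq, Multiset.map_singleton, Multiset.prod_singleton]

theorem isArtinMap_artinFun (hab : ∀ σ τ : L ≃ₐ[K] L, σ * τ = τ * σ) :
    IsArtinMap K L (artinFun hab) where
  map_one := artinFun_top hab
  map_mul := artinFun_mul hab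
  frob q P hq hq0 hP hPq := by
    rw [artinFun_prime hab q hq hq0]
    exact frobOf_spec hab q hq hq0 P hP hPq

/-- Existence of an Artin map for an abelian extension. -/
theorem exists_isArtinMap (hab : ∀ σ τ : L ≃ₐ[K] L, σ * τ = τ * σ) :
    ∃ Φ : Ideal (𝓞 K) → (L ≃ₐ[K] L), IsArtinMap K L Φ :=
  ⟨artinFun hab, isArtinMap_artinFun hab⟩

end Fermat.Agent.CFT.ArtinMapDef
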