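/-
Program E (S14), piece (C0-2) (helper17): FUNCTORIALITY of the Artin map `ArtinMap.artin`
(helper21's `Fermat/Agent/CFT/ArtinMap.lean`) with respect to the relative norm.

Setting of the main theorem: number fields `K ⊆ F ⊆ M`, `K ⊆ L ⊆ M` (types with `Algebra` and
`IsScalarTower K L M`, `IsScalarTower K F M`), `L/K` and `M/F` Galois with commutative groups.
`res K L F M : Gal(M/F) →* Gal(L/K)` is restriction.  Then

  `artin K L (relNorm (𝓞 K) 𝔟) = res K L F M (artin F M 𝔟)`        (`artin_relNorm`)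

for every nonzero ideal `𝔟` of `𝓞 F` such that `L/K` is unramified at the primes below the prime
factors of `𝔟`.  Corollaries: (a) restriction to a subextension (`artin_restrict`), (b) change of
base inside `M` (`artin_relNorm_base`), (c) the Artin map kills norms (`artin_relNorm_eq_one`).
Prime-level statements (no commutativity needed): `res_sub_pow_mem`, `res_eq_pow_of_isArithFrobAt`,
`isArithFrobAt_restrictNormal`.
-/
import Mathlib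
import Fermat.Agent.CFT.ArtinMap

set_option autoImplicit false
set_option linter.unusedSectionVars false
set_option linter.style.haveILetI false

namespace Fermat.Agent.CFT.ArtinNorm

open NumberField UniqueFactorizationMonoid
open scoped Pointwise IsMulCommutative
open Fermat.Agent.CFT.ArtinMap

/-! ### Generalities on primes in an extension of number fields (no Galois hypothesis) -/

section General

variable {K F : Type*} [Field K] [Field F] [NumberField K] [NumberField F] [Algebra K F]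

lemma under_ne_bot {Q : Ideal (𝓞 F)} (hQ : Q ≠ ⊥) : Q.under (𝓞 K) ≠ ⊥ := by
  intro h
  exact hQ (Ideal.eq_bot_of_comap_eq_bot (R := 𝓞 K) h)

lemma ne_bot_of_under_ne_bot {Q : Ideal (𝓞 F)} (hQ : Q.under (𝓞 K) ≠ ⊥) : Q ≠ ⊥ := by
  rintro rfl
  apply hQ
  exact Ideal.comap_bot_of_injective _ (RingOfIntegers.algebraMap.injective K F)

lemma isMaximal_of_ne_bot {Q : Ideal (𝓞 F)} [hQ : Q.IsPrime] (hQ0 : Q ≠ ⊥) : Q.IsMaximal :=
  Ring.DimensionLEOne.maximalOfPrime hQ0 hQ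

lemma card_quotient_eq_pow_inertiaDeg {Q : Ideal (𝓞 F)} [Q.IsPrime] (hQ0 : Q ≠ ⊥) :
    Nat.card (𝓞 F ⧸ Q) = Nat.card (𝓞 K ⧸ Q.under (𝓞 K)) ^ Q.inertiaDeg (𝓞 K) := by
  have hq0 : Q.under (𝓞 K) ≠ ⊥ := under_ne_bot hQ0
  haveI : (Q.under (𝓞 K)).IsMaximal :=
    Ring.DimensionLEOne.maximalOfPrime hq0 (Ideal.IsPrime.under (𝓞 K) Q)
  haveI : Q.IsMaximal := isMaximal_of_ne_bot hQ0
  haveI : Q.LiesOver (Q.under (𝓞 K)) := ⟨rfl⟩
  rw [Ideal.inertiaDeg_eq_of_isMaximal (Q.under (𝓞 K)) Q]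
  letI := Ideal.Quotient.field (Q.under (𝓞 K))
  exact Module.natCard_eq_pow_finrank (K := 𝓞 K ⧸ Q.under (𝓞 K)) (V := 𝓞 F ⧸ Q)

lemma relNorm_eq_pow_inertiaDeg {Q : Ideal (𝓞 F)} [Q.IsPrime] (hQ0 : Q ≠ ⊥) :
    Ideal.relNorm (𝓞 K) Q = (Q.under (𝓞 K)) ^ Q.inertiaDeg (𝓞 K) := by
  have hq0 : Q.under (𝓞 K) ≠ ⊥ := under_ne_bot hQ0
  haveI : (Q.under (𝓞 K)).IsMaximal :=
    Ring.DimensionLEOne.maximalOfPrime hq0 (Ideal.IsPrime.under (𝓞 K) Q)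
  haveI : Q.IsMaximal := isMaximal_of_ne_bot hQ0
  haveI : Q.LiesOver (Q.under (𝓞 K)) := ⟨rfl⟩
  exact Ideal.relNorm_eq_pow_of_isMaximal Q (Q.under (𝓞 K))

end General

section Pow

variable {R S G : Type*} [CommRing R] [CommRing S] [Algebra R S] [Group G] [MulSemiringAction G S]
  [SMulCommClass G R S]

lemma isArithFrobAt_pow_apply {P : Ideal S} [P.IsPrime] {σ : G}
    (hσ : IsArithFrobAt R σ P) (n : ℕ) (x : S) :
    (σ ^ n) • x - x ^ (Nat.card (R ⧸ P.under R) ^ n) ∈ P := by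
  induction n generalizing x with
  | zero => simp
  | succ n ih =>
    have hstab : σ • P = P := hσ.mem_stabilizer
    have h1 : σ • ((σ ^ n) • x - x ^ (Nat.card (R ⧸ P.under R) ^ n)) ∈ P := by
      have := Ideal.smul_mem_pointwise_smul σ _ P (ih x)
      rwa [hstab] at this
    have h2 : σ • (x ^ (Nat.card (R ⧸ P.under R) ^ n)) -
        (x ^ (Nat.card (R ⧸ P.under R) ^ n)) ^ Nat.card (R ⧸ P.under R) ∈ P :=
      hσ (x ^ (Nat.card (R ⧸ P.under R) ^ n))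
    have := add_mem h1 h2
    rw [smul_sub, ← mul_smul, ← pow_succ', ← pow_mul, ← pow_succ] at this
    simpa using this

/-- If `g • x ≡ σ • x (mod P)` for all `x`, where `σ` stabilises `P`, then `σ⁻¹ * g` lies in the
inertia group of `P`. -/
lemma inv_mul_mem_inertia_of_forall_sub_mem {P : Ideal S} {σ g : G} (hstab : σ • P = P)
    (h : ∀ x : S, g • x - σ • x ∈ P) : σ⁻¹ * g ∈ P.inertia G := by
  intro x
  have h1 : σ⁻¹ • (g • x - σ • x) ∈ σ⁻¹ • P := Ideal.smul_mem_pointwise_smul σ⁻¹ _ P (h x)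
  have h2 : σ⁻¹ • P = P := by
    conv_lhs => rw [← hstab]
    rw [inv_smul_smul]
  rw [h2, smul_sub, inv_smul_smul, ← mul_smul] at h1
  exact h1

end Pow

section Restriction

variable (K L F M : Type*) [Field K] [Field L] [Field F] [Field M]
  [NumberField K] [NumberField L] [NumberField F] [NumberField M]
  [Algebra K L] [Algebra K F] [Algebra K M] [Algebra L M] [Algebra F M]
  [IsScalarTower K L M] [IsScalarTower K F M]
  [IsGalois K L] [IsGalois F M]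

/-- Restriction `Gal(M/F) → Gal(L/K)` for `K ⊆ F ⊆ M`, `K ⊆ L ⊆ M`, `L/K` normal. -/
noncomputable def res : (M ≃ₐ[F] M) →* (L ≃ₐ[K] L) :=
  (AlgEquiv.restrictNormalHom L).comp (AlgEquiv.restrictScalarsHom K)

variable {K L F M}

lemma res_apply (σ : M ≃ₐ[F] M) :
    res K L F M σ = (σ.restrictScalars K).restrictNormal L := rfl

lemma res_commutes (σ : M ≃ₐ[F] M) (x : L) :
    algebraMap L M (res K L F M σ x) = σ (algebraMap L M x) := by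
  rw [res_apply]
  exact AlgEquiv.restrictNormal_commutes (σ.restrictScalars K) L x

lemma algebraMap_res_smul (σ : M ≃ₐ[F] M) (x : 𝓞 L) :
    algebraMap (𝓞 L) (𝓞 M) (res K L F M σ • x) = σ • algebraMap (𝓞 L) (𝓞 M) x := by
  apply RingOfIntegers.ext
  show algebraMap L M ((res K L F M σ • x : 𝓞 L) : L) = ((σ • algebraMap (𝓞 L) (𝓞 M) x : 𝓞 M) : M)
  have h1 : ((res K L F M σ • x : 𝓞 L) : L) = res K L F M σ (x : L) := rfl
  have h2 : ((σ • algebraMap (𝓞 L) (𝓞 M) x : 𝓞 M) : M) = σ (algebraMap L M (x : L)) := rfl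
  rw [h1, h2, res_commutes]

/-- (F2) Base change of Frobenius, congruence form. -/
theorem res_sub_pow_mem {σ : M ≃ₐ[F] M} {𝔓 : Ideal (𝓞 M)}
    (hσ : IsArithFrobAt (𝓞 F) σ 𝔓) (x : 𝓞 L) :
    res K L F M σ • x - x ^ Nat.card (𝓞 F ⧸ 𝔓.under (𝓞 F)) ∈ 𝔓.under (𝓞 L) := by
  rw [Ideal.under_def, Ideal.mem_comap, map_sub, map_pow, algebraMap_res_smul]
  exact hσ (algebraMap (𝓞 L) (𝓞 M) x)

end Restriction

section PrimeLevel

variable {K L F M : Type*} [Field K] [Field L] [Field F] [Field M]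
  [NumberField K] [NumberField L] [NumberField F] [NumberField M]
  [Algebra K L] [Algebra K F] [Algebra K M] [Algebra L M] [Algebra F M]
  [IsScalarTower K L M] [IsScalarTower K F M]
  [IsGalois K L] [IsGalois F M]

lemma under_under_eq (𝔓 : Ideal (𝓞 M)) :
    (𝔓.under (𝓞 L)).under (𝓞 K) = (𝔓.under (𝓞 F)).under (𝓞 K) := by
  rw [Ideal.under_under, Ideal.under_under]

/-- (F2) Base change of Frobenius: if `σ` is a Frobenius of `M/F` at `𝔓`, `τ` is a Frobenius of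
`L/K` at `𝔓 ∩ 𝓞 L` and `𝔓 ∩ 𝓞 L` is unramified over `K`, then `σ|_L = τ ^ f` with `f` the
inertia degree of `𝔓 ∩ 𝓞 F` over `K`. -/
theorem res_eq_pow_of_isArithFrobAt {σ : M ≃ₐ[F] M} {𝔓 : Ideal (𝓞 M)} [𝔓.IsPrime] (h𝔓 : 𝔓 ≠ ⊥)
    (hσ : IsArithFrobAt (𝓞 F) σ 𝔓) {τ : L ≃ₐ[K] L}
    (hτ : IsArithFrobAt (𝓞 K) τ (𝔓.under (𝓞 L)))
    (hunr : (𝔓.under (𝓞 L)).inertia (L ≃ₐ[K] L) = ⊥) :
    res K L F M σ = τ ^ (𝔓.under (𝓞 F)).inertiaDeg (𝓞 K) := by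
  set f := (𝔓.under (𝓞 F)).inertiaDeg (𝓞 K) with hf
  have hQ0 : 𝔓.under (𝓞 F) ≠ ⊥ := under_ne_bot h𝔓
  have hcard : Nat.card (𝓞 F ⧸ 𝔓.under (𝓞 F)) =
      Nat.card (𝓞 K ⧸ (𝔓.under (𝓞 L)).under (𝓞 K)) ^ f := by
    rw [under_under_eq (L := L) (F := F) 𝔓]
    exact card_quotient_eq_pow_inertiaDeg hQ0
  have hstab : (τ ^ f) • (𝔓.under (𝓞 L)) = 𝔓.under (𝓞 L) := by
    have h1 : τ ∈ MulAction.stabilizer (L ≃ₐ[K] L) (𝔓.under (𝓞 L)) := hτ.mem_stabilizer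
    exact (Subgroup.pow_mem _ h1 f)
  have hmem : (τ ^ f)⁻¹ * res K L F M σ ∈ (𝔓.under (𝓞 L)).inertia (L ≃ₐ[K] L) := by
    apply inv_mul_mem_inertia_of_forall_sub_mem hstab
    intro x
    have h1 := res_sub_pow_mem (K := K) (L := L) hσ x
    have h2 := isArithFrobAt_pow_apply hτ f x
    rw [← hcard] at h2
    have := sub_mem h1 h2
    simpa using this
  rw [hunr, Subgroup.mem_bot] at hmem
  exact (inv_mul_eq_one.mp hmem).symm

end PrimeLevel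

section IdealLevel

variable {K L F M : Type*} [Field K] [Field L] [Field F] [Field M]
  [NumberField K] [NumberField L] [NumberField F] [NumberField M]
  [Algebra K L] [Algebra K F] [Algebra K M] [Algebra L M] [Algebra F M]
  [IsScalarTower K L M] [IsScalarTower K F M]
  [IsGalois K L] [IsGalois F M]
  [IsMulCommutative (L ≃ₐ[K] L)] [IsMulCommutative (M ≃ₐ[F] M)]

/-- Functoriality of the Artin map at a prime `𝔔` of `F`, provided the primes of `L` over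
`𝔔 ∩ 𝓞 K` are unramified over `K`. -/
theorem artin_relNorm_prime (𝔔 : Ideal (𝓞 F)) [𝔔.IsPrime] (h𝔔 : 𝔔 ≠ ⊥)
    (hunr : ∀ P : Ideal (𝓞 L), P.IsPrime → P.under (𝓞 K) = 𝔔.under (𝓞 K) →
      P.inertia (L ≃ₐ[K] L) = ⊥) :
    artin K L (Ideal.relNorm (𝓞 K) 𝔔) = res K L F M (artin F M 𝔔) := by
  -- a prime of `M` over `𝔔`
  let 𝔓 : Ideal (𝓞 M) := primeOver F M 𝔔
  have h𝔓0 : 𝔓 ≠ ⊥ := primeOver_ne_bot F M 𝔔 h𝔔
  have h𝔓𝔔 : 𝔓.under (𝓞 F) = 𝔔 := (Ideal.over_def 𝔓 𝔔).symm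
  have hσ : IsArithFrobAt (𝓞 F) (artin F M 𝔔) 𝔓 := isArithFrobAt_artin M 𝔔 h𝔔 𝔓
  -- the prime of `K` below
  have hq0 : 𝔔.under (𝓞 K) ≠ ⊥ := under_ne_bot h𝔔
  have hPq : (𝔓.under (𝓞 L)).under (𝓞 K) = 𝔔.under (𝓞 K) := by
    rw [under_under_eq (L := L) (F := F) 𝔓, h𝔓𝔔]
  haveI : (𝔓.under (𝓞 L)).LiesOver (𝔔.under (𝓞 K)) := ⟨hPq.symm⟩
  have hτ : IsArithFrobAt (𝓞 K) (artin K L (𝔔.under (𝓞 K))) (𝔓.under (𝓞 L)) :=
    isArithFrobAt_artin L (𝔔.under (𝓞 K)) hq0 (𝔓.under (𝓞 L))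
  have h := res_eq_pow_of_isArithFrobAt (K := K) (L := L) h𝔓0 hσ hτ
    (hunr _ inferInstance hPq)
  rw [h, h𝔓𝔔, relNorm_eq_pow_inertiaDeg h𝔔, artin_pow]

/-- **Functoriality of the Artin map** (`K ⊆ F ⊆ M`, `K ⊆ L ⊆ M`, `L/K` and `M/F` abelian):
`Art_{L/K}(N_{F/K} 𝔟) = Art_{M/F}(𝔟)|_L`, provided `L/K` is unramified at the primes below the
prime factors of `𝔟`. -/
theorem artin_relNorm (𝔟 : Ideal (𝓞 F)) (h𝔟 : 𝔟 ≠ ⊥)
    (hunr : ∀ 𝔔 : Ideal (𝓞 F), 𝔔.IsPrime → 𝔟 ≤ 𝔔 → ∀ P : Ideal (𝓞 L), P.IsPrime →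
      P.under (𝓞 K) = 𝔔.under (𝓞 K) → P.inertia (L ≃ₐ[K] L) = ⊥) :
    artin K L (Ideal.relNorm (𝓞 K) 𝔟) = res K L F M (artin F M 𝔟) := by
  revert hunr
  refine ideal_induction
    (P := fun 𝔟 : Ideal (𝓞 F) => (∀ 𝔔 : Ideal (𝓞 F), 𝔔.IsPrime → 𝔟 ≤ 𝔔 → ∀ P : Ideal (𝓞 L),
      P.IsPrime → P.under (𝓞 K) = 𝔔.under (𝓞 K) → P.inertia (L ≃ₐ[K] L) = ⊥) →
      artin K L (Ideal.relNorm (𝓞 K) 𝔟) = res K L F M (artin F M 𝔟)) ?_ ?_ 𝔟 h𝔟
  · intro _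
    rw [map_one, artin_one, artin_one, map_one]
  · intro 𝔔 I h𝔔p h𝔔0 hI ih hunr
    haveI := h𝔔p
    have hN𝔔 : Ideal.relNorm (𝓞 K) 𝔔 ≠ ⊥ := by rwa [Ne, Ideal.relNorm_eq_bot_iff]
    have hNI : Ideal.relNorm (𝓞 K) I ≠ ⊥ := by rwa [Ne, Ideal.relNorm_eq_bot_iff]
    rw [map_mul, artin_mul L hN𝔔 hNI, artin_mul M h𝔔0 hI, map_mul,
      artin_relNorm_prime (K := K) (L := L) (M := M) 𝔔 h𝔔0 (hunr 𝔔 h𝔔p Ideal.mul_le_left),
      ih (fun 𝔔' h𝔔' hle => hunr 𝔔' h𝔔' (le_trans Ideal.mul_le_right hle))]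

end IdealLevel

section Variants

variable {K L F M : Type*} [Field K] [Field L] [Field F] [Field M]
  [NumberField K] [NumberField L] [NumberField F] [NumberField M]
  [Algebra K L] [Algebra K F] [Algebra K M] [Algebra L M] [Algebra F M]
  [IsScalarTower K L M] [IsScalarTower K F M]
  [IsGalois K L] [IsGalois F M]
  [IsMulCommutative (L ≃ₐ[K] L)] [IsMulCommutative (M ≃ₐ[F] M)]

/-- Functoriality when `L/K` is unramified at all finite primes. -/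
theorem artin_relNorm_of_unramified
    (hunr : ∀ P : Ideal (𝓞 L), P.IsPrime → P ≠ ⊥ → P.inertia (L ≃ₐ[K] L) = ⊥)
    (𝔟 : Ideal (𝓞 F)) (h𝔟 : 𝔟 ≠ ⊥) :
    artin K L (Ideal.relNorm (𝓞 K) 𝔟) = res K L F M (artin F M 𝔟) := by
  refine artin_relNorm 𝔟 h𝔟 (fun 𝔔 h𝔔 hle P hP hPq => hunr P hP ?_)
  have h𝔔0 : 𝔔 ≠ ⊥ := fun h => h𝔟 (le_bot_iff.mp (h ▸ hle))
  apply ne_bot_of_under_ne_bot (K := K)
  rw [hPq]
  exact under_ne_bot h𝔔0

/-- Functoriality, with the unramifiedness hypothesis indexed by the primes of `K` dividing the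
norm. -/
theorem artin_relNorm' (𝔟 : Ideal (𝓞 F)) (h𝔟 : 𝔟 ≠ ⊥)
    (hunr : ∀ q : Ideal (𝓞 K), q.IsPrime → Ideal.relNorm (𝓞 K) 𝔟 ≤ q → ∀ P : Ideal (𝓞 L),
      P.IsPrime → P.under (𝓞 K) = q → P.inertia (L ≃ₐ[K] L) = ⊥) :
    artin K L (Ideal.relNorm (𝓞 K) 𝔟) = res K L F M (artin F M 𝔟) := by
  refine artin_relNorm 𝔟 h𝔟 (fun 𝔔 h𝔔 hle P hP hPq => hunr _ (Ideal.IsPrime.under (𝓞 K) 𝔔) ?_ P hP hPq)
  haveI := h𝔔
  have h𝔔0 : 𝔔 ≠ ⊥ := fun h => h𝔟 (le_bot_iff.mp (h ▸ hle))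
  calc Ideal.relNorm (𝓞 K) 𝔟 ≤ Ideal.relNorm (𝓞 K) 𝔔 := Ideal.relNorm_mono _ hle
    _ = (𝔔.under (𝓞 K)) ^ 𝔔.inertiaDeg (𝓞 K) := relNorm_eq_pow_inertiaDeg h𝔔0
    _ ≤ 𝔔.under (𝓞 K) := Ideal.pow_le_self (Ideal.inertiaDeg_pos 𝔔 (𝓞 K)).ne'

end Variants

/-! ### (a) Restriction to a subextension: `K ⊆ L ⊆ M` -/

section Tower

variable {K L M : Type*} [Field K] [Field L] [Field M]
  [NumberField K] [NumberField L] [NumberField M]
  [Algebra K L] [Algebra K M] [Algebra L M] [IsScalarTower K L M]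
  [IsGalois K L] [IsGalois K M]

lemma algebraMap_restrictNormal_smul (σ : M ≃ₐ[K] M) (x : 𝓞 L) :
    algebraMap (𝓞 L) (𝓞 M) (AlgEquiv.restrictNormalHom L σ • x) =
      σ • algebraMap (𝓞 L) (𝓞 M) x := by
  apply RingOfIntegers.ext
  show algebraMap L M ((AlgEquiv.restrictNormalHom L σ • x : 𝓞 L) : L) =
    ((σ • algebraMap (𝓞 L) (𝓞 M) x : 𝓞 M) : M)
  have h1 : ((AlgEquiv.restrictNormalHom L σ • x : 𝓞 L) : L) =
      AlgEquiv.restrictNormalHom L σ (x : L) := rfl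
  have h2 : ((σ • algebraMap (𝓞 L) (𝓞 M) x : 𝓞 M) : M) = σ (algebraMap L M (x : L)) := rfl
  rw [h1, h2]
  exact AlgEquiv.restrictNormal_commutes σ L x

/-- (F1) The restriction of a Frobenius of `M/K` at `𝔓` is a Frobenius of `L/K` at `𝔓 ∩ 𝓞 L`. -/
theorem isArithFrobAt_restrictNormal {σ : M ≃ₐ[K] M} {𝔓 : Ideal (𝓞 M)}
    (hσ : IsArithFrobAt (𝓞 K) σ 𝔓) :
    IsArithFrobAt (𝓞 K) (AlgEquiv.restrictNormalHom L σ) (𝔓.under (𝓞 L)) := by
  intro x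
  show AlgEquiv.restrictNormalHom L σ • x - x ^ Nat.card (𝓞 K ⧸ (𝔓.under (𝓞 L)).under (𝓞 K)) ∈
    𝔓.under (𝓞 L)
  rw [Ideal.under_under, Ideal.under_def, Ideal.mem_comap, map_sub, map_pow,
    algebraMap_restrictNormal_smul]
  exact hσ (algebraMap (𝓞 L) (𝓞 M) x)

variable [IsMulCommutative (L ≃ₐ[K] L)] [IsMulCommutative (M ≃ₐ[K] M)]

/-- Restriction at a prime. -/
theorem artin_restrict_prime (q : Ideal (𝓞 K)) [q.IsPrime] (hq : q ≠ ⊥)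
    (hunr : ∀ P : Ideal (𝓞 L), P.IsPrime → P.under (𝓞 K) = q → P.inertia (L ≃ₐ[K] L) = ⊥) :
    artin K L q = AlgEquiv.restrictNormalHom L (artin K M q) := by
  let 𝔓 : Ideal (𝓞 M) := primeOver K M q
  have h𝔓q : 𝔓.under (𝓞 K) = q := (Ideal.over_def 𝔓 q).symm
  have hσ : IsArithFrobAt (𝓞 K) (artin K M q) 𝔓 := isArithFrobAt_artin M q hq 𝔓
  have hPq : (𝔓.under (𝓞 L)).under (𝓞 K) = q := by rw [Ideal.under_under, h𝔓q]
  haveI : (𝔓.under (𝓞 L)).LiesOver q := ⟨hPq.symm⟩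
  exact (eq_artin_of_isArithFrobAt L q hq (𝔓.under (𝓞 L)) (hunr _ inferInstance hPq)
    (isArithFrobAt_restrictNormal hσ)).symm

/-- **(a) Restriction**: for `K ⊆ L ⊆ M` with `M/K` abelian, `Art_{L/K}(I) = Art_{M/K}(I)|_L`,
provided `L/K` is unramified at the primes dividing `I`. -/
theorem artin_restrict (I : Ideal (𝓞 K)) (hI : I ≠ ⊥)
    (hunr : ∀ q : Ideal (𝓞 K), q.IsPrime → I ≤ q → ∀ P : Ideal (𝓞 L), P.IsPrime →
      P.under (𝓞 K) = q → P.inertia (L ≃ₐ[K] L) = ⊥) :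
    artin K L I = AlgEquiv.restrictNormalHom L (artin K M I) := by
  revert hunr
  refine ideal_induction
    (P := fun I : Ideal (𝓞 K) => (∀ q : Ideal (𝓞 K), q.IsPrime → I ≤ q → ∀ P : Ideal (𝓞 L),
      P.IsPrime → P.under (𝓞 K) = q → P.inertia (L ≃ₐ[K] L) = ⊥) →
      artin K L I = AlgEquiv.restrictNormalHom L (artin K M I)) ?_ ?_ I hI
  · intro _
    rw [artin_one, artin_one, map_one]
  · intro q I hqp hq0 hI ih hunr
    haveI := hqp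
    rw [artin_mul L hq0 hI, artin_mul M hq0 hI, map_mul,
      artin_restrict_prime (M := M) q hq0 (hunr q hqp Ideal.mul_le_left),
      ih (fun q' hq' hle => hunr q' hq' (le_trans Ideal.mul_le_right hle))]

/-- (a) for `L/K` unramified at all finite primes. -/
theorem artin_restrict_of_unramified
    (hunr : ∀ P : Ideal (𝓞 L), P.IsPrime → P ≠ ⊥ → P.inertia (L ≃ₐ[K] L) = ⊥)
    (I : Ideal (𝓞 K)) (hI : I ≠ ⊥) :
    artin K L I = AlgEquiv.restrictNormalHom L (artin K M I) := by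
  refine artin_restrict I hI (fun q hq hle P hP hPq => hunr P hP ?_)
  have hq0 : q ≠ ⊥ := fun h => hI (le_bot_iff.mp (h ▸ hle))
  apply ne_bot_of_under_ne_bot (K := K)
  rwa [hPq]

end Tower

/-! ### (b) Changing the base: `K ⊆ F ⊆ M` -/

section Base

variable {K F M : Type*} [Field K] [Field F] [Field M]
  [NumberField K] [NumberField F] [NumberField M]
  [Algebra K F] [Algebra K M] [Algebra F M] [IsScalarTower K F M]
  [IsGalois K M] [IsGalois F M]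

/-- `Gal(M/F)` is commutative when `Gal(M/K)` is. -/
theorem isMulCommutative_of_tower [IsMulCommutative (M ≃ₐ[K] M)] :
    IsMulCommutative (M ≃ₐ[F] M) := by
  refine ⟨⟨fun σ τ => ?_⟩⟩
  apply AlgEquiv.restrictScalarsHom_injective K
  rw [map_mul, map_mul]
  exact mul_comm' _ _

lemma res_self_eq (σ : M ≃ₐ[F] M) : res K M F M σ = σ.restrictScalars K := by
  rw [res, MonoidHom.comp_apply, AlgEquiv.restrictNormalHom_id]
  rfl

variable [IsMulCommutative (M ≃ₐ[K] M)] [IsMulCommutative (M ≃ₐ[F] M)]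

/-- **(b) Base change inside `M`**: for `K ⊆ F ⊆ M` with `M/K` abelian,
`Art_{M/K}(N_{F/K} 𝔟) = Art_{M/F}(𝔟)` (viewed in `Gal(M/K)`), provided `M/K` is unramified at the
primes below the prime factors of `𝔟`. -/
theorem artin_relNorm_base (𝔟 : Ideal (𝓞 F)) (h𝔟 : 𝔟 ≠ ⊥)
    (hunr : ∀ 𝔔 : Ideal (𝓞 F), 𝔔.IsPrime → 𝔟 ≤ 𝔔 → ∀ P : Ideal (𝓞 M), P.IsPrime →
      P.under (𝓞 K) = 𝔔.under (𝓞 K) → P.inertia (M ≃ₐ[K] M) = ⊥) :
    artin K M (Ideal.relNorm (𝓞 K) 𝔟) = (artin F M 𝔟).restrictScalars K := by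
  rw [← res_self_eq]
  exact artin_relNorm 𝔟 h𝔟 hunr

end Base

/-! ### (c) The Artin map kills norms from `L` -/

section Norms

variable {K L : Type*} [Field K] [Field L] [NumberField K] [NumberField L] [Algebra K L]
  [IsGalois K L] [IsMulCommutative (L ≃ₐ[K] L)]

/-- **(c)** `Art_{L/K}` kills the relative norm of an ideal of `𝓞 L` with unramified support. -/
theorem artin_relNorm_eq_one (𝔅 : Ideal (𝓞 L)) (h𝔅 : 𝔅 ≠ ⊥)
    (hunr : ∀ 𝔔 : Ideal (𝓞 L), 𝔔.IsPrime → 𝔅 ≤ 𝔔 → ∀ P : Ideal (𝓞 L), P.IsPrime →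
      P.under (𝓞 K) = 𝔔.under (𝓞 K) → P.inertia (L ≃ₐ[K] L) = ⊥) :
    artin K L (Ideal.relNorm (𝓞 K) 𝔅) = 1 := by
  haveI : IsMulCommutative (L ≃ₐ[L] L) := ⟨⟨fun σ τ => Subsingleton.elim _ _⟩⟩
  have h := artin_relNorm (K := K) (L := L) (F := L) (M := L) 𝔅 h𝔅 hunr
  rw [h, Subsingleton.elim (artin L L 𝔅) 1, map_one]

/-- (c) for `L/K` unramified at all finite primes. -/
theorem artin_relNorm_eq_one_of_unramified
    (hunr : ∀ P : Ideal (𝓞 L), P.IsPrime → P ≠ ⊥ → P.inertia (L ≃ₐ[K] L) = ⊥)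
    (𝔅 : Ideal (𝓞 L)) (h𝔅 : 𝔅 ≠ ⊥) :
    artin K L (Ideal.relNorm (𝓞 K) 𝔅) = 1 := by
  refine artin_relNorm_eq_one 𝔅 h𝔅 (fun 𝔔 h𝔔 hle P hP hPq => hunr P hP ?_)
  have h𝔔0 : 𝔔 ≠ ⊥ := fun h => h𝔅 (le_bot_iff.mp (h ▸ hle))
  apply ne_bot_of_under_ne_bot (K := K)
  rw [hPq]
  exact under_ne_bot h𝔔0

end Norms

end Fermat.Agent.CFT.ArtinNorm
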