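/-
Program E (S14), (E-C0) FUNCTORIALITY OF FROBENIUS AT PRIMES (helper2).  Mathlib only.

Number fields, Mathlib-canonical actions of Galois groups on rings of integers.
* `mul_inv_mem_inertia_of_pow`, `pow_smul_sub_pow_mem` : abstract lemmas.
* `res`, `resHom` : restriction `Gal(M/F) → Gal(L/K)` in a square `K ⊆ L ⊆ M`, `K ⊆ F ⊆ M`.
* (F2) `res_smul_sub_pow_mem`, `res_eq_pow` : `Frob_Q(M/F)|_L = Frob_{Q ∩ L}(L/K) ^ f(Q ∩ F / K)`
  when `L/K` is unramified at `Q ∩ 𝓞 L`   (`Art_{M/F}(𝔔)|_L = Art_{L/K}(N_{F/K} 𝔔)` at primes).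
* (F1) `isArithFrobAt_restrictNormal` : restriction in a tower `K ⊆ L ⊆ M`.
* (F2b) `pow_inertiaDeg_eq_one` : `Frob_P ^ f(P/K) = 1` in the unramified case (Artin kills norms).
* (F3) `inertiaDeg_ramificationIdx_of_stabilizer_le`, `relNorm_under_of_stabilizer_le` :
  if the decomposition group of `Q` fixes `F` then `Q ∩ 𝓞 F` has `e = f = 1` over `K` and
  `relNorm (𝓞 K) (Q ∩ 𝓞 F) = Q ∩ 𝓞 K`.
-/
import Mathlib
set_option autoImplicit false
set_option linter.unusedSectionVars false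

namespace Fermat.Agent.CFT.FrobFunct

open NumberField
open scoped Pointwise

section abstract

variable {R S G : Type*} [CommRing R] [CommRing S] [Algebra R S] [Group G]
  [MulSemiringAction G S]

/-- Two group elements acting as `x ↦ x ^ n` modulo `P` differ by an element of inertia. -/
theorem mul_inv_mem_inertia_of_pow {P : Ideal S} {g g' : G} {n : ℕ}
    (hg : ∀ x : S, g • x - x ^ n ∈ P) (hg' : ∀ x : S, g' • x - x ^ n ∈ P) :
    g * g'⁻¹ ∈ P.inertia G := by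
  intro x
  simpa [mul_smul] using sub_mem (hg (g'⁻¹ • x)) (hg' (g'⁻¹ • x))

/-- If `g` acts as `x ↦ x ^ n` modulo `P` then `g ^ k` acts as `x ↦ x ^ (n ^ k)`. -/
theorem pow_smul_sub_pow_mem {P : Ideal S} {g : G} {n : ℕ}
    (hg : ∀ x : S, g • x - x ^ n ∈ P) (k : ℕ) (x : S) :
    (g ^ k) • x - x ^ (n ^ k) ∈ P := by
  induction k generalizing x with
  | zero => simp
  | succ k ih =>
    rw [pow_succ', mul_smul, pow_succ, pow_mul]
    have h1 : g • (g ^ k • x) - (g ^ k • x) ^ n ∈ P := hg _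
    have h2 : (g ^ k • x) ^ n - (x ^ n ^ k) ^ n ∈ P := by
      have := ih x
      obtain ⟨c, hc⟩ := sub_dvd_pow_sub_pow (g ^ k • x) (x ^ n ^ k) n
      rw [hc]
      exact P.mul_mem_right _ this
    have := add_mem h1 h2
    simpa using this

end abstract


section numberField

variable {K L F M : Type*} [Field K] [Field L] [Field F] [Field M]
  [NumberField K] [NumberField L] [NumberField F] [NumberField M]
  [Algebra K L] [Algebra K F] [Algebra L M] [Algebra F M] [Algebra K M]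
  [IsScalarTower K L M] [IsScalarTower K F M] [IsGalois K L] [IsGalois F M]

/-- Restriction `Gal(M/F) → Gal(L/K)` for a "base change square" `K ⊆ L ⊆ M`, `K ⊆ F ⊆ M`. -/
noncomputable def res (σ : M ≃ₐ[F] M) : L ≃ₐ[K] L :=
  (σ.restrictScalars K).restrictNormal L

variable (K L) in
/-- `res` as a monoid hom. -/
noncomputable def resHom : (M ≃ₐ[F] M) →* (L ≃ₐ[K] L) :=
  (AlgEquiv.restrictNormalHom (F := K) (K₁ := M) L).comp
    { toFun := fun σ => σ.restrictScalars K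
      map_one' := rfl
      map_mul' := fun _ _ => rfl }

theorem resHom_apply (σ : M ≃ₐ[F] M) : resHom K L σ = res (K := K) (L := L) σ := rfl

theorem algebraMap_res (σ : M ≃ₐ[F] M) (x : L) :
    algebraMap L M (res (K := K) σ x) = σ (algebraMap L M x) :=
  AlgEquiv.restrictNormal_commutes (σ.restrictScalars K) L x

theorem algebraMap_res_smul (σ : M ≃ₐ[F] M) (x : 𝓞 L) :
    algebraMap (𝓞 L) (𝓞 M) (res (K := K) (L := L) σ • x) = σ • (algebraMap (𝓞 L) (𝓞 M) x) := by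
  apply RingOfIntegers.ext
  exact algebraMap_res σ (x : L)

/-- (F2) BASE CHANGE, raw form: if `σ ∈ Gal(M/F)` is a Frobenius at `Q` (over `𝓞 F`), then its
restriction to `L` acts on `𝓞 L` as `x ↦ x ^ #(𝓞 F / Q ∩ 𝓞 F)` modulo `Q ∩ 𝓞 L`. -/
theorem res_smul_sub_pow_mem {σ : M ≃ₐ[F] M} {Q : Ideal (𝓞 M)}
    (hσ : IsArithFrobAt (𝓞 F) σ Q) (x : 𝓞 L) :
    res (K := K) (L := L) σ • x - x ^ Nat.card (𝓞 F ⧸ Q.under (𝓞 F)) ∈ Q.under (𝓞 L) := by
  rw [Ideal.under_def, Ideal.mem_comap, map_sub, map_pow, algebraMap_res_smul]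
  exact hσ _


/-- Cardinality of the residue field upstairs in terms of the inertia degree. -/
theorem card_quot_eq_pow_inertiaDeg {R S : Type*} [CommRing R] [CommRing S] [Algebra R S]
    (q : Ideal S) [q.IsMaximal] [(q.under R).IsMaximal] [Finite (R ⧸ q.under R)]
    [Module.Finite R S] :
    Nat.card (S ⧸ q) = Nat.card (R ⧸ q.under R) ^ q.inertiaDeg R := by
  rw [Ideal.inertiaDeg_eq_of_isMaximal (q.under R) q]
  let _ : Field (R ⧸ q.under R) := Ideal.Quotient.field _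
  let _ : Field (S ⧸ q) := Ideal.Quotient.field _
  exact Module.natCard_eq_pow_finrank (K := R ⧸ q.under R) (V := S ⧸ q)


/-- A prime with finite residue ring is maximal. -/
theorem isMaximal_of_finite_quotient {S : Type*} [CommRing S] (q : Ideal S) [q.IsPrime]
    [Finite (S ⧸ q)] : q.IsMaximal :=
  Ideal.Quotient.maximal_of_isField _ (Finite.isField_of_domain (S ⧸ q))

/-- (F2) BASE CHANGE: `Frob_Q(M/F)` restricted to `L` is `Frob(L/K)^f`, `f` the inertia degree of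
`Q ∩ 𝓞 F` over `𝓞 K`, when `L/K` is unramified at `Q ∩ 𝓞 L`. -/
theorem res_eq_pow {σ : M ≃ₐ[F] M} {Q : Ideal (𝓞 M)} [Q.IsPrime]
    (hσ : IsArithFrobAt (𝓞 F) σ Q) {τ : L ≃ₐ[K] L}
    (hτ : IsArithFrobAt (𝓞 K) τ (Q.under (𝓞 L)))
    (hunr : (Q.under (𝓞 L)).inertia (L ≃ₐ[K] L) = ⊥) :
    res (K := K) (L := L) σ = τ ^ (Q.under (𝓞 F)).inertiaDeg (𝓞 K) := by
  have hfin : Finite (𝓞 F ⧸ Q.under (𝓞 F)) := hσ.finite_quotient
  haveI : (Q.under (𝓞 F)).IsMaximal := isMaximal_of_finite_quotient _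
  haveI : ((Q.under (𝓞 F)).under (𝓞 K)).IsMaximal :=
    Ideal.isMaximal_comap_of_isIntegral_of_isMaximal (Q.under (𝓞 F))
  have hKK : (Q.under (𝓞 F)).under (𝓞 K) = (Q.under (𝓞 L)).under (𝓞 K) := by
    rw [Ideal.under_under, Ideal.under_under]
  haveI : Finite (𝓞 K ⧸ (Q.under (𝓞 F)).under (𝓞 K)) := by
    rw [hKK]; exact hτ.finite_quotient
  have hcard := card_quot_eq_pow_inertiaDeg (R := 𝓞 K) (Q.under (𝓞 F))
  rw [hKK] at hcard
  have h1 : ∀ x : 𝓞 L, res (K := K) (L := L) σ • x -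
      x ^ (Nat.card (𝓞 K ⧸ (Q.under (𝓞 L)).under (𝓞 K)) ^ (Q.under (𝓞 F)).inertiaDeg (𝓞 K))
        ∈ Q.under (𝓞 L) := by
    intro x
    rw [← hcard]
    exact res_smul_sub_pow_mem hσ x
  have h2 := pow_smul_sub_pow_mem (P := Q.under (𝓞 L)) (g := τ) hτ
    ((Q.under (𝓞 F)).inertiaDeg (𝓞 K))
  have h3 := mul_inv_mem_inertia_of_pow h1 h2
  rw [hunr, Subgroup.mem_bot, mul_inv_eq_one] at h3
  exact h3


end numberField

section tower

variable {K L M : Type*} [Field K] [Field L] [Field M]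
  [NumberField K] [NumberField L] [NumberField M]
  [Algebra K L] [Algebra L M] [Algebra K M]
  [IsScalarTower K L M] [IsGalois K L] [IsGalois K M]

/-- (F1) TOWER: the restriction to `L` of a Frobenius at `Q` in `Gal(M/K)` is a Frobenius at
`Q ∩ 𝓞 L` in `Gal(L/K)`. -/
theorem isArithFrobAt_restrictNormal {σ : M ≃ₐ[K] M} {Q : Ideal (𝓞 M)}
    (hσ : IsArithFrobAt (𝓞 K) σ Q) :
    IsArithFrobAt (𝓞 K) (σ.restrictNormal L) (Q.under (𝓞 L)) := by
  intro x
  have h := res_smul_sub_pow_mem (K := K) (L := L) (F := K) (M := M) hσ x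
  have hKK : (Q.under (𝓞 L)).under (𝓞 K) = Q.under (𝓞 K) := Ideal.under_under _
  change σ.restrictNormal L • x - x ^ Nat.card (𝓞 K ⧸ (Q.under (𝓞 L)).under (𝓞 K)) ∈ _
  rw [hKK]
  exact h

end tower

section norm

variable {K L : Type*} [Field K] [Field L] [NumberField K] [NumberField L]
  [Algebra K L] [IsGalois K L]

/-- (F2b) FROBENIUS OF A NORM IS TRIVIAL: if `τ` is a Frobenius at the prime `P` of `𝓞 L` and
`L/K` is unramified at `P`, then `τ ^ f(P/K) = 1`. -/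
theorem pow_inertiaDeg_eq_one {τ : L ≃ₐ[K] L} {P : Ideal (𝓞 L)} [P.IsPrime]
    (hτ : IsArithFrobAt (𝓞 K) τ P) (hunr : P.inertia (L ≃ₐ[K] L) = ⊥) :
    τ ^ P.inertiaDeg (𝓞 K) = 1 := by
  have hfin : Finite (𝓞 K ⧸ P.under (𝓞 K)) := hτ.finite_quotient
  have hPne : P ≠ ⊥ := by
    rintro rfl
    have : (⊥ : Ideal (𝓞 L)).under (𝓞 K) = ⊥ := by
      rw [Ideal.under_def, Ideal.comap_bot_of_injective _ (FaithfulSMul.algebraMap_injective _ _)]
    rw [this] at hfin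
    have : Infinite (𝓞 K ⧸ (⊥ : Ideal (𝓞 K))) :=
      Infinite.of_injective _ (RingEquiv.quotientBot (𝓞 K)).symm.injective
    exact not_finite (𝓞 K ⧸ (⊥ : Ideal (𝓞 K)))
  haveI : P.IsMaximal := Ring.DimensionLEOne.maximalOfPrime hPne inferInstance
  haveI : (P.under (𝓞 K)).IsMaximal := Ideal.isMaximal_comap_of_isIntegral_of_isMaximal P
  have hcard := card_quot_eq_pow_inertiaDeg (R := 𝓞 K) P
  have h1 := pow_smul_sub_pow_mem (P := P) (g := τ) hτ (P.inertiaDeg (𝓞 K))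
  rw [← hcard] at h1
  have h2 : ∀ x : 𝓞 L, (1 : L ≃ₐ[K] L) • x - x ^ Nat.card (𝓞 L ⧸ P) ∈ P := by
    intro x
    rw [one_smul, ← Ideal.Quotient.eq, map_pow]
    letI : Field (𝓞 L ⧸ P) := Ideal.Quotient.field _
    haveI : Finite (𝓞 L ⧸ P) := Ideal.finiteQuotientOfFreeOfNeBot P hPne
    letI : Fintype (𝓞 L ⧸ P) := Fintype.ofFinite _
    rw [Nat.card_eq_fintype_card]
    exact (FiniteField.pow_card _).symm
  have h3 := mul_inv_mem_inertia_of_pow h1 h2
  rw [hunr, Subgroup.mem_bot, inv_one, mul_one] at h3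
  exact h3

end norm

section decomposition

variable {K M : Type*} [Field K] [Field M] [NumberField K] [NumberField M]
  [Algebra K M] [IsGalois K M]

/-- The action of `Gal(M/F)` on `𝓞 M` is the restriction of that of `Gal(M/K)`. -/
theorem restrictScalars_smul (F : IntermediateField K M) (h : M ≃ₐ[F] M) (x : 𝓞 M) :
    (h.restrictScalars K) • x = h • x := rfl

theorem restrictScalars_smul_ideal (F : IntermediateField K M) (h : M ≃ₐ[F] M)
    (Q : Ideal (𝓞 M)) : (h.restrictScalars K) • Q = h • Q := rfl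

/-- The stabilizer of `Q` in `Gal(M/F)` has the same cardinality as the stabilizer in `Gal(M/K)`
when the latter is contained in `Gal(M/F)`. -/
theorem card_stabilizer_eq_of_le (F : IntermediateField K M) (Q : Ideal (𝓞 M))
    (hle : MulAction.stabilizer (M ≃ₐ[K] M) Q ≤ F.fixingSubgroup) :
    Nat.card (MulAction.stabilizer (M ≃ₐ[F] M) Q) =
      Nat.card (MulAction.stabilizer (M ≃ₐ[K] M) Q) := by
  refine Nat.card_congr (Equiv.ofBijective
    (fun h => ⟨h.1.restrictScalars K, by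
      have := h.2
      rw [MulAction.mem_stabilizer_iff] at this ⊢
      rw [restrictScalars_smul_ideal]; exact this⟩) ⟨?_, ?_⟩)
  · rintro ⟨h, hh⟩ ⟨h', hh'⟩ e
    simp only [Subtype.mk.injEq] at e
    ext x
    exact DFunLike.congr_fun e x
  · rintro ⟨g, hg⟩
    have hgF : g ∈ F.fixingSubgroup := hle hg
    refine ⟨⟨F.fixingSubgroupEquiv ⟨g, hgF⟩, ?_⟩, ?_⟩
    · rw [MulAction.mem_stabilizer_iff] at hg ⊢
      rw [← restrictScalars_smul_ideal]
      have e : (F.fixingSubgroupEquiv ⟨g, hgF⟩).restrictScalars K = g := by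
        ext x; rfl
      rw [e]; exact hg
    · apply Subtype.ext
      ext x
      rfl

/-- (F3) DECOMPOSITION FIELD: if the decomposition group of `Q` in `Gal(M/K)` fixes the
intermediate field `F`, then the prime `Q ∩ 𝓞 F` has inertia degree and ramification index `1`
over `𝓞 K`. -/
theorem inertiaDeg_ramificationIdx_of_stabilizer_le (F : IntermediateField K M)
    (Q : Ideal (𝓞 M)) [Q.IsPrime]
    (hle : MulAction.stabilizer (M ≃ₐ[K] M) Q ≤ F.fixingSubgroup) :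
    (Q.under (𝓞 F)).inertiaDeg (𝓞 K) = 1 ∧ (Q.under (𝓞 F)).ramificationIdx (𝓞 K) = 1 := by
  have hK := Ideal.card_stabilizer_eq (G := M ≃ₐ[K] M) (Q.under (𝓞 K)) Q
  rw [Ideal.ramificationIdxIn_eq_ramificationIdx (Q.under (𝓞 K)) Q (M ≃ₐ[K] M),
    Ideal.inertiaDegIn_eq_inertiaDeg (Q.under (𝓞 K)) Q (M ≃ₐ[K] M)] at hK
  have hF := Ideal.card_stabilizer_eq (G := M ≃ₐ[F] M) (Q.under (𝓞 F)) Q
  rw [Ideal.ramificationIdxIn_eq_ramificationIdx (Q.under (𝓞 F)) Q (M ≃ₐ[F] M),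
    Ideal.inertiaDegIn_eq_inertiaDeg (Q.under (𝓞 F)) Q (M ≃ₐ[F] M)] at hF
  rw [card_stabilizer_eq_of_le F Q hle, hK] at hF
  have h1 : Q.inertiaDeg (𝓞 K) = (Q.under (𝓞 F)).inertiaDeg (𝓞 K) * Q.inertiaDeg (𝓞 F) :=
    Ideal.inertiaDeg_tower (Q.under (𝓞 F)) Q
  have h2 : Q.ramificationIdx (𝓞 K) =
      (Q.under (𝓞 F)).ramificationIdx (𝓞 K) * Q.ramificationIdx (𝓞 F) :=
    Ideal.ramificationIdx_tower (Q.under (𝓞 F)) Q
  rw [h1, h2] at hF
  have he : 0 < Q.ramificationIdx (𝓞 F) := Ideal.ramificationIdx_pos Q (𝓞 F)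
  have hf : 0 < Q.inertiaDeg (𝓞 F) := Ideal.inertiaDeg_pos Q (𝓞 F)
  have hprod : (Q.under (𝓞 F)).ramificationIdx (𝓞 K) * (Q.under (𝓞 F)).inertiaDeg (𝓞 K) = 1 := by
    have : ((Q.under (𝓞 F)).ramificationIdx (𝓞 K) * (Q.under (𝓞 F)).inertiaDeg (𝓞 K)) *
        (Q.ramificationIdx (𝓞 F) * Q.inertiaDeg (𝓞 F)) =
        1 * (Q.ramificationIdx (𝓞 F) * Q.inertiaDeg (𝓞 F)) := by
      calc _ = (Q.under (𝓞 F)).ramificationIdx (𝓞 K) * Q.ramificationIdx (𝓞 F) *
            ((Q.under (𝓞 F)).inertiaDeg (𝓞 K) * Q.inertiaDeg (𝓞 F)) := by ring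
        _ = _ := by rw [hF, one_mul]
    exact Nat.eq_of_mul_eq_mul_right (Nat.mul_pos he hf) this
  have := Nat.eq_one_of_mul_eq_one_right hprod
  have h' := Nat.eq_one_of_mul_eq_one_left hprod
  exact ⟨h', this⟩

/-- (F3') In the situation of (F3), the relative norm of `Q ∩ 𝓞 F` is `Q ∩ 𝓞 K`: the prime
`Q ∩ 𝓞 K` "has a degree-one prime in `F`". -/
theorem relNorm_under_of_stabilizer_le (F : IntermediateField K M)
    (Q : Ideal (𝓞 M)) [Q.IsPrime] (hQ : Q ≠ ⊥)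
    (hle : MulAction.stabilizer (M ≃ₐ[K] M) Q ≤ F.fixingSubgroup) :
    Ideal.relNorm (𝓞 K) (Q.under (𝓞 F)) = Q.under (𝓞 K) := by
  haveI : Q.IsMaximal := Ring.DimensionLEOne.maximalOfPrime hQ inferInstance
  haveI : (Q.under (𝓞 F)).IsMaximal := Ideal.isMaximal_comap_of_isIntegral_of_isMaximal Q
  haveI : (Q.under (𝓞 K)).IsMaximal := Ideal.isMaximal_comap_of_isIntegral_of_isMaximal Q
  haveI : (Q.under (𝓞 F)).LiesOver (Q.under (𝓞 K)) := ⟨(Ideal.under_under Q).symm⟩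
  rw [Ideal.relNorm_eq_pow_of_isMaximal (Q.under (𝓞 F)) (Q.under (𝓞 K)),
    (inertiaDeg_ramificationIdx_of_stabilizer_le F Q hle).1, pow_one]

end decomposition

end Fermat.Agent.CFT.FrobFunct
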