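/-
Program E (S14), piece C4e-1: the abstract end of Artin's crossing argument
(Lang, Algebraic Number Theory X.2, "compositum + common ideal" step), as pure algebra.

`R` is a Dedekind domain (`𝓞 K`), `G` a group of prime order `p` (`Gal(L/K)`),
`art : Ideal R → G` the Artin symbol on ideals, `Q` a commutative group
(`Cl(K) / N Cl(L)`) and `π : Ideal R → Q` the class map.

A submonoid `Y` of ideals is *good* if it does not contain `⊥` and `art b = 1 → π b = 1` on `Y`
(in the application: `Y` = norms to `K` of the ideals, prime to the modulus, of an auxiliary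
field `F` with `L F ⊆ F(ζ_m)`).

Main result `art_span_singleton_eq_one`.
-/
import Mathlib

set_option autoImplicit false

namespace Fermat.Agent.CFT.CrossAssembly

open UniqueFactorizationMonoid

variable {R : Type*} [CommRing R] [IsDedekindDomain R]
variable {G : Type*} [Group G] {Q : Type*} [CommGroup Q]

/-- A submonoid of ideals is good for `(art, π)` if it avoids `⊥` and `art b = 1 → π b = 1`. -/
def IsGood (art : Ideal R → G) (π : Ideal R → Q) (Y : Submonoid (Ideal R)) : Prop :=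
  (⊥ : Ideal R) ∉ Y ∧ ∀ b ∈ Y, art b = 1 → π b = 1

section Pow

variable {M : Type*} [Monoid M] (f : Ideal R → M) (hf1 : f 1 = 1)
  (hfmul : ∀ I J : Ideal R, I ≠ ⊥ → J ≠ ⊥ → f (I * J) = f I * f J)

include hf1 hfmul in
theorem map_pow_of_ne_bot {I : Ideal R} (hI : I ≠ ⊥) (n : ℕ) : f (I ^ n) = f I ^ n := by
  induction n with
  | zero => simpa using hf1
  | succ n ih =>
    rw [pow_succ, hfmul _ _ (pow_ne_zero n hI) hI, ih, pow_succ]

end Pow

section Core

variable (art : Ideal R → G) (hart1 : art 1 = 1)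
  (hartmul : ∀ I J : Ideal R, I ≠ ⊥ → J ≠ ⊥ → art (I * J) = art I * art J)
  (π : Ideal R → Q) (hπ1 : π 1 = 1)
  (hπmul : ∀ I J : Ideal R, I ≠ ⊥ → J ≠ ⊥ → π (I * J) = π I * π J)
  (p : ℕ) (hp : p.Prime) (hG : Nat.card G = p)
  (hπp : ∀ I : Ideal R, I ≠ ⊥ → π I ^ p = 1)

include hp hG in
theorem pow_prime_card_eq_one (g : G) : g ^ p = 1 := by
  have : Finite G := Nat.finite_of_card_ne_zero (by rw [hG]; exact hp.ne_zero)
  rw [← hG]; exact pow_card_eq_one'

include hart1 hartmul hπ1 hπmul hp hG hπp in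
/-- **Lemma 1.** On a good `Y` containing `b₀`, the value of `π` is determined by `art` through
powers of `art b₀`. -/
theorem pi_eq_pow_of_art_eq_pow {Y : Submonoid (Ideal R)} (hY : IsGood art π Y)
    {b₀ : Ideal R} (hb₀ : b₀ ∈ Y) {b : Ideal R} (hb : b ∈ Y) (k : ℕ)
    (hk : art b = art b₀ ^ k) : π b = π b₀ ^ k := by
  have hb₀0 : b₀ ≠ ⊥ := fun h => hY.1 (h ▸ hb₀)
  have hb0 : b ≠ ⊥ := fun h => hY.1 (h ▸ hb)
  set n := (p - 1) * k with hn
  have hmem : b * b₀ ^ n ∈ Y := Y.mul_mem hb (Y.pow_mem hb₀ n)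
  have hkn : k + n = p * k := by
    have : 1 ≤ p := hp.one_lt.le
    rw [hn]
    calc k + (p - 1) * k = (1 + (p - 1)) * k := by ring
      _ = p * k := by rw [Nat.add_sub_cancel' this]
  have hart : art (b * b₀ ^ n) = 1 := by
    rw [hartmul _ _ hb0 (pow_ne_zero n hb₀0), map_pow_of_ne_bot art hart1 hartmul hb₀0, hk,
      ← pow_add, hkn, pow_mul, pow_prime_card_eq_one p hp hG, one_pow]
  have hπ := hY.2 _ hmem hart
  rw [hπmul _ _ hb0 (pow_ne_zero n hb₀0), map_pow_of_ne_bot π hπ1 hπmul hb₀0] at hπ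
  have h2 : π b₀ ^ (k + n) = 1 := by rw [hkn, pow_mul, hπp _ hb₀0, one_pow]
  calc π b = π b * (π b₀ ^ n * (π b₀ ^ n)⁻¹) := by rw [mul_inv_cancel, mul_one]
    _ = (π b * π b₀ ^ n) * (π b₀ ^ n)⁻¹ := by rw [mul_assoc]
    _ = (π b₀ ^ n)⁻¹ := by rw [hπ, one_mul]
    _ = π b₀ ^ k := by
      rw [inv_eq_iff_eq_inv, eq_comm, inv_eq_iff_mul_eq_one, ← pow_add]; exact h2

include hG hp in
theorem exists_pow_eq_of_ne_one {g₀ : G} (hg₀ : g₀ ≠ 1) (g : G) : ∃ k : ℕ, g = g₀ ^ k := by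
  have : Finite G := Nat.finite_of_card_ne_zero (by rw [hG]; exact hp.ne_zero)
  have : Fact p.Prime := ⟨hp⟩
  have hz : Subgroup.zpowers g₀ = ⊤ := zpowers_eq_top_of_prime_card hG hg₀
  have hmem : g ∈ Subgroup.zpowers g₀ := hz ▸ Subgroup.mem_top g
  have hmem' : g ∈ Submonoid.powers g₀ := mem_powers_iff_mem_zpowers.mpr hmem
  obtain ⟨k, hk⟩ := hmem'
  exact ⟨k, hk.symm⟩

include hart1 hartmul hπ1 hπmul hp hG hπp in
/-- **Assembly theorem.**  If every finite set of primes admits good sets `Y q ∋ q` with a common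
good refinement `Y''` on which `art` is not trivial, and some prime has nontrivial class in `Q`,
then `art` kills every principal ideal on which `π` is trivial — in particular, if `π` kills
principal ideals, so does `art`. -/
theorem art_eq_one_of_pi_eq_one
    (H2 : ∀ S : Finset (Ideal R), (∀ q ∈ S, q.IsPrime ∧ q ≠ ⊥) →
      ∃ (Y : Ideal R → Submonoid (Ideal R)) (Y'' : Submonoid (Ideal R)),
        (∀ q ∈ S, IsGood art π (Y q) ∧ q ∈ Y q ∧ Y'' ≤ Y q) ∧ ∃ b₀ ∈ Y'', art b₀ ≠ 1)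
    (H3 : ∃ r : Ideal R, r.IsPrime ∧ r ≠ ⊥ ∧ π r ≠ 1)
    (X : Ideal R) (hX : X ≠ ⊥) (hπX : π X = 1) : art X = 1 := by
  classical
  obtain ⟨r, hrp, hr0, hπr⟩ := H3
  set S : Finset (Ideal R) := (normalizedFactors X).toFinset ∪ {r} with hS
  have hSprime : ∀ q ∈ S, q.IsPrime ∧ q ≠ ⊥ := by
    intro q hq
    rcases Finset.mem_union.mp hq with hq | hq
    · have hq' := Multiset.mem_toFinset.mp hq
      have := prime_of_normalized_factor q hq'
      exact ⟨Ideal.isPrime_of_prime this, this.ne_zero⟩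
    · rw [Finset.mem_singleton.mp hq]; exact ⟨hrp, hr0⟩
  obtain ⟨Y, Y'', hYS, b₀, hb₀, hab₀⟩ := H2 S hSprime
  set g₀ := art b₀ with hg₀
  set c := π b₀ with hc
  -- every prime in S
  have hprime : ∀ q ∈ S, ∃ k : ℕ, art q = g₀ ^ k ∧ π q = c ^ k := by
    intro q hq
    obtain ⟨hgood, hqY, hle⟩ := hYS q hq
    obtain ⟨k, hk⟩ := exists_pow_eq_of_ne_one p hp hG hab₀ (art q)
    exact ⟨k, hk, pi_eq_pow_of_art_eq_pow art hart1 hartmul π hπ1 hπmul p hp hG hπp hgood
      (hle hb₀) hqY k hk⟩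
  -- every ideal supported in S
  have hall : ∀ Z : Ideal R, Z ≠ ⊥ → (∀ q ∈ normalizedFactors Z, q ∈ S) →
      ∃ k : ℕ, art Z = g₀ ^ k ∧ π Z = c ^ k := by
    intro Z
    induction Z using UniqueFactorizationMonoid.induction_on_prime with
    | h₁ => intro h; exact absurd rfl h
    | h₂ Z hZ =>
      intro _ _
      have : Z = 1 := by simpa [Ideal.one_eq_top] using Ideal.isUnit_iff.mp hZ
      exact ⟨0, by rw [this, hart1, pow_zero], by rw [this, hπ1, pow_zero]⟩
    | h₃ Z q hZ hq ih =>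
      intro _ hsupp
      have hq0 : q ≠ ⊥ := hq.ne_zero
      have hqS : q ∈ S := by
        apply hsupp
        rw [normalizedFactors_mul hq0 hZ, Multiset.mem_add]
        left
        rw [normalizedFactors_irreducible hq.irreducible, normalize_eq]
        exact Multiset.mem_singleton_self q
      have hZS : ∀ q' ∈ normalizedFactors Z, q' ∈ S := by
        intro q' hq'
        apply hsupp
        rw [normalizedFactors_mul hq0 hZ, Multiset.mem_add]
        exact Or.inr hq'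
      obtain ⟨k₁, h1, h1'⟩ := hprime q hqS
      obtain ⟨k₂, h2, h2'⟩ := ih hZ hZS
      exact ⟨k₁ + k₂, by rw [hartmul _ _ hq0 hZ, h1, h2, pow_add],
        by rw [hπmul _ _ hq0 hZ, h1', h2', pow_add]⟩
  -- c has order p
  have hrS : r ∈ S := Finset.mem_union_right _ (Finset.mem_singleton_self r)
  obtain ⟨kr, _, hkr'⟩ := hprime r hrS
  have hc1 : c ≠ 1 := by
    intro h
    apply hπr
    rw [hkr', h, one_pow]
  have hb₀0 : b₀ ≠ ⊥ := by
    obtain ⟨hgood, _, hle⟩ := hYS r hrS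
    exact fun h => hgood.1 (h ▸ hle hb₀)
  have hcp : c ^ p = 1 := hπp _ hb₀0
  have hord : orderOf c = p := by
    have := orderOf_dvd_of_pow_eq_one hcp
    rcases (Nat.dvd_prime hp).mp this with h | h
    · exact absurd (orderOf_eq_one_iff.mp h) hc1
    · exact h
  obtain ⟨k, hk, hk'⟩ := hall X hX (fun q hq => Finset.mem_union_left _ (Multiset.mem_toFinset.mpr hq))
  rw [hπX] at hk'
  have hdvd : p ∣ k := by
    rw [← hord]; exact orderOf_dvd_of_pow_eq_one hk'.symm
  obtain ⟨j, rfl⟩ := hdvd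
  rw [hk, pow_mul, pow_prime_card_eq_one p hp hG, one_pow]

include hart1 hartmul hπ1 hπmul hp hG hπp in
/-- **End theorem** in the consumer shape: `art` kills principal ideals. -/
theorem art_span_singleton_eq_one
    (H2 : ∀ S : Finset (Ideal R), (∀ q ∈ S, q.IsPrime ∧ q ≠ ⊥) →
      ∃ (Y : Ideal R → Submonoid (Ideal R)) (Y'' : Submonoid (Ideal R)),
        (∀ q ∈ S, IsGood art π (Y q) ∧ q ∈ Y q ∧ Y'' ≤ Y q) ∧ ∃ b₀ ∈ Y'', art b₀ ≠ 1)
    (H3 : ∃ r : Ideal R, r.IsPrime ∧ r ≠ ⊥ ∧ π r ≠ 1)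
    (H4 : ∀ a : R, a ≠ 0 → π (Ideal.span {a}) = 1)
    (a : R) (ha : a ≠ 0) : art (Ideal.span {a}) = 1 :=
  art_eq_one_of_pi_eq_one art hart1 hartmul π hπ1 hπmul p hp hG hπp H2 H3 _
    (by simpa [Ideal.span_singleton_eq_bot] using ha) (H4 a ha)

end Core

end Fermat.Agent.CFT.CrossAssembly
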