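/-
Program E (S14), piece C4-C (= helper25's (X1) / helper23's (Te)): the per-field theorem of
Artin's crossing argument in an abstract base-change square `K ⊆ L ⊆ M`, `K ⊆ F ⊆ M`.

The set `Y_F` of relative norms (to `K`) of nonzero ideals of `𝓞 F` prime to `m` is a *good*
submonoid for `(artin K L, π)`, given
* functoriality `artin K L (relNorm B) = res (artin F M B)` (helper17, ArtinNorm),
* injectivity of `res : Gal(M/F) → Gal(L/K)` (helper25, CrossFields),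
* the kernel form for `M/F` (helper26, ClassNormQuot).
-/
import Mathlib
import Fermat.Agent.CFT.ArtinMap
import Fermat.Agent.CFT.FrobFunct
import Fermat.Agent.CFT.CrossAssembly

set_option autoImplicit false

open NumberField
open scoped IsMulCommutative

namespace Fermat.Agent.CFT.PerField

open Fermat.Agent.CFT.ArtinMap Fermat.Agent.CFT.FrobFunct Fermat.Agent.CFT.CrossAssembly

/-! ### Ideals prime to `m`, via the absolute norm -/

section Coprime

variable (F : Type*) [Field F] [NumberField F]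

/-- Nonzero ideals of `𝓞 F` whose absolute norm is prime to `m`. -/
def coprimeSub (m : ℕ) : Submonoid (Ideal (𝓞 F)) where
  carrier := {B | B ≠ ⊥ ∧ Nat.Coprime (Ideal.absNorm B) m}
  one_mem' := by
    refine ⟨?_, ?_⟩
    · rw [Ideal.one_eq_top]; exact top_ne_bot
    · rw [Ideal.one_eq_top, Ideal.absNorm_top]; exact Nat.coprime_one_left m
  mul_mem' := by
    rintro a b ⟨ha, ha'⟩ ⟨hb, hb'⟩
    refine ⟨mul_ne_zero ha hb, ?_⟩
    rw [map_mul]
    exact Nat.Coprime.mul_left ha' hb'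

variable {F}

theorem mem_coprimeSub {m : ℕ} {B : Ideal (𝓞 F)} :
    B ∈ coprimeSub F m ↔ B ≠ ⊥ ∧ Nat.Coprime (Ideal.absNorm B) m := Iff.rfl

/-- An ideal whose absolute norm is prime to `m` is comaximal with `(m)`. -/
theorem sup_span_eq_top_of_coprime {m : ℕ} {B : Ideal (𝓞 F)}
    (h : Nat.Coprime (Ideal.absNorm B) m) : B ⊔ Ideal.span {(m : 𝓞 F)} = ⊤ := by
  rw [Ideal.eq_top_iff_one]
  have h1 : ((Ideal.absNorm B : ℕ) : 𝓞 F) ∈ B := Ideal.absNorm_mem B
  have h2 : (m : 𝓞 F) ∈ Ideal.span {(m : 𝓞 F)} := Ideal.subset_span rfl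
  have hc : IsCoprime ((Ideal.absNorm B : ℕ) : ℤ) (m : ℤ) := Nat.isCoprime_iff_coprime.mpr h
  obtain ⟨u, v, huv⟩ := hc
  have h3 : ((u : 𝓞 F) * ((Ideal.absNorm B : ℕ) : 𝓞 F) + (v : 𝓞 F) * (m : 𝓞 F)) = 1 := by
    have := congrArg (Int.cast : ℤ → 𝓞 F) huv
    push_cast at this
    exact this
  rw [← h3]
  exact Ideal.add_mem _ (Ideal.mem_sup_left (Ideal.mul_mem_left _ _ h1))
    (Ideal.mem_sup_right (Ideal.mul_mem_left _ _ h2))

/-- An ideal whose absolute norm is prime to `m` is contained in no prime containing `m`. -/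
theorem not_le_of_coprime {m : ℕ} {B : Ideal (𝓞 F)}
    (h : Nat.Coprime (Ideal.absNorm B) m) (P : Ideal (𝓞 F)) (hP : P.IsPrime)
    (hm : (m : 𝓞 F) ∈ P) : ¬ B ≤ P := by
  intro hBP
  have htop := sup_span_eq_top_of_coprime h
  have : B ⊔ Ideal.span {(m : 𝓞 F)} ≤ P :=
    sup_le hBP ((Ideal.span_singleton_le_iff_mem _).mpr hm)
  rw [htop] at this
  exact hP.ne_top (top_le_iff.mp this)

end Coprime


/-! ### Norm submonoids -/

section NormSub

variable (K F : Type*) [Field K] [Field F] [NumberField K] [NumberField F] [Algebra K F]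

/-- `Y_F`: the relative norms to `K` of the nonzero ideals of `𝓞 F` prime to `m`. -/
noncomputable def normSub (m : ℕ) : Submonoid (Ideal (𝓞 K)) :=
  (coprimeSub F m).map (Ideal.relNorm (𝓞 K) : Ideal (𝓞 F) →*₀ Ideal (𝓞 K)).toMonoidHom

variable {K F}

theorem mem_normSub {m : ℕ} {b : Ideal (𝓞 K)} :
    b ∈ normSub K F m ↔ ∃ B : Ideal (𝓞 F), (B ≠ ⊥ ∧ Nat.Coprime (Ideal.absNorm B) m) ∧
      Ideal.relNorm (𝓞 K) B = b := Iff.rfl

theorem relNorm_mem_normSub {m : ℕ} {B : Ideal (𝓞 F)} (hB : B ≠ ⊥)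
    (hc : Nat.Coprime (Ideal.absNorm B) m) : Ideal.relNorm (𝓞 K) B ∈ normSub K F m :=
  ⟨B, ⟨hB, hc⟩, rfl⟩

theorem bot_notMem_normSub (m : ℕ) : (⊥ : Ideal (𝓞 K)) ∉ normSub K F m := by
  rintro ⟨B, ⟨hB, -⟩, h⟩
  exact hB (Ideal.relNorm_eq_bot_iff.mp h)

/-- Elements of `Y_F` are nonzero with absolute norm prime to `m`. -/
theorem coprime_of_mem_normSub {m : ℕ} {b : Ideal (𝓞 K)} (hb : b ∈ normSub K F m) :
    b ≠ ⊥ ∧ Nat.Coprime (Ideal.absNorm b) m := by
  obtain ⟨B, ⟨hB, hc⟩, rfl⟩ := hb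
  refine ⟨fun h => hB (Ideal.relNorm_eq_bot_iff.mp h), ?_⟩
  change Nat.Coprime (Ideal.absNorm (Ideal.relNorm (𝓞 K) B)) m
  rwa [Ideal.absNorm_relNorm]

/-- A nonzero ideal `r` of `𝓞 K` prime to `m` which is the norm of an ideal of `𝓞 F` lies in
`Y_F` (used for `r = relNorm R`, `R` a degree-one prime of the decomposition field). -/
theorem mem_normSub_of_relNorm_eq {m : ℕ} {r : Ideal (𝓞 K)} {R : Ideal (𝓞 F)}
    (h : Ideal.relNorm (𝓞 K) R = r) (hr : r ≠ ⊥) (hc : Nat.Coprime (Ideal.absNorm r) m) :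
    r ∈ normSub K F m := by
  subst h
  refine relNorm_mem_normSub (fun h => hr (by rw [h]; exact Ideal.relNorm_bot _)) ?_
  rwa [Ideal.absNorm_relNorm] at hc

/-- Tower: norms from a bigger field `F''` are norms from `F`. -/
theorem normSub_le_of_tower (F'' : Type*) [Field F''] [NumberField F''] [Algebra K F'']
    [Algebra F F''] [IsScalarTower K F F''] (m : ℕ) :
    normSub K F'' m ≤ normSub K F m := by
  rintro b ⟨B, ⟨hB, hc⟩, rfl⟩
  refine ⟨Ideal.relNorm (𝓞 F) B, ⟨fun h => hB (Ideal.relNorm_eq_bot_iff.mp h), ?_⟩, ?_⟩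
  · rwa [Ideal.absNorm_relNorm]
  · exact Ideal.relNorm_relNorm (𝓞 K) (𝓞 F) B

end NormSub


/-! ### The per-field theorem in a base-change square -/

section Square

variable {K L F M : Type*} [Field K] [Field L] [Field F] [Field M]
  [NumberField K] [NumberField L] [NumberField F] [NumberField M]
  [Algebra K L] [Algebra K F] [Algebra L M] [Algebra F M] [Algebra K M]
  [IsScalarTower K L M] [IsScalarTower K F M] [IsGalois K L] [IsGalois F M]
  [IsMulCommutative (L ≃ₐ[K] L)] [IsMulCommutative (M ≃ₐ[F] M)]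

/-- The kernel form for the extension `M/F` and the modulus `m` (conclusion of ClassNormQuot):
an ideal of `𝓞 F` prime to `m` with trivial Artin symbol is, up to principal ideals, a norm from
`M`. -/
def KernelForm (F M : Type*) [Field F] [Field M] [NumberField F] [NumberField M] [Algebra F M]
    [IsGalois F M] [IsMulCommutative (M ≃ₐ[F] M)] (m : ℕ) : Prop :=
  ∀ B : Ideal (𝓞 F), B ≠ ⊥ → Nat.Coprime (Ideal.absNorm B) m → artin F M B = 1 →
    ∃ x y : 𝓞 F, x ≠ 0 ∧ y ≠ 0 ∧ ∃ A A' : Ideal (𝓞 M), A ≠ ⊥ ∧ A' ≠ ⊥ ∧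
      Ideal.span {x} * B * Ideal.relNorm (𝓞 F) A = Ideal.span {y} * Ideal.relNorm (𝓞 F) A'

/-- Functoriality of the Artin map in the square (conclusion of ArtinNorm). -/
def Functorial (K L F M : Type*) [Field K] [Field L] [Field F] [Field M]
    [NumberField K] [NumberField L] [NumberField F] [NumberField M]
    [Algebra K L] [Algebra K F] [Algebra L M] [Algebra F M] [Algebra K M]
    [IsScalarTower K L M] [IsScalarTower K F M] [IsGalois K L] [IsGalois F M]
    [IsMulCommutative (L ≃ₐ[K] L)] [IsMulCommutative (M ≃ₐ[F] M)] : Prop :=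
  ∀ B : Ideal (𝓞 F), B ≠ ⊥ →
    artin K L (Ideal.relNorm (𝓞 K) B) = resHom K L (artin F M B)

/-- **Per-field theorem, explicit form.**  If `B` is prime to `m` and the Artin symbol of its norm
to `K` is trivial, then this norm is, up to principal ideals, a norm from `L`. -/
theorem kernel_form_down (m : ℕ)
    (hfun : Functorial K L F M)
    (hinj : Function.Injective (resHom K L : (M ≃ₐ[F] M) →* (L ≃ₐ[K] L)))
    (hker : KernelForm F M m)
    (B : Ideal (𝓞 F)) (hB : B ≠ ⊥) (hc : Nat.Coprime (Ideal.absNorm B) m)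
    (hart : artin K L (Ideal.relNorm (𝓞 K) B) = 1) :
    ∃ x y : 𝓞 K, x ≠ 0 ∧ y ≠ 0 ∧ ∃ A A' : Ideal (𝓞 L), A ≠ ⊥ ∧ A' ≠ ⊥ ∧
      Ideal.span {x} * Ideal.relNorm (𝓞 K) B * Ideal.relNorm (𝓞 K) A
        = Ideal.span {y} * Ideal.relNorm (𝓞 K) A' := by
  have h1 : artin F M B = 1 := by
    apply hinj
    rw [← hfun B hB, hart, map_one]
  obtain ⟨x, y, hx, hy, A, A', hA, hA', heq⟩ := hker B hB hc h1
  refine ⟨Algebra.intNorm (𝓞 K) (𝓞 F) x, Algebra.intNorm (𝓞 K) (𝓞 F) y,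
    Algebra.intNorm_ne_zero.mpr hx, Algebra.intNorm_ne_zero.mpr hy,
    Ideal.relNorm (𝓞 L) A, Ideal.relNorm (𝓞 L) A',
    fun h => hA (Ideal.relNorm_eq_bot_iff.mp h), fun h => hA' (Ideal.relNorm_eq_bot_iff.mp h), ?_⟩
  have h2 := congrArg (Ideal.relNorm (𝓞 K)) heq
  rw [map_mul, map_mul, map_mul, Ideal.relNorm_singleton, Ideal.relNorm_singleton,
    Ideal.relNorm_relNorm (𝓞 K) (𝓞 F) A, Ideal.relNorm_relNorm (𝓞 K) (𝓞 F) A'] at h2
  rw [Ideal.relNorm_relNorm (𝓞 K) (𝓞 L) A, Ideal.relNorm_relNorm (𝓞 K) (𝓞 L) A']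
  exact h2


/-- **Per-field theorem, `IsGood` form** (shape of `CrossAssembly.IsGood`): for any `π` with values
in a group which is multiplicative on nonzero ideals and kills principal ideals and norms from
`L`, the submonoid `Y_F = normSub K F m` is good for `(artin K L, π)`. -/
theorem isGood_normSub (m : ℕ) {Q : Type*} [CommGroup Q] (π : Ideal (𝓞 K) → Q)
    (hπmul : ∀ I J : Ideal (𝓞 K), I ≠ ⊥ → J ≠ ⊥ → π (I * J) = π I * π J)
    (hπprinc : ∀ a : 𝓞 K, a ≠ 0 → π (Ideal.span {a}) = 1)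
    (hπnorm : ∀ A : Ideal (𝓞 L), A ≠ ⊥ → π (Ideal.relNorm (𝓞 K) A) = 1)
    (hfun : Functorial K L F M)
    (hinj : Function.Injective (resHom K L : (M ≃ₐ[F] M) →* (L ≃ₐ[K] L)))
    (hker : KernelForm F M m) :
    IsGood (artin K L) π (normSub K F m) := by
  refine ⟨bot_notMem_normSub m, ?_⟩
  rintro b ⟨B, ⟨hB, hc⟩, rfl⟩ hart
  change π (Ideal.relNorm (𝓞 K) B) = 1
  change artin K L (Ideal.relNorm (𝓞 K) B) = 1 at hart
  obtain ⟨x, y, hx, hy, A, A', hA, hA', heq⟩ :=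
    kernel_form_down m hfun hinj hker B hB hc hart
  have hx' : Ideal.span {x} ≠ (⊥ : Ideal (𝓞 K)) := by
    simpa [Ideal.span_singleton_eq_bot] using hx
  have hy' : Ideal.span {y} ≠ (⊥ : Ideal (𝓞 K)) := by
    simpa [Ideal.span_singleton_eq_bot] using hy
  have hNB : Ideal.relNorm (𝓞 K) B ≠ ⊥ := fun h => hB (Ideal.relNorm_eq_bot_iff.mp h)
  have hNA : Ideal.relNorm (𝓞 K) A ≠ ⊥ := fun h => hA (Ideal.relNorm_eq_bot_iff.mp h)
  have hNA' : Ideal.relNorm (𝓞 K) A' ≠ ⊥ := fun h => hA' (Ideal.relNorm_eq_bot_iff.mp h)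
  have h1 := congrArg π heq
  rw [hπmul _ _ (mul_ne_zero hx' hNB) hNA, hπmul _ _ hx' hNB, hπmul _ _ hy' hNA',
    hπprinc x hx, hπprinc y hy, hπnorm A hA, hπnorm A' hA', one_mul, mul_one, mul_one] at h1
  exact h1

/-- **NS adapter.**  If some prime `q` of `F` of prime absolute norm not dividing `m` has a
nontrivial Frobenius in the everywhere unramified extension `M/F`, then `Y_F` contains an element
with nontrivial Artin symbol in `L/K`. -/
theorem exists_mem_normSub_artin_ne_one (m : ℕ)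
    (hfun : Functorial K L F M)
    (hinj : Function.Injective (resHom K L : (M ≃ₐ[F] M) →* (L ≃ₐ[K] L)))
    (hunr : ∀ P : Ideal (𝓞 M), P.IsPrime → P ≠ ⊥ → P.inertia (M ≃ₐ[F] M) = ⊥)
    (hNS : ∃ (q : Ideal (𝓞 F)) (P : Ideal (𝓞 M)) (σ : M ≃ₐ[F] M),
      q.IsPrime ∧ (Ideal.absNorm q).Prime ∧ ¬ (Ideal.absNorm q ∣ m) ∧ P.IsPrime ∧
        P.under (𝓞 F) = q ∧ IsArithFrobAt (𝓞 F) σ P ∧ σ ≠ 1) :
    ∃ b₀ ∈ normSub K F m, artin K L b₀ ≠ 1 := by
  obtain ⟨q, P, σ, hq, hqn, hqm, hP, hPq, hσ, hσ1⟩ := hNS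
  have hq0 : q ≠ ⊥ := by
    rintro rfl
    rw [Ideal.absNorm_bot] at hqn
    exact Nat.not_prime_zero hqn
  have hP0 : P ≠ ⊥ := by
    rintro rfl
    apply hq0
    rw [← hPq]
    exact Ideal.under_bot (𝓞 F) (𝓞 M)
  have := hq
  have := hP
  have : P.LiesOver q := ⟨hPq.symm⟩
  have hart : σ = artin F M q := eq_artin_of_isArithFrobAt M q hq0 P (hunr P hP hP0) hσ
  refine ⟨Ideal.relNorm (𝓞 K) q, relNorm_mem_normSub hq0 ?_, ?_⟩
  · exact (Nat.Prime.coprime_iff_not_dvd hqn).mpr hqm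
  · rw [hfun q hq0, ← hart]
    intro h
    apply hσ1
    apply hinj
    rw [h, map_one]

end Square

end Fermat.Agent.CFT.PerField
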