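/-
Program E (S14), C0-2 bridge (helper17): `ArtinNorm.res` is `FrobFunct.resHom`, and the
functoriality predicate `PerField.Functorial K L F M` holds when `L/K` is unramified at all finite
primes (from `ArtinNorm.artin_relNorm_of_unramified`).
-/
import Mathlib
import Fermat.Agent.CFT.ArtinNorm
import Fermat.Agent.CFT.FrobFunct
import Fermat.Agent.CFT.PerField

set_option autoImplicit false
set_option linter.unusedSectionVars false

namespace Fermat.Agent.CFT.ArtinNormBridge

open NumberField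
open scoped Pointwise IsMulCommutative
open Fermat.Agent.CFT.ArtinMap

variable {K L F M : Type*} [Field K] [Field L] [Field F] [Field M]
  [NumberField K] [NumberField L] [NumberField F] [NumberField M]
  [Algebra K L] [Algebra K F] [Algebra L M] [Algebra F M] [Algebra K M]
  [IsScalarTower K L M] [IsScalarTower K F M] [IsGalois K L] [IsGalois F M]

/-- The two restriction homs `Gal(M/F) → Gal(L/K)` agree. -/
theorem res_eq_resHom :
    ArtinNorm.res K L F M = (FrobFunct.resHom K L : (M ≃ₐ[F] M) →* (L ≃ₐ[K] L)) :=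
  MonoidHom.ext fun _ => rfl

theorem res_apply_eq_resHom (σ : M ≃ₐ[F] M) :
    ArtinNorm.res K L F M σ = FrobFunct.resHom K L σ := rfl

variable [IsMulCommutative (L ≃ₐ[K] L)] [IsMulCommutative (M ≃ₐ[F] M)]

/-- Functoriality in the `resHom` shape, local hypothesis. -/
theorem artin_relNorm_resHom (𝔟 : Ideal (𝓞 F)) (h𝔟 : 𝔟 ≠ ⊥)
    (hunr : ∀ 𝔔 : Ideal (𝓞 F), 𝔔.IsPrime → 𝔟 ≤ 𝔔 → ∀ P : Ideal (𝓞 L), P.IsPrime →
      P.under (𝓞 K) = 𝔔.under (𝓞 K) → P.inertia (L ≃ₐ[K] L) = ⊥) :
    artin K L (Ideal.relNorm (𝓞 K) 𝔟) = FrobFunct.resHom K L (artin F M 𝔟) := by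
  rw [← res_apply_eq_resHom]
  exact ArtinNorm.artin_relNorm 𝔟 h𝔟 hunr

/-- `PerField.Functorial K L F M` holds when `L/K` is unramified at all finite primes. -/
theorem functorial_of_unramified
    (hunr : ∀ P : Ideal (𝓞 L), P.IsPrime → P ≠ ⊥ → P.inertia (L ≃ₐ[K] L) = ⊥) :
    PerField.Functorial K L F M := by
  intro B hB
  rw [← res_apply_eq_resHom]
  exact ArtinNorm.artin_relNorm_of_unramified hunr B hB

end Fermat.Agent.CFT.ArtinNormBridge
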