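/-
Program E (S14), piece C4h-2 (helper23): the group `Cl(K) / N Cl(L)` and the class map `π`.

For number fields `K ⊆ L`:
* `normClasses K L : Subgroup (ClassGroup (𝓞 K))` : classes `c` with `c * [N A] = [N A']` for some
  nonzero ideals `A, A'` of `𝓞 L`;
* `Q K L := ClassGroup (𝓞 K) ⧸ normClasses K L` (a finite commutative group);
* `pi K L : Ideal (𝓞 K) → Q K L` (value `1` at `⊥`), multiplicative on nonzero ideals, trivial on
  principal ideals and on norms, killed by `[L : K]`, with the explicit kernel description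
  `pi_eq_one_iff`;
* `exists_prime_pi_ne_one` : from the weak second inequality (some ideal of `K` is not of the form
  `(x/y) * N A`) there is a nonzero prime `r` with `pi r ≠ 1`.
-/
import Mathlib

set_option autoImplicit false
set_option linter.unusedSectionVars false

open NumberField

namespace Fermat.Agent.CFT.NormClassGroup

variable (K L : Type*) [Field K] [Field L] [NumberField K] [NumberField L] [Algebra K L]

theorem mem_nzd {R : Type*} [CommRing R] [IsDomain R] {I : Ideal R} (hI : I ≠ ⊥) :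
    I ∈ nonZeroDivisors (Ideal R) :=
  mem_nonZeroDivisors_iff_ne_zero.mpr hI

theorem ne_bot_of_nzd {R : Type*} [CommRing R] [IsDomain R] (I : nonZeroDivisors (Ideal R)) :
    (I : Ideal R) ≠ ⊥ :=
  mem_nonZeroDivisors_iff_ne_zero.mp I.2

variable {L} in
theorem relNorm_ne_bot {A : Ideal (𝓞 L)} (hA : A ≠ ⊥) : Ideal.relNorm (𝓞 K) A ≠ ⊥ :=
  fun h => hA (Ideal.relNorm_eq_bot_iff.mp h)

/-- The class of the norm of a nonzero ideal of `𝓞 L`, as a monoid hom. -/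
noncomputable def normHom : nonZeroDivisors (Ideal (𝓞 L)) →* ClassGroup (𝓞 K) where
  toFun A := ClassGroup.mk0 ⟨Ideal.relNorm (𝓞 K) (A : Ideal (𝓞 L)),
    mem_nzd (relNorm_ne_bot K (ne_bot_of_nzd A))⟩
  map_one' := by
    rw [← map_one ClassGroup.mk0]
    congr 1
    apply Subtype.ext
    simp
  map_mul' A B := by
    rw [← map_mul ClassGroup.mk0]
    congr 1
    apply Subtype.ext
    simp

theorem normHom_apply (A : nonZeroDivisors (Ideal (𝓞 L))) :
    normHom K L A = ClassGroup.mk0 ⟨Ideal.relNorm (𝓞 K) (A : Ideal (𝓞 L)),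
      mem_nzd (relNorm_ne_bot K (ne_bot_of_nzd A))⟩ := rfl

/-- The subgroup of `Cl(K)` generated by the classes of norms from `L`. -/
noncomputable def normClasses : Subgroup (ClassGroup (𝓞 K)) where
  carrier := {c | ∃ A A' : nonZeroDivisors (Ideal (𝓞 L)), c * normHom K L A = normHom K L A'}
  one_mem' := ⟨1, 1, by simp⟩
  mul_mem' := by
    rintro c₁ c₂ ⟨A₁, A₁', h₁⟩ ⟨A₂, A₂', h₂⟩
    refine ⟨A₁ * A₂, A₁' * A₂', ?_⟩
    rw [map_mul, map_mul, ← h₁, ← h₂]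
    exact mul_mul_mul_comm _ _ _ _
  inv_mem' := by
    rintro c ⟨A, A', h⟩
    refine ⟨A', A, ?_⟩
    rw [← h, ← mul_assoc, inv_mul_cancel, one_mul]

theorem mem_normClasses {c : ClassGroup (𝓞 K)} :
    c ∈ normClasses K L ↔
      ∃ A A' : nonZeroDivisors (Ideal (𝓞 L)), c * normHom K L A = normHom K L A' := Iff.rfl

/-- `Cl(K) / N Cl(L)`. -/
abbrev Q : Type _ := ClassGroup (𝓞 K) ⧸ normClasses K L

noncomputable instance : Finite (Q K L) := inferInstance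

open Classical in
/-- The class map from ideals of `𝓞 K` to `Cl(K) / N Cl(L)` (value `1` at `⊥`). -/
noncomputable def pi (I : Ideal (𝓞 K)) : Q K L :=
  if h : I ≠ ⊥ then QuotientGroup.mk (ClassGroup.mk0 ⟨I, mem_nzd h⟩) else 1

variable {K} in
theorem pi_of_ne_bot {I : Ideal (𝓞 K)} (h : I ≠ ⊥) :
    pi K L I = QuotientGroup.mk (ClassGroup.mk0 ⟨I, mem_nzd h⟩) := by
  simp [pi, h]

theorem pi_one : pi K L 1 = 1 := by
  have h : (1 : Ideal (𝓞 K)) ≠ ⊥ := one_ne_zero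
  rw [pi_of_ne_bot L h]
  have : (⟨1, mem_nzd h⟩ : nonZeroDivisors (Ideal (𝓞 K))) = 1 := rfl
  rw [this, map_one]
  rfl

theorem pi_top : pi K L ⊤ = 1 := by
  rw [← Ideal.one_eq_top]; exact pi_one K L

variable {K} in
theorem pi_mul {I J : Ideal (𝓞 K)} (hI : I ≠ ⊥) (hJ : J ≠ ⊥) :
    pi K L (I * J) = pi K L I * pi K L J := by
  have hIJ : I * J ≠ ⊥ := mul_ne_zero hI hJ
  rw [pi_of_ne_bot L hI, pi_of_ne_bot L hJ, pi_of_ne_bot L hIJ, ← QuotientGroup.mk_mul,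
    ← map_mul]
  rfl

variable {K} in
theorem pi_pow {I : Ideal (𝓞 K)} (hI : I ≠ ⊥) (n : ℕ) : pi K L (I ^ n) = pi K L I ^ n := by
  induction n with
  | zero => simpa using pi_one K L
  | succ n ih => rw [pow_succ, pi_mul L (pow_ne_zero n hI) hI, ih, pow_succ]

variable {K} in
/-- **Kernel of `π`**, explicitly. -/
theorem pi_eq_one_iff {I : Ideal (𝓞 K)} (hI : I ≠ ⊥) :
    pi K L I = 1 ↔ ∃ (x y : 𝓞 K) (A A' : Ideal (𝓞 L)), x ≠ 0 ∧ y ≠ 0 ∧ A ≠ ⊥ ∧ A' ≠ ⊥ ∧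
      Ideal.span {x} * I * Ideal.relNorm (𝓞 K) A = Ideal.span {y} * Ideal.relNorm (𝓞 K) A' := by
  rw [pi_of_ne_bot L hI, QuotientGroup.eq_one_iff, mem_normClasses]
  constructor
  · rintro ⟨A, A', h⟩
    rw [normHom_apply, normHom_apply, ← map_mul, ClassGroup.mk0_eq_mk0_iff] at h
    obtain ⟨x, y, hx, hy, h⟩ := h
    refine ⟨x, y, A, A', hx, hy, ne_bot_of_nzd A, ne_bot_of_nzd A', ?_⟩
    rw [mul_assoc]
    exact h
  · rintro ⟨x, y, A, A', hx, hy, hA, hA', h⟩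
    refine ⟨⟨A, mem_nzd hA⟩, ⟨A', mem_nzd hA'⟩, ?_⟩
    rw [normHom_apply, normHom_apply, ← map_mul, ClassGroup.mk0_eq_mk0_iff]
    refine ⟨x, y, hx, hy, ?_⟩
    rw [mul_assoc] at h
    exact h

variable {K} in
theorem pi_eq_one_of_rel {I : Ideal (𝓞 K)}
    (h : ∃ (x y : 𝓞 K) (A A' : Ideal (𝓞 L)), x ≠ 0 ∧ y ≠ 0 ∧ A ≠ ⊥ ∧ A' ≠ ⊥ ∧
      Ideal.span {x} * I * Ideal.relNorm (𝓞 K) A = Ideal.span {y} * Ideal.relNorm (𝓞 K) A') :
    pi K L I = 1 := by
  by_cases hI : I = ⊥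
  · simp [pi, hI]
  · exact (pi_eq_one_iff L hI).mpr h

variable {K} in
/-- `π` kills principal ideals. -/
theorem pi_span_singleton (a : 𝓞 K) : pi K L (Ideal.span {a}) = 1 := by
  by_cases ha : a = 0
  · simp [pi, ha]
  apply pi_eq_one_of_rel
  refine ⟨1, a, ⊤, ⊤, one_ne_zero, ha, top_ne_bot, top_ne_bot, ?_⟩
  rw [Ideal.span_singleton_one, Ideal.top_mul]

variable {K L} in
/-- `π` kills norms. -/
theorem pi_relNorm (A : Ideal (𝓞 L)) : pi K L (Ideal.relNorm (𝓞 K) A) = 1 := by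
  by_cases hA : A = ⊥
  · simp [pi, hA]
  apply pi_eq_one_of_rel
  exact ⟨1, 1, ⊤, A, one_ne_zero, one_ne_zero, top_ne_bot, hA, by
    rw [← Ideal.one_eq_top, map_one, mul_one]⟩

variable {K} in
/-- `π` is killed by the degree. -/
theorem pi_pow_finrank (I : Ideal (𝓞 K)) : pi K L I ^ Module.finrank K L = 1 := by
  by_cases hI : I = ⊥
  · simp [pi, hI]
  rw [← pi_pow L hI, IsFractionRing.finrank_eq (𝓞 K) K (𝓞 L) L, ← Ideal.relNorm_algebraMap (𝓞 L)]
  exact pi_relNorm _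

variable {K} in
/-- A nonzero ideal all of whose prime factors are killed by `π` is killed by `π`. -/
theorem pi_eq_one_of_primes (I : Ideal (𝓞 K)) (hI : I ≠ ⊥)
    (h : ∀ r : Ideal (𝓞 K), r.IsPrime → r ≠ ⊥ → r ∣ I → pi K L r = 1) : pi K L I = 1 := by
  induction I using UniqueFactorizationMonoid.induction_on_prime with
  | h₁ => exact absurd rfl hI
  | h₂ Z hZ =>
    have : Z = 1 := by simpa [Ideal.one_eq_top] using Ideal.isUnit_iff.mp hZ
    rw [this]; exact pi_one K L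
  | h₃ Z q hZ hq ih =>
    have hq0 : q ≠ ⊥ := hq.ne_zero
    rw [pi_mul L hq0 hZ, h q (Ideal.isPrime_of_prime hq) hq0 (dvd_mul_right q Z),
      ih hZ (fun r hr hr0 hrZ => h r hr hr0 (dvd_mul_of_dvd_right hrZ q)), one_mul]

/-- **(H3)** from the weak second inequality: if some nonzero ideal `a` of `𝓞 K` is not of the
form `(x/y) * N A`, then some nonzero prime `r` has `π r ≠ 1`. -/
theorem exists_prime_pi_ne_one
    (hC2 : ∃ a : Ideal (𝓞 K), a ≠ ⊥ ∧ ∀ (x y : 𝓞 K) (A : Ideal (𝓞 L)), x ≠ 0 → y ≠ 0 → A ≠ ⊥ →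
      Ideal.span {x} * a ≠ Ideal.span {y} * Ideal.relNorm (𝓞 K) A) :
    ∃ r : Ideal (𝓞 K), r.IsPrime ∧ r ≠ ⊥ ∧ pi K L r ≠ 1 := by
  obtain ⟨a, ha, hne⟩ := hC2
  by_contra hcon
  have hall : ∀ r : Ideal (𝓞 K), r.IsPrime → r ≠ ⊥ → pi K L r = 1 := by
    intro r hr hr0
    by_contra h
    exact hcon ⟨r, hr, hr0, h⟩
  have hπa : pi K L a = 1 := pi_eq_one_of_primes L a ha (fun r hr hr0 _ => hall r hr hr0)
  obtain ⟨x, y, A, A', hx, hy, hA, hA', h⟩ := (pi_eq_one_iff L ha).mp hπa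
  -- make `N A` principal by raising to the class number
  set h' := Fintype.card (ClassGroup (𝓞 K)) with hh'
  have hpos : 0 < h' := Fintype.card_pos
  have hNA : Ideal.relNorm (𝓞 K) A ≠ ⊥ := relNorm_ne_bot K hA
  have hprinc : (Ideal.relNorm (𝓞 K) A ^ h').IsPrincipal := by
    rw [← ClassGroup.mk0_eq_one_iff (mem_nzd (pow_ne_zero h' hNA))]
    have : (⟨Ideal.relNorm (𝓞 K) A ^ h', mem_nzd (pow_ne_zero h' hNA)⟩ :
        nonZeroDivisors (Ideal (𝓞 K))) = ⟨Ideal.relNorm (𝓞 K) A, mem_nzd hNA⟩ ^ h' := rfl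
    rw [this, map_pow, hh']
    exact pow_card_eq_one
  obtain ⟨z, hz⟩ := hprinc
  have hz0 : z ≠ 0 := by
    rintro rfl
    apply pow_ne_zero h' hNA
    rw [hz]
    simp
  obtain ⟨n, hn⟩ : ∃ n, h' = n + 1 := ⟨h' - 1, by omega⟩
  apply hne (x * z) y (A' * A ^ n) (mul_ne_zero hx hz0) hy (mul_ne_zero hA' (pow_ne_zero n hA))
  have hz' : Ideal.span {z} = Ideal.relNorm (𝓞 K) A ^ h' := by
    rw [hz]
  rw [← Ideal.span_singleton_mul_span_singleton, hz', hn, pow_succ, map_mul, map_pow]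
  calc Ideal.span {x} * (Ideal.relNorm (𝓞 K) A ^ n * Ideal.relNorm (𝓞 K) A) * a
      = (Ideal.span {x} * a * Ideal.relNorm (𝓞 K) A) * Ideal.relNorm (𝓞 K) A ^ n := by ring
    _ = (Ideal.span {y} * Ideal.relNorm (𝓞 K) A') * Ideal.relNorm (𝓞 K) A ^ n := by rw [h]
    _ = Ideal.span {y} * (Ideal.relNorm (𝓞 K) A' * Ideal.relNorm (𝓞 K) A ^ n) := by ring

end Fermat.Agent.CFT.NormClassGroup
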