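/-
Program E (S14), piece C4h-1 (helper23): the PAIR form of the abstract end of Artin's crossing
argument.  Same setting as `CFT/CrossAssembly.lean` (helper25), but the auxiliary "good" sets are
only required for PAIRS of primes (so that the field-theoretic construction only ever needs two
auxiliary rational primes at a time).

`R` Dedekind (`𝓞 K`), `G` of prime order `p` (`Gal(L/K)`), `art : Ideal R → G`,
`π : Ideal R → Q` (`Q = Cl(K)/N Cl(L)`), both multiplicative on nonzero ideals, `π I ^ p = 1`.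

Hypotheses:
* `(Hs)` a nonzero prime `q` with `art q = 1` has `π q = 1` (split primes are norms);
* `(H2)` for two nonzero primes `q, q'` with `art q ≠ 1 ≠ art q'` there are good submonoids
  `Y ∋ q`, `Y' ∋ q'` and some `b₀ ∈ Y ⊓ Y'` with `art b₀ ≠ 1`;
* `(H3)` some nonzero prime `r` has `π r ≠ 1`.
Conclusion: `π X = 1 → art X = 1` for every nonzero ideal `X`; in particular `art` kills principal
ideals if `π` does.
-/
import Mathlib
import Fermat.Agent.CFT.CrossAssembly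

set_option autoImplicit false

namespace Fermat.Agent.CFT.PairAssembly

open UniqueFactorizationMonoid Fermat.Agent.CFT.CrossAssembly

variable {R : Type*} [CommRing R] [IsDedekindDomain R]
variable {G : Type*} [Group G] {Q : Type*} [CommGroup Q]

section Core

variable (art : Ideal R → G) (hart1 : art 1 = 1)
  (hartmul : ∀ I J : Ideal R, I ≠ ⊥ → J ≠ ⊥ → art (I * J) = art I * art J)
  (π : Ideal R → Q) (hπ1 : π 1 = 1)
  (hπmul : ∀ I J : Ideal R, I ≠ ⊥ → J ≠ ⊥ → π (I * J) = π I * π J)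
  (p : ℕ) (hp : p.Prime) (hG : Nat.card G = p)
  (hπp : ∀ I : Ideal R, I ≠ ⊥ → π I ^ p = 1)

include hp hG in
/-- In a group of prime order `p`, if `g = g₀ ^ j ≠ 1` then `g₀` is a power of `g`, with an
exponent `j'` such that `p ∣ j * j' - 1`... stated multiplicatively: `j * j' ≡ 1 [MOD p]`. -/
theorem exists_inv_exponent {g₀ : G} (j : ℕ) (hj : g₀ ^ j ≠ 1) :
    ∃ j' : ℕ, j * j' ≡ 1 [MOD p] := by
  have hpj : ¬ p ∣ j := by
    rintro ⟨t, rfl⟩
    apply hj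
    rw [pow_mul, pow_prime_card_eq_one p hp hG, one_pow]
  have hcop : Nat.Coprime j p := (Nat.Coprime.symm ((Nat.Prime.coprime_iff_not_dvd hp).mpr hpj))
  obtain ⟨j', -, hj'⟩ := Nat.exists_mul_mod_eq_one_of_coprime hcop hp.one_lt
  refine ⟨j', ?_⟩
  rw [Nat.ModEq, hj', Nat.mod_eq_of_lt hp.one_lt]

/-- If `x ^ p = 1` and `a ≡ b [MOD p]` then `x ^ a = x ^ b`. -/
theorem pow_eq_pow_of_modEq {M : Type*} [Monoid M] {x : M} (hx : x ^ p = 1) {a b : ℕ}
    (hab : a ≡ b [MOD p]) : x ^ a = x ^ b := by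
  rw [← Nat.div_add_mod a p, ← Nat.div_add_mod b p, pow_add, pow_add, pow_mul, pow_mul, hx,
    one_pow, one_pow, one_mul, one_mul, hab]

include hart1 hartmul hπ1 hπmul hp hG hπp in
/-- **Pair lemma.**  If `Y ∋ q` and `Y' ∋ r` are good and share an element `b₀` with
`art b₀ ≠ 1`, and `art r ≠ 1`, then `(art q, π q)` is a simultaneous power of `(art r, π r)`. -/
theorem exists_pow_of_pair {Y Y' : Submonoid (Ideal R)} (hY : IsGood art π Y)
    (hY' : IsGood art π Y') {q r b₀ : Ideal R} (hq : q ∈ Y) (hr : r ∈ Y') (hb : b₀ ∈ Y)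
    (hb' : b₀ ∈ Y') (hab₀ : art b₀ ≠ 1) (har : art r ≠ 1) :
    ∃ k : ℕ, art q = art r ^ k ∧ π q = π r ^ k := by
  have hb₀0 : b₀ ≠ ⊥ := fun h => hY.1 (h ▸ hb)
  have hr0 : r ≠ ⊥ := fun h => hY'.1 (h ▸ hr)
  obtain ⟨i, hi⟩ := exists_pow_eq_of_ne_one p hp hG hab₀ (art q)
  obtain ⟨j, hj⟩ := exists_pow_eq_of_ne_one p hp hG hab₀ (art r)
  have hπq := pi_eq_pow_of_art_eq_pow art hart1 hartmul π hπ1 hπmul p hp hG hπp hY hb hq i hi
  have hπr := pi_eq_pow_of_art_eq_pow art hart1 hartmul π hπ1 hπmul p hp hG hπp hY' hb' hr j hj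
  obtain ⟨j', hj'⟩ := exists_inv_exponent p hp hG (g₀ := art b₀) j (hj ▸ har)
  -- art b₀ = art r ^ j', π b₀ = π r ^ j'
  have h1 : art b₀ = art r ^ j' := by
    rw [hj, ← pow_mul]
    calc art b₀ = art b₀ ^ 1 := (pow_one _).symm
      _ = art b₀ ^ (j * j') :=
        (pow_eq_pow_of_modEq p (pow_prime_card_eq_one p hp hG _) hj').symm
  have h2 : π b₀ = π r ^ j' := by
    rw [hπr, ← pow_mul]
    calc π b₀ = π b₀ ^ 1 := (pow_one _).symm
      _ = π b₀ ^ (j * j') := (pow_eq_pow_of_modEq p (hπp _ hb₀0) hj').symm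
  exact ⟨j' * i, by rw [hi, h1, ← pow_mul], by rw [hπq, h2, ← pow_mul]⟩

include hart1 hartmul hπ1 hπmul hp hG hπp in
/-- **Pair assembly theorem.** -/
theorem art_eq_one_of_pi_eq_one
    (Hs : ∀ q : Ideal R, q.IsPrime → q ≠ ⊥ → art q = 1 → π q = 1)
    (H2 : ∀ q q' : Ideal R, q.IsPrime → q ≠ ⊥ → q'.IsPrime → q' ≠ ⊥ → art q ≠ 1 → art q' ≠ 1 →
      ∃ Y Y' : Submonoid (Ideal R), IsGood art π Y ∧ IsGood art π Y' ∧ q ∈ Y ∧ q' ∈ Y' ∧
        ∃ b₀ : Ideal R, b₀ ∈ Y ∧ b₀ ∈ Y' ∧ art b₀ ≠ 1)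
    (H3 : ∃ r : Ideal R, r.IsPrime ∧ r ≠ ⊥ ∧ π r ≠ 1)
    (X : Ideal R) (hX : X ≠ ⊥) (hπX : π X = 1) : art X = 1 := by
  classical
  obtain ⟨r, hrp, hr0, hπr⟩ := H3
  have har : art r ≠ 1 := fun h => hπr (Hs r hrp hr0 h)
  set g₀ := art r with hg₀
  set c := π r with hc
  -- every nonzero prime
  have hprime : ∀ q : Ideal R, q.IsPrime → q ≠ ⊥ → ∃ k : ℕ, art q = g₀ ^ k ∧ π q = c ^ k := by
    intro q hqp hq0
    by_cases haq : art q = 1
    · exact ⟨0, by rw [haq, pow_zero], by rw [Hs q hqp hq0 haq, pow_zero]⟩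
    · obtain ⟨Y, Y', hY, hY', hqY, hrY', b₀, hb, hb', hab₀⟩ := H2 q r hqp hq0 hrp hr0 haq har
      exact exists_pow_of_pair art hart1 hartmul π hπ1 hπmul p hp hG hπp hY hY' hqY hrY' hb hb'
        hab₀ har
  -- every nonzero ideal
  have hall : ∀ Z : Ideal R, Z ≠ ⊥ → ∃ k : ℕ, art Z = g₀ ^ k ∧ π Z = c ^ k := by
    intro Z
    induction Z using UniqueFactorizationMonoid.induction_on_prime with
    | h₁ => intro h; exact absurd rfl h
    | h₂ Z hZ =>
      intro _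
      have : Z = 1 := by simpa [Ideal.one_eq_top] using Ideal.isUnit_iff.mp hZ
      exact ⟨0, by rw [this, hart1, pow_zero], by rw [this, hπ1, pow_zero]⟩
    | h₃ Z q hZ hq ih =>
      intro _
      have hq0 : q ≠ ⊥ := hq.ne_zero
      obtain ⟨k₁, h1, h1'⟩ := hprime q (Ideal.isPrime_of_prime hq) hq0
      obtain ⟨k₂, h2, h2'⟩ := ih hZ
      exact ⟨k₁ + k₂, by rw [hartmul _ _ hq0 hZ, h1, h2, pow_add],
        by rw [hπmul _ _ hq0 hZ, h1', h2', pow_add]⟩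
  have hcp : c ^ p = 1 := hπp _ hr0
  have hord : orderOf c = p := by
    have := orderOf_dvd_of_pow_eq_one hcp
    rcases (Nat.dvd_prime hp).mp this with h | h
    · exact absurd (orderOf_eq_one_iff.mp h) hπr
    · exact h
  obtain ⟨k, hk, hk'⟩ := hall X hX
  rw [hπX] at hk'
  have hdvd : p ∣ k := by
    rw [← hord]; exact orderOf_dvd_of_pow_eq_one hk'.symm
  obtain ⟨j, rfl⟩ := hdvd
  rw [hk, pow_mul, pow_prime_card_eq_one p hp hG, one_pow]

include hart1 hartmul hπ1 hπmul hp hG hπp in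
/-- **End theorem** (pair form) in the consumer shape: `art` kills principal ideals. -/
theorem art_span_singleton_eq_one
    (Hs : ∀ q : Ideal R, q.IsPrime → q ≠ ⊥ → art q = 1 → π q = 1)
    (H2 : ∀ q q' : Ideal R, q.IsPrime → q ≠ ⊥ → q'.IsPrime → q' ≠ ⊥ → art q ≠ 1 → art q' ≠ 1 →
      ∃ Y Y' : Submonoid (Ideal R), IsGood art π Y ∧ IsGood art π Y' ∧ q ∈ Y ∧ q' ∈ Y' ∧
        ∃ b₀ : Ideal R, b₀ ∈ Y ∧ b₀ ∈ Y' ∧ art b₀ ≠ 1)
    (H3 : ∃ r : Ideal R, r.IsPrime ∧ r ≠ ⊥ ∧ π r ≠ 1)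
    (H4 : ∀ a : R, a ≠ 0 → π (Ideal.span {a}) = 1)
    (a : R) (ha : a ≠ 0) : art (Ideal.span {a}) = 1 :=
  art_eq_one_of_pi_eq_one art hart1 hartmul π hπ1 hπmul p hp hG hπp Hs H2 H3 _
    (by simpa [Ideal.span_singleton_eq_bot] using ha) (H4 a ha)

end Core

end Fermat.Agent.CFT.PairAssembly
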