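/-
Program E (S14), piece C4h-3 (helper23): the end of (ART), conditional on the pair-crossing input.

`K ⊆ L` number fields, `L/K` Galois of prime degree `p`.  From
* `(Hs)`  split primes are norms (`artin K L q = 1 → pi K L q = 1`),
* `(H2)`  the pair-crossing input (good submonoids for pairs of non-split primes),
* `(C2)`  the weak second inequality,
the Artin map kills principal ideals, hence descends to `ClassGroup (𝓞 K)`
(`ArtinGlue.ArtinShape K L`).
-/
import Mathlib
import Fermat.Agent.CFT.ArtinMap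
import Fermat.Agent.CFT.PairAssembly
import Fermat.Agent.CFT.NormClassGroup
import Fermat.Agent.S14.ArtinGlue

set_option autoImplicit false
set_option linter.unusedSectionVars false

open NumberField

namespace Fermat.Agent.CFT.ArtinRecipCore

open Fermat.Agent.CFT.ArtinMap Fermat.Agent.CFT.NormClassGroup Fermat.Agent.CFT.CrossAssembly

/-- A group of prime order is commutative. -/
theorem isMulCommutative_of_card_prime {G : Type*} [Group G] {p : ℕ} (hp : p.Prime)
    (hG : Nat.card G = p) : IsMulCommutative G := by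
  have : Fact p.Prime := ⟨hp⟩
  have : IsCyclic G := isCyclic_of_prime_card hG
  exact IsCyclic.isMulCommutative

variable (K L : Type) [Field K] [Field L] [NumberField K] [NumberField L] [Algebra K L]
  [IsGalois K L]

/-- The Galois group of a Galois extension of prime degree is commutative. -/
theorem isMulCommutative_gal {p : ℕ} (hp : p.Prime) (hfin : Module.finrank K L = p) :
    IsMulCommutative (L ≃ₐ[K] L) :=
  isMulCommutative_of_card_prime hp (by rw [IsGalois.card_aut_eq_finrank, hfin])

variable [IsMulCommutative (L ≃ₐ[K] L)]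

/-- The pair-crossing input, for the Artin map of `L/K` and the class map to `Cl(K)/N Cl(L)`. -/
def PairInput : Prop :=
  ∀ q q' : Ideal (𝓞 K), q.IsPrime → q ≠ ⊥ → q'.IsPrime → q' ≠ ⊥ →
    artin K L q ≠ 1 → artin K L q' ≠ 1 →
    ∃ Y Y' : Submonoid (Ideal (𝓞 K)), IsGood (artin K L) (pi K L) Y ∧
      IsGood (artin K L) (pi K L) Y' ∧ q ∈ Y ∧ q' ∈ Y' ∧
      ∃ b₀ : Ideal (𝓞 K), b₀ ∈ Y ∧ b₀ ∈ Y' ∧ artin K L b₀ ≠ 1

/-- Split primes are norms. -/
def SplitInput : Prop :=
  ∀ q : Ideal (𝓞 K), q.IsPrime → q ≠ ⊥ → artin K L q = 1 → pi K L q = 1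

/-- The weak second inequality. -/
def SecondIneqInput : Prop :=
  ∃ a : Ideal (𝓞 K), a ≠ ⊥ ∧ ∀ (x y : 𝓞 K) (A : Ideal (𝓞 L)), x ≠ 0 → y ≠ 0 → A ≠ ⊥ →
    Ideal.span {x} * a ≠ Ideal.span {y} * Ideal.relNorm (𝓞 K) A

/-- **The Artin map kills principal ideals.** -/
theorem artin_span_singleton_eq_one {p : ℕ} (hp : p.Prime) (hfin : Module.finrank K L = p)
    (Hs : SplitInput K L) (H2 : PairInput K L) (hC2 : SecondIneqInput K L)
    (a : 𝓞 K) (ha : a ≠ 0) : artin K L (Ideal.span {a}) = 1 := by
  have hG : Nat.card (L ≃ₐ[K] L) = p := by rw [IsGalois.card_aut_eq_finrank, hfin]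
  refine PairAssembly.art_span_singleton_eq_one (artin K L) (artin_one K L)
    (fun I J hI hJ => artin_mul L hI hJ) (pi K L) (pi_one K L)
    (fun I J hI hJ => pi_mul L hI hJ) p hp hG
    (fun I _ => hfin ▸ pi_pow_finrank L I) Hs H2 (exists_prime_pi_ne_one K L hC2)
    (fun a _ => pi_span_singleton L a) a ha

/-- **(ART)** in the shape of `S14/ArtinGlue`. -/
theorem artinShape {p : ℕ} (hp : p.Prime) (hfin : Module.finrank K L = p)
    (Hs : SplitInput K L) (H2 : PairInput K L) (hC2 : SecondIneqInput K L) :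
    Fermat.Agent.S14.ArtinGlue.ArtinShape K L :=
  exists_classGroup_hom L (artin_span_singleton_eq_one K L hp hfin Hs H2 hC2)

end Fermat.Agent.CFT.ArtinRecipCore
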