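/-
Program E (S14), lead ruling D2 (helper26): the per-field KERNEL THEOREM.

`F` a number field, `M/F` an extension of number fields, `Φ` a function on ideals of `𝓞 F`,
multiplicative on nonzero ideals, with values in a group of prime order `p`, `m ≠ ⊥` a modulus.
If
 (i)   `Φ` kills the principal ideals prime to `m`,
 (ii)  `Φ` kills relative norms from `M`,
 (iii) some ideal prime to `m` has `Φ ≠ 1`,
 (iv)  the subgroup `normClasses F M` of `ClassGroup (𝓞 F)` (classes of relative norms) has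
       index `≤ p`,
then every ideal `B` prime to `m` with `Φ B = 1` is a principal ideal times a relative norm:
`span {x} * B = span {y} * relNorm A`.
-/
import Mathlib

set_option autoImplicit false
set_option linter.unusedSectionVars false
set_option linter.style.haveILetI false

namespace Fermat.Agent.CFT.ClassNormQuot

open NumberField Ideal

variable (F M : Type) [Field F] [Field M] [NumberField F] [NumberField M] [Algebra F M]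

/-- A nonzero ideal as an element of `(Ideal (𝓞 F))⁰`. -/
def toNZD {F : Type} [Field F] [NumberField F] (I : Ideal (𝓞 F)) (hI : I ≠ ⊥) :
    nonZeroDivisors (Ideal (𝓞 F)) :=
  ⟨I, mem_nonZeroDivisors_iff_ne_zero.mpr hI⟩

/-- The class of a nonzero ideal. -/
noncomputable def cls {F : Type} [Field F] [NumberField F] (I : Ideal (𝓞 F)) (hI : I ≠ ⊥) :
    ClassGroup (𝓞 F) :=
  ClassGroup.mk0 (toNZD I hI)

theorem cls_mul {F : Type} [Field F] [NumberField F] (I J : Ideal (𝓞 F)) (hI : I ≠ ⊥) (hJ : J ≠ ⊥) :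
    cls (I * J) (mul_ne_zero hI hJ) = cls I hI * cls J hJ := by
  unfold cls
  rw [← map_mul]
  rfl

theorem cls_top {F : Type} [Field F] [NumberField F] :
    cls (⊤ : Ideal (𝓞 F)) top_ne_bot = 1 := by
  unfold cls
  rw [← map_one ClassGroup.mk0]
  congr 1
  exact Subtype.ext Ideal.one_eq_top.symm

theorem cls_pow {F : Type} [Field F] [NumberField F] (I : Ideal (𝓞 F)) (hI : I ≠ ⊥) (n : ℕ) :
    cls (I ^ n) (pow_ne_zero n hI) = cls I hI ^ n := by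
  unfold cls
  rw [← map_pow]
  rfl

theorem cls_eq_cls_iff {F : Type} [Field F] [NumberField F] {I J : Ideal (𝓞 F)} (hI : I ≠ ⊥)
    (hJ : J ≠ ⊥) :
    cls I hI = cls J hJ ↔
      ∃ x y : 𝓞 F, x ≠ 0 ∧ y ≠ 0 ∧ Ideal.span {x} * I = Ideal.span {y} * J := by
  unfold cls
  rw [ClassGroup.mk0_eq_mk0_iff]
  constructor
  · rintro ⟨x, y, hx, hy, h⟩
    exact ⟨x, y, hx, hy, h⟩
  · rintro ⟨x, y, hx, hy, h⟩
    exact ⟨x, y, hx, hy, h⟩

theorem exists_cls_eq {F : Type} [Field F] [NumberField F] (c : ClassGroup (𝓞 F)) :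
    ∃ (I : Ideal (𝓞 F)) (hI : I ≠ ⊥), cls I hI = c := by
  obtain ⟨I, rfl⟩ := ClassGroup.mk0_surjective c
  exact ⟨I.1, mem_nonZeroDivisors_iff_ne_zero.mp I.2, rfl⟩

theorem relNorm_ne_bot {A : Ideal (𝓞 M)} (hA : A ≠ ⊥) : Ideal.relNorm (𝓞 F) A ≠ ⊥ := by
  rwa [Ne, Ideal.relNorm_eq_bot_iff]

/-- The subgroup of `ClassGroup (𝓞 F)` of classes of relative norms of nonzero ideals of `𝓞 M`. -/
def normClasses : Subgroup (ClassGroup (𝓞 F)) where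
  carrier := {c | ∃ (A : Ideal (𝓞 M)) (hA : A ≠ ⊥), c = cls (Ideal.relNorm (𝓞 F) A) (relNorm_ne_bot F M hA)}
  one_mem' := by
    refine ⟨⊤, top_ne_bot, ?_⟩
    have h : Ideal.relNorm (𝓞 F) (⊤ : Ideal (𝓞 M)) = ⊤ := Ideal.relNorm_top (𝓞 F)
    have : ∀ (I : Ideal (𝓞 F)) (hI : I ≠ ⊥), I = ⊤ → (1 : ClassGroup (𝓞 F)) = cls I hI := by
      rintro I hI rfl
      exact cls_top.symm
    exact this _ _ h
  mul_mem' := by
    rintro c c' ⟨A, hA, rfl⟩ ⟨A', hA', rfl⟩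
    refine ⟨A * A', mul_ne_zero hA hA', ?_⟩
    rw [← cls_mul]
    congr 1
    rw [map_mul]
  inv_mem' := by
    rintro c ⟨A, hA, rfl⟩
    set n := Nat.card (ClassGroup (𝓞 F)) with hn
    have hnpos : 0 < n := Nat.card_pos
    refine ⟨A ^ (n - 1), pow_ne_zero _ hA, ?_⟩
    have h1 : cls (Ideal.relNorm (𝓞 F) A) (relNorm_ne_bot F M hA) ^ n = 1 := pow_card_eq_one'
    have h2 : (cls (Ideal.relNorm (𝓞 F) A) (relNorm_ne_bot F M hA))⁻¹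
        = cls (Ideal.relNorm (𝓞 F) A) (relNorm_ne_bot F M hA) ^ (n - 1) := by
      rw [inv_eq_iff_mul_eq_one, ← pow_succ', Nat.sub_add_cancel hnpos, h1]
    rw [h2, ← cls_pow]
    congr 1
    rw [map_pow]

theorem mem_normClasses {c : ClassGroup (𝓞 F)} :
    c ∈ normClasses F M ↔
      ∃ (A : Ideal (𝓞 M)) (hA : A ≠ ⊥), c = cls (Ideal.relNorm (𝓞 F) A) (relNorm_ne_bot F M hA) :=
  Iff.rfl

theorem cls_relNorm_mem (A : Ideal (𝓞 M)) (hA : A ≠ ⊥) :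
    cls (Ideal.relNorm (𝓞 F) A) (relNorm_ne_bot F M hA) ∈ normClasses F M :=
  ⟨A, hA, rfl⟩

/-! ### The core: kernel form from the approximation inputs -/

section Core

variable {F M}
variable {p : ℕ} {G : Type*} [Group G]

theorem span_singleton_ne_bot' {x : 𝓞 F} (hx : x ≠ 0) : Ideal.span {x} ≠ (⊥ : Ideal (𝓞 F)) := by
  rwa [Ne, Ideal.span_singleton_eq_bot]

theorem mul_sup_eq_top {C C' m : Ideal (𝓞 F)} (h : C ⊔ m = ⊤) (h' : C' ⊔ m = ⊤) :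
    (C * C') ⊔ m = ⊤ := by
  rw [← Ideal.isCoprime_iff_sup_eq] at h h' ⊢
  exact IsCoprime.mul_left h h'

/-- The kernel theorem, with the approximation lemmas as hypotheses. -/
theorem kernel_form_of (hp : p.Prime) (hG : Nat.card G = p) (Φ : Ideal (𝓞 F) → G)
    (m : Ideal (𝓞 F))
    (hmul : ∀ a b : Ideal (𝓞 F), a ≠ ⊥ → b ≠ ⊥ → Φ (a * b) = Φ a * Φ b)
    (hi : ∀ g : 𝓞 F, g ≠ 0 → Ideal.span {g} ⊔ m = ⊤ → Φ (Ideal.span {g}) = 1)
    (hii : ∀ A : Ideal (𝓞 M), A ≠ ⊥ → Φ (Ideal.relNorm (𝓞 F) A) = 1)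
    (hiii : ∃ q : Ideal (𝓞 F), q ≠ ⊥ ∧ q ⊔ m = ⊤ ∧ Φ q ≠ 1)
    (hiv : (normClasses F M).index ≤ p)
    (hAP1 : ∀ (I : Ideal (𝓞 F)) (hI : I ≠ ⊥), ∃ (J : Ideal (𝓞 F)) (hJ : J ≠ ⊥),
      J ⊔ m = ⊤ ∧ cls I hI = cls J hJ)
    (hAPN : ∀ (A : Ideal (𝓞 M)) (hA : A ≠ ⊥), ∃ (A₁ : Ideal (𝓞 M)) (hA₁ : A₁ ≠ ⊥),
      Ideal.relNorm (𝓞 F) A₁ ⊔ m = ⊤ ∧
        cls (Ideal.relNorm (𝓞 F) A) (relNorm_ne_bot F M hA)
          = cls (Ideal.relNorm (𝓞 F) A₁) (relNorm_ne_bot F M hA₁))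
    (hAP2 : ∀ (x y : 𝓞 F) (B C : Ideal (𝓞 F)), x ≠ 0 → y ≠ 0 → B ⊔ m = ⊤ → C ⊔ m = ⊤ →
      Ideal.span {x} * B = Ideal.span {y} * C →
      ∃ x' y' : 𝓞 F, x' ≠ 0 ∧ y' ≠ 0 ∧ Ideal.span {x'} ⊔ m = ⊤ ∧ Ideal.span {y'} ⊔ m = ⊤ ∧
        Ideal.span {x'} * B = Ideal.span {y'} * C)
    (B : Ideal (𝓞 F)) (hB : B ≠ ⊥) (hBm : B ⊔ m = ⊤) (hΦB : Φ B = 1) :
    ∃ (x y : 𝓞 F) (A : Ideal (𝓞 M)), x ≠ 0 ∧ y ≠ 0 ∧ A ≠ ⊥ ∧
      Ideal.span {x} * B = Ideal.span {y} * Ideal.relNorm (𝓞 F) A := by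
  classical
  haveI : Fact p.Prime := ⟨hp⟩
  -- well-definedness on classes of ideals prime to `m`
  have hwd : ∀ (C C' : Ideal (𝓞 F)) (hC : C ≠ ⊥) (hC' : C' ≠ ⊥), C ⊔ m = ⊤ → C' ⊔ m = ⊤ →
      cls C hC = cls C' hC' → Φ C = Φ C' := by
    intro C C' hC hC' hCm hC'm h
    obtain ⟨x, y, hx, hy, hxy⟩ := (cls_eq_cls_iff hC hC').mp h
    obtain ⟨x', y', hx', hy', hx'm, hy'm, h'⟩ := hAP2 x y C C' hx hy hCm hC'm hxy
    have := congrArg Φ h'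
    rw [hmul _ _ (span_singleton_ne_bot' hx') hC, hmul _ _ (span_singleton_ne_bot' hy') hC',
      hi x' hx' hx'm, hi y' hy' hy'm, one_mul, one_mul] at this
    exact this
  -- representatives prime to `m`
  have hrep : ∀ c : ClassGroup (𝓞 F), ∃ (J : Ideal (𝓞 F)) (hJ : J ≠ ⊥), J ⊔ m = ⊤ ∧ cls J hJ = c := by
    intro c
    obtain ⟨I, hI, rfl⟩ := exists_cls_eq c
    obtain ⟨J, hJ, hJm, h⟩ := hAP1 I hI
    exact ⟨J, hJ, hJm, h.symm⟩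
  let θ : ClassGroup (𝓞 F) → G := fun c => Φ (hrep c).choose
  have θ_spec : ∀ (C : Ideal (𝓞 F)) (hC : C ≠ ⊥), C ⊔ m = ⊤ → θ (cls C hC) = Φ C := by
    intro C hC hCm
    obtain ⟨hJ, hJm, hJc⟩ := (hrep (cls C hC)).choose_spec
    exact hwd _ _ hJ hC hJm hCm hJc
  have θ_mul : ∀ c c' : ClassGroup (𝓞 F), θ (c * c') = θ c * θ c' := by
    intro c c'
    obtain ⟨C, hC, hCm, rfl⟩ := hrep c
    obtain ⟨C', hC', hC'm, rfl⟩ := hrep c'
    rw [← cls_mul C C' hC hC', θ_spec _ _ (mul_sup_eq_top hCm hC'm), θ_spec _ _ hCm,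
      θ_spec _ _ hC'm, hmul _ _ hC hC']
  let θhom : ClassGroup (𝓞 F) →* G := MonoidHom.mk' θ θ_mul
  have θhom_apply : ∀ c, θhom c = θ c := fun _ => rfl
  -- norm classes are in the kernel
  have hNker : normClasses F M ≤ θhom.ker := by
    rintro c ⟨A, hA, rfl⟩
    obtain ⟨A₁, hA₁, hA₁m, h⟩ := hAPN A hA
    rw [MonoidHom.mem_ker, θhom_apply, h, θ_spec _ _ hA₁m]
    exact hii A₁ hA₁
  -- surjectivity
  obtain ⟨q, hq, hqm, hΦq⟩ := hiii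
  have hrange : θhom.range = ⊤ := by
    have hz : Subgroup.zpowers (Φ q) = ⊤ := zpowers_eq_top_of_prime_card hG hΦq
    rw [eq_top_iff, ← hz, Subgroup.zpowers_le]
    exact ⟨cls q hq, by rw [θhom_apply, θ_spec _ _ hqm]⟩
  have hkerindex : θhom.ker.index = p := by
    rw [Subgroup.index_ker, hrange]
    rw [← hG]
    exact Nat.card_congr Subgroup.topEquiv.toEquiv
  -- the kernel is the group of norm classes
  have hker_le : θhom.ker ≤ normClasses F M := by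
    have h1 := Subgroup.relIndex_mul_index hNker
    rw [hkerindex] at h1
    have h2 : (normClasses F M).index ≠ 0 := Subgroup.index_ne_zero_of_finite
    have h3 : (normClasses F M).relIndex θhom.ker ≠ 0 := by
      intro h0
      rw [h0, zero_mul] at h1
      exact h2 h1.symm
    have h4 : (normClasses F M).relIndex θhom.ker = 1 := by
      have hppos : 0 < p := hp.pos
      have : (normClasses F M).relIndex θhom.ker * p ≤ 1 * p := by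
        rw [h1, one_mul]; exact hiv
      have := Nat.le_of_mul_le_mul_right this hppos
      omega
    exact Subgroup.relIndex_eq_one.mp h4
  -- conclusion
  have hBker : cls B hB ∈ θhom.ker := by
    rw [MonoidHom.mem_ker, θhom_apply, θ_spec _ _ hBm, hΦB]
  obtain ⟨A, hA, hBA⟩ := hker_le hBker
  obtain ⟨x, y, hx, hy, hxy⟩ := (cls_eq_cls_iff hB (relNorm_ne_bot F M hA)).mp hBA
  exact ⟨x, y, A, hx, hy, hA, hxy⟩

end Core

/-! ### Approximation lemmas in a Dedekind domain -/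

section Approx

variable {R : Type*} [CommRing R] [IsDedekindDomain R]

theorem exists_mul_eq_span (I m : Ideal R) (hI : I ≠ ⊥) (hm : m ≠ ⊥) :
    ∃ (b : R) (J : Ideal R), b ≠ 0 ∧ J ≠ ⊥ ∧ J ⊔ m = ⊤ ∧ Ideal.span {b} = I * J := by
  by_cases hmt : m = ⊤
  · obtain ⟨a, haI, ha0⟩ := Submodule.exists_mem_ne_zero_of_ne_bot hI
    obtain ⟨J, hJ⟩ : I ∣ Ideal.span {a} := Ideal.dvd_iff_le.mpr (I.span_singleton_le_iff_mem.mpr haI)
    refine ⟨a, J, ha0, ?_, by rw [hmt]; exact sup_top_eq _, hJ⟩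
    rintro rfl
    rw [Ideal.mul_bot, Ideal.span_singleton_eq_bot] at hJ
    exact ha0 hJ
  · have hIm : I * m ≠ 0 := mul_ne_zero hI hm
    obtain ⟨b, hb⟩ := IsDedekindDomain.exists_sup_span_eq (I := I * m) (J := I) Ideal.mul_le_left hIm
    have hbI : b ∈ I := by
      rw [← hb]; exact Ideal.mem_sup_right (Ideal.mem_span_singleton_self b)
    obtain ⟨J, hJ⟩ : I ∣ Ideal.span {b} := Ideal.dvd_iff_le.mpr (I.span_singleton_le_iff_mem.mpr hbI)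
    have hsup : J ⊔ m = ⊤ := by
      have h1 : I * (m ⊔ J) = I * ⊤ := by
        rw [Ideal.mul_sup, ← hJ, hb, Ideal.mul_top]
      have h2 := mul_left_cancel₀ hI h1
      rw [sup_comm]; exact h2
    have hb0 : b ≠ 0 := by
      rintro rfl
      apply hmt
      have h1 : I * m = I * ⊤ := by
        rw [Ideal.mul_top]
        have : Ideal.span {(0 : R)} = ⊥ := Ideal.span_singleton_eq_bot.mpr rfl
        rw [this, sup_bot_eq] at hb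
        exact hb
      exact mul_left_cancel₀ hI h1
    refine ⟨b, J, hb0, ?_, hsup, hJ⟩
    rintro rfl
    rw [Ideal.mul_bot, Ideal.span_singleton_eq_bot] at hJ
    exact hb0 hJ

theorem ap1 (I m : Ideal R) (hI : I ≠ ⊥) (hm : m ≠ ⊥) :
    ∃ (J : Ideal R) (x y : R), J ≠ ⊥ ∧ J ⊔ m = ⊤ ∧ x ≠ 0 ∧ y ≠ 0 ∧
      Ideal.span {x} * I = Ideal.span {y} * J := by
  obtain ⟨a, haI, ha0⟩ := Submodule.exists_mem_ne_zero_of_ne_bot hI
  obtain ⟨I', hI'⟩ : I ∣ Ideal.span {a} := Ideal.dvd_iff_le.mpr (I.span_singleton_le_iff_mem.mpr haI)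
  have hI'0 : I' ≠ ⊥ := by
    rintro rfl
    rw [Ideal.mul_bot, Ideal.span_singleton_eq_bot] at hI'
    exact ha0 hI'
  obtain ⟨b, J, hb0, hJ0, hJm, hbJ⟩ := exists_mul_eq_span I' m hI'0 hm
  refine ⟨J, b, a, hJ0, hJm, hb0, ha0, ?_⟩
  rw [hbJ, hI']
  ring

theorem ap2 (m : Ideal R) (hm : m ≠ ⊥) (x y : R) (B C : Ideal R) (hx : x ≠ 0) (hy : y ≠ 0)
    (hB : B ⊔ m = ⊤) (hC : C ⊔ m = ⊤) (h : Ideal.span {x} * B = Ideal.span {y} * C) :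
    ∃ x' y' : R, x' ≠ 0 ∧ y' ≠ 0 ∧ Ideal.span {x'} ⊔ m = ⊤ ∧ Ideal.span {y'} ⊔ m = ⊤ ∧
      Ideal.span {x'} * B = Ideal.span {y'} * C := by
  set D : Ideal R := Ideal.span {x} ⊔ Ideal.span {y} with hD
  have hD0 : D ≠ ⊥ := by
    intro h0
    have : Ideal.span {x} ≤ D := le_sup_left
    rw [h0, le_bot_iff, Ideal.span_singleton_eq_bot] at this
    exact hx this
  obtain ⟨X, hX⟩ : D ∣ Ideal.span {x} := Ideal.dvd_iff_le.mpr le_sup_left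
  obtain ⟨Y, hY⟩ : D ∣ Ideal.span {y} := Ideal.dvd_iff_le.mpr le_sup_right
  have hXY : X ⊔ Y = ⊤ := by
    have h1 : D * (X ⊔ Y) = D * ⊤ := by
      rw [Ideal.mul_sup, ← hX, ← hY, Ideal.mul_top]
    exact mul_left_cancel₀ hD0 h1
  have hXB : X * B = Y * C := by
    have h1 : D * (X * B) = D * (Y * C) := by
      rw [← mul_assoc, ← hX, ← mul_assoc, ← hY, h]
    exact mul_left_cancel₀ hD0 h1
  have hY0 : Y ≠ ⊥ := by
    rintro rfl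
    rw [Ideal.mul_bot, Ideal.span_singleton_eq_bot] at hY
    exact hy hY
  have hcop : IsCoprime X Y := (Ideal.isCoprime_iff_sup_eq).mpr hXY
  have hXC : X ∣ C := by
    apply hcop.dvd_of_dvd_mul_left
    exact ⟨B, hXB.symm⟩
  have hYB : Y ∣ B := by
    apply hcop.symm.dvd_of_dvd_mul_left
    exact ⟨C, hXB⟩
  have hXm : X ⊔ m = ⊤ := by
    rw [eq_top_iff, ← hC]
    exact sup_le_sup_right (Ideal.le_of_dvd hXC) m
  have hYm : Y ⊔ m = ⊤ := by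
    rw [eq_top_iff, ← hB]
    exact sup_le_sup_right (Ideal.le_of_dvd hYB) m
  obtain ⟨y', Z, hy'0, hZ0, hZm, hy'Z⟩ := exists_mul_eq_span Y m hY0 hm
  have hspan : Ideal.span {x * y'} = Ideal.span {y} * (X * Z) := by
    rw [← Ideal.span_singleton_mul_span_singleton, hX, hy'Z, hY]
    ring
  obtain ⟨x', hx'⟩ : y ∣ x * y' := by
    have hle : Ideal.span {x * y'} ≤ Ideal.span {y} := by
      rw [hspan]; exact Ideal.mul_le_left
    exact Ideal.span_singleton_le_span_singleton.mp hle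
  have hx'0 : x' ≠ 0 := by
    rintro rfl
    rw [mul_zero] at hx'
    exact (mul_ne_zero hx hy'0) hx'
  have hx'span : Ideal.span {x'} = X * Z := by
    have h1 : Ideal.span {y} * Ideal.span {x'} = Ideal.span {y} * (X * Z) := by
      rw [Ideal.span_singleton_mul_span_singleton, ← hx', hspan]
    have hy0 : Ideal.span {y} ≠ (⊥ : Ideal R) := by
      rwa [Ne, Ideal.span_singleton_eq_bot]
    exact mul_left_cancel₀ hy0 h1
  have mul_cop : ∀ {P Q : Ideal R}, P ⊔ m = ⊤ → Q ⊔ m = ⊤ → (P * Q) ⊔ m = ⊤ := by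
    intro P Q hP hQ
    rw [← Ideal.isCoprime_iff_sup_eq] at hP hQ ⊢
    exact IsCoprime.mul_left hP hQ
  refine ⟨x', y', hx'0, hy'0, ?_, ?_, ?_⟩
  · rw [hx'span]; exact mul_cop hXm hZm
  · rw [hy'Z]; exact mul_cop hYm hZm
  · rw [hx'span, hy'Z, mul_right_comm, hXB]
    ring

end Approx

/-! ### Relative norms of ideals prime to the modulus -/

section NormCoprime

variable {F M}

theorem map_ne_bot {m : Ideal (𝓞 F)} (hm : m ≠ ⊥) :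
    m.map (algebraMap (𝓞 F) (𝓞 M)) ≠ ⊥ := by
  rwa [Ne, Ideal.map_eq_bot_iff_of_injective (FaithfulSMul.algebraMap_injective (𝓞 F) (𝓞 M))]

/-- If `A` is prime to `m 𝓞_M` then `relNorm A` is prime to `m`. -/
theorem relNorm_sup_eq_top (m : Ideal (𝓞 F)) (A : Ideal (𝓞 M)) (hA : A ≠ ⊥)
    (h : A ⊔ m.map (algebraMap (𝓞 F) (𝓞 M)) = ⊤) : Ideal.relNorm (𝓞 F) A ⊔ m = ⊤ := by
  classical
  by_contra hne
  obtain ⟨𝔮, h𝔮max, h𝔮⟩ := Ideal.exists_le_maximal _ hne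
  have h𝔮prime : 𝔮.IsPrime := h𝔮max.isPrime
  have hN𝔮 : Ideal.relNorm (𝓞 F) A ≤ 𝔮 := le_sup_left.trans h𝔮
  have hm𝔮 : m ≤ 𝔮 := le_sup_right.trans h𝔮
  rw [← Ideal.prod_normalizedFactors_eq_self hA, map_multiset_prod,
    h𝔮prime.multiset_prod_le] at hN𝔮
  obtain ⟨I, hI, hI𝔮⟩ := hN𝔮
  obtain ⟨P, hP, rfl⟩ := Multiset.mem_map.mp hI
  have hPprime : P.IsPrime := Ideal.isPrime_of_prime (UniqueFactorizationMonoid.prime_of_normalized_factor P hP)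
  have hAP : A ≤ P := Ideal.le_of_dvd (UniqueFactorizationMonoid.dvd_of_mem_normalizedFactors hP)
  have hP0 : P ≠ ⊥ := fun h0 => hA (le_bot_iff.mp (h0 ▸ hAP))
  set 𝔭 := P.under (𝓞 F) with h𝔭
  have h𝔭prime : 𝔭.IsPrime := Ideal.IsPrime.under (𝓞 F) P
  obtain ⟨s, hs⟩ := Ideal.exists_relNorm_eq_pow_of_isPrime (R := 𝓞 F) P 𝔭
  rw [hs] at hI𝔮
  have h𝔭𝔮 : 𝔭 ≤ 𝔮 := Ideal.IsPrime.le_of_pow_le hI𝔮
  have h𝔭0 : 𝔭 ≠ ⊥ := by
    intro h0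
    exact hP0 (Ideal.eq_bot_of_comap_eq_bot (R := 𝓞 F) (by rw [← Ideal.under_def]; exact h0))
  have h𝔭max : 𝔭.IsMaximal := Ring.DimensionLEOne.maximalOfPrime h𝔭0 h𝔭prime
  have h𝔭eq : 𝔭 = 𝔮 := h𝔭max.eq_of_le h𝔮max.ne_top h𝔭𝔮
  have hmP : m.map (algebraMap (𝓞 F) (𝓞 M)) ≤ P := by
    rw [Ideal.map_le_iff_le_comap, ← Ideal.under_def, ← h𝔭, h𝔭eq]
    exact hm𝔮
  have : (⊤ : Ideal (𝓞 M)) ≤ P := by
    rw [← h]; exact sup_le hAP hmP
  exact hPprime.ne_top (top_le_iff.mp this)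

/-- Every norm class has a representative `relNorm A₁` prime to `m`. -/
theorem exists_relNorm_coprime (m : Ideal (𝓞 F)) (hm : m ≠ ⊥) (A : Ideal (𝓞 M)) (hA : A ≠ ⊥) :
    ∃ (A₁ : Ideal (𝓞 M)) (hA₁ : A₁ ≠ ⊥), Ideal.relNorm (𝓞 F) A₁ ⊔ m = ⊤ ∧
      cls (Ideal.relNorm (𝓞 F) A) (relNorm_ne_bot F M hA)
        = cls (Ideal.relNorm (𝓞 F) A₁) (relNorm_ne_bot F M hA₁) := by
  obtain ⟨A₁, u, v, hA₁, hA₁m, hu, hv, huv⟩ :=
    ap1 A (m.map (algebraMap (𝓞 F) (𝓞 M))) hA (map_ne_bot hm)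
  refine ⟨A₁, hA₁, relNorm_sup_eq_top m A₁ hA₁ hA₁m, ?_⟩
  rw [cls_eq_cls_iff]
  refine ⟨Algebra.intNorm (𝓞 F) (𝓞 M) u, Algebra.intNorm (𝓞 F) (𝓞 M) v, ?_, ?_, ?_⟩
  · rwa [Ne, Algebra.intNorm_eq_zero]
  · rwa [Ne, Algebra.intNorm_eq_zero]
  · have := congrArg (Ideal.relNorm (𝓞 F)) huv
    rwa [map_mul, map_mul, Ideal.relNorm_singleton, Ideal.relNorm_singleton] at this

end NormCoprime

/-! ### The kernel theorem -/

section Main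

variable {F M}
variable {p : ℕ} {G : Type*} [Group G]

/-- **Kernel theorem** (lead ruling D2). -/
theorem kernel_form (hp : p.Prime) (hG : Nat.card G = p) (Φ : Ideal (𝓞 F) → G)
    (hmul : ∀ a b : Ideal (𝓞 F), a ≠ ⊥ → b ≠ ⊥ → Φ (a * b) = Φ a * Φ b)
    (m : Ideal (𝓞 F)) (hm : m ≠ ⊥)
    (hi : ∀ g : 𝓞 F, g ≠ 0 → Ideal.span {g} ⊔ m = ⊤ → Φ (Ideal.span {g}) = 1)
    (hii : ∀ A : Ideal (𝓞 M), A ≠ ⊥ → Φ (Ideal.relNorm (𝓞 F) A) = 1)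
    (hiii : ∃ q : Ideal (𝓞 F), q ≠ ⊥ ∧ q ⊔ m = ⊤ ∧ Φ q ≠ 1)
    (hiv : (normClasses F M).index ≤ p)
    (B : Ideal (𝓞 F)) (hB : B ≠ ⊥) (hBm : B ⊔ m = ⊤) (hΦB : Φ B = 1) :
    ∃ (x y : 𝓞 F) (A : Ideal (𝓞 M)), x ≠ 0 ∧ y ≠ 0 ∧ A ≠ ⊥ ∧
      Ideal.span {x} * B = Ideal.span {y} * Ideal.relNorm (𝓞 F) A := by
  refine kernel_form_of hp hG Φ m hmul hi hii hiii hiv ?_ ?_ ?_ B hB hBm hΦB
  · intro I hI
    obtain ⟨J, x, y, hJ, hJm, hx, hy, hxy⟩ := ap1 I m hI hm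
    exact ⟨J, hJ, hJm, (cls_eq_cls_iff hI hJ).mpr ⟨x, y, hx, hy, hxy⟩⟩
  · intro A hA
    exact exists_relNorm_coprime m hm A hA
  · intro x y B C hx hy hB hC h
    exact ap2 m hm x y B C hx hy hB hC h

/-- The two-sided form of the kernel theorem. -/
theorem kernel_form' (hp : p.Prime) (hG : Nat.card G = p) (Φ : Ideal (𝓞 F) → G)
    (hmul : ∀ a b : Ideal (𝓞 F), a ≠ ⊥ → b ≠ ⊥ → Φ (a * b) = Φ a * Φ b)
    (m : Ideal (𝓞 F)) (hm : m ≠ ⊥)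
    (hi : ∀ g : 𝓞 F, g ≠ 0 → Ideal.span {g} ⊔ m = ⊤ → Φ (Ideal.span {g}) = 1)
    (hii : ∀ A : Ideal (𝓞 M), A ≠ ⊥ → Φ (Ideal.relNorm (𝓞 F) A) = 1)
    (hiii : ∃ q : Ideal (𝓞 F), q ≠ ⊥ ∧ q ⊔ m = ⊤ ∧ Φ q ≠ 1)
    (hiv : (normClasses F M).index ≤ p)
    (B : Ideal (𝓞 F)) (hB : B ≠ ⊥) (hBm : B ⊔ m = ⊤) (hΦB : Φ B = 1) :
    ∃ (x y : 𝓞 F) (A A' : Ideal (𝓞 M)), x ≠ 0 ∧ y ≠ 0 ∧ A ≠ ⊥ ∧ A' ≠ ⊥ ∧
      Ideal.span {x} * B * Ideal.relNorm (𝓞 F) A = Ideal.span {y} * Ideal.relNorm (𝓞 F) A' := by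
  obtain ⟨x, y, A', hx, hy, hA', h⟩ := kernel_form hp hG Φ hmul m hm hi hii hiii hiv B hB hBm hΦB
  refine ⟨x, y, ⊤, A', hx, hy, top_ne_bot, hA', ?_⟩
  rw [Ideal.relNorm_top, Ideal.mul_top, h]

end Main

end Fermat.Agent.CFT.ClassNormQuot
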