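/-
Program E (S14), E-C2 (helper13): invariant ideals in an unramified Galois extension of number
fields are extended from the base.

`K ⊆ L` number fields, `L/K` Galois with group `G = Gal(L/K)` acting on `𝓞 L` and on its ideals
(Mathlib's canonical pointwise action).  Hypothesis `Unramified K L`: every nonzero prime of `𝓞 L`
has trivial inertia group.

* `ramificationIdx_eq_one`      : `e(P | P ∩ 𝓞 K) = 1`;
* `map_eq_prod_primesOver`      : `q 𝓞 L = ∏_{P | q} P`;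
* `smul_map_algebraMap`         : `σ • (b 𝓞 L) = b 𝓞 L`;
* `exists_eq_map_of_smul_eq`    : a nonzero `G`-invariant ideal of `𝓞 L` is `b 𝓞 L`;
* `exists_map_mul_eq_of_ratio`  : the same for a `G`-invariant "fractional ideal" `A / A'`;
* `map_algebraMap_injective`    : `b ↦ b 𝓞 L` is injective.
-/
import Mathlib

set_option autoImplicit false
set_option linter.style.haveILetI false
set_option linter.unusedSectionVars false

open NumberField
open scoped Pointwise nonZeroDivisors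

namespace Fermat.Agent.CFT.InvariantIdeal

variable (K L : Type*) [Field K] [Field L] [NumberField K] [NumberField L] [Algebra K L]
  [IsGalois K L]

/-- `L/K` is unramified at every finite prime: all inertia groups are trivial. -/
def Unramified : Prop :=
  ∀ P : Ideal (𝓞 L), P.IsPrime → P ≠ ⊥ → P.inertia (L ≃ₐ[K] L) = ⊥

variable {K L}

/-- The ideal of `𝓞 L` generated by an ideal of `𝓞 K`. -/
noncomputable abbrev ext (b : Ideal (𝓞 K)) : Ideal (𝓞 L) := b.map (algebraMap (𝓞 K) (𝓞 L))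

theorem ext_ne_bot {b : Ideal (𝓞 K)} (hb : b ≠ ⊥) : ext (L := L) b ≠ ⊥ :=
  Ideal.map_ne_bot_of_ne_bot hb

/-- Extension of ideals is injective. -/
theorem map_algebraMap_injective :
    Function.Injective (fun b : Ideal (𝓞 K) => ext (L := L) b) := by
  intro b b' h
  exact Ideal.map_injective_of_faithfullyFlat (A := 𝓞 K) (B := 𝓞 L) h

/-- Elements of `G` fix extended ideals. -/
theorem smul_map_algebraMap (σ : L ≃ₐ[K] L) (b : Ideal (𝓞 K)) :
    σ • ext (L := L) b = ext b := by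
  rw [Ideal.pointwise_smul_def, ext, Ideal.map_map]
  congr 1
  ext x
  simp

theorem ramificationIdx_eq_one (hunr : Unramified K L) (P : Ideal (𝓞 L)) [P.IsPrime]
    (hP : P ≠ ⊥) : P.ramificationIdx (𝓞 K) = 1 := by
  set q : Ideal (𝓞 K) := P.under (𝓞 K) with hq
  haveI : P.LiesOver q := ⟨rfl⟩
  have hq0 : q ≠ ⊥ := by
    intro h
    exact hP (Ideal.eq_bot_of_comap_eq_bot h)
  haveI : q.IsMaximal := Ring.DimensionLEOne.maximalOfPrime hq0 inferInstance
  have h1 := Ideal.card_inertia_eq_ramificationIdxIn (G := L ≃ₐ[K] L) q P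
  rw [Ideal.ramificationIdxIn_eq_ramificationIdx q P (L ≃ₐ[K] L), hunr P inferInstance hP] at h1
  rw [← h1]
  simp

/-- In an unramified extension `q 𝓞 L` is the product of the primes over `q`. -/
theorem map_eq_prod_primesOver (hunr : Unramified K L) (q : Ideal (𝓞 K)) [q.IsMaximal]
    (hq : q ≠ ⊥) :
    ext (L := L) q = ∏ P ∈ (q.primesOver (𝓞 L)).toFinset, P := by
  rw [ext, Ideal.map_algebraMap_eq_finsetProd_pow hq]
  refine Finset.prod_congr rfl fun P hP => ?_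
  rw [Set.mem_toFinset] at hP
  haveI : P.IsPrime := hP.1
  haveI : P.LiesOver q := hP.2
  have hP0 : P ≠ ⊥ := Ideal.ne_bot_of_liesOver_of_ne_bot hq P
  rw [ramificationIdx_eq_one hunr P hP0, pow_one]

/-- If a `G`-invariant ideal is divisible by a prime `P`, it is divisible by `(P ∩ 𝓞 K) 𝓞 L`. -/
theorem ext_under_dvd_of_smul_eq (hunr : Unramified K L) {A : Ideal (𝓞 L)}
    (hinv : ∀ σ : L ≃ₐ[K] L, σ • A = A) (P : Ideal (𝓞 L)) [P.IsPrime] (hP : P ≠ ⊥)
    (hAP : A ≤ P) : ext (L := L) (P.under (𝓞 K)) ∣ A := by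
  set q : Ideal (𝓞 K) := P.under (𝓞 K) with hq
  haveI : P.LiesOver q := ⟨rfl⟩
  have hq0 : q ≠ ⊥ := by
    intro h
    exact hP (Ideal.eq_bot_of_comap_eq_bot h)
  haveI : q.IsMaximal := Ring.DimensionLEOne.maximalOfPrime hq0 inferInstance
  rw [map_eq_prod_primesOver hunr q hq0]
  refine Finset.prod_primes_dvd A ?_ ?_
  · intro P' hP'
    rw [Set.mem_toFinset] at hP'
    haveI : P'.IsPrime := hP'.1
    haveI : P'.LiesOver q := hP'.2
    exact Ideal.prime_of_isPrime (Ideal.ne_bot_of_liesOver_of_ne_bot hq0 P') inferInstance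
  · intro P' hP'
    rw [Set.mem_toFinset] at hP'
    haveI : P'.IsPrime := hP'.1
    haveI : P'.LiesOver q := hP'.2
    obtain ⟨σ, rfl⟩ := Ideal.exists_smul_eq_of_isGaloisGroup q P P' (L ≃ₐ[K] L)
    rw [Ideal.dvd_iff_le, ← hinv σ]
    exact Ideal.pointwise_smul_le_pointwise_smul_iff.mpr hAP

/-- **Invariant ideals are extended** (unramified Galois extension of number fields). -/
theorem exists_eq_map_of_smul_eq (hunr : Unramified K L) (A : Ideal (𝓞 L)) (hA : A ≠ ⊥)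
    (hinv : ∀ σ : L ≃ₐ[K] L, σ • A = A) :
    ∃ b : Ideal (𝓞 K), b ≠ ⊥ ∧ A = ext b := by
  revert hA hinv
  refine WellFoundedGT.induction
    (motive := fun A : Ideal (𝓞 L) => A ≠ ⊥ → (∀ σ : L ≃ₐ[K] L, σ • A = A) →
      ∃ b : Ideal (𝓞 K), b ≠ ⊥ ∧ A = ext b) A ?_
  intro A ih hA hinv
  by_cases htop : A = ⊤
  · exact ⟨⊤, top_ne_bot, by rw [htop, ext, Ideal.map_top]⟩
  obtain ⟨P, hPmax, hAP⟩ := Ideal.exists_le_maximal A htop
  haveI : P.IsPrime := hPmax.isPrime
  have hP0 : P ≠ ⊥ := fun h => hA (le_bot_iff.mp (h ▸ hAP))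
  set q : Ideal (𝓞 K) := P.under (𝓞 K) with hq
  have hq0 : q ≠ ⊥ := by
    intro h
    exact hP0 (Ideal.eq_bot_of_comap_eq_bot h)
  obtain ⟨A', hA'⟩ := ext_under_dvd_of_smul_eq hunr hinv P hP0 hAP
  have hqL0 : ext (L := L) q ≠ ⊥ := ext_ne_bot hq0
  have hA'0 : A' ≠ ⊥ := by
    rintro rfl
    exact hA (by rw [hA', Ideal.mul_bot])
  have hqP : ext (L := L) q ≤ P := Ideal.map_le_iff_le_comap.mpr le_rfl
  have hlt : A < A' := by
    refine lt_of_le_of_ne (hA' ▸ Ideal.mul_le_right) ?_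
    intro h
    have h1 : ext (L := L) q * A' = 1 * A' := by rw [one_mul, ← hA', h]
    have h2 : ext (L := L) q = 1 := mul_right_cancel₀ hA'0 h1
    exact hPmax.ne_top (top_le_iff.mp (Ideal.one_eq_top (R := 𝓞 L) ▸ h2 ▸ hqP))
  have hinv' : ∀ σ : L ≃ₐ[K] L, σ • A' = A' := by
    intro σ
    have h1 := hinv σ
    rw [hA', smul_mul', smul_map_algebraMap] at h1
    exact mul_left_cancel₀ hqL0 h1
  obtain ⟨b', hb'0, hb'⟩ := ih A' hlt hA'0 hinv'
  refine ⟨q * b', mul_ne_zero hq0 hb'0, ?_⟩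
  rw [hA', hb', ext, ext, ext, Ideal.map_mul]

/-- The fractional version: if `A / A'` is `G`-invariant then it is extended from `K`. -/
theorem exists_map_mul_eq_of_ratio (hunr : Unramified K L) (A A' : Ideal (𝓞 L)) (hA : A ≠ ⊥)
    (hA' : A' ≠ ⊥) (hinv : ∀ σ : L ≃ₐ[K] L, σ • A * A' = A * σ • A') :
    ∃ b b' : Ideal (𝓞 K), b ≠ ⊥ ∧ b' ≠ ⊥ ∧ A * ext b' = A' * ext b := by
  classical
  -- denominator `D = ∏_τ τ A'`, numerator `N = A * ∏_{τ ≠ 1} τ A'`
  set D : Ideal (𝓞 L) := ∏ τ : L ≃ₐ[K] L, τ • A' with hD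
  set M : Ideal (𝓞 L) := ∏ τ ∈ (Finset.univ.erase (1 : L ≃ₐ[K] L)), τ • A' with hM
  have hsm0 : ∀ τ : L ≃ₐ[K] L, τ • A' ≠ ⊥ := by
    intro τ h
    apply hA'
    have := congrArg (fun I => τ⁻¹ • I) h
    simpa using this
  have hDM : D = A' * M := by
    rw [hD, hM, ← Finset.mul_prod_erase Finset.univ _ (Finset.mem_univ (1 : L ≃ₐ[K] L)), one_smul]
  have hM0 : M ≠ ⊥ := Finset.prod_ne_zero_iff.mpr fun τ _ => hsm0 τ
  have hD0 : D ≠ ⊥ := Finset.prod_ne_zero_iff.mpr fun τ _ => hsm0 τ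
  have hDinv : ∀ σ : L ≃ₐ[K] L, σ • D = D := by
    intro σ
    rw [hD, Finset.smul_prod']
    simp_rw [← mul_smul]
    exact Fintype.prod_equiv (Equiv.mulLeft σ) _ _ fun τ => rfl
  have hNinv : ∀ σ : L ≃ₐ[K] L, σ • (A * M) = A * M := by
    intro σ
    -- `σ(AM) * σA' * A' = σA * D * A' = A * σA' * D = (AM) * A' * σA'`
    have h1 : σ • (A * M) * (σ • A' * A') = (A * M) * (σ • A' * A') := by
      calc σ • (A * M) * (σ • A' * A') = σ • A * A' * (σ • (A' * M)) := by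
            rw [smul_mul', smul_mul']; ring
        _ = A * σ • A' * D := by rw [hinv σ, ← hDM, hDinv σ]
        _ = (A * M) * (σ • A' * A') := by rw [hDM]; ring
    exact mul_right_cancel₀ (mul_ne_zero (hsm0 σ) hA') h1
  obtain ⟨d, hd0, hd⟩ := exists_eq_map_of_smul_eq hunr D hD0 hDinv
  obtain ⟨n, hn0, hn⟩ := exists_eq_map_of_smul_eq hunr (A * M) (mul_ne_zero hA hM0) hNinv
  refine ⟨n, d, hn0, hd0, ?_⟩
  rw [← hd, ← hn, hDM]
  ring

end Fermat.Agent.CFT.InvariantIdeal
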