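/-
Program E (S14), E-C2 (helper13): Hilbert 94 and Chevalley's count for an unramified cyclic
extension `L/K` of number fields with group `G = ⟨s⟩`.

Objects: `unitSmul σ`, `unitD s = (v ↦ s v / v)`, `unitNorm = N : E_L → E_K` on unit groups;
`jCl : Cl_K → Cl_L` (extension), `sCl σ : Cl_L → Cl_L`, `normCl : Cl_L → Cl_K`,
`deltaCl s = (c ↦ s c / c)`.

* `exists_mul_smul_eq_mul`   : Hilbert 90 in the form `N p = N q → ∃ a ≠ 0, p * s a = q * a`;
* `card_H1_le`               : (b) `|ker N / im D| ≤ |ker j|` (Hilbert 94, injective half);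
* `card_fixed_le`            : (c) `|Cl_L^G| ≤ |j Cl_K| * |E_K / N E_L|`;
* `card_range_normCl_le`     : `|N Cl_L| ≤ |Cl_L^G|`;
* `card_range_normCl_mul_le` : `|N Cl_L| * |H¹(E_L)| ≤ h_K * |E_K / N E_L|`;
* `exists_ideal_of_not_surjective`, `exists_ideal_not_norm` : the weak second inequality, given
  the unit Herbrand quotient `|H¹(E_L)| = p |E_K / N E_L|`.
-/
import Mathlib
import Fermat.Agent.CFT.InvariantIdeal

set_option autoImplicit false
set_option linter.unusedSectionVars false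
set_option linter.style.haveILetI false

open NumberField
open scoped Pointwise nonZeroDivisors

namespace Fermat.Agent.CFT.Hilbert94

open Fermat.Agent.CFT.InvariantIdeal

variable {K L : Type} [Field K] [Field L] [NumberField K] [NumberField L] [Algebra K L]
  [IsGalois K L]

theorem coe_smul (σ : L ≃ₐ[K] L) (x : 𝓞 L) : ((σ • x : 𝓞 L) : L) = σ (x : L) := rfl

theorem smul_span_singleton (σ : L ≃ₐ[K] L) (x : 𝓞 L) :
    σ • Ideal.span {x} = Ideal.span {σ • x} := by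
  rw [Ideal.pointwise_smul_def, Ideal.map_span]
  simp

theorem norm_smul (σ : L ≃ₐ[K] L) (x : 𝓞 L) :
    RingOfIntegers.norm K (σ • x) = RingOfIntegers.norm K x := by
  apply RingOfIntegers.ext
  simp only [RingOfIntegers.coe_norm, coe_smul]
  exact Algebra.norm_eq_of_algEquiv σ _

theorem intNorm_eq_norm (x : 𝓞 L) :
    Algebra.intNorm (𝓞 K) (𝓞 L) x = RingOfIntegers.norm K x := by
  apply RingOfIntegers.ext
  rw [RingOfIntegers.coe_norm]
  exact Algebra.algebraMap_intNorm (A := 𝓞 K) (K := K) (L := L) (B := 𝓞 L) x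

theorem relNorm_span_singleton (x : 𝓞 L) :
    Ideal.relNorm (𝓞 K) (Ideal.span {x}) = Ideal.span {RingOfIntegers.norm K x} := by
  rw [Ideal.relNorm_singleton, intNorm_eq_norm]

theorem norm_ne_zero {x : 𝓞 L} (hx : x ≠ 0) : RingOfIntegers.norm K x ≠ 0 := by
  rw [← intNorm_eq_norm]
  exact Algebra.intNorm_ne_zero.mpr hx

/-- Hilbert 90, integral fraction form: if `N p = N q` then `p / q = a / s a`. -/
theorem exists_mul_smul_eq_mul {s : L ≃ₐ[K] L} (hs : ∀ τ, τ ∈ Subgroup.zpowers s)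
    (p q : 𝓞 L) (hq : q ≠ 0)
    (hN : RingOfIntegers.norm K p = RingOfIntegers.norm K q) :
    ∃ a : 𝓞 L, a ≠ 0 ∧ p * s • a = q * a := by
  have : IsCyclic (L ≃ₐ[K] L) := ⟨⟨s, hs⟩⟩
  have hqL : (q : L) ≠ 0 := by
    intro h; exact hq (RingOfIntegers.ext (by simpa using h))
  have hNq : Algebra.norm K (q : L) ≠ 0 := by
    rw [Algebra.norm_ne_zero_iff]; exact hqL
  have hnorm : Algebra.norm K ((p : L) / (q : L)) = 1 := by
    have h1 : Algebra.norm K ((p : L) / (q : L)) * Algebra.norm K (q : L) =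
        Algebra.norm K (p : L) := by
      rw [← map_mul, div_mul_cancel₀ _ hqL]
    have := congrArg (fun z : 𝓞 K => (z : K)) hN
    simp only [RingOfIntegers.coe_norm] at this
    rw [this] at h1
    exact mul_right_cancel₀ hNq (h1.trans (one_mul _).symm)
  obtain ⟨y, hy⟩ := groupCohomology.exists_div_of_norm_eq_one (K := K) (L := L) hs hnorm
  obtain ⟨a, b, hb, hab⟩ := IsFractionRing.div_surjective (A := 𝓞 L) (y : L)
  have hb0 : b ≠ 0 := nonZeroDivisors.ne_zero hb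
  obtain ⟨c, hc⟩ := RingOfIntegers.dvd_norm K b
  have hbL : (algebraMap (𝓞 L) L b) ≠ 0 := by
    simp [hb0]
  have hy0 : (y : L) ≠ 0 := y.ne_zero
  have ha0 : a ≠ 0 := by
    rintro rfl
    rw [map_zero, zero_div] at hab
    exact hy0 hab.symm
  have hn0 : algebraMap (𝓞 K) (𝓞 L) (RingOfIntegers.norm K b) ≠ 0 := by
    intro h
    have := (FaithfulSMul.algebraMap_injective (𝓞 K) (𝓞 L)) (h.trans (map_zero _).symm)
    exact norm_ne_zero hb0 this
  have hc0 : c ≠ 0 := by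
    rintro rfl
    rw [mul_zero] at hc
    exact hn0 hc
  refine ⟨a * c, mul_ne_zero ha0 hc0, ?_⟩
  -- `a * c = y * n`, `n = N b ∈ K`
  set n : 𝓞 L := algebraMap (𝓞 K) (𝓞 L) (RingOfIntegers.norm K b) with hn
  have hacL : ((a * c : 𝓞 L) : L) = (y : L) * (n : L) := by
    rw [hc, ← hab]
    push_cast
    field_simp
  have hsn : s • n = n := by simp [hn]
  apply RingOfIntegers.ext
  have h1 : ((s • (a * c) : 𝓞 L) : L) = s (y : L) * (n : L) := by
    rw [coe_smul, hacL, map_mul]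
    congr 1
    have := congrArg (fun z : 𝓞 L => (z : L)) hsn
    simpa [coe_smul] using this
  have hsy0 : s (y : L) ≠ 0 := by
    simp
  have hy' : (y : L) * (q : L) = (p : L) * s (y : L) := by
    have := hy
    field_simp at this
    linear_combination this
  have e1 : ((p * s • (a * c) : 𝓞 L) : L) = (p : L) * ((s • (a * c) : 𝓞 L) : L) := by
    simp only [RingOfIntegers.coe_eq_algebraMap, map_mul]
  have e2 : ((q * (a * c) : 𝓞 L) : L) = (q : L) * ((a * c : 𝓞 L) : L) := by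
    simp only [RingOfIntegers.coe_eq_algebraMap, map_mul]
  rw [e1, e2, h1, hacL]
  linear_combination (-(n : L)) * hy'


/-- If the generator `s` fixes an ideal then every element of the (cyclic) group does. -/
theorem smul_eq_of_generator {s : L ≃ₐ[K] L} (hs : ∀ τ, τ ∈ Subgroup.zpowers s)
    {A : Ideal (𝓞 L)} (h : s • A = A) (σ : L ≃ₐ[K] L) : σ • A = A := by
  have h1 : s ∈ MulAction.stabilizer (L ≃ₐ[K] L) A := MulAction.mem_stabilizer_iff.mpr h
  have h2 : Subgroup.zpowers s ≤ MulAction.stabilizer (L ≃ₐ[K] L) A :=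
    (Subgroup.zpowers_le).mpr h1
  exact MulAction.mem_stabilizer_iff.mp (h2 (hs σ))

/-- (b), existence: a unit `u` of relative norm one is `ε / s ε` with `(ε)` extended from `K`. -/
theorem exists_gen_of_norm_eq_one {s : L ≃ₐ[K] L} (hs : ∀ τ, τ ∈ Subgroup.zpowers s)
    (hunr : Unramified K L) (u : (𝓞 L)ˣ) (hu : RingOfIntegers.norm K (u : 𝓞 L) = 1) :
    ∃ (ε : 𝓞 L) (b : Ideal (𝓞 K)), ε ≠ 0 ∧ b ≠ ⊥ ∧ (u : 𝓞 L) * s • ε = ε ∧
      Ideal.span {ε} = ext b := by
  obtain ⟨ε, hε0, hε⟩ := exists_mul_smul_eq_mul hs (u : 𝓞 L) 1 one_ne_zero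
    (by rw [hu, map_one])
  rw [one_mul] at hε
  have hinv : s • Ideal.span {ε} = Ideal.span {ε} := by
    rw [smul_span_singleton, Ideal.span_singleton_eq_span_singleton]
    exact ⟨u, by rw [mul_comm]; exact hε⟩
  have hne : Ideal.span {ε} ≠ (⊥ : Ideal (𝓞 L)) := by
    rw [Ne, Ideal.span_singleton_eq_bot]; exact hε0
  obtain ⟨b, hb0, hb⟩ := exists_eq_map_of_smul_eq hunr _ hne (smul_eq_of_generator hs hinv)
  exact ⟨ε, b, hε0, hb0, hε, hb⟩

/-- (b), injectivity: if the ideals attached to `u`, `u'` are in the same class of `K`, then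
`u / u' = s w / w` for a unit `w`. -/
theorem exists_unit_of_mk0_eq {s : L ≃ₐ[K] L} (u u' : (𝓞 L)ˣ) (ε ε' : 𝓞 L)
    (b b' : Ideal (𝓞 K)) (hε : ε ≠ 0) (hb : b ≠ ⊥) (hb' : b' ≠ ⊥)
    (h1 : (u : 𝓞 L) * s • ε = ε) (h1' : (u' : 𝓞 L) * s • ε' = ε')
    (h2 : Ideal.span {ε} = ext b) (h2' : Ideal.span {ε'} = ext b')
    (hcl : ClassGroup.mk0 ⟨b, mem_nonZeroDivisors_of_ne_zero hb⟩ =
      ClassGroup.mk0 ⟨b', mem_nonZeroDivisors_of_ne_zero hb'⟩) :
    ∃ w : (𝓞 L)ˣ, (u : 𝓞 L) * w = u' * s • (w : 𝓞 L) := by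
  obtain ⟨x, y, hx, hy, hxy⟩ := ClassGroup.mk0_eq_mk0_iff.mp hcl
  simp only at hxy
  set x' : 𝓞 L := algebraMap (𝓞 K) (𝓞 L) x with hx'
  set y' : 𝓞 L := algebraMap (𝓞 K) (𝓞 L) y with hy'
  have hx'0 : x' ≠ 0 := by
    intro h
    exact hx ((FaithfulSMul.algebraMap_injective (𝓞 K) (𝓞 L)) (h.trans (map_zero _).symm))
  have hsx : s • x' = x' := by simp [hx']
  have hsy : s • y' = y' := by simp [hy']
  have hL : Ideal.span {x' * ε} = Ideal.span {y' * ε'} := by
    have := congrArg (fun I : Ideal (𝓞 K) => ext (L := L) I) hxy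
    simp only [ext, Ideal.map_mul, Ideal.map_span, Set.image_singleton] at this
    rw [← Ideal.span_singleton_mul_span_singleton, ← Ideal.span_singleton_mul_span_singleton,
      h2, h2']
    exact this
  obtain ⟨w, hw⟩ := Ideal.span_singleton_eq_span_singleton.mp hL
  refine ⟨w, ?_⟩
  -- `x' ε w = y' ε'`; apply `s` and multiply by `u u'`.
  have hsw : x' * s • ε * s • (w : 𝓞 L) = y' * s • ε' := by
    have := congrArg (fun z : 𝓞 L => s • z) hw
    simp only [smul_mul', hsx, hsy] at this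
    exact this
  have key : (x' * ε) * ((u : 𝓞 L) * w) = (x' * ε) * (u' * s • (w : 𝓞 L)) := by
    calc (x' * ε) * ((u : 𝓞 L) * w) = (x' * ε * w) * u := by ring
      _ = y' * ε' * u := by rw [hw]
      _ = y' * ((u' : 𝓞 L) * s • ε') * u := by rw [h1']
      _ = (y' * s • ε') * (u' * u) := by ring
      _ = (x' * s • ε * s • (w : 𝓞 L)) * (u' * u) := by rw [hsw]
      _ = (x' * ((u : 𝓞 L) * s • ε)) * (u' * s • (w : 𝓞 L)) := by ring
      _ = (x' * ε) * (u' * s • (w : 𝓞 L)) := by rw [h1]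
  exact mul_left_cancel₀ (mul_ne_zero hx'0 hε) key


/-! ### Unit-level objects -/

variable (K L)

/-- The action of `σ ∈ Gal(L/K)` on the unit group of `𝓞 L`. -/
noncomputable def unitSmul (σ : L ≃ₐ[K] L) : (𝓞 L)ˣ →* (𝓞 L)ˣ :=
  Units.map (MulSemiringAction.toRingHom (L ≃ₐ[K] L) (𝓞 L) σ : 𝓞 L →* 𝓞 L)

/-- `D = s - 1` on units: `v ↦ s v / v`. -/
noncomputable def unitD (s : L ≃ₐ[K] L) : (𝓞 L)ˣ →* (𝓞 L)ˣ :=
  unitSmul K L s / MonoidHom.id _

/-- The relative norm on units. -/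
noncomputable def unitNorm : (𝓞 L)ˣ →* (𝓞 K)ˣ := Units.map (RingOfIntegers.norm K)

variable {K L}

@[simp] theorem coe_unitSmul (σ : L ≃ₐ[K] L) (v : (𝓞 L)ˣ) :
    ((unitSmul K L σ v : (𝓞 L)ˣ) : 𝓞 L) = σ • (v : 𝓞 L) := rfl

theorem unitD_apply (s : L ≃ₐ[K] L) (v : (𝓞 L)ˣ) : unitD K L s v = unitSmul K L s v / v := rfl

@[simp] theorem coe_unitNorm (v : (𝓞 L)ˣ) :
    ((unitNorm K L v : (𝓞 K)ˣ) : 𝓞 K) = RingOfIntegers.norm K (v : 𝓞 L) := rfl

theorem mem_ker_unitNorm {u : (𝓞 L)ˣ} :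
    u ∈ (unitNorm K L).ker ↔ RingOfIntegers.norm K (u : 𝓞 L) = 1 := by
  rw [MonoidHom.mem_ker, ← Units.val_inj]
  rfl

/-- `D` lands in the kernel of the norm. -/
theorem unitD_range_le_ker (s : L ≃ₐ[K] L) : (unitD K L s).range ≤ (unitNorm K L).ker := by
  rintro _ ⟨v, rfl⟩
  rw [MonoidHom.mem_ker, unitD_apply, map_div, div_eq_one, ← Units.val_inj]
  simp [norm_smul]

/-- `j : Cl_K → Cl_L`, extension of ideal classes. -/
noncomputable abbrev jCl : ClassGroup (𝓞 K) →* ClassGroup (𝓞 L) :=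
  ClassGroup.extendedHom (𝓞 K) (𝓞 L)

variable (K L) in
theorem jCl_mk0 (b : Ideal (𝓞 K)) (hb : b ≠ ⊥) :
    jCl (K := K) (L := L) (ClassGroup.mk0 ⟨b, mem_nonZeroDivisors_of_ne_zero hb⟩) =
      ClassGroup.mk0 ⟨ext b, mem_nonZeroDivisors_of_ne_zero (ext_ne_bot hb)⟩ := by
  rw [jCl, ClassGroup.extendedHom_mk0]

/-- **Hilbert 94 (injective half)**: `H¹(G, E_L) = ker N / im D` injects into the capitulation
kernel `ker (Cl_K → Cl_L)`. -/
theorem card_H1_le {s : L ≃ₐ[K] L} (hs : ∀ τ, τ ∈ Subgroup.zpowers s) (hunr : Unramified K L) :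
    Nat.card (↥(unitNorm K L).ker ⧸ ((unitD K L s).range.subgroupOf (unitNorm K L).ker)) ≤
      Nat.card (jCl (K := K) (L := L)).ker := by
  classical
  -- choice of data for every unit of norm one
  have hex : ∀ u : ↥(unitNorm K L).ker, ∃ (ε : 𝓞 L) (b : Ideal (𝓞 K)), ε ≠ 0 ∧ b ≠ ⊥ ∧
      ((u : (𝓞 L)ˣ) : 𝓞 L) * s • ε = ε ∧ Ideal.span {ε} = ext b := fun u =>
    exists_gen_of_norm_eq_one hs hunr u (mem_ker_unitNorm.mp u.2)
  choose ε b hε hb h1 h2 using hex
  have hker : ∀ u, ClassGroup.mk0 ⟨b u, mem_nonZeroDivisors_of_ne_zero (hb u)⟩ ∈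
      (jCl (K := K) (L := L)).ker := by
    intro u
    rw [MonoidHom.mem_ker, jCl_mk0 K L (b u) (hb u), ClassGroup.mk0_eq_one_iff]
    rw [← h2 u]
    exact ⟨⟨ε u, rfl⟩⟩
  let f : ↥(unitNorm K L).ker → (jCl (K := K) (L := L)).ker := fun u => ⟨_, hker u⟩
  let g : (↥(unitNorm K L).ker ⧸ ((unitD K L s).range.subgroupOf (unitNorm K L).ker)) →
      (jCl (K := K) (L := L)).ker := fun q => f q.out
  refine Nat.card_le_card_of_injective g ?_
  intro q q' hqq
  have hcl : ClassGroup.mk0 ⟨b q.out, mem_nonZeroDivisors_of_ne_zero (hb _)⟩ =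
      ClassGroup.mk0 ⟨b q'.out, mem_nonZeroDivisors_of_ne_zero (hb _)⟩ :=
    congrArg Subtype.val hqq
  obtain ⟨w, hw⟩ := exists_unit_of_mk0_eq (s := s) _ _ _ _ _ _ (hε _) (hb _) (hb _) (h1 _) (h1' := h1 _)
    (h2 _) (h2 _) hcl
  rw [← QuotientGroup.out_eq' q, ← QuotientGroup.out_eq' q', QuotientGroup.eq,
    Subgroup.mem_subgroupOf]
  have hwU : ((q.out : ↥(unitNorm K L).ker) : (𝓞 L)ˣ) * w =
      ((q'.out : ↥(unitNorm K L).ker) : (𝓞 L)ˣ) * unitSmul K L s w := Units.ext hw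
  refine ⟨w⁻¹, ?_⟩
  rw [map_inv, unitD_apply, inv_div]
  push_cast
  rw [eq_comm, inv_mul_eq_iff_eq_mul, ← mul_div_assoc, eq_div_iff_mul_eq']
  exact hwU.symm


/-! ### Homomorphisms of class groups induced by multiplicative maps on ideals -/

section ClassHom

variable {R R' : Type*} [CommRing R] [IsDedekindDomain R] [CommRing R'] [IsDedekindDomain R']

theorem span_singleton_ne_bot {x : R} (hx : x ≠ 0) : (Ideal.span {x} : Ideal R) ≠ ⊥ := by
  rwa [Ne, Ideal.span_singleton_eq_bot]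

/-- A multiplicative map on ideals preserving nonzero ideals and principal ideals induces a
homomorphism of class groups. -/
theorem exists_classHom (φ : Ideal R → Ideal R') (h0 : ∀ I, I ≠ ⊥ → φ I ≠ ⊥)
    (hmul : ∀ I J, φ (I * J) = φ I * φ J)
    (hprinc : ∀ x : R, x ≠ 0 → ∃ y : R', φ (Ideal.span {x}) = Ideal.span {y}) :
    ∃ Φ : ClassGroup R →* ClassGroup R', ∀ (I : Ideal R) (hI : I ≠ ⊥),
      Φ (ClassGroup.mk0 ⟨I, mem_nonZeroDivisors_of_ne_zero hI⟩) =
        ClassGroup.mk0 ⟨φ I, mem_nonZeroDivisors_of_ne_zero (h0 I hI)⟩ := by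
  classical
  -- the map on nonzero ideals
  let F : (Ideal R)⁰ → ClassGroup R' := fun I =>
    ClassGroup.mk0 ⟨φ I.1, mem_nonZeroDivisors_of_ne_zero (h0 I.1 (nonZeroDivisors.ne_zero I.2))⟩
  have hFmul : ∀ I J : (Ideal R)⁰, F (I * J) = F I * F J := by
    intro I J
    simp only [F]
    rw [← map_mul]
    congr 1
    exact Subtype.ext (hmul I.1 J.1)
  have hFprinc : ∀ (x : R) (hx : x ≠ 0), F ⟨Ideal.span {x}, mem_nonZeroDivisors_of_ne_zero
      (span_singleton_ne_bot hx)⟩ = 1 := by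
    intro x hx
    obtain ⟨y, hy⟩ := hprinc x hx
    simp only [F]
    rw [ClassGroup.mk0_eq_one_iff]
    exact ⟨⟨y, hy⟩⟩
  have hFwd : ∀ I J : (Ideal R)⁰, ClassGroup.mk0 I = ClassGroup.mk0 J → F I = F J := by
    intro I J hIJ
    obtain ⟨x, y, hx, hy, hxy⟩ := ClassGroup.mk0_eq_mk0_iff.mp hIJ
    have e : (⟨Ideal.span {x}, mem_nonZeroDivisors_of_ne_zero
        (span_singleton_ne_bot hx)⟩ : (Ideal R)⁰) * I =
        ⟨Ideal.span {y}, mem_nonZeroDivisors_of_ne_zero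
        (span_singleton_ne_bot hy)⟩ * J := Subtype.ext hxy
    have := congrArg F e
    rw [hFmul, hFmul, hFprinc x hx, hFprinc y hy, one_mul, one_mul] at this
    exact this
  have hsurj := ClassGroup.mk0_surjective (R := R)
  let Φ : ClassGroup R → ClassGroup R' := fun c => F (hsurj c).choose
  have hΦ : ∀ I : (Ideal R)⁰, Φ (ClassGroup.mk0 I) = F I := fun I =>
    hFwd _ _ (hsurj (ClassGroup.mk0 I)).choose_spec
  refine ⟨MonoidHom.mk' Φ ?_, ?_⟩
  · intro c d
    obtain ⟨I, rfl⟩ := hsurj c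
    obtain ⟨J, rfl⟩ := hsurj d
    rw [← map_mul, hΦ, hΦ, hΦ, hFmul]
  · intro I hI
    exact hΦ ⟨I, _⟩

end ClassHom


/-! ### The Galois action and the norm on the class group of `L` -/

theorem smul_ideal_ne_bot (σ : L ≃ₐ[K] L) {A : Ideal (𝓞 L)} (hA : A ≠ ⊥) : σ • A ≠ ⊥ := by
  intro h
  apply hA
  have := congrArg (fun I => σ⁻¹ • I) h
  simpa using this

theorem relNorm_ne_bot {A : Ideal (𝓞 L)} (hA : A ≠ ⊥) : Ideal.relNorm (𝓞 K) A ≠ ⊥ := by
  rw [Ne, Ideal.relNorm_eq_bot_iff]; exact hA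

variable (K L) in
theorem exists_sCl (σ : L ≃ₐ[K] L) :
    ∃ Φ : ClassGroup (𝓞 L) →* ClassGroup (𝓞 L), ∀ (A : Ideal (𝓞 L)) (hA : A ≠ ⊥),
      Φ (ClassGroup.mk0 ⟨A, mem_nonZeroDivisors_of_ne_zero hA⟩) =
        ClassGroup.mk0 ⟨σ • A, mem_nonZeroDivisors_of_ne_zero (smul_ideal_ne_bot σ hA)⟩ :=
  exists_classHom (fun A => σ • A) (fun _ hA => smul_ideal_ne_bot σ hA)
    (fun I J => smul_mul' σ I J) (fun x _ => ⟨σ • x, smul_span_singleton σ x⟩)

variable (K L) in
theorem exists_normCl :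
    ∃ Φ : ClassGroup (𝓞 L) →* ClassGroup (𝓞 K), ∀ (A : Ideal (𝓞 L)) (hA : A ≠ ⊥),
      Φ (ClassGroup.mk0 ⟨A, mem_nonZeroDivisors_of_ne_zero hA⟩) =
        ClassGroup.mk0 ⟨Ideal.relNorm (𝓞 K) A,
          mem_nonZeroDivisors_of_ne_zero (relNorm_ne_bot hA)⟩ :=
  exists_classHom (fun A => Ideal.relNorm (𝓞 K) A) (fun _ hA => relNorm_ne_bot hA)
    (fun I J => map_mul _ I J) (fun x _ => ⟨_, relNorm_span_singleton x⟩)

variable (K L) in
/-- The action of `σ` on `Cl_L`. -/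
noncomputable def sCl (σ : L ≃ₐ[K] L) : ClassGroup (𝓞 L) →* ClassGroup (𝓞 L) :=
  (exists_sCl K L σ).choose

variable (K L) in
/-- The norm `Cl_L → Cl_K`. -/
noncomputable def normCl : ClassGroup (𝓞 L) →* ClassGroup (𝓞 K) := (exists_normCl K L).choose

theorem sCl_mk0 (σ : L ≃ₐ[K] L) (A : Ideal (𝓞 L)) (hA : A ≠ ⊥) :
    sCl K L σ (ClassGroup.mk0 ⟨A, mem_nonZeroDivisors_of_ne_zero hA⟩) =
      ClassGroup.mk0 ⟨σ • A, mem_nonZeroDivisors_of_ne_zero (smul_ideal_ne_bot σ hA)⟩ :=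
  (exists_sCl K L σ).choose_spec A hA

theorem normCl_mk0 (A : Ideal (𝓞 L)) (hA : A ≠ ⊥) :
    normCl K L (ClassGroup.mk0 ⟨A, mem_nonZeroDivisors_of_ne_zero hA⟩) =
      ClassGroup.mk0 ⟨Ideal.relNorm (𝓞 K) A,
        mem_nonZeroDivisors_of_ne_zero (relNorm_ne_bot hA)⟩ :=
  (exists_normCl K L).choose_spec A hA

/-- every class is the class of a nonzero integral ideal -/
theorem exists_mk0_eq (c : ClassGroup (𝓞 L)) :
    ∃ (A : Ideal (𝓞 L)) (hA : A ≠ ⊥), ClassGroup.mk0 ⟨A, mem_nonZeroDivisors_of_ne_zero hA⟩ = c := by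
  obtain ⟨I, rfl⟩ := ClassGroup.mk0_surjective c
  exact ⟨I.1, nonZeroDivisors.ne_zero I.2, rfl⟩

theorem normCl_sCl (σ : L ≃ₐ[K] L) (c : ClassGroup (𝓞 L)) :
    normCl K L (sCl K L σ c) = normCl K L c := by
  obtain ⟨A, hA, rfl⟩ := exists_mk0_eq c
  rw [sCl_mk0 σ A hA, normCl_mk0 _ (smul_ideal_ne_bot σ hA), normCl_mk0 A hA]
  congr 2
  exact Ideal.relNorm_smul (R := 𝓞 K) σ A

theorem sCl_jCl (σ : L ≃ₐ[K] L) (c : ClassGroup (𝓞 K)) :
    sCl K L σ (jCl (K := K) (L := L) c) = jCl c := by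
  obtain ⟨I, rfl⟩ := ClassGroup.mk0_surjective c
  have hI : I.1 ≠ ⊥ := nonZeroDivisors.ne_zero I.2
  have : I = ⟨I.1, mem_nonZeroDivisors_of_ne_zero hI⟩ := rfl
  rw [this, jCl_mk0 K L I.1 hI, sCl_mk0 σ _ (ext_ne_bot hI)]
  congr 2
  exact smul_map_algebraMap σ I.1


/-! ### (c): ambiguous classes modulo extended classes inject into `E_K / N E_L` -/

/-- If `I / I'` is fixed by the generator `s`, it is fixed by the whole group. -/
theorem ratio_smul_of_generator {s : L ≃ₐ[K] L} (hs : ∀ τ, τ ∈ Subgroup.zpowers s)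
    {I I' : Ideal (𝓞 L)} (hI' : I' ≠ ⊥) (h : s • I * I' = I * s • I') (σ : L ≃ₐ[K] L) :
    σ • I * I' = I * σ • I' := by
  let S : Subgroup (L ≃ₐ[K] L) :=
    { carrier := {σ | σ • I * I' = I * σ • I'}
      one_mem' := by simp
      mul_mem' := by
        intro σ τ hσ hτ
        simp only [Set.mem_ofPred_eq] at hσ hτ ⊢
        have h1 : σ • (τ • I) * σ • I' = σ • I * σ • (τ • I') := by
          rw [← smul_mul', hτ, smul_mul']
        have h2 : ((σ * τ) • I * I') * σ • I' = (I * (σ * τ) • I') * σ • I' := by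
          rw [mul_smul, mul_smul]
          calc σ • τ • I * I' * σ • I' = (σ • τ • I * σ • I') * I' := by ring
            _ = (σ • I * I') * σ • τ • I' := by rw [h1]; ring
            _ = I * σ • τ • I' * σ • I' := by rw [hσ]; ring
        exact mul_right_cancel₀ (smul_ideal_ne_bot σ hI') h2
      inv_mem' := by
        intro σ hσ
        simp only [Set.mem_ofPred_eq] at hσ ⊢
        have := congrArg (fun J => σ⁻¹ • J) hσ
        simp only [smul_mul', inv_smul_smul] at this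
        exact this.symm }
  have h1 : s ∈ S := h
  have h2 : Subgroup.zpowers s ≤ S := Subgroup.zpowers_le.mpr h1
  exact h2 (hs σ)

/-- (c), data attached to an ambiguous class. -/
theorem exists_data_of_fixed (s : L ≃ₐ[K] L) (A : Ideal (𝓞 L)) (hA : A ≠ ⊥)
    (hfix : ClassGroup.mk0 ⟨s • A, mem_nonZeroDivisors_of_ne_zero (smul_ideal_ne_bot s hA)⟩ =
      ClassGroup.mk0 ⟨A, mem_nonZeroDivisors_of_ne_zero hA⟩) :
    ∃ (x y : 𝓞 L) (w : (𝓞 K)ˣ), x ≠ 0 ∧ y ≠ 0 ∧
      Ideal.span {x} * s • A = Ideal.span {y} * A ∧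
      RingOfIntegers.norm K y = w * RingOfIntegers.norm K x := by
  obtain ⟨x, y, hx, hy, hxy⟩ := ClassGroup.mk0_eq_mk0_iff.mp hfix
  simp only at hxy
  have hN := congrArg (fun I => Ideal.relNorm (𝓞 K) I) hxy
  simp only [map_mul, relNorm_span_singleton, Ideal.relNorm_smul] at hN
  have hN' : Ideal.span {RingOfIntegers.norm K x} = Ideal.span {RingOfIntegers.norm K y} :=
    mul_right_cancel₀ (relNorm_ne_bot (K := K) hA) hN
  obtain ⟨w, hw⟩ := Ideal.span_singleton_eq_span_singleton.mp hN'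
  exact ⟨x, y, w, hx, hy, hxy, by rw [← hw, mul_comm]⟩

/-- (c), injectivity: two ambiguous classes with the same invariant in `E_K / N E_L` differ by
an extended class. -/
theorem exists_ext_of_norm_eq {s : L ≃ₐ[K] L} (hs : ∀ τ, τ ∈ Subgroup.zpowers s)
    (hunr : Unramified K L) (A A' : Ideal (𝓞 L)) (hA : A ≠ ⊥) (hA' : A' ≠ ⊥)
    (x y x' y' : 𝓞 L) (w w' : (𝓞 K)ˣ) (v : (𝓞 L)ˣ) (hx : x ≠ 0) (hx' : x' ≠ 0) (hy' : y' ≠ 0)
    (h : Ideal.span {x} * s • A = Ideal.span {y} * A)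
    (h' : Ideal.span {x'} * s • A' = Ideal.span {y'} * A')
    (hN : RingOfIntegers.norm K y = w * RingOfIntegers.norm K x)
    (hN' : RingOfIntegers.norm K y' = w' * RingOfIntegers.norm K x')
    (hw : w = w' * unitNorm K L v) :
    ∃ (a : 𝓞 L) (b b' : Ideal (𝓞 K)), a ≠ 0 ∧ b ≠ ⊥ ∧ b' ≠ ⊥ ∧
      Ideal.span {a} * A * ext b' = A' * ext b := by
  have hv0 : (v : 𝓞 L) ≠ 0 := v.ne_zero
  obtain ⟨a, ha0, ha⟩ := exists_mul_smul_eq_mul hs (y * x') (x * y' * v)
    (mul_ne_zero (mul_ne_zero hx hy') hv0) (by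
      rw [map_mul, map_mul, map_mul, hN, hN', hw]
      push_cast
      rw [coe_unitNorm]
      ring)
  have hsa0 : s • a ≠ 0 := by
    intro h0
    apply ha0
    have := congrArg (fun z => s⁻¹ • z) h0
    simpa using this
  have hratio : s • (Ideal.span {a} * A) * A' = (Ideal.span {a} * A) * s • A' := by
    have hne : Ideal.span {x} * Ideal.span {x'} ≠ (⊥ : Ideal (𝓞 L)) :=
      mul_ne_zero (span_singleton_ne_bot hx) (span_singleton_ne_bot hx')
    have hass : Ideal.span {s • a * (y * x')} = Ideal.span {a * (y' * x)} := by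
      rw [Ideal.span_singleton_eq_span_singleton]
      refine ⟨v⁻¹, ?_⟩
      have : s • a * (y * x') = a * (y' * x) * v := by
        rw [mul_comm (s • a), ha]; ring
      rw [this, mul_assoc, Units.mul_inv, mul_one]
    apply mul_left_cancel₀ hne
    calc Ideal.span {x} * Ideal.span {x'} * (s • (Ideal.span {a} * A) * A')
        = Ideal.span {s • a} * (Ideal.span {x} * s • A) * Ideal.span {x'} * A' := by
          rw [smul_mul', smul_span_singleton]; ring
      _ = Ideal.span {s • a * (y * x')} * (A * A') := by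
          rw [h, ← Ideal.span_singleton_mul_span_singleton,
            ← Ideal.span_singleton_mul_span_singleton]; ring
      _ = Ideal.span {a * (y' * x)} * (A * A') := by rw [hass]
      _ = Ideal.span {a} * A * (Ideal.span {y'} * A') * Ideal.span {x} := by
          rw [← Ideal.span_singleton_mul_span_singleton,
            ← Ideal.span_singleton_mul_span_singleton]; ring
      _ = Ideal.span {x} * Ideal.span {x'} * (Ideal.span {a} * A * s • A') := by
          rw [← h']; ring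
  have hI : Ideal.span {a} * A ≠ ⊥ := mul_ne_zero (span_singleton_ne_bot ha0) hA
  obtain ⟨b, b', hb, hb', hbb⟩ := exists_map_mul_eq_of_ratio hunr _ A' hI hA'
    (ratio_smul_of_generator hs hA' hratio)
  exact ⟨a, b, b', ha0, hb, hb', hbb⟩


variable (K L) in
/-- `c ↦ s c / c` on `Cl_L`; its kernel is the group of ambiguous classes. -/
noncomputable def deltaCl (s : L ≃ₐ[K] L) : ClassGroup (𝓞 L) →* ClassGroup (𝓞 L) :=
  sCl K L s / MonoidHom.id _

theorem deltaCl_apply (s : L ≃ₐ[K] L) (c : ClassGroup (𝓞 L)) :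
    deltaCl K L s c = sCl K L s c / c := rfl

theorem mem_ker_deltaCl {s : L ≃ₐ[K] L} {c : ClassGroup (𝓞 L)} :
    c ∈ (deltaCl K L s).ker ↔ sCl K L s c = c := by
  rw [MonoidHom.mem_ker, deltaCl_apply, div_eq_one]

theorem jCl_range_le_ker_deltaCl (s : L ≃ₐ[K] L) :
    (jCl (K := K) (L := L)).range ≤ (deltaCl K L s).ker := by
  rintro _ ⟨c, rfl⟩
  exact mem_ker_deltaCl.mpr (sCl_jCl s c)

variable (K L) in
/-- `E_K / N E_L` is finite. -/
instance finite_H0 : Finite ((𝓞 K)ˣ ⧸ (unitNorm K L).range) := by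
  have : Group.FG (𝓞 K)ˣ := Group.fg_iff_monoid_fg.mpr inferInstance
  apply CommGroup.finite_of_fg_isMulTorsion
  intro q
  obtain ⟨u, rfl⟩ := QuotientGroup.mk_surjective q
  rw [isOfFinOrder_iff_pow_eq_one]
  refine ⟨Module.finrank K L, Module.finrank_pos, ?_⟩
  rw [← QuotientGroup.mk_pow, QuotientGroup.eq_one_iff]
  refine ⟨Units.map (algebraMap (𝓞 K) (𝓞 L) : 𝓞 K →* 𝓞 L) u, ?_⟩
  apply Units.ext
  rw [coe_unitNorm]
  simp [RingOfIntegers.norm_algebraMap]

theorem mk0_span_singleton_eq_one {x : 𝓞 L} (hx : x ≠ 0) :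
    ClassGroup.mk0 ⟨Ideal.span {x}, mem_nonZeroDivisors_of_ne_zero (span_singleton_ne_bot hx)⟩ =
      1 := by
  rw [ClassGroup.mk0_eq_one_iff]
  exact ⟨⟨x, rfl⟩⟩

/-- **(c)**: `|Cl_L^G| ≤ |j Cl_K| * |E_K / N E_L|`. -/
theorem card_fixed_le {s : L ≃ₐ[K] L} (hs : ∀ τ, τ ∈ Subgroup.zpowers s)
    (hunr : Unramified K L) :
    Nat.card (deltaCl K L s).ker ≤
      Nat.card (jCl (K := K) (L := L)).range * Nat.card ((𝓞 K)ˣ ⧸ (unitNorm K L).range) := by
  classical
  have hle := jCl_range_le_ker_deltaCl (K := K) (L := L) s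
  let F := (deltaCl K L s).ker
  let J := (jCl (K := K) (L := L)).range.subgroupOf F
  have h1 : Nat.card F = Nat.card (↥F ⧸ J) * Nat.card J :=
    Subgroup.card_eq_card_quotient_mul_card_subgroup J
  have h2 : Nat.card J = Nat.card (jCl (K := K) (L := L)).range :=
    Nat.card_congr (Subgroup.subgroupOfEquivOfLe hle).toEquiv
  -- choice of data for each ambiguous class
  have hex : ∀ c : F, ∃ (A : Ideal (𝓞 L)) (hA : A ≠ ⊥) (x y : 𝓞 L) (w : (𝓞 K)ˣ),
      ClassGroup.mk0 ⟨A, mem_nonZeroDivisors_of_ne_zero hA⟩ = (c : ClassGroup (𝓞 L)) ∧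
      x ≠ 0 ∧ y ≠ 0 ∧ Ideal.span {x} * s • A = Ideal.span {y} * A ∧
      RingOfIntegers.norm K y = w * RingOfIntegers.norm K x := by
    intro c
    obtain ⟨A, hA, hc⟩ := exists_mk0_eq (c : ClassGroup (𝓞 L))
    have hfix : sCl K L s (c : ClassGroup (𝓞 L)) = c := mem_ker_deltaCl.mp c.2
    rw [← hc, sCl_mk0 s A hA] at hfix
    obtain ⟨x, y, w, hx, hy, hxy, hN⟩ := exists_data_of_fixed s A hA hfix
    exact ⟨A, hA, x, y, w, hc, hx, hy, hxy, hN⟩
  choose A hA x y w hc hx hy hxy hN using hex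
  let g : (↥F ⧸ J) → ((𝓞 K)ˣ ⧸ (unitNorm K L).range) := fun q => QuotientGroup.mk (w q.out)
  have hg : Function.Injective g := by
    intro q q' hqq
    obtain ⟨v, hv⟩ : ∃ v, unitNorm K L v = (w q.out)⁻¹ * w q'.out := QuotientGroup.eq.mp hqq
    have hw : w q'.out = w q.out * unitNorm K L v := by rw [hv, mul_inv_cancel_left]
    obtain ⟨a, b, b', ha, hb, hb', hbb⟩ := exists_ext_of_norm_eq hs hunr (A q'.out) (A q.out)
      (hA _) (hA _) (x q'.out) (y q'.out) (x q.out) (y q.out) (w q'.out) (w q.out) v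
      (hx _) (hx _) (hy _) (hxy _) (hxy _) (hN _) (hN _) hw
    have e : (⟨Ideal.span {a}, mem_nonZeroDivisors_of_ne_zero (span_singleton_ne_bot ha)⟩ *
        ⟨A q'.out, mem_nonZeroDivisors_of_ne_zero (hA _)⟩ *
        ⟨ext b', mem_nonZeroDivisors_of_ne_zero (ext_ne_bot hb')⟩ : (Ideal (𝓞 L))⁰) =
        ⟨A q.out, mem_nonZeroDivisors_of_ne_zero (hA _)⟩ *
        ⟨ext b, mem_nonZeroDivisors_of_ne_zero (ext_ne_bot hb)⟩ := Subtype.ext hbb
    have e' := congrArg ClassGroup.mk0 e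
    rw [map_mul, map_mul, map_mul, mk0_span_singleton_eq_one ha, one_mul, hc, hc,
      ← jCl_mk0 K L b' hb', ← jCl_mk0 K L b hb] at e'
    rw [← QuotientGroup.out_eq' q, ← QuotientGroup.out_eq' q', QuotientGroup.eq]
    show ((q.out⁻¹ * q'.out : ↥F) : ClassGroup (𝓞 L)) ∈ (jCl (K := K) (L := L)).range
    refine ⟨ClassGroup.mk0 ⟨b, mem_nonZeroDivisors_of_ne_zero hb⟩ /
      ClassGroup.mk0 ⟨b', mem_nonZeroDivisors_of_ne_zero hb'⟩, ?_⟩
    rw [map_div]
    push_cast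
    rw [div_eq_iff_eq_mul, mul_assoc, eq_comm, inv_mul_eq_iff_eq_mul]
    exact e'
  have h3 : Nat.card (↥F ⧸ J) ≤ Nat.card ((𝓞 K)ˣ ⧸ (unitNorm K L).range) :=
    Nat.card_le_card_of_injective g hg
  rw [h1, h2, mul_comm]
  exact Nat.mul_le_mul_left _ h3


/-! ### The count -/

/-- The norm on classes factors through the coinvariants, whose order is the number of
ambiguous classes: `|N(Cl_L)| ≤ |Cl_L^G|`. -/
theorem card_range_normCl_le (s : L ≃ₐ[K] L) :
    Nat.card (normCl K L).range ≤ Nat.card (deltaCl K L s).ker := by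
  have hle : (deltaCl K L s).range ≤ (normCl K L).ker := by
    rintro _ ⟨c, rfl⟩
    rw [MonoidHom.mem_ker, deltaCl_apply, map_div, normCl_sCl, div_self']
  have h1 : Nat.card (deltaCl K L s).ker * Nat.card (deltaCl K L s).range =
      Nat.card (ClassGroup (𝓞 L)) := by
    rw [← Subgroup.index_ker, Subgroup.card_mul_index]
  have h2 : Nat.card (normCl K L).ker * Nat.card (normCl K L).range =
      Nat.card (ClassGroup (𝓞 L)) := by
    rw [← Subgroup.index_ker, Subgroup.card_mul_index]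
  have h3 : Nat.card (deltaCl K L s).range ≤ Nat.card (normCl K L).ker :=
    Subgroup.card_le_of_le hle
  have hpos : 0 < Nat.card (deltaCl K L s).range := Nat.card_pos
  have h4 : Nat.card (deltaCl K L s).range * Nat.card (normCl K L).range ≤
      Nat.card (deltaCl K L s).range * Nat.card (deltaCl K L s).ker := by
    calc Nat.card (deltaCl K L s).range * Nat.card (normCl K L).range
        ≤ Nat.card (normCl K L).ker * Nat.card (normCl K L).range :=
          Nat.mul_le_mul_right _ h3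
      _ = Nat.card (deltaCl K L s).range * Nat.card (deltaCl K L s).ker := by
          rw [h2, ← h1, mul_comm]
  exact Nat.le_of_mul_le_mul_left h4 hpos

/-- **Chevalley's count** (unramified cyclic case):
`|N(Cl_L)| * |H¹(E_L)| ≤ h_K * |E_K / N E_L|`. -/
theorem card_range_normCl_mul_le {s : L ≃ₐ[K] L} (hs : ∀ τ, τ ∈ Subgroup.zpowers s)
    (hunr : Unramified K L) :
    Nat.card (normCl K L).range *
        Nat.card (↥(unitNorm K L).ker ⧸ ((unitD K L s).range.subgroupOf (unitNorm K L).ker)) ≤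
      Nat.card (ClassGroup (𝓞 K)) * Nat.card ((𝓞 K)ˣ ⧸ (unitNorm K L).range) := by
  have hj : Nat.card (jCl (K := K) (L := L)).ker * Nat.card (jCl (K := K) (L := L)).range =
      Nat.card (ClassGroup (𝓞 K)) := by
    rw [← Subgroup.index_ker, Subgroup.card_mul_index]
  calc Nat.card (normCl K L).range *
        Nat.card (↥(unitNorm K L).ker ⧸ ((unitD K L s).range.subgroupOf (unitNorm K L).ker))
      ≤ Nat.card (deltaCl K L s).ker * Nat.card (jCl (K := K) (L := L)).ker :=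
        Nat.mul_le_mul (card_range_normCl_le s) (card_H1_le hs hunr)
    _ ≤ (Nat.card (jCl (K := K) (L := L)).range * Nat.card ((𝓞 K)ˣ ⧸ (unitNorm K L).range)) *
        Nat.card (jCl (K := K) (L := L)).ker := Nat.mul_le_mul_right _ (card_fixed_le hs hunr)
    _ = Nat.card (ClassGroup (𝓞 K)) * Nat.card ((𝓞 K)ˣ ⧸ (unitNorm K L).range) := by
        rw [← hj]; ring

/-- A class of `K` outside the image of the norm gives an ideal which is not of the form
`(α) N(𝔄)`. -/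
theorem exists_ideal_of_not_surjective (h : ¬ Function.Surjective (normCl K L)) :
    ∃ a : Ideal (𝓞 K), a ≠ ⊥ ∧ ∀ (x y : 𝓞 K) (A : Ideal (𝓞 L)), x ≠ 0 → y ≠ 0 → A ≠ ⊥ →
      Ideal.span {x} * a ≠ Ideal.span {y} * Ideal.relNorm (𝓞 K) A := by
  rw [Function.Surjective] at h
  push Not at h
  obtain ⟨c, hc⟩ := h
  obtain ⟨I, rfl⟩ := ClassGroup.mk0_surjective c
  have hI : I.1 ≠ ⊥ := nonZeroDivisors.ne_zero I.2
  refine ⟨I.1, hI, ?_⟩
  intro x y A hx hy hA hxy
  apply hc (ClassGroup.mk0 ⟨A, mem_nonZeroDivisors_of_ne_zero hA⟩)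
  rw [normCl_mk0 A hA, eq_comm]
  exact ClassGroup.mk0_eq_mk0_iff.mpr ⟨x, y, hx, hy, hxy⟩

/-- **Second inequality, weak form** (everything except the unit Herbrand quotient):
if `|H¹(E_L)| = p |E_K / N E_L|` with `p ≥ 2`, there is an ideal of `K` which is not
`(α) N(𝔄)`. -/
theorem exists_ideal_not_norm {s : L ≃ₐ[K] L} (hs : ∀ τ, τ ∈ Subgroup.zpowers s)
    (hunr : Unramified K L) {p : ℕ} (hp : 2 ≤ p)
    (hH : Nat.card (↥(unitNorm K L).ker ⧸
      ((unitD K L s).range.subgroupOf (unitNorm K L).ker)) =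
      p * Nat.card ((𝓞 K)ˣ ⧸ (unitNorm K L).range)) :
    ∃ a : Ideal (𝓞 K), a ≠ ⊥ ∧ ∀ (x y : 𝓞 K) (A : Ideal (𝓞 L)), x ≠ 0 → y ≠ 0 → A ≠ ⊥ →
      Ideal.span {x} * a ≠ Ideal.span {y} * Ideal.relNorm (𝓞 K) A := by
  apply exists_ideal_of_not_surjective
  intro hsurj
  have h1 := card_range_normCl_mul_le hs hunr
  rw [hH, MonoidHom.range_eq_top.mpr hsurj, Subgroup.card_top] at h1
  have he : 0 < Nat.card ((𝓞 K)ˣ ⧸ (unitNorm K L).range) := Nat.card_pos
  have hh : 0 < Nat.card (ClassGroup (𝓞 K)) := Nat.card_pos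
  have h2 : Nat.card (ClassGroup (𝓞 K)) * Nat.card ((𝓞 K)ˣ ⧸ (unitNorm K L).range) * p ≤
      Nat.card (ClassGroup (𝓞 K)) * Nat.card ((𝓞 K)ˣ ⧸ (unitNorm K L).range) * 1 := by
    calc _ = Nat.card (ClassGroup (𝓞 K)) * (p * Nat.card ((𝓞 K)ˣ ⧸ (unitNorm K L).range)) := by
          ring
      _ ≤ _ := by rw [mul_one]; exact h1
  have := Nat.le_of_mul_le_mul_left h2 (Nat.mul_pos hh he)
  omega

end Fermat.Agent.CFT.Hilbert94
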