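import Mathlib

set_option autoImplicit false

open Polynomial

namespace Fermat.Agent.CFT.HerbrandAbstract

/-- Polynomial input: `Φ_p(X+1) = X^(p-1) + p T` with `T` a unit modulo `Φ_p(X+1)`. -/
theorem exists_poly (p : ℕ) [hp : Fact p.Prime] : ∃ T Q R : ℤ[X],
    (cyclotomic p ℤ).comp (X + 1) = X ^ (p - 1) + C (p : ℤ) * T ∧
      T * Q + R * (cyclotomic p ℤ).comp (X + 1) = 1 := by
  set F : ℤ[X] := (cyclotomic p ℤ).comp (X + 1) with hF
  have hp2 : 2 ≤ p := hp.out.two_le
  have hE := cyclotomic_comp_X_add_one_isEisensteinAt p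
  have hmonic : F.Monic := by
    rw [hF, show (X + 1 : ℤ[X]) = X + C 1 by simp]
    refine (cyclotomic.monic p ℤ).comp (monic_X_add_C 1) fun h => ?_
    rw [natDegree_X_add_C] at h
    exact zero_ne_one h.symm
  have hdeg : F.natDegree = p - 1 := by
    rw [hF, natDegree_comp, show (X + 1 : ℤ[X]) = X + C 1 by simp, natDegree_X_add_C, mul_one,
      natDegree_cyclotomic, Nat.totient_prime hp.out]
  have hdvd : C (p : ℤ) ∣ F - X ^ (p - 1) := by
    rw [C_dvd_iff_dvd_coeff]
    intro n
    rw [coeff_sub, coeff_X_pow]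
    rcases lt_trichotomy n (p - 1) with h | h | h
    · rw [if_neg h.ne, sub_zero]
      have := hE.mem (n := n) (by rw [hdeg]; exact h)
      rwa [Ideal.submodule_span_eq, Ideal.mem_span_singleton] at this
    · rw [if_pos h, h, ← hdeg, hmonic.coeff_natDegree, sub_self]
      exact dvd_zero _
    · rw [if_neg h.ne', sub_zero, coeff_eq_zero_of_natDegree_lt (by rw [hdeg]; exact h)]
      exact dvd_zero _
  obtain ⟨T, hT⟩ := hdvd
  have hFT : F = X ^ (p - 1) + C (p : ℤ) * T := by rw [← hT]; ring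
  have hT0 : T.coeff 0 = 1 := by
    have h0 : F.coeff 0 = p := by
      rw [coeff_zero_eq_eval_zero, hF, eval_comp, cyclotomic_prime, eval_add, eval_X, eval_one,
        zero_add, eval_geom_sum, one_geom_sum]
    have h1 : F.coeff 0 = (p : ℤ) * T.coeff 0 := by
      rw [hFT, coeff_add, coeff_X_pow, if_neg (by omega), zero_add, coeff_C_mul]
    have hp0 : (p : ℤ) ≠ 0 := by exact_mod_cast hp.out.ne_zero
    have : (p : ℤ) * T.coeff 0 = p * 1 := by rw [← h1, h0, mul_one]
    exact mul_left_cancel₀ hp0 this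
  have hXd : X ∣ T - 1 := by
    rw [X_dvd_iff, coeff_sub, hT0, coeff_one_zero, sub_self]
  obtain ⟨S, hS⟩ := hXd
  have h1 : T - X * S = 1 := by rw [← hS]; ring
  obtain ⟨Q0, hQ0⟩ := sub_dvd_pow_sub_pow (T - X * S) (-(X * S)) (p - 1)
  have hsimp : T - X * S - -(X * S) = T := by ring
  rw [hsimp, h1, one_pow] at hQ0
  refine ⟨T, Q0 - (-S) ^ (p - 1) * C (p : ℤ), (-S) ^ (p - 1), hFT, ?_⟩
  have hX : X ^ (p - 1) = F - C (p : ℤ) * T := by rw [hFT]; ring
  have : (-(X * S)) ^ (p - 1) = (-S) ^ (p - 1) * (F - C (p : ℤ) * T) := by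
    rw [← hX, ← mul_pow]; ring_nf
  rw [this] at hQ0
  linear_combination -hQ0

section zinv

variable {X : Type*} [AddCommGroup X]

/-- index of the range of an additive endomorphism -/
noncomputable def cok (f : Module.End ℤ X) : ℕ := (LinearMap.range f).toAddSubgroup.index

/-- cardinality of the kernel of an additive endomorphism -/
noncomputable def kr (f : Module.End ℤ X) : ℕ := Nat.card (LinearMap.ker f)

theorem cok_eq (f : Module.End ℤ X) : cok f = f.toAddMonoidHom.range.index := by
  rw [cok, LinearMap.range_toAddSubgroup]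

theorem kr_eq (f : Module.End ℤ X) : kr f = Nat.card f.toAddMonoidHom.ker := by
  rw [kr, ← LinearMap.ker_toAddSubgroup]
  rfl

theorem addhom_main (f g : X →+ X) :
    (f.comp g).range.index * Nat.card f.ker * Nat.card g.ker =
      f.range.index * g.range.index * Nat.card (f.comp g).ker ∧
    Nat.card (f.comp g).ker = Nat.card g.ker * Nat.card ↥(f.ker ⊓ g.range) := by
  have h1 : (f.comp g).range.index = (g.range ⊔ f.ker).index * f.range.index := by
    rw [← AddMonoidHom.map_range, AddSubgroup.index_map]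
  have h2 : g.range.index = g.range.relIndex (g.range ⊔ f.ker) * (g.range ⊔ f.ker).index :=
    (AddSubgroup.relIndex_mul_index le_sup_left).symm
  have h3 : g.range.relIndex (g.range ⊔ f.ker) = g.range.relIndex f.ker :=
    AddSubgroup.relIndex_sup_left _ _
  have h4 : Nat.card f.ker = Nat.card ↥(f.ker ⊓ g.range) * g.range.relIndex f.ker := by
    have := AddSubgroup.relIndex_mul_relIndex (H := ⊥) (K := f.ker ⊓ g.range) (L := f.ker)
      bot_le inf_le_left
    rw [AddSubgroup.relIndex_bot_left, AddSubgroup.relIndex_bot_left,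
      AddSubgroup.inf_relIndex_left] at this
    exact this.symm
  have h5 : Nat.card (f.comp g).ker = Nat.card g.ker * Nat.card ↥(f.ker ⊓ g.range) := by
    have := AddSubgroup.relIndex_mul_relIndex (H := ⊥) (K := g.ker) (L := (f.comp g).ker)
      bot_le (fun x hx => by
        rw [AddMonoidHom.mem_ker] at hx ⊢
        rw [AddMonoidHom.comp_apply, hx, map_zero])
    rw [AddSubgroup.relIndex_bot_left, AddSubgroup.relIndex_bot_left,
      AddSubgroup.relIndex_ker] at this
    rw [← this]
    congr 2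
    have : (f.comp g).ker = f.ker.comap g := by
      ext x
      simp [AddMonoidHom.mem_ker]
    rw [this, AddSubgroup.map_comap_eq, inf_comm]
  refine ⟨?_, h5⟩
  rw [h1, h2, h3, h4, h5]
  ring

theorem cok_mul (f g : Module.End ℤ X) :
    cok (f * g) * kr f * kr g = cok f * cok g * kr (f * g) := by
  simp only [cok_eq, kr_eq]
  exact (addhom_main f.toAddMonoidHom g.toAddMonoidHom).1

theorem kr_mul_ne_zero (f g : Module.End ℤ X) (hf : kr f ≠ 0) (hg : kr g ≠ 0) :
    kr (f * g) ≠ 0 := by
  simp only [kr_eq] at *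
  have h := (addhom_main f.toAddMonoidHom g.toAddMonoidHom).2
  have h' : Nat.card ↥((f.toAddMonoidHom).ker ⊓ (g.toAddMonoidHom).range) ≠ 0 := by
    have hfin : Finite ↥(f.toAddMonoidHom).ker := Nat.finite_of_card_ne_zero hf
    have : Finite ↥((f.toAddMonoidHom).ker ⊓ (g.toAddMonoidHom).range) :=
      Finite.of_injective (fun x => (⟨x.1, x.2.1⟩ : ↥(f.toAddMonoidHom).ker))
        (fun x y hxy => Subtype.ext (by simpa using congrArg Subtype.val hxy))
    exact Nat.card_pos.ne'
  change Nat.card ↥((f.toAddMonoidHom).comp (g.toAddMonoidHom)).ker ≠ 0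
  rw [h]
  exact mul_ne_zero hg h'

theorem cok_one : cok (1 : Module.End ℤ X) = 1 := by
  rw [cok, Module.End.one_eq_id, LinearMap.range_id]
  simp

theorem kr_one : kr (1 : Module.End ℤ X) = 1 := by
  rw [kr, Module.End.one_eq_id, LinearMap.ker_id]
  simp

theorem cok_pow (f : Module.End ℤ X) (hf : kr f ≠ 0) (k : ℕ) :
    cok (f ^ k) * kr f ^ k = cok f ^ k * kr (f ^ k) ∧ kr (f ^ k) ≠ 0 := by
  induction k with
  | zero => simp [cok_one, kr_one]
  | succ k ih =>
    obtain ⟨ih1, ih2⟩ := ih
    have hne : kr (f ^ (k + 1)) ≠ 0 := by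
      rw [pow_succ]; exact kr_mul_ne_zero _ _ ih2 hf
    refine ⟨?_, hne⟩
    have h := cok_mul (f ^ k) f
    rw [← pow_succ] at h
    have : (cok (f ^ (k + 1)) * kr f ^ (k + 1)) * kr (f ^ k) =
        (cok f ^ (k + 1) * kr (f ^ (k + 1))) * kr (f ^ k) := by
      calc (cok (f ^ (k + 1)) * kr f ^ (k + 1)) * kr (f ^ k)
          = (cok (f ^ (k + 1)) * kr (f ^ k) * kr f) * kr f ^ k := by ring
        _ = (cok (f ^ k) * cok f * kr (f ^ (k + 1))) * kr f ^ k := by rw [h]
        _ = (cok (f ^ k) * kr f ^ k) * cok f * kr (f ^ (k + 1)) := by ring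
        _ = (cok f ^ k * kr (f ^ k)) * cok f * kr (f ^ (k + 1)) := by rw [ih1]
        _ = (cok f ^ (k + 1) * kr (f ^ (k + 1))) * kr (f ^ k) := by ring
    exact Nat.eq_of_mul_eq_mul_right (Nat.pos_of_ne_zero ih2) this

theorem cok_of_unit (f g : Module.End ℤ X) (h1 : f * g = 1) (h2 : g * f = 1) :
    cok f = 1 ∧ kr f = 1 := by
  constructor
  · rw [cok]
    have : LinearMap.range f = ⊤ := by
      rw [LinearMap.range_eq_top]
      intro x
      exact ⟨g x, by rw [← Module.End.mul_apply, h1, Module.End.one_apply]⟩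
    rw [this]; simp
  · rw [kr]
    have : LinearMap.ker f = ⊥ := by
      rw [LinearMap.ker_eq_bot]
      intro x y hxy
      have := congrArg g hxy
      rwa [← Module.End.mul_apply, ← Module.End.mul_apply, h2] at this
    rw [this]; simp

end zinv

section beta

/-- `Good p T r`: multiplication by `p` on `T` has finite kernel and
`[T : pT] = p^r * |T[p]|`. -/
def Good (p : ℕ) (T : Type*) [AddCommGroup T] (r : ℕ) : Prop :=
  (nsmulAddMonoidHom p : T →+ T).range.index =
      p ^ r * Nat.card (nsmulAddMonoidHom p : T →+ T).ker ∧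
    Nat.card (nsmulAddMonoidHom p : T →+ T).ker ≠ 0

theorem good_of_finite (p : ℕ) (B : Type*) [AddCommGroup B] [Finite B] : Good p B 0 := by
  set f : B →+ B := nsmulAddMonoidHom p
  have h1 := AddSubgroup.card_mul_index f.range
  have h2 := AddSubgroup.card_mul_index f.ker
  rw [AddSubgroup.index_ker] at h2
  have hr : Nat.card f.range ≠ 0 := Nat.card_pos.ne'
  have hk : Nat.card f.ker ≠ 0 := Nat.card_pos.ne'
  refine ⟨?_, hk⟩
  rw [pow_zero, one_mul]
  have : Nat.card f.range * f.range.index = Nat.card f.range * Nat.card f.ker := by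
    rw [h1, mul_comm, h2]
  exact Nat.eq_of_mul_eq_mul_left (Nat.pos_of_ne_zero hr) this

theorem good_prod (p : ℕ) (A B : Type*) [AddCommGroup A] [AddCommGroup B] (r s : ℕ)
    (hA : Good p A r) (hB : Good p B s) : Good p (A × B) (r + s) := by
  have hf : (nsmulAddMonoidHom p : A × B →+ A × B) =
      (nsmulAddMonoidHom p : A →+ A).prodMap (nsmulAddMonoidHom p : B →+ B) := by
    ext x <;> simp
  unfold Good
  rw [hf, AddMonoidHom.range_prodMap, AddMonoidHom.ker_prodMap, AddSubgroup.index_prod,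
    Nat.card_congr (AddSubgroup.prodEquiv _ _).toEquiv, Nat.card_prod, hA.1, hB.1]
  refine ⟨by ring, mul_ne_zero hA.2 hB.2⟩

theorem good_congr (p : ℕ) (A B : Type*) [AddCommGroup A] [AddCommGroup B] (r : ℕ)
    (e : A ≃+ B) (hA : Good p A r) : Good p B r := by
  have hr : (nsmulAddMonoidHom p : B →+ B).range =
      (nsmulAddMonoidHom p : A →+ A).range.map (e : A →+ B) := by
    ext y
    simp only [AddMonoidHom.mem_range, AddSubgroup.mem_map, nsmulAddMonoidHom_apply,
      AddMonoidHom.coe_coe, exists_exists_eq_and, map_nsmul]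
    constructor
    · rintro ⟨x, rfl⟩; exact ⟨e.symm x, by simp⟩
    · rintro ⟨x, rfl⟩; exact ⟨e x, rfl⟩
  have hk : Nat.card (nsmulAddMonoidHom p : B →+ B).ker =
      Nat.card (nsmulAddMonoidHom p : A →+ A).ker := by
    refine Nat.card_congr ⟨fun y => ⟨e.symm y.1, ?_⟩, fun x => ⟨e x.1, ?_⟩, ?_, ?_⟩
    · have := y.2
      rw [AddMonoidHom.mem_ker, nsmulAddMonoidHom_apply] at this ⊢
      rw [← map_nsmul, this, map_zero]
    · have := x.2
      rw [AddMonoidHom.mem_ker, nsmulAddMonoidHom_apply] at this ⊢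
      rw [← map_nsmul, this, map_zero]
    · intro y; simp
    · intro x; simp
  unfold Good
  rw [hr, hk, AddSubgroup.index_map_equiv]
  exact hA

theorem good_int_pow (p : ℕ) [hp : Fact p.Prime] (n : ℕ) : Good p (Fin n → ℤ) n := by
  have : NeZero p := ⟨hp.out.ne_zero⟩
  let g : (Fin n → ℤ) →+ (Fin n → ZMod p) :=
    { toFun := fun x i => (x i : ZMod p)
      map_zero' := by ext i; simp
      map_add' := fun x y => by ext i; simp }
  have hg : Function.Surjective g := by
    intro y
    refine ⟨fun i => ((y i).val : ℤ), ?_⟩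
    ext i
    simp [g]
  have hker : g.ker = (nsmulAddMonoidHom p : (Fin n → ℤ) →+ (Fin n → ℤ)).range := by
    ext x
    simp only [AddMonoidHom.mem_ker, AddMonoidHom.mem_range, nsmulAddMonoidHom_apply]
    constructor
    · intro hx
      have : ∀ i, (p : ℤ) ∣ x i := fun i => by
        have := congrFun hx i
        simpa [g, ZMod.intCast_zmod_eq_zero_iff_dvd] using this
      choose y hy using this
      refine ⟨y, ?_⟩
      ext i
      simp [hy i]
    · rintro ⟨y, rfl⟩
      ext i
      simp [g]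
  have hk : (nsmulAddMonoidHom p : (Fin n → ℤ) →+ (Fin n → ℤ)).ker = ⊥ := by
    rw [AddMonoidHom.ker_eq_bot_iff]
    intro x y hxy
    ext i
    have := congrFun hxy i
    simp only [nsmulAddMonoidHom_apply, Pi.smul_apply, nsmul_eq_mul] at this
    exact mul_left_cancel₀ (by exact_mod_cast hp.out.ne_zero) this
  unfold Good
  rw [← hker, AddSubgroup.index_ker, hk, AddMonoidHom.range_eq_top_of_surjective g hg]
  simp [Nat.card_eq_fintype_card, ZMod.card]

theorem good_of_fg (p : ℕ) [hp : Fact p.Prime] (T : Type*) [AddCommGroup T] [Module.Finite ℤ T] :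
    Good p T (Module.finrank ℤ T) := by
  have : AddGroup.FG T := Module.Finite.iff_addGroup_fg.mp inferInstance
  obtain ⟨n, ι, _, q, hq, e, ⟨f⟩⟩ := AddCommGroup.equiv_free_prod_directSum_zmod T
  have : ∀ i, NeZero (q i ^ e i) := fun i => ⟨pow_ne_zero _ (hq i).ne_zero⟩
  have : Finite (DirectSum ι fun i => ZMod (q i ^ e i)) :=
    Finite.of_equiv _ (DFinsupp.equivFunOnFintype (ι := ι) (β := fun i => ZMod (q i ^ e i))).symm
  set B := DirectSum ι fun i => ZMod (q i ^ e i)
  have h1 : Good p ((Fin n → ℤ) × B) (n + 0) :=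
    good_prod p _ _ _ _ (good_int_pow p n) (good_of_finite p B)
  let f' : T ≃+ (Fin n → ℤ) × B :=
    f.trans ((Finsupp.addEquivFunOnFinite).prodCongr (AddEquiv.refl B))
  have h2 : Good p T n := by
    have := good_congr p _ _ _ f'.symm h1
    simpa using this
  have hrank : Module.finrank ℤ T = n := by
    rw [LinearEquiv.finrank_eq f'.toIntLinearEquiv]
    let π : ((Fin n → ℤ) × B) →ₗ[ℤ] (Fin n → ℤ) := LinearMap.fst ℤ _ _
    have hπ : Function.Surjective π := LinearMap.fst_surjective
    have h3 := Submodule.finrank_quotient_add_finrank (LinearMap.ker π)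
    rw [LinearEquiv.finrank_eq (π.quotKerEquivOfSurjective hπ)] at h3
    have h4 : Module.finrank ℤ (LinearMap.ker π) = 0 := by
      apply Module.finrank_eq_zero_of_rank_eq_zero
      rw [rank_eq_zero_iff]
      intro x
      refine ⟨(Nat.card B : ℤ), by exact_mod_cast Nat.card_pos.ne', ?_⟩
      obtain ⟨⟨a, b⟩, hx⟩ := x
      have ha : a = 0 := by simpa [π] using hx
      subst ha
      apply Subtype.ext
      apply Prod.ext
      · simp
      · simp
    rw [h4, add_zero] at h3
    rw [← h3]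
    simp
  rw [hrank]
  exact h2

end beta

section lemmaZ

variable {X : Type*} [AddCommGroup X]

theorem cok_natCast (p : ℕ) :
    cok (p : Module.End ℤ X) = (nsmulAddMonoidHom p : X →+ X).range.index := by
  rw [cok_eq]; rfl

theorem kr_natCast (p : ℕ) :
    kr (p : Module.End ℤ X) = Nat.card (nsmulAddMonoidHom p : X →+ X).ker := by
  rw [kr_eq]; rfl

theorem cok_natCast_of_fg (p : ℕ) [Fact p.Prime] [Module.Finite ℤ X] :
    cok (p : Module.End ℤ X) = p ^ Module.finrank ℤ X * kr (p : Module.End ℤ X) ∧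
      kr (p : Module.End ℤ X) ≠ 0 := by
  rw [cok_natCast, kr_natCast]
  exact good_of_fg p X

/-- Key lemma: on a finitely generated module killed by the norm element, the
endomorphism `s - 1` has "determinant" `p ^ (rank / (p-1))`. -/
theorem lemmaZ (p : ℕ) [hp : Fact p.Prime] [Module.Finite ℤ X] (s : Module.End ℤ X)
    (hs : ∑ i ∈ Finset.range p, s ^ i = 0) :
    cok (s - 1) ^ (p - 1) = p ^ Module.finrank ℤ X * kr (s - 1) ^ (p - 1) ∧
      kr (s - 1) ≠ 0 := by
  obtain ⟨T, Q, R, hT, hQ⟩ := exists_poly p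
  set d : Module.End ℤ X := s - 1 with hd
  have hev : Polynomial.aeval d ((cyclotomic p ℤ).comp (Polynomial.X + 1)) = 0 := by
    rw [Polynomial.aeval_comp, cyclotomic_prime]
    simp [hd, hs]
  set τ : Module.End ℤ X := Polynomial.aeval d T with hτ
  set q : Module.End ℤ X := Polynomial.aeval d Q with hq
  have h1 : d ^ (p - 1) + (p : Module.End ℤ X) * τ = 0 := by
    have := congrArg (Polynomial.aeval d) hT
    rw [hev] at this
    rw [this]
    simp [hτ]
  have h2 : τ * q = 1 := by
    have := congrArg (Polynomial.aeval d) hQ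
    simpa [hev, hτ, hq] using this
  have h3 : q * τ = 1 := by
    rw [← h2, hτ, hq, ← map_mul, ← map_mul, mul_comm]
  obtain ⟨hβ1, hβ2⟩ := cok_natCast_of_fg (X := X) p
  -- kernel of d is finite
  have hkd : kr d ≠ 0 := by
    have hle : LinearMap.ker d ≤ LinearMap.ker (p : Module.End ℤ X) := by
      intro x hx
      rw [LinearMap.mem_ker] at hx ⊢
      have hsx : s x = x := by
        have : s x - x = 0 := by simpa [hd] using hx
        exact sub_eq_zero.mp this
      have hpow : ∀ i : ℕ, (s ^ i) x = x := by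
        intro i
        induction i with
        | zero => simp
        | succ i ih => rw [pow_succ, Module.End.mul_apply, hsx, ih]
      have := congrArg (fun f : Module.End ℤ X => f x) hs
      simp only [LinearMap.sum_apply, hpow, Finset.sum_const, Finset.card_range,
        LinearMap.zero_apply] at this
      rw [Module.End.natCast_apply]
      exact this
    have hfin : Finite ↥(LinearMap.ker (p : Module.End ℤ X)) :=
      Nat.finite_of_card_ne_zero hβ2
    have : Finite ↥(LinearMap.ker d) :=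
      Finite.of_injective (fun x => (⟨x.1, hle x.2⟩ : ↥(LinearMap.ker (p : Module.End ℤ X))))
        (fun x y hxy => Subtype.ext (by simpa using congrArg Subtype.val hxy))
    rw [kr]
    exact Nat.card_pos.ne'
  refine ⟨?_, hkd⟩
  obtain ⟨hpow1, hpow2⟩ := cok_pow d hkd (p - 1)
  have hdp : d ^ (p - 1) = (-τ) * (p : Module.End ℤ X) := by
    have : d ^ (p - 1) = -((p : Module.End ℤ X) * τ) := eq_neg_of_add_eq_zero_left h1
    rw [this, neg_mul, (Nat.cast_commute p τ).eq]
  obtain ⟨hu1, hu2⟩ := cok_of_unit (-τ) (-q) (by rw [neg_mul_neg, h2]) (by rw [neg_mul_neg, h3])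
  have hm := cok_mul (-τ) (p : Module.End ℤ X)
  rw [← hdp, hu1, hu2, mul_one, one_mul, hβ1] at hm
  -- hm : cok (d^(p-1)) * kr p = p^r * kr p * kr (d^(p-1))
  have h4 : cok (d ^ (p - 1)) = p ^ Module.finrank ℤ X * kr (d ^ (p - 1)) := by
    have : cok (d ^ (p - 1)) * kr (p : Module.End ℤ X) =
        (p ^ Module.finrank ℤ X * kr (d ^ (p - 1))) * kr (p : Module.End ℤ X) := by
      rw [hm]; ring
    exact Nat.eq_of_mul_eq_mul_right (Nat.pos_of_ne_zero hβ2) this
  rw [h4] at hpow1
  have : (cok d ^ (p - 1)) * kr (d ^ (p - 1)) =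
      (p ^ Module.finrank ℤ X * kr d ^ (p - 1)) * kr (d ^ (p - 1)) := by
    rw [← hpow1]; ring
  exact Nat.eq_of_mul_eq_mul_right (Nat.pos_of_ne_zero hpow2) this

end lemmaZ


section main

theorem finrank_eq_of_smul_mem (p : ℕ) (hp : p ≠ 0) {T : Type*} [AddCommGroup T]
    [Module.Finite ℤ T] (S : Submodule ℤ T) (h : ∀ x : T, p • x ∈ S) :
    Module.finrank ℤ S = Module.finrank ℤ T := by
  have h1 := Submodule.finrank_quotient_add_finrank S
  have h2 : Module.finrank ℤ (T ⧸ S) = 0 := by
    apply Module.finrank_eq_zero_of_rank_eq_zero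
    rw [rank_eq_zero_iff]
    intro x
    obtain ⟨y, rfl⟩ := Submodule.Quotient.mk_surjective S x
    refine ⟨(p : ℤ), by exact_mod_cast hp, ?_⟩
    rw [← Submodule.Quotient.mk_smul, Submodule.Quotient.mk_eq_zero, natCast_zsmul]
    exact h y
  omega

variable {M : Type*} [AddCommGroup M]

/-- The norm element `1 + σ + ... + σ^(p-1)`. -/
noncomputable def normEnd (σ : Module.End ℤ M) (p : ℕ) : Module.End ℤ M :=
  ∑ i ∈ Finset.range p, σ ^ i

theorem relIndex_eq_index_comap_subtype (S : Submodule ℤ M) (H : AddSubgroup M) :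
    H.relIndex S.toAddSubgroup = (H.comap S.subtype.toAddMonoidHom).index := by
  have := AddSubgroup.relIndex_comap (H := H) S.subtype.toAddMonoidHom ⊤
  rw [AddSubgroup.relIndex_top_right] at this
  rw [this]
  congr 1
  ext x
  simp

/-- **Herbrand quotient of a finitely generated module over a cyclic group of prime order**,
in index form. -/
theorem herbrand_main [Module.Finite ℤ M] (p : ℕ) [hp : Fact p.Prime] (σ : Module.End ℤ M)
    (hσ : σ ^ p = 1) (a b : ℕ)
    (ha : Module.finrank ℤ (LinearMap.ker (σ - 1)) = a)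
    (hr : Module.finrank ℤ M = a + (p - 1) * b) :
    (LinearMap.range (normEnd σ p)).toAddSubgroup.relIndex
        (LinearMap.ker (σ - 1)).toAddSubgroup * p ^ b =
      (LinearMap.range (σ - 1)).toAddSubgroup.relIndex
        (LinearMap.ker (normEnd σ p)).toAddSubgroup * p ^ a ∧
    (LinearMap.range (normEnd σ p)).toAddSubgroup.relIndex
        (LinearMap.ker (σ - 1)).toAddSubgroup ≠ 0 ∧
    (LinearMap.range (σ - 1)).toAddSubgroup.relIndex
        (LinearMap.ker (normEnd σ p)).toAddSubgroup ≠ 0 := by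
  have hp2 : 2 ≤ p := hp.out.two_le
  set D : Module.End ℤ M := σ - 1 with hD
  set Nm : Module.End ℤ M := normEnd σ p with hNm
  have hDN : D * Nm = 0 := by rw [hD, hNm, normEnd, mul_geom_sum, hσ, sub_self]
  have hND : Nm * D = 0 := by rw [hD, hNm, normEnd, geom_sum_mul, hσ, sub_self]
  set G : Submodule ℤ M := LinearMap.ker D with hGdef
  set Xs : Submodule ℤ M := LinearMap.ker Nm with hXdef
  have hG : ∀ m ∈ G, σ m = m := by
    intro m hm
    rw [hGdef, LinearMap.mem_ker, hD, LinearMap.sub_apply, Module.End.one_apply] at hm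
    exact sub_eq_zero.mp hm
  have hGpow : ∀ m ∈ G, ∀ i : ℕ, (σ ^ i) m = m := by
    intro m hm i
    induction i with
    | zero => simp
    | succ i ih => rw [pow_succ, Module.End.mul_apply, hG m hm, ih]
  have hF2 : ∀ m ∈ G, Nm m = p • m := by
    intro m hm
    rw [hNm, normEnd, LinearMap.sum_apply]
    simp only [hGpow m hm, Finset.sum_const, Finset.card_range]
  have hrangeN : ∀ m : M, Nm m ∈ G := by
    intro m
    rw [hGdef, LinearMap.mem_ker, ← Module.End.mul_apply, hDN, LinearMap.zero_apply]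
  have hrangeD : ∀ m : M, D m ∈ Xs := by
    intro m
    rw [hXdef, LinearMap.mem_ker, ← Module.End.mul_apply, hND, LinearMap.zero_apply]
  have hF4 : ∀ m : M, p • m ∈ G ⊔ Xs := by
    intro m
    have h1 : p • m = Nm m + (p • m - Nm m) := by abel
    rw [h1]
    refine Submodule.add_mem_sup (hrangeN m) ?_
    rw [hXdef, LinearMap.mem_ker, map_sub, map_nsmul, hF2 (Nm m) (hrangeN m), sub_self]
  -- the index t
  obtain ⟨hβ1, hβ2⟩ := cok_natCast_of_fg (X := M) p
  have ht : (G ⊔ Xs).toAddSubgroup.index ≠ 0 := by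
    have hle : (LinearMap.range (p : Module.End ℤ M)).toAddSubgroup ≤ (G ⊔ Xs).toAddSubgroup := by
      rintro x ⟨m, rfl⟩
      exact hF4 m
    have hne : (LinearMap.range (p : Module.End ℤ M)).toAddSubgroup.index ≠ 0 := by
      change cok (p : Module.End ℤ M) ≠ 0
      rw [hβ1]
      exact mul_ne_zero (pow_ne_zero _ hp.out.ne_zero) hβ2
    exact fun h0 => hne (Nat.eq_zero_of_zero_dvd (h0 ▸ AddSubgroup.index_dvd_of_le hle))
  set t := (G ⊔ Xs).toAddSubgroup.index with htdef
  -- additive group versions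
  set Df : M →+ M := D.toAddMonoidHom with hDf
  set Nf : M →+ M := Nm.toAddMonoidHom with hNf
  have hDfker : Df.ker = G.toAddSubgroup := by ext x; simp [hDf, hGdef]
  have hNfker : Nf.ker = Xs.toAddSubgroup := by ext x; simp [hNf, hXdef]
  have hDfrange : Df.range = (LinearMap.range D).toAddSubgroup := by
    rw [LinearMap.range_toAddSubgroup]
  have hNfrange : Nf.range = (LinearMap.range Nm).toAddSubgroup := by
    rw [LinearMap.range_toAddSubgroup]
  have hsup : (G ⊔ Xs).toAddSubgroup = G.toAddSubgroup ⊔ Xs.toAddSubgroup :=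
    Submodule.sup_toAddSubgroup G Xs
  -- Step 1'
  have hstep1D : (Xs.toAddSubgroup.map Df).relIndex Df.range = t := by
    have := AddSubgroup.relIndex_comap (H := Xs.toAddSubgroup.map Df) Df ⊤
    rw [AddSubgroup.comap_map_eq, AddSubgroup.relIndex_top_right, ← AddMonoidHom.range_eq_map,
      hDfker] at this
    rw [← this, htdef, hsup, sup_comm]
  have hstep1N : (G.toAddSubgroup.map Nf).relIndex Nf.range = t := by
    have := AddSubgroup.relIndex_comap (H := G.toAddSubgroup.map Nf) Nf ⊤
    rw [AddSubgroup.comap_map_eq, AddSubgroup.relIndex_top_right, ← AddMonoidHom.range_eq_map,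
      hNfker] at this
    rw [← this, htdef, hsup]
  -- Step 2
  have hDle1 : Xs.toAddSubgroup.map Df ≤ Df.range := AddSubgroup.map_le_range _ _
  have hDle2 : Df.range ≤ Xs.toAddSubgroup := by
    rintro x ⟨m, rfl⟩; exact hrangeD m
  have hNle1 : G.toAddSubgroup.map Nf ≤ Nf.range := AddSubgroup.map_le_range _ _
  have hNle2 : Nf.range ≤ G.toAddSubgroup := by
    rintro x ⟨m, rfl⟩; exact hrangeN m
  have hstep2D := AddSubgroup.relIndex_mul_relIndex _ _ _ hDle1 hDle2
  have hstep2N := AddSubgroup.relIndex_mul_relIndex _ _ _ hNle1 hNle2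
  rw [hstep1D] at hstep2D
  rw [hstep1N] at hstep2N
  -- Step 3a : the G side
  obtain ⟨hG1, hG2⟩ := cok_natCast_of_fg (X := ↥G) p
  have hstep3N : (G.toAddSubgroup.map Nf).relIndex G.toAddSubgroup =
      cok (p : Module.End ℤ ↥G) := by
    rw [relIndex_eq_index_comap_subtype, cok_natCast]
    congr 1
    ext x
    simp only [AddSubgroup.mem_comap, AddSubgroup.mem_map, AddMonoidHom.mem_range,
      nsmulAddMonoidHom_apply]
    constructor
    · rintro ⟨y, hy, hyx⟩
      refine ⟨⟨y, hy⟩, Subtype.ext ?_⟩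
      have : Nf y = p • y := hF2 y hy
      rw [this] at hyx
      simpa using hyx
    · rintro ⟨y, rfl⟩
      refine ⟨y.1, y.2, ?_⟩
      have : Nf y.1 = p • y.1 := hF2 y.1 y.2
      rw [this]
      simp
  -- Step 3b : the X side
  have hσX : ∀ x ∈ Xs, σ x ∈ Xs := by
    intro x hx
    rw [hXdef, LinearMap.mem_ker] at hx ⊢
    have hcomm : Nm * σ = σ * Nm := by
      rw [hNm, normEnd, Finset.sum_mul, Finset.mul_sum]
      refine Finset.sum_congr rfl fun i _ => ?_
      rw [← pow_succ, ← pow_succ']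
    rw [← Module.End.mul_apply, hcomm, Module.End.mul_apply, hx, map_zero]
  set sX : Module.End ℤ ↥Xs := σ.restrict hσX with hsX
  have hsXpow : ∀ (i : ℕ) (x : ↥Xs), (((sX ^ i) x : ↥Xs) : M) = (σ ^ i) x.1 := by
    intro i
    induction i with
    | zero => intro x; simp
    | succ i ih =>
      intro x
      rw [pow_succ, Module.End.mul_apply, ih, pow_succ, Module.End.mul_apply]
      rfl
  have hsXsum : ∑ i ∈ Finset.range p, sX ^ i = 0 := by
    ext x
    rw [LinearMap.sum_apply, LinearMap.zero_apply]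
    simp only [Submodule.coe_sum, ZeroMemClass.coe_zero, hsXpow]
    have h : Nm x.1 = 0 := LinearMap.mem_ker.mp x.2
    rw [hNm, normEnd, LinearMap.sum_apply] at h
    exact h
  have hsXD : ∀ z : ↥Xs, (((sX - 1) z : ↥Xs) : M) = D z.1 := fun z => rfl
  obtain ⟨hZ1, hZ2⟩ := lemmaZ p sX hsXsum
  have hstep3D : (Xs.toAddSubgroup.map Df).relIndex Xs.toAddSubgroup = cok (sX - 1) := by
    rw [relIndex_eq_index_comap_subtype, cok_eq]
    congr 1
    ext x
    simp only [AddSubgroup.mem_comap, AddSubgroup.mem_map, AddMonoidHom.mem_range]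
    constructor
    · rintro ⟨y, hy, hyx⟩
      refine ⟨⟨y, hy⟩, Subtype.ext ?_⟩
      simpa [hsX, hDf, hD] using hyx
    · rintro ⟨y, rfl⟩
      refine ⟨y.1, y.2, ?_⟩
      simp [hsX, hDf, hD]
  -- kernels have the same size
  have hkr : kr (sX - 1) = kr (p : Module.End ℤ ↥G) := by
    rw [kr, kr]
    have hxG : ∀ x : ↥(LinearMap.ker (sX - 1)), x.1.1 ∈ G := by
      intro x
      have h1 : (sX - 1) x.1 = 0 := LinearMap.mem_ker.mp x.2
      have h2 := congrArg Subtype.val h1
      rw [hsXD] at h2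
      exact LinearMap.mem_ker.mpr h2
    refine Nat.card_congr ⟨fun x => ⟨⟨x.1.1, hxG x⟩, ?_⟩, fun y => ⟨⟨y.1.1, ?_⟩, ?_⟩, ?_, ?_⟩
    · rw [LinearMap.mem_ker, Module.End.natCast_apply]
      apply Subtype.ext
      have h3 := hF2 x.1.1 (hxG x)
      have h4 : Nm x.1.1 = 0 := LinearMap.mem_ker.mp x.1.2
      rw [h4] at h3
      rw [AddSubmonoidClass.coe_nsmul, ZeroMemClass.coe_zero]
      exact h3.symm
    · have h1 : (p : Module.End ℤ ↥G) y.1 = 0 := LinearMap.mem_ker.mp y.2
      rw [Module.End.natCast_apply] at h1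
      have h2 : ((p • y.1 : ↥G) : M) = ((0 : ↥G) : M) := congrArg Subtype.val h1
      apply LinearMap.mem_ker.mpr
      rw [hF2 y.1.1 y.1.2]
      rw [AddSubmonoidClass.coe_nsmul, ZeroMemClass.coe_zero] at h2
      exact h2
    · rw [LinearMap.mem_ker]
      apply Subtype.ext
      rw [hsXD]
      exact LinearMap.mem_ker.mp y.1.2
    · intro x; rfl
    · intro y; rfl
  -- Step 4 : ranks
  have hrankX : Module.finrank ℤ ↥Xs = (p - 1) * b := by
    set Nm' : M →ₗ[ℤ] ↥G := Nm.codRestrict G hrangeN with hNm'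
    have hker : LinearMap.ker Nm' = Xs := by
      rw [hNm', LinearMap.ker_codRestrict]
    have h1 : Module.finrank ℤ (LinearMap.range Nm') = Module.finrank ℤ ↥G := by
      apply finrank_eq_of_smul_mem p hp.out.ne_zero
      intro g
      refine ⟨g.1, Subtype.ext ?_⟩
      simp [hNm', hF2 g.1 g.2]
    have h2 := Submodule.finrank_quotient_add_finrank (LinearMap.ker Nm')
    rw [LinearEquiv.finrank_eq Nm'.quotKerEquivRange, h1, hker, ha, hr] at h2
    omega
  -- Step 5 : assemble
  rw [hrankX, hkr] at hZ1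
  rw [hstep3N, hG1, ha] at hstep2N
  rw [hstep3D] at hstep2D
  set c := kr (p : Module.End ℤ ↥G) with hc
  have hcok : cok (sX - 1) = p ^ b * c := by
    have : cok (sX - 1) ^ (p - 1) = (p ^ b * c) ^ (p - 1) := by
      rw [hZ1, mul_pow, ← pow_mul, mul_comm b]
    exact Nat.pow_left_injective (by omega : p - 1 ≠ 0) this
  rw [hcok] at hstep2D
  rw [← hDfrange, ← hNfrange, ← hDfker, ← hNfker]
  rw [hDfker, hNfker]
  set h0 := Nf.range.relIndex G.toAddSubgroup with hh0
  set h1 := Df.range.relIndex Xs.toAddSubgroup with hh1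
  have hpa : p ^ a ≠ 0 := pow_ne_zero _ hp.out.ne_zero
  have hpb : p ^ b ≠ 0 := pow_ne_zero _ hp.out.ne_zero
  refine ⟨?_, ?_, ?_⟩
  · have : t * (h0 * p ^ b) = t * (h1 * p ^ a) := by
      calc t * (h0 * p ^ b) = (t * h0) * p ^ b := by ring
        _ = (p ^ a * c) * p ^ b := by rw [hstep2N]
        _ = (p ^ b * c) * p ^ a := by ring
        _ = (t * h1) * p ^ a := by rw [hstep2D]
        _ = t * (h1 * p ^ a) := by ring
    exact Nat.eq_of_mul_eq_mul_left (Nat.pos_of_ne_zero ht) this
  · intro h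
    rw [h, mul_zero] at hstep2N
    exact (mul_ne_zero hpa hG2) hstep2N.symm
  · intro h
    rw [h, mul_zero] at hstep2D
    exact (mul_ne_zero hpb hG2) hstep2D.symm

end main

end Fermat.Agent.CFT.HerbrandAbstract
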