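/-
Program E (S14), E-C2 (helper28): the Herbrand quotient of the unit group in a cyclic extension
`L/K` of prime degree `p` of a totally complex number field `K`:

  `# ( {u ∈ E_L | N u = 1} / {s v / v} ) = p * # ( E_K / N E_L )`,   `E = 𝓞ˣ`,  `Gal(L/K) = ⟨s⟩`.

Number-field half: the action of `Gal(L/K)` on `(𝓞 L)ˣ`, the norm of units, the identification of
the fixed units with `(𝓞 K)ˣ`, the ranks (Dirichlet's unit theorem), and the instantiation of the
abstract index formula `HerbrandAbstract.herbrand_main` (helper18).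

The objects `unitSmul`, `unitD`, `unitNorm` are those of `CFT/Hilbert94.lean` (helper13), copied
verbatim, so that the results transfer by `rfl`.
-/
import Mathlib
import Fermat.Agent.CFT.HerbrandAbstract

set_option autoImplicit false
set_option linter.unusedSectionVars false
set_option linter.style.haveILetI false

open NumberField Module

namespace Fermat.Agent.CFT.UnitHerbrand

variable (K L : Type*) [Field K] [Field L] [NumberField K] [NumberField L] [Algebra K L]

/-! ### Ranks -/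

theorem two_mul_card_infinitePlace [IsTotallyComplex K] :
    2 * Fintype.card (InfinitePlace K) = finrank ℚ K := by
  have h1 := InfinitePlace.card_add_two_mul_card_eq_rank K
  have h2 := IsTotallyComplex.nrRealPlaces_eq_zero K
  have h3 := InfinitePlace.card_eq_nrRealPlaces_add_nrComplexPlaces K
  omega

/-- The number of infinite places of `L` is `[L:K]` times that of `K` (`K` totally complex). -/
theorem card_infinitePlace_eq_mul [IsTotallyComplex K] :
    Fintype.card (InfinitePlace L) = finrank K L * Fintype.card (InfinitePlace K) := by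
  haveI : IsTotallyComplex L := isTotallyComplex_of_algebra K L
  have h1 := two_mul_card_infinitePlace K
  have h2 := two_mul_card_infinitePlace L
  have h3 : finrank ℚ L = finrank ℚ K * finrank K L := (finrank_mul_finrank ℚ K L).symm
  have h4 : 2 * Fintype.card (InfinitePlace L) =
      2 * (finrank K L * Fintype.card (InfinitePlace K)) := by
    rw [h2, h3, ← h1]; ring
  omega

theorem card_infinitePlace_pos : 0 < Fintype.card (InfinitePlace K) := Fintype.card_pos

/-- Dirichlet: the rank of `(𝓞 K)ˣ`. -/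
theorem finrank_units_add_one :
    finrank ℤ (Additive (𝓞 K)ˣ) + 1 = Fintype.card (InfinitePlace K) := by
  rw [NumberField.Units.finrank_eq, NumberField.Units.rank]
  have := card_infinitePlace_pos K
  omega

/-- Dirichlet: the rank of `(𝓞 L)ˣ` in terms of the number of places of `K`. -/
theorem finrank_units_top [IsTotallyComplex K] :
    finrank ℤ (Additive (𝓞 L)ˣ) =
      finrank ℤ (Additive (𝓞 K)ˣ) + (finrank K L - 1) * Fintype.card (InfinitePlace K) := by
  have h1 := finrank_units_add_one K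
  have h2 := finrank_units_add_one L
  have h3 := card_infinitePlace_eq_mul K L
  have h4 : 0 < finrank K L := finrank_pos
  obtain ⟨n, hn⟩ : ∃ n, finrank K L = n + 1 := ⟨finrank K L - 1, by omega⟩
  rw [hn] at h3 ⊢
  simp only [add_tsub_cancel_right]
  have : (n + 1) * Fintype.card (InfinitePlace K) =
      n * Fintype.card (InfinitePlace K) + Fintype.card (InfinitePlace K) := by ring
  omega

/-! ### The Galois action on units, extension and norm of units -/

/-- The action of `σ ∈ Gal(L/K)` on the units of `𝓞 L` (as in `CFT/Hilbert94.lean`). -/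
noncomputable def unitSmul (σ : L ≃ₐ[K] L) : (𝓞 L)ˣ →* (𝓞 L)ˣ :=
  Units.map (MulSemiringAction.toRingHom (L ≃ₐ[K] L) (𝓞 L) σ : 𝓞 L →* 𝓞 L)

/-- `v ↦ σ v / v` on units (as in `CFT/Hilbert94.lean`). -/
noncomputable def unitD (s : L ≃ₐ[K] L) : (𝓞 L)ˣ →* (𝓞 L)ˣ where
  toFun v := unitSmul K L s v / v
  map_one' := by simp
  map_mul' a b := by
    rw [map_mul]
    exact mul_div_mul_comm _ _ _ _

/-- The relative norm on units (as in `CFT/Hilbert94.lean`). -/
noncomputable def unitNorm : (𝓞 L)ˣ →* (𝓞 K)ˣ := Units.map (RingOfIntegers.norm K)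

/-- Extension of units from `K` to `L`. -/
noncomputable def unitExt : (𝓞 K)ˣ →* (𝓞 L)ˣ :=
  Units.map (algebraMap (𝓞 K) (𝓞 L)).toMonoidHom

theorem unitD_apply (s : L ≃ₐ[K] L) (v : (𝓞 L)ˣ) : unitD K L s v = unitSmul K L s v / v := rfl

theorem coe_coe_unitSmul (σ : L ≃ₐ[K] L) (u : (𝓞 L)ˣ) :
    (((unitSmul K L σ u : (𝓞 L)ˣ) : 𝓞 L) : L) = σ ((u : 𝓞 L) : L) := rfl

theorem unit_ext {u v : (𝓞 L)ˣ} (h : ((u : 𝓞 L) : L) = ((v : 𝓞 L) : L)) : u = v :=
  Units.ext (RingOfIntegers.ext h)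

theorem unitSmul_one (u : (𝓞 L)ˣ) : unitSmul K L 1 u = u :=
  unit_ext L (by rw [coe_coe_unitSmul]; rfl)

theorem unitSmul_mul (σ τ : L ≃ₐ[K] L) (u : (𝓞 L)ˣ) :
    unitSmul K L (σ * τ) u = unitSmul K L σ (unitSmul K L τ u) :=
  unit_ext L (by simp only [coe_coe_unitSmul]; rfl)

theorem coe_coe_unitExt (v : (𝓞 K)ˣ) :
    (((unitExt K L v : (𝓞 L)ˣ) : 𝓞 L) : L) = algebraMap K L ((v : 𝓞 K) : K) := rfl

theorem unitExt_injective : Function.Injective (unitExt K L) := by
  intro v w h
  have h1 := congrArg (fun u : (𝓞 L)ˣ => ((u : 𝓞 L) : L)) h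
  simp only [coe_coe_unitExt] at h1
  exact unit_ext K ((algebraMap K L).injective h1)

theorem coe_coe_unitNorm (u : (𝓞 L)ˣ) :
    (((unitNorm K L u : (𝓞 K)ˣ) : 𝓞 K) : K) = Algebra.norm K ((u : 𝓞 L) : L) :=
  RingOfIntegers.coe_norm K _

theorem unitSmul_unitExt (σ : L ≃ₐ[K] L) (v : (𝓞 K)ˣ) :
    unitSmul K L σ (unitExt K L v) = unitExt K L v :=
  unit_ext L (by rw [coe_coe_unitSmul, coe_coe_unitExt, AlgEquiv.commutes])

section Galois

variable [IsGalois K L]

/-- Units fixed by the Galois group come from `K`. -/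
theorem exists_unitExt_eq {u : (𝓞 L)ˣ} (h : ∀ σ : L ≃ₐ[K] L, unitSmul K L σ u = u) :
    ∃ v : (𝓞 K)ˣ, unitExt K L v = u := by
  have key : ∀ w : (𝓞 L)ˣ, (∀ σ : L ≃ₐ[K] L, unitSmul K L σ w = w) →
      ∃ y : 𝓞 K, algebraMap K L (y : K) = ((w : 𝓞 L) : L) := by
    intro w hw
    have hfix : ∀ σ : L ≃ₐ[K] L, σ ((w : 𝓞 L) : L) = ((w : 𝓞 L) : L) := by
      intro σ
      rw [← coe_coe_unitSmul, hw σ]
    obtain ⟨y, hy⟩ := (IsGalois.mem_range_algebraMap_iff_fixed (F := K) (E := L) _).2 hfix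
    have hint : IsIntegral ℤ y := by
      have h1 : IsIntegral ℤ (algebraMap K L y) := by
        rw [hy]; exact (w : 𝓞 L).isIntegral_coe
      exact (isIntegral_algebraMap_iff (algebraMap K L).injective).1 h1
    exact ⟨⟨y, hint⟩, hy⟩
  obtain ⟨y, hy⟩ := key u h
  have hinv : ∀ σ : L ≃ₐ[K] L, unitSmul K L σ u⁻¹ = u⁻¹ := by
    intro σ
    rw [map_inv, h σ]
  obtain ⟨z, hz⟩ := key u⁻¹ hinv
  have hyz : y * z = 1 := by
    apply RingOfIntegers.ext
    apply (algebraMap K L).injective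
    have h1 : ((y * z : 𝓞 K) : K) = (y : K) * (z : K) := rfl
    have h2 : ((1 : 𝓞 K) : K) = 1 := rfl
    have h3 : (((u : 𝓞 L) : L)) * (((u⁻¹ : (𝓞 L)ˣ) : 𝓞 L) : L) = 1 := by
      have : ((u : 𝓞 L) * ((u⁻¹ : (𝓞 L)ˣ) : 𝓞 L)) = 1 := by
        rw [← Units.val_mul, mul_inv_cancel]; rfl
      have h4 := congrArg (fun x : 𝓞 L => (x : L)) this
      exact h4
    rw [h1, h2, map_mul, hy, hz, h3, map_one]
  have hzy : z * y = 1 := by rw [mul_comm]; exact hyz
  refine ⟨⟨y, z, hyz, hzy⟩, ?_⟩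
  exact unit_ext L (by rw [coe_coe_unitExt]; exact hy)

/-- `N u`, extended back to `L`, is the product of the conjugates. -/
theorem unitExt_unitNorm (u : (𝓞 L)ˣ) :
    unitExt K L (unitNorm K L u) = ∏ σ : L ≃ₐ[K] L, unitSmul K L σ u := by
  apply unit_ext L
  rw [coe_coe_unitExt, coe_coe_unitNorm, Algebra.norm_eq_prod_automorphisms]
  rw [Units.coe_prod]
  show _ = algebraMap (𝓞 L) L (∏ i : L ≃ₐ[K] L, ((unitSmul K L i u : (𝓞 L)ˣ) : 𝓞 L))
  rw [map_prod]
  rfl

end Galois

/-! ### Products over a cyclic group -/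

theorem prod_eq_prod_range_pow {G M : Type*} [Group G] [Fintype G] [CommMonoid M] (σ : G)
    (hσ : ∀ τ : G, τ ∈ Subgroup.zpowers σ) (f : G → M) :
    ∏ τ : G, f τ = ∏ i ∈ Finset.range (Nat.card G), f (σ ^ i) := by
  classical
  have hord : orderOf σ = Nat.card G := orderOf_eq_card_of_forall_mem_zpowers hσ
  rw [← hord]
  symm
  apply Finset.prod_bij (fun i _ => σ ^ i)
  · intro i _; exact Finset.mem_univ _
  · intro i hi j hj h
    rw [Finset.mem_range] at hi hj
    exact pow_injOn_Iio_orderOf hi hj h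
  · intro τ _
    obtain ⟨k, hk⟩ := (Subgroup.mem_zpowers_iff).1 (hσ τ)
    have hpos : (0 : ℤ) < orderOf σ := by
      have := orderOf_pos σ
      exact_mod_cast this
    refine ⟨(k % (orderOf σ : ℤ)).toNat, ?_, ?_⟩
    · rw [Finset.mem_range]
      have h1 := Int.emod_lt_of_pos k hpos
      have h2 := Int.emod_nonneg k hpos.ne'
      omega
    · rw [← hk, ← zpow_natCast, Int.toNat_of_nonneg (Int.emod_nonneg k hpos.ne'),
        zpow_mod_orderOf]
  · intro i _; rfl

/-! ### The bridge to the abstract index formula -/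

open Fermat.Agent.CFT.HerbrandAbstract

variable {K L}

section Bridge

variable (s : L ≃ₐ[K] L)

/-- The action of `s` on `Additive (𝓞 L)ˣ`, as a `ℤ`-linear endomorphism. -/
noncomputable def sEnd : Module.End ℤ (Additive (𝓞 L)ˣ) :=
  (MonoidHom.toAdditive (unitSmul K L s)).toIntLinearMap

theorem sEnd_apply (u : (𝓞 L)ˣ) :
    sEnd s (Additive.ofMul u) = Additive.ofMul (unitSmul K L s u) := rfl

theorem sEnd_pow_apply (i : ℕ) (u : (𝓞 L)ˣ) :
    (sEnd s ^ i) (Additive.ofMul u) = Additive.ofMul (unitSmul K L (s ^ i) u) := by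
  induction i generalizing u with
  | zero => simp [unitSmul_one]
  | succ i ih =>
    rw [pow_succ, Module.End.mul_apply, sEnd_apply, ih, pow_succ, unitSmul_mul]

theorem sEnd_sub_one_apply (u : (𝓞 L)ˣ) :
    (sEnd s - 1) (Additive.ofMul u) = Additive.ofMul (unitD K L s u) := by
  rw [LinearMap.sub_apply, sEnd_apply, Module.End.one_apply, unitD_apply, ofMul_div]

theorem normEnd_apply (p : ℕ) (u : (𝓞 L)ˣ) :
    normEnd (sEnd s) p (Additive.ofMul u) =
      Additive.ofMul (∏ i ∈ Finset.range p, unitSmul K L (s ^ i) u) := by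
  rw [normEnd, LinearMap.sum_apply, ofMul_prod]
  exact Finset.sum_congr rfl fun i _ => sEnd_pow_apply s i u

variable [IsGalois K L]

theorem normEnd_apply_eq (hs : ∀ τ : L ≃ₐ[K] L, τ ∈ Subgroup.zpowers s) (u : (𝓞 L)ˣ) :
    normEnd (sEnd s) (Nat.card (L ≃ₐ[K] L)) (Additive.ofMul u) =
      Additive.ofMul (unitExt K L (unitNorm K L u)) := by
  rw [normEnd_apply, unitExt_unitNorm]
  congr 1
  exact (prod_eq_prod_range_pow s hs (fun τ => unitSmul K L τ u)).symm

/-- The stabilizer of a unit. -/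
def fixer (u : (𝓞 L)ˣ) : Subgroup (L ≃ₐ[K] L) where
  carrier := {τ | unitSmul K L τ u = u}
  one_mem' := unitSmul_one K L u
  mul_mem' := by
    intro a b ha hb
    show unitSmul K L (a * b) u = u
    rw [unitSmul_mul, hb, ha]
  inv_mem' := by
    intro a ha
    show unitSmul K L a⁻¹ u = u
    have h1 : unitSmul K L a⁻¹ (unitSmul K L a u) = u := by
      rw [← unitSmul_mul, inv_mul_cancel, unitSmul_one]
    rwa [ha] at h1

theorem unitSmul_eq_self_iff (hs : ∀ τ : L ≃ₐ[K] L, τ ∈ Subgroup.zpowers s) (u : (𝓞 L)ˣ) :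
    unitSmul K L s u = u ↔ ∃ v : (𝓞 K)ˣ, unitExt K L v = u := by
  constructor
  · intro h
    apply exists_unitExt_eq
    intro τ
    have h1 : Subgroup.zpowers s ≤ fixer u := by
      rw [Subgroup.zpowers_le]
      exact h
    exact h1 (hs τ)
  · rintro ⟨v, rfl⟩
    exact unitSmul_unitExt K L s v

end Bridge

section Main

variable [IsGalois K L] (s : L ≃ₐ[K] L)

/-- Extension of units as a `ℤ`-linear map. -/
noncomputable def extLin : Additive (𝓞 K)ˣ →ₗ[ℤ] Additive (𝓞 L)ˣ :=
  (MonoidHom.toAdditive (unitExt K L)).toIntLinearMap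

theorem extLin_apply (v : (𝓞 K)ˣ) :
    extLin (L := L) (Additive.ofMul v) = Additive.ofMul (unitExt K L v) := rfl

theorem extLin_injective : Function.Injective (extLin (K := K) (L := L)) := by
  intro x y h
  exact unitExt_injective K L h

theorem ker_sEnd_sub_one (hs : ∀ τ : L ≃ₐ[K] L, τ ∈ Subgroup.zpowers s) :
    LinearMap.ker (sEnd s - 1) = LinearMap.range (extLin (K := K) (L := L)) := by
  ext x
  obtain ⟨u, rfl⟩ := Additive.ofMul.surjective x
  rw [LinearMap.mem_ker, sEnd_sub_one_apply, LinearMap.mem_range]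
  have h1 : Additive.ofMul (unitD K L s u) = 0 ↔ unitSmul K L s u = u := by
    rw [unitD_apply]
    constructor
    · intro h
      have h2 : unitSmul K L s u / u = 1 := h
      exact div_eq_one.mp h2
    · intro h
      rw [h, div_self']
      rfl
  rw [h1, unitSmul_eq_self_iff s hs]
  constructor
  · rintro ⟨v, hv⟩
    exact ⟨Additive.ofMul v, by rw [extLin_apply, hv]⟩
  · rintro ⟨y, hy⟩
    obtain ⟨v, rfl⟩ := Additive.ofMul.surjective y
    exact ⟨v, hy⟩

theorem finrank_ker_sEnd_sub_one (hs : ∀ τ : L ≃ₐ[K] L, τ ∈ Subgroup.zpowers s) :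
    finrank ℤ (LinearMap.ker (sEnd s - 1)) = finrank ℤ (Additive (𝓞 K)ˣ) := by
  rw [ker_sEnd_sub_one s hs]
  exact (LinearEquiv.ofInjective (extLin (K := K) (L := L)) extLin_injective).finrank_eq.symm

theorem sEnd_pow_card : sEnd s ^ Nat.card (L ≃ₐ[K] L) = 1 := by
  apply LinearMap.ext
  intro x
  obtain ⟨u, rfl⟩ := Additive.ofMul.surjective x
  rw [sEnd_pow_apply, pow_card_eq_one', unitSmul_one]
  rfl

end Main

section Final

variable [IsGalois K L] (s : L ≃ₐ[K] L)

theorem range_normEnd_eq (hs : ∀ τ : L ≃ₐ[K] L, τ ∈ Subgroup.zpowers s) :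
    (LinearMap.range (normEnd (sEnd s) (Nat.card (L ≃ₐ[K] L)))).toAddSubgroup =
      Subgroup.toAddSubgroup ((unitNorm K L).range.map (unitExt K L)) := by
  ext x
  obtain ⟨u, rfl⟩ := Additive.ofMul.surjective x
  constructor
  · rintro ⟨y, hy⟩
    obtain ⟨w, rfl⟩ := Additive.ofMul.surjective y
    rw [normEnd_apply_eq s hs] at hy
    have : unitExt K L (unitNorm K L w) = u := hy
    exact ⟨unitNorm K L w, ⟨w, rfl⟩, this⟩
  · rintro ⟨v, ⟨w, rfl⟩, hv⟩
    refine ⟨Additive.ofMul w, ?_⟩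
    rw [normEnd_apply_eq s hs]
    exact congrArg Additive.ofMul hv

theorem ker_sEnd_sub_one_eq (hs : ∀ τ : L ≃ₐ[K] L, τ ∈ Subgroup.zpowers s) :
    (LinearMap.ker (sEnd s - 1)).toAddSubgroup =
      Subgroup.toAddSubgroup ((⊤ : Subgroup (𝓞 K)ˣ).map (unitExt K L)) := by
  rw [ker_sEnd_sub_one s hs]
  ext x
  obtain ⟨u, rfl⟩ := Additive.ofMul.surjective x
  constructor
  · rintro ⟨y, hy⟩
    obtain ⟨v, rfl⟩ := Additive.ofMul.surjective y
    exact ⟨v, Subgroup.mem_top v, hy⟩
  · rintro ⟨v, -, hv⟩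
    exact ⟨Additive.ofMul v, congrArg Additive.ofMul hv⟩

theorem range_sEnd_sub_one_eq :
    (LinearMap.range (sEnd s - 1)).toAddSubgroup =
      Subgroup.toAddSubgroup (unitD K L s).range := by
  ext x
  obtain ⟨u, rfl⟩ := Additive.ofMul.surjective x
  constructor
  · rintro ⟨y, hy⟩
    obtain ⟨w, rfl⟩ := Additive.ofMul.surjective y
    rw [sEnd_sub_one_apply] at hy
    exact ⟨w, hy⟩
  · rintro ⟨w, hw⟩
    refine ⟨Additive.ofMul w, ?_⟩
    rw [sEnd_sub_one_apply]
    exact congrArg Additive.ofMul hw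

theorem ker_normEnd_eq (hs : ∀ τ : L ≃ₐ[K] L, τ ∈ Subgroup.zpowers s) :
    (LinearMap.ker (normEnd (sEnd s) (Nat.card (L ≃ₐ[K] L)))).toAddSubgroup =
      Subgroup.toAddSubgroup (unitNorm K L).ker := by
  ext x
  obtain ⟨u, rfl⟩ := Additive.ofMul.surjective x
  show normEnd (sEnd s) (Nat.card (L ≃ₐ[K] L)) (Additive.ofMul u) = 0 ↔ unitNorm K L u = 1
  rw [normEnd_apply_eq s hs]
  constructor
  · intro h
    have h1 : unitExt K L (unitNorm K L u) = 1 := h
    rw [← map_one (unitExt K L)] at h1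
    exact unitExt_injective K L h1
  · intro h
    rw [h, map_one]
    rfl

/-- **Herbrand quotient of the units** of a cyclic extension of prime degree `p` of a totally
complex number field: `#H¹(G, E_L) = p * #Ĥ⁰(G, E_L)` (index form). -/
theorem index_unitD_eq (p : ℕ) [hp : Fact p.Prime] [IsTotallyComplex K]
    (hdeg : finrank K L = p) (hs : ∀ τ : L ≃ₐ[K] L, τ ∈ Subgroup.zpowers s) :
    ((unitD K L s).range.subgroupOf (unitNorm K L).ker).index =
        p * (unitNorm K L).range.index ∧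
      (unitNorm K L).range.index ≠ 0 := by
  have hcard : Nat.card (L ≃ₐ[K] L) = p := by
    rw [IsGalois.card_aut_eq_finrank, hdeg]
  have hσ : sEnd s ^ p = 1 := by rw [← hcard]; exact sEnd_pow_card s
  set a := finrank ℤ (Additive (𝓞 K)ˣ) with ha
  set b := Fintype.card (InfinitePlace K) with hb
  have hab : a + 1 = b := finrank_units_add_one K
  have hr : finrank ℤ (Additive (𝓞 L)ˣ) = a + (p - 1) * b := by
    rw [finrank_units_top K L, hdeg]
  obtain ⟨h1, h2, h3⟩ := herbrand_main p (sEnd s) hσ a b (finrank_ker_sEnd_sub_one s hs) hr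
  rw [← hcard] at h1 h2 h3
  rw [range_normEnd_eq s hs, ker_sEnd_sub_one_eq s hs, Subgroup.relIndex_toAddSubgroup,
    Subgroup.relIndex_map_map_of_injective _ _ (unitExt_injective K L),
    Subgroup.relIndex_top_right] at h1 h2
  rw [range_sEnd_sub_one_eq s, ker_normEnd_eq s hs, Subgroup.relIndex_toAddSubgroup] at h1 h3
  rw [hcard] at h1
  refine ⟨?_, h2⟩
  rw [← hab, pow_succ] at h1
  have hpa : 0 < p ^ a := pow_pos hp.out.pos a
  have h4 : (unitNorm K L).range.index * p * p ^ a =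
      (unitD K L s).range.relIndex (unitNorm K L).ker * p ^ a := by
    rw [← h1]; ring
  have h5 := Nat.eq_of_mul_eq_mul_right hpa h4
  rw [Subgroup.relIndex] at h5
  rw [← h5, mul_comm]


/-- The same statement with the cardinalities of the two cohomology groups
`H¹ = ker N / im (s - 1)` and `Ĥ⁰ = E_K / N E_L` (the objects of `CFT/Hilbert94.lean`). -/
theorem card_H1_eq (p : ℕ) [hp : Fact p.Prime] [IsTotallyComplex K]
    (hdeg : finrank K L = p) (hs : ∀ τ : L ≃ₐ[K] L, τ ∈ Subgroup.zpowers s) :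
    Nat.card (↥(unitNorm K L).ker ⧸ ((unitD K L s).range.subgroupOf (unitNorm K L).ker)) =
        p * Nat.card ((𝓞 K)ˣ ⧸ (unitNorm K L).range) ∧
      Nat.card ((𝓞 K)ˣ ⧸ (unitNorm K L).range) ≠ 0 :=
  index_unitD_eq s p hdeg hs

end Final
end Fermat.Agent.CFT.UnitHerbrand
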