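/-
Program E (S14), E-C2 (helper13): the weak second inequality, assembled.

`L/K` Galois of prime degree `p`, everywhere unramified, `K` totally complex.  Then there is a
nonzero ideal `a` of `𝓞 K` which is NOT of the form `(y/x) · N_{L/K}(A)`:
the norm map `Cl_L → Cl_K` is not surjective (its image has index at least `p`).

Inputs: `UnitHerbrand.card_H1_eq` (helper28, on helper18's `HerbrandAbstract.herbrand_main`):
`|H¹(E_L)| = p |E_K / N E_L|`, and `Hilbert94.exists_ideal_not_norm` (Chevalley's count).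
-/
import Mathlib
import Fermat.Agent.CFT.Hilbert94
import Fermat.Agent.CFT.UnitHerbrand

set_option autoImplicit false
set_option linter.unusedSectionVars false
set_option linter.style.haveILetI false

open NumberField Module
open scoped Pointwise nonZeroDivisors

namespace Fermat.Agent.CFT.SecondIneqMain

variable {K L : Type} [Field K] [Field L] [NumberField K] [NumberField L] [Algebra K L]
  [IsGalois K L]

theorem unitD_eq (s : L ≃ₐ[K] L) : UnitHerbrand.unitD K L s = Hilbert94.unitD K L s :=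
  MonoidHom.ext fun _ => rfl

theorem unitNorm_eq : UnitHerbrand.unitNorm K L = Hilbert94.unitNorm K L := rfl

/-- `|N(Cl_L)| * p ≤ h_K`: the image of the norm on class groups has index at least `p`. -/
theorem card_range_normCl_mul_le (p : ℕ) [hp : Fact p.Prime] [IsTotallyComplex K]
    (hdeg : finrank K L = p)
    (hunr : ∀ P : Ideal (𝓞 L), P.IsPrime → P ≠ ⊥ → P.inertia (L ≃ₐ[K] L) = ⊥) :
    Nat.card (Hilbert94.normCl K L).range * p ≤ Nat.card (ClassGroup (𝓞 K)) := by
  have hcard : Nat.card (L ≃ₐ[K] L) = p := by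
    rw [IsGalois.card_aut_eq_finrank, hdeg]
  haveI : IsCyclic (L ≃ₐ[K] L) := isCyclic_of_prime_card hcard
  obtain ⟨s, hs⟩ := IsCyclic.exists_generator (α := L ≃ₐ[K] L)
  obtain ⟨h, h0⟩ := UnitHerbrand.card_H1_eq s p hdeg hs
  rw [unitD_eq, unitNorm_eq] at h
  rw [unitNorm_eq] at h0
  have h1 := Hilbert94.card_range_normCl_mul_le hs hunr
  rw [h] at h1
  have h2 : Nat.card (Hilbert94.normCl K L).range * p *
      Nat.card ((𝓞 K)ˣ ⧸ (Hilbert94.unitNorm K L).range) ≤
      Nat.card (ClassGroup (𝓞 K)) * Nat.card ((𝓞 K)ˣ ⧸ (Hilbert94.unitNorm K L).range) := by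
    rw [mul_assoc]; exact h1
  exact Nat.le_of_mul_le_mul_right h2 (Nat.pos_of_ne_zero h0)

/-- **Weak second inequality** (helper18's shape): some ideal of `K` is not `(y/x) N(A)`. -/
theorem exists_ideal_not_norm (p : ℕ) [hp : Fact p.Prime] [IsTotallyComplex K]
    (hdeg : finrank K L = p)
    (hunr : ∀ P : Ideal (𝓞 L), P.IsPrime → P ≠ ⊥ → P.inertia (L ≃ₐ[K] L) = ⊥) :
    ∃ a : Ideal (𝓞 K), a ≠ ⊥ ∧ ∀ (x y : 𝓞 K) (A : Ideal (𝓞 L)), x ≠ 0 → y ≠ 0 → A ≠ ⊥ →
      Ideal.span {x} * a ≠ Ideal.span {y} * Ideal.relNorm (𝓞 K) A := by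
  have hcard : Nat.card (L ≃ₐ[K] L) = p := by
    rw [IsGalois.card_aut_eq_finrank, hdeg]
  haveI : IsCyclic (L ≃ₐ[K] L) := isCyclic_of_prime_card hcard
  obtain ⟨s, hs⟩ := IsCyclic.exists_generator (α := L ≃ₐ[K] L)
  have h := (UnitHerbrand.card_H1_eq s p hdeg hs).1
  rw [unitD_eq, unitNorm_eq] at h
  exact Hilbert94.exists_ideal_not_norm hs hunr hp.out.two_le h

/-- The norm on class groups is not surjective. -/
theorem not_surjective_normCl (p : ℕ) [hp : Fact p.Prime] [IsTotallyComplex K]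
    (hdeg : finrank K L = p)
    (hunr : ∀ P : Ideal (𝓞 L), P.IsPrime → P ≠ ⊥ → P.inertia (L ≃ₐ[K] L) = ⊥) :
    ¬ Function.Surjective (Hilbert94.normCl K L) := by
  intro hsurj
  have h1 := card_range_normCl_mul_le p hdeg hunr
  rw [MonoidHom.range_eq_top.mpr hsurj, Subgroup.card_top] at h1
  have hh : 0 < Nat.card (ClassGroup (𝓞 K)) := Nat.card_pos
  have := hp.out.two_le
  nlinarith

end Fermat.Agent.CFT.SecondIneqMain
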