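/-
Program E (S14), E-C2 (helper13): bridge from the weak second inequality to helper26's
`ClassNormQuot.normClasses`: for `L/K` Galois of prime degree `p`, everywhere unramified, `K`
totally complex, the subgroup of norm classes of `ClassGroup (𝓞 K)` has index at least `p`
(in particular it is a proper subgroup).
-/
import Mathlib
import Fermat.Agent.CFT.SecondIneqMain
import Fermat.Agent.CFT.ClassNormQuot

set_option autoImplicit false
set_option linter.unusedSectionVars false
set_option linter.style.haveILetI false

open NumberField Module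
open scoped Pointwise nonZeroDivisors

namespace Fermat.Agent.CFT.NormClassesIndex

variable {K L : Type} [Field K] [Field L] [NumberField K] [NumberField L] [Algebra K L]
  [IsGalois K L]

/-- The image of the norm on class groups is the subgroup of norm classes. -/
theorem range_normCl_eq :
    (Hilbert94.normCl K L).range = ClassNormQuot.normClasses K L := by
  ext c
  constructor
  · rintro ⟨d, rfl⟩
    obtain ⟨A, hA, rfl⟩ := Hilbert94.exists_mk0_eq d
    rw [Hilbert94.normCl_mk0 A hA]
    exact ⟨A, hA, rfl⟩
  · rintro ⟨A, hA, rfl⟩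
    exact ⟨ClassGroup.mk0 ⟨A, mem_nonZeroDivisors_of_ne_zero hA⟩, Hilbert94.normCl_mk0 A hA⟩

/-- **Second inequality, index form**: `p ≤ [Cl_K : norm classes]`. -/
theorem le_index_normClasses (p : ℕ) [hp : Fact p.Prime] [IsTotallyComplex K]
    (hdeg : finrank K L = p)
    (hunr : ∀ P : Ideal (𝓞 L), P.IsPrime → P ≠ ⊥ → P.inertia (L ≃ₐ[K] L) = ⊥) :
    p ≤ (ClassNormQuot.normClasses K L).index := by
  have h1 := SecondIneqMain.card_range_normCl_mul_le p hdeg hunr
  rw [range_normCl_eq] at h1
  have h2 := Subgroup.card_mul_index (ClassNormQuot.normClasses K L)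
  rw [← h2] at h1
  have hpos : 0 < Nat.card (ClassNormQuot.normClasses K L) := Nat.card_pos
  exact Nat.le_of_mul_le_mul_left h1 hpos

theorem normClasses_ne_top (p : ℕ) [hp : Fact p.Prime] [IsTotallyComplex K]
    (hdeg : finrank K L = p)
    (hunr : ∀ P : Ideal (𝓞 L), P.IsPrime → P ≠ ⊥ → P.inertia (L ≃ₐ[K] L) = ⊥) :
    ClassNormQuot.normClasses K L ≠ ⊤ := by
  intro h
  have h1 := le_index_normClasses p hdeg hunr
  rw [h, Subgroup.index_top] at h1
  have := hp.out.two_le
  omega

/-- If moreover the first inequality `[Cl_K : norm classes] ≤ p` holds, the index is `p`. -/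
theorem index_normClasses_eq (p : ℕ) [hp : Fact p.Prime] [IsTotallyComplex K]
    (hdeg : finrank K L = p)
    (hunr : ∀ P : Ideal (𝓞 L), P.IsPrime → P ≠ ⊥ → P.inertia (L ≃ₐ[K] L) = ⊥)
    (hfirst : (ClassNormQuot.normClasses K L).index ≤ p) :
    (ClassNormQuot.normClasses K L).index = p :=
  le_antisymm hfirst (le_index_normClasses p hdeg hunr)

end Fermat.Agent.CFT.NormClassesIndex
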