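/-
Program E (S14), piece C4 (S1) (helper18): split primes are norms.

`L/K` Galois extension of number fields.  If the identity is a Frobenius at the nonzero prime `P`
of `𝓞 L` then the residue degree of `P` over `𝓞 K` is `1` and `N_{L/K} P = P ∩ 𝓞 K`.
Corollary (helper21's `artin`): a nonzero prime `q` of `𝓞 K` with `artin K L q = 1` is the relative
norm of a prime of `𝓞 L` (this is `Hsplit` of the crossing assembly).
-/
import Mathlib
import Fermat.Agent.CFT.ArtinMap

set_option autoImplicit false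
set_option linter.style.haveILetI false

open NumberField
open scoped Pointwise

namespace Fermat.Agent.CFT.SplitNorm

/-- A finite field in which every element satisfies `x ^ N = x` (`N ≥ 2`) has at most `N`
elements. -/
theorem card_le_of_forall_pow_eq {k : Type*} [Field k] [Finite k] (N : ℕ) (hN : 1 < N)
    (h : ∀ x : k, x ^ N = x) : Nat.card k ≤ N := by
  classical
  haveI := Fintype.ofFinite k
  have hdeg := FiniteField.X_pow_card_sub_X_natDegree_eq k hN
  have hne : (Polynomial.X ^ N - Polynomial.X : Polynomial k) ≠ 0 := by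
    intro h0
    rw [h0, Polynomial.natDegree_zero] at hdeg
    omega
  have hsub : (Finset.univ : Finset k) ⊆ (Polynomial.X ^ N - Polynomial.X : Polynomial k).roots.toFinset := by
    intro x _
    rw [Multiset.mem_toFinset, Polynomial.mem_roots hne]
    simp [h x]
  calc Nat.card k = Fintype.card k := Nat.card_eq_fintype_card
    _ = (Finset.univ : Finset k).card := rfl
    _ ≤ (Polynomial.X ^ N - Polynomial.X : Polynomial k).roots.toFinset.card :=
        Finset.card_le_card hsub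
    _ ≤ Multiset.card (Polynomial.X ^ N - Polynomial.X : Polynomial k).roots :=
        Multiset.toFinset_card_le _
    _ ≤ (Polynomial.X ^ N - Polynomial.X : Polynomial k).natDegree := Polynomial.card_roots' _
    _ = N := hdeg


variable {K L : Type*} [Field K] [Field L] [NumberField K] [NumberField L] [Algebra K L]
  [IsGalois K L]

/-- A prime at which the identity is a Frobenius has residue degree one. -/
theorem inertiaDeg_eq_one_of_isArithFrobAt_one (P : Ideal (𝓞 L)) [hP' : P.IsPrime] (hP : P ≠ ⊥)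
    (h : IsArithFrobAt (𝓞 K) (1 : L ≃ₐ[K] L) P) : P.inertiaDeg (𝓞 K) = 1 := by
  set p : Ideal (𝓞 K) := P.under (𝓞 K) with hp
  have : P.LiesOver p := ⟨rfl⟩
  have hp0 : p ≠ ⊥ := fun h0 => hP (Ideal.eq_bot_of_comap_eq_bot h0)
  have hPmax : P.IsMaximal := Ideal.IsPrime.isMaximal hP' hP
  have hpprime : p.IsPrime := Ideal.IsPrime.under (𝓞 K) P
  have hpmax : p.IsMaximal := Ideal.IsPrime.isMaximal hpprime hp0
  rw [Ideal.inertiaDeg_eq_of_isMaximal p P]
  letI : Field (𝓞 K ⧸ p) := Ideal.Quotient.field p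
  letI : Field (𝓞 L ⧸ P) := Ideal.Quotient.field P
  have : Finite (𝓞 K ⧸ p) := Ideal.finiteQuotientOfFreeOfNeBot p hp0
  have : Finite (𝓞 L ⧸ P) := Ideal.finiteQuotientOfFreeOfNeBot P hP
  set N := Nat.card (𝓞 K ⧸ p) with hNdef
  have hN : 1 < N := Finite.one_lt_card
  have hall : ∀ x : 𝓞 L ⧸ P, x ^ N = x := by
    intro x
    obtain ⟨y, rfl⟩ := Ideal.Quotient.mk_surjective x
    have h1 := h y
    rw [← map_pow, eq_comm, Ideal.Quotient.eq]
    simpa using h1
  have hcard := card_le_of_forall_pow_eq N hN hall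
  have hpow : Nat.card (𝓞 L ⧸ P) = N ^ Module.finrank (𝓞 K ⧸ p) (𝓞 L ⧸ P) :=
    Module.natCard_eq_pow_finrank
  have hpos : 0 < Module.finrank (𝓞 K ⧸ p) (𝓞 L ⧸ P) := Module.finrank_pos
  rw [hpow] at hcard
  have hle : Module.finrank (𝓞 K ⧸ p) (𝓞 L ⧸ P) ≤ 1 := by
    by_contra hlt
    push Not at hlt
    have : N ^ 2 ≤ N ^ Module.finrank (𝓞 K ⧸ p) (𝓞 L ⧸ P) := Nat.pow_le_pow_right (by omega) hlt
    nlinarith
  omega

/-- Such a prime is its own relative norm's preimage: `N_{L/K} P = P ∩ 𝓞 K`. -/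
theorem relNorm_eq_under_of_isArithFrobAt_one (P : Ideal (𝓞 L)) [hP' : P.IsPrime] (hP : P ≠ ⊥)
    (h : IsArithFrobAt (𝓞 K) (1 : L ≃ₐ[K] L) P) :
    Ideal.relNorm (𝓞 K) P = P.under (𝓞 K) := by
  set p : Ideal (𝓞 K) := P.under (𝓞 K) with hp
  have : P.LiesOver p := ⟨rfl⟩
  have hp0 : p ≠ ⊥ := fun h0 => hP (Ideal.eq_bot_of_comap_eq_bot h0)
  have hPmax : P.IsMaximal := Ideal.IsPrime.isMaximal hP' hP
  have hpprime : p.IsPrime := Ideal.IsPrime.under (𝓞 K) P
  have hpmax : p.IsMaximal := Ideal.IsPrime.isMaximal hpprime hp0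
  rw [Ideal.relNorm_eq_pow_of_isMaximal P p, inertiaDeg_eq_one_of_isArithFrobAt_one P hP h, pow_one]

open Fermat.Agent.CFT.ArtinMap in
/-- **Split primes are norms** (`Hsplit`): a nonzero prime with trivial Artin symbol is the relative
norm of a prime above it. -/
theorem exists_relNorm_eq_of_artin_eq_one [IsMulCommutative (L ≃ₐ[K] L)] (q : Ideal (𝓞 K))
    [hq' : q.IsPrime] (hq : q ≠ ⊥) (h : artin K L q = 1) :
    ∃ P : Ideal (𝓞 L), P.IsPrime ∧ P ≠ ⊥ ∧ Ideal.relNorm (𝓞 K) P = q := by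
  have hfrob := isArithFrobAt_artin L q hq (primeOver K L q)
  rw [h] at hfrob
  refine ⟨primeOver K L q, inferInstance, primeOver_ne_bot K L q hq, ?_⟩
  rw [relNorm_eq_under_of_isArithFrobAt_one (primeOver K L q) (primeOver_ne_bot K L q hq) hfrob]
  exact (Ideal.over_def (primeOver K L q) q).symm

/-- General form: any Frobenius `σ = 1` at some prime `P` over `q`. -/
theorem exists_relNorm_eq_of_isArithFrobAt_one (q : Ideal (𝓞 K)) (P : Ideal (𝓞 L)) [P.IsPrime]
    (hP : P ≠ ⊥) (hPq : P.under (𝓞 K) = q) (h : IsArithFrobAt (𝓞 K) (1 : L ≃ₐ[K] L) P) :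
    ∃ P' : Ideal (𝓞 L), P'.IsPrime ∧ P' ≠ ⊥ ∧ Ideal.relNorm (𝓞 K) P' = q :=
  ⟨P, inferInstance, hP, by rw [relNorm_eq_under_of_isArithFrobAt_one P hP h, hPq]⟩

end Fermat.Agent.CFT.SplitNorm
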