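/-
Program E (S14), E-C4 (helper13): the concrete end of Artin reciprocity for an everywhere
unramified Galois extension `L/K` of prime degree `p` of a totally complex number field.

`piCl I` is the class of the nonzero ideal `I` of `𝓞 K` in `Q := Cl_K / (norm classes)`.
We check all hypotheses of the abstract pair assembly `PairAssembly.art_span_singleton_eq_one`
(helper23) for `art := artin K L` (helper21) and `π := piCl`, except the crossing hypothesis
`(H2)`, which is what `PairCross` produces: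

* `piCl_one`, `piCl_mul`, `piCl_pow_eq_one`, `piCl_span_singleton` (H4), `piCl_relNorm`;
* `piCl_eq_one_of_artin_eq_one` (Hs): split primes are norms (helper18's `SplitNorm`);
* `exists_prime_piCl_ne_one` (H3): the weak second inequality (`NormClassesIndex`);
* `artin_span_singleton_eq_one` : `(H2) →` the Artin map kills principal ideals;
* `artinShape_of_H2` : `(H2) →` the consumer shape (ART) of `S14/ArtinGlue`.
-/
import Mathlib
import Fermat.Agent.CFT.ArtinMap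
import Fermat.Agent.CFT.PairAssembly
import Fermat.Agent.CFT.ClassNormQuot
import Fermat.Agent.CFT.NormClassesIndex
import Fermat.Agent.CFT.SplitNorm

set_option autoImplicit false
set_option linter.unusedSectionVars false
set_option linter.style.haveILetI false

open NumberField Module
open scoped Pointwise nonZeroDivisors IsMulCommutative

namespace Fermat.Agent.CFT.ArtinRecipEnd

open Fermat.Agent.CFT.ArtinMap Fermat.Agent.CFT.ClassNormQuot Fermat.Agent.CFT.CrossAssembly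

variable (K L : Type) [Field K] [Field L] [NumberField K] [NumberField L] [Algebra K L]

/-- The class of a nonzero ideal of `𝓞 K` modulo norm classes from `L` (value `1` at `⊥`). -/
noncomputable def piCl (I : Ideal (𝓞 K)) : ClassGroup (𝓞 K) ⧸ normClasses K L :=
  open Classical in if hI : I = ⊥ then 1 else QuotientGroup.mk (cls I hI)

variable {K L}

theorem piCl_of_ne_bot {I : Ideal (𝓞 K)} (hI : I ≠ ⊥) :
    piCl K L I = QuotientGroup.mk (cls I hI) := dif_neg hI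

theorem piCl_eq_one_iff_mem {I : Ideal (𝓞 K)} (hI : I ≠ ⊥) :
    piCl K L I = 1 ↔ cls I hI ∈ normClasses K L := by
  rw [piCl_of_ne_bot hI, QuotientGroup.eq_one_iff]

theorem piCl_one : piCl K L 1 = 1 := by
  have h1 : (1 : Ideal (𝓞 K)) ≠ ⊥ := one_ne_zero
  rw [piCl_eq_one_iff_mem h1]
  have : cls (1 : Ideal (𝓞 K)) h1 = 1 := by
    have h := cls_top (F := K)
    have e : ∀ (I : Ideal (𝓞 K)) (hI : I ≠ ⊥), I = ⊤ → cls I hI = 1 := by
      rintro I hI rfl; exact h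
    exact e _ _ Ideal.one_eq_top
  rw [this]; exact one_mem _

theorem piCl_mul {I J : Ideal (𝓞 K)} (hI : I ≠ ⊥) (hJ : J ≠ ⊥) :
    piCl K L (I * J) = piCl K L I * piCl K L J := by
  rw [piCl_of_ne_bot (mul_ne_zero hI hJ), piCl_of_ne_bot hI, piCl_of_ne_bot hJ, cls_mul I J hI hJ]
  rfl

theorem piCl_relNorm {A : Ideal (𝓞 L)} (hA : A ≠ ⊥) :
    piCl K L (Ideal.relNorm (𝓞 K) A) = 1 := by
  rw [piCl_eq_one_iff_mem (relNorm_ne_bot K L hA)]
  exact cls_relNorm_mem K L A hA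

theorem piCl_span_singleton {a : 𝓞 K} (ha : a ≠ 0) : piCl K L (Ideal.span {a}) = 1 := by
  have h0 : Ideal.span {a} ≠ (⊥ : Ideal (𝓞 K)) := by
    rwa [Ne, Ideal.span_singleton_eq_bot]
  rw [piCl_eq_one_iff_mem h0]
  have : cls (Ideal.span {a}) h0 = 1 := by
    unfold cls
    rw [ClassGroup.mk0_eq_one_iff]
    exact ⟨⟨a, rfl⟩⟩
  rw [this]; exact one_mem _

theorem piCl_pow {I : Ideal (𝓞 K)} (hI : I ≠ ⊥) (n : ℕ) :
    piCl K L (I ^ n) = piCl K L I ^ n :=
  map_pow_of_ne_bot (piCl K L) piCl_one (fun _ _ hI hJ => piCl_mul hI hJ) hI n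

/-- `π(I)^p = 1`: `I^[L:K]` is the norm of `I 𝓞_L`. -/
theorem piCl_pow_finrank {I : Ideal (𝓞 K)} (hI : I ≠ ⊥) :
    piCl K L I ^ finrank K L = 1 := by
  rw [← piCl_pow hI]
  have h1 : Ideal.relNorm (𝓞 K) (I.map (algebraMap (𝓞 K) (𝓞 L))) = I ^ finrank K L := by
    rw [Ideal.relNorm_algebraMap, (IsFractionRing.finrank_eq (𝓞 K) K (𝓞 L) L)]
  rw [← h1]
  exact piCl_relNorm (Ideal.map_ne_bot_of_ne_bot hI)

theorem piCl_eq_one_iff {I : Ideal (𝓞 K)} (hI : I ≠ ⊥) :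
    piCl K L I = 1 ↔ ∃ (x y : 𝓞 K) (A : Ideal (𝓞 L)), x ≠ 0 ∧ y ≠ 0 ∧ A ≠ ⊥ ∧
      Ideal.span {x} * I = Ideal.span {y} * Ideal.relNorm (𝓞 K) A := by
  rw [piCl_eq_one_iff_mem hI, mem_normClasses]
  constructor
  · rintro ⟨A, hA, h⟩
    obtain ⟨x, y, hx, hy, hxy⟩ := (cls_eq_cls_iff hI (relNorm_ne_bot K L hA)).mp h
    exact ⟨x, y, A, hx, hy, hA, hxy⟩
  · rintro ⟨x, y, A, hx, hy, hA, hxy⟩
    exact ⟨A, hA, (cls_eq_cls_iff hI (relNorm_ne_bot K L hA)).mpr ⟨x, y, hx, hy, hxy⟩⟩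

/-- If `π` is trivial on all nonzero primes, it is trivial on all nonzero ideals. -/
theorem piCl_eq_one_of_primes (h : ∀ q : Ideal (𝓞 K), q.IsPrime → q ≠ ⊥ → piCl K L q = 1)
    (I : Ideal (𝓞 K)) (hI : I ≠ ⊥) : piCl K L I = 1 := by
  revert hI
  induction I using UniqueFactorizationMonoid.induction_on_prime with
  | h₁ => intro h0; exact absurd rfl h0
  | h₂ Z hZ =>
    intro _
    have : Z = 1 := by simpa [Ideal.one_eq_top] using Ideal.isUnit_iff.mp hZ
    rw [this]; exact piCl_one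
  | h₃ Z q hZ hq ih =>
    intro _
    have hq0 : q ≠ ⊥ := hq.ne_zero
    rw [piCl_mul hq0 hZ, h q (Ideal.isPrime_of_prime hq) hq0, ih hZ, one_mul]

section Galois

variable [IsGalois K L]

/-- (H3): some nonzero prime of `K` is not a norm class. -/
theorem exists_prime_piCl_ne_one (p : ℕ) [hp : Fact p.Prime] [IsTotallyComplex K]
    (hdeg : finrank K L = p)
    (hunr : ∀ P : Ideal (𝓞 L), P.IsPrime → P ≠ ⊥ → P.inertia (L ≃ₐ[K] L) = ⊥) :
    ∃ r : Ideal (𝓞 K), r.IsPrime ∧ r ≠ ⊥ ∧ piCl K L r ≠ 1 := by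
  by_contra hcon
  push Not at hcon
  apply NormClassesIndex.normClasses_ne_top p hdeg hunr
  rw [eq_top_iff]
  intro c _
  obtain ⟨I, hI, rfl⟩ := exists_cls_eq c
  exact (piCl_eq_one_iff_mem hI).mp (piCl_eq_one_of_primes hcon I hI)

variable [IsMulCommutative (L ≃ₐ[K] L)]

/-- (Hs): split primes are norms. -/
theorem piCl_eq_one_of_artin_eq_one (q : Ideal (𝓞 K)) (hq' : q.IsPrime) (hq : q ≠ ⊥)
    (h : artin K L q = 1) : piCl K L q = 1 := by
  haveI := hq'
  obtain ⟨P, -, hP0, hPq⟩ := SplitNorm.exists_relNorm_eq_of_artin_eq_one q hq h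
  rw [← hPq]
  exact piCl_relNorm hP0

/-- **Artin reciprocity, end**: given the crossing hypothesis `(H2)`, the Artin map of an
everywhere unramified Galois extension of prime degree of a totally complex field kills
principal ideals. -/
theorem artin_span_singleton_eq_one (p : ℕ) [hp : Fact p.Prime] [IsTotallyComplex K]
    (hdeg : finrank K L = p)
    (hunr : ∀ P : Ideal (𝓞 L), P.IsPrime → P ≠ ⊥ → P.inertia (L ≃ₐ[K] L) = ⊥)
    (H2 : ∀ q q' : Ideal (𝓞 K), q.IsPrime → q ≠ ⊥ → q'.IsPrime → q' ≠ ⊥ →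
      artin K L q ≠ 1 → artin K L q' ≠ 1 →
      ∃ Y Y' : Submonoid (Ideal (𝓞 K)), IsGood (artin K L) (piCl K L) Y ∧
        IsGood (artin K L) (piCl K L) Y' ∧ q ∈ Y ∧ q' ∈ Y' ∧
        ∃ b₀ : Ideal (𝓞 K), b₀ ∈ Y ∧ b₀ ∈ Y' ∧ artin K L b₀ ≠ 1)
    (a : 𝓞 K) (ha : a ≠ 0) : artin K L (Ideal.span {a}) = 1 := by
  have hG : Nat.card (L ≃ₐ[K] L) = p := by
    rw [IsGalois.card_aut_eq_finrank, hdeg]
  refine PairAssembly.art_span_singleton_eq_one (artin K L) (artin_one K L)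
    (fun I J hI hJ => artin_mul L hI hJ) (piCl K L) piCl_one
    (fun I J hI hJ => piCl_mul hI hJ) p hp.out hG
    (fun I hI => by rw [← hdeg]; exact piCl_pow_finrank hI)
    (fun q hq' hq h => piCl_eq_one_of_artin_eq_one q hq' hq h) H2
    (exists_prime_piCl_ne_one p hdeg hunr) (fun a ha => piCl_span_singleton ha) a ha

/-- The consumer shape (ART) of `S14/ArtinGlue` (stated explicitly). -/
theorem artinShape_of_H2 (p : ℕ) [hp : Fact p.Prime] [IsTotallyComplex K]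
    (hdeg : finrank K L = p)
    (hunr : ∀ P : Ideal (𝓞 L), P.IsPrime → P ≠ ⊥ → P.inertia (L ≃ₐ[K] L) = ⊥)
    (H2 : ∀ q q' : Ideal (𝓞 K), q.IsPrime → q ≠ ⊥ → q'.IsPrime → q' ≠ ⊥ →
      artin K L q ≠ 1 → artin K L q' ≠ 1 →
      ∃ Y Y' : Submonoid (Ideal (𝓞 K)), IsGood (artin K L) (piCl K L) Y ∧
        IsGood (artin K L) (piCl K L) Y' ∧ q ∈ Y ∧ q' ∈ Y' ∧
        ∃ b₀ : Ideal (𝓞 K), b₀ ∈ Y ∧ b₀ ∈ Y' ∧ artin K L b₀ ≠ 1) :
    ∃ Art : ClassGroup (𝓞 K) →* (L ≃ₐ[K] L),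
      ∀ (q : Ideal (𝓞 K)) (hq : q ∈ (Ideal (𝓞 K))⁰) (P : Ideal (𝓞 L)), q.IsPrime → P.IsPrime →
        P.under (𝓞 K) = q → IsArithFrobAt (𝓞 K) (Art (ClassGroup.mk0 ⟨q, hq⟩)) P :=
  exists_classGroup_hom L (artin_span_singleton_eq_one p hdeg hunr H2)

end Galois

end Fermat.Agent.CFT.ArtinRecipEnd
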