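/-
Program E (S14), E-C4 (helper13, at helper23's request): the inputs of `ArtinRecipCore` that are
already theorems, so that `ArtinGlue.ARTHyp p` is reduced to the pair-crossing input
`ArtinRecipCore.PairInput K L` alone.

* `splitInput`       : `ArtinRecipCore.SplitInput K L`       (helper18's `SplitNorm`);
* `secondIneqInput`  : `ArtinRecipCore.SecondIneqInput K L`  (`SecondIneqMain`: Chevalley count +
                        unit Herbrand quotient);
* `isTotallyComplex_of_cyclotomic` : `ℚ(ζ_p)`, `3 ≤ p`, is totally complex;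
* `artinShape_of_pairInput`, `artHyp_of` : `(∀ K L, … → PairInput K L) → ArtinGlue.ARTHyp p`.
-/
import Mathlib
import Fermat.Agent.CFT.ArtinRecipCore
import Fermat.Agent.CFT.SplitNorm
import Fermat.Agent.CFT.SecondIneqMain

set_option autoImplicit false
set_option linter.unusedSectionVars false
set_option linter.style.haveILetI false

open NumberField Module
open scoped Pointwise nonZeroDivisors IsMulCommutative

namespace Fermat.Agent.CFT.ArtinRecipInputs

open Fermat.Agent.CFT.ArtinMap Fermat.Agent.CFT.NormClassGroup Fermat.Agent.CFT.ArtinRecipCore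

variable (K L : Type) [Field K] [Field L] [NumberField K] [NumberField L] [Algebra K L]
  [IsGalois K L]

/-- Split primes are norms. -/
theorem splitInput [IsMulCommutative (L ≃ₐ[K] L)] : SplitInput K L := by
  intro q hq' hq h
  haveI := hq'
  obtain ⟨P, -, -, hPq⟩ := SplitNorm.exists_relNorm_eq_of_artin_eq_one q hq h
  rw [← hPq]
  exact pi_relNorm P

/-- The weak second inequality. -/
theorem secondIneqInput (p : ℕ) [hp : Fact p.Prime] [IsTotallyComplex K]
    (hdeg : finrank K L = p)
    (hunr : ∀ P : Ideal (𝓞 L), P.IsPrime → P ≠ ⊥ → P.inertia (L ≃ₐ[K] L) = ⊥) :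
    SecondIneqInput K L :=
  SecondIneqMain.exists_ideal_not_norm p hdeg hunr

/-- `ℚ(ζ_p)` is totally complex for `p ≥ 3`. -/
theorem isTotallyComplex_of_cyclotomic (p : ℕ) (h3 : 3 ≤ p) [IsCyclotomicExtension {p} ℚ K] :
    IsTotallyComplex K := by
  haveI : NeZero p := ⟨by omega⟩
  exact IsCyclotomicExtension.Rat.isTotallyComplex K (n := p) (by omega)

/-- (ART) for one extension, from the pair-crossing input. -/
theorem artinShape_of_pairInput (p : ℕ) [hp : Fact p.Prime] [IsTotallyComplex K]
    [IsMulCommutative (L ≃ₐ[K] L)] (hdeg : finrank K L = p)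
    (hunr : ∀ P : Ideal (𝓞 L), P.IsPrime → P ≠ ⊥ → P.inertia (L ≃ₐ[K] L) = ⊥)
    (H2 : PairInput K L) : Fermat.Agent.S14.ArtinGlue.ArtinShape K L :=
  artinShape K L hp.out hdeg (splitInput K L) H2 (secondIneqInput K L p hdeg hunr)

/-- **`ARTHyp p` from the pair-crossing input.** -/
theorem artHyp_of (p : ℕ) (hp : p.Prime) (h3 : 3 ≤ p)
    (hPair : ∀ (K L : Type) [Field K] [Field L] [NumberField K] [NumberField L] [Algebra K L]
      [IsCyclotomicExtension {p} ℚ K] [IsGalois K L] [IsMulCommutative (L ≃ₐ[K] L)],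
      finrank K L = p →
      (∀ P : Ideal (𝓞 L), P.IsPrime → P ≠ ⊥ → P.inertia (L ≃ₐ[K] L) = ⊥) → PairInput K L) :
    Fermat.Agent.S14.ArtinGlue.ARTHyp p := by
  intro K L _ _ _ _ _ _ _ hdeg hunr
  haveI : Fact p.Prime := ⟨hp⟩
  haveI : IsTotallyComplex K := isTotallyComplex_of_cyclotomic K p h3
  haveI : IsMulCommutative (L ≃ₐ[K] L) := isMulCommutative_gal K L hp hdeg
  exact artinShape_of_pairInput K L p hdeg hunr (hPair K L hdeg hunr)

end Fermat.Agent.CFT.ArtinRecipInputs
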