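/-
Program E (S14), piece C4c: cyclotomic disjointness.

For a number field `F` and `m` coprime to the absolute discriminant of `F`, the cyclotomic
polynomial `cyclotomic m F` is irreducible (so `Gal(F(ζ_m)/F) = (ℤ/m)ˣ`).  Consequently, for
`K ⊆ L` number fields and `m` coprime to `discr L`, the fields `L` and `K(ζ_m)` are linearly
disjoint over `K` inside `Ω = L(ζ_m)`, and `Gal(Ω/K) = Gal(L/K) × (ℤ/m)ˣ`.
-/
import Mathlib

set_option autoImplicit false
set_option linter.unusedSectionVars false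

namespace Fermat.Agent.CFT.CycloDisjoint

open NumberField IntermediateField Polynomial Module

section Irreducible

variable (F : Type*) [Field F] [NumberField F] (m : ℕ) [NeZero m]

/-- The absolute discriminant of the `m`-th cyclotomic field divides `m ^ φ(m)`. -/
theorem natAbs_discr_cyclotomic_dvd (E : Type*) [Field E] [NumberField E]
    [IsCyclotomicExtension {m} ℚ E] :
    (discr E).natAbs ∣ m ^ Nat.totient m := by
  rw [IsCyclotomicExtension.Rat.natAbs_discr m E]
  exact Nat.div_dvd_of_dvd (Nat.prod_primeFactors_pow_totient_ediv_dvd (NeZero.pos _))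

/-- If `m` is coprime to the discriminant of `F` and `Ω = F(ζ_m)`, then `[Ω : F] = φ(m)`. -/
theorem finrank_of_coprime_discr (hm : Nat.Coprime m (discr F).natAbs)
    (Ω : Type*) [Field Ω] [NumberField Ω] [Algebra F Ω] [IsCyclotomicExtension {m} F Ω] :
    finrank F Ω = Nat.totient m := by
  obtain ⟨ζ, hζ⟩ := IsCyclotomicExtension.exists_isPrimitiveRoot F Ω (Set.mem_singleton m)
    (NeZero.ne m)
  -- the two ℚ-subfields
  let K₁ : IntermediateField ℚ Ω := ℚ⟮ζ⟯
  let K₂ : IntermediateField ℚ Ω := (IsScalarTower.toAlgHom ℚ F Ω).fieldRange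
  have hcyc : IsCyclotomicExtension {m} ℚ K₁ := hζ.intermediateField_adjoin_isCyclotomicExtension ℚ
  have hgal : IsGalois ℚ K₁ := IsCyclotomicExtension.isGalois {m} ℚ K₁
  let e : F ≃ₐ[ℚ] K₂ := AlgEquiv.ofInjectiveField (IsScalarTower.toAlgHom ℚ F Ω)
  have hd2 : discr K₂ = discr F := (discr_eq_discr_of_algEquiv F e).symm
  have hcop : IsCoprime (discr K₁) (discr K₂) := by
    rw [Int.isCoprime_iff_nat_coprime, hd2]
    exact Nat.Coprime.coprime_dvd_left (natAbs_discr_cyclotomic_dvd m K₁)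
      (Nat.Coprime.pow_left _ hm)
  have hdis : K₁.LinearDisjoint K₂ := linearDisjoint_of_isGalois_isCoprime_discr Ω K₁ K₂ hcop
  have htop : K₁ ⊔ K₂ = ⊤ := by
    rw [eq_top_iff]
    intro x _
    -- `Ω = F[ζ]`
    have hx : x ∈ Algebra.adjoin F {ζ} := by
      rw [IsCyclotomicExtension.adjoin_primitive_root_eq_top hζ]; trivial
    let S : Subalgebra F Ω :=
      { (K₁ ⊔ K₂).toSubalgebra.toSubsemiring with
        algebraMap_mem' := fun r =>
          (le_sup_right : K₂ ≤ K₁ ⊔ K₂) ⟨r, rfl⟩ }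
    have hS : Algebra.adjoin F {ζ} ≤ S := by
      rw [Algebra.adjoin_le_iff]
      rintro y rfl
      exact (le_sup_left : K₁ ≤ K₁ ⊔ K₂) (mem_adjoin_simple_self ℚ y)
    exact hS hx
  have h1 := hdis.finrank_sup
  rw [htop, finrank_top', IsCyclotomicExtension.Rat.finrank m K₁,
    ← LinearEquiv.finrank_eq e.toLinearEquiv, ← finrank_mul_finrank ℚ F Ω, mul_comm] at h1
  exact mul_right_cancel₀ (finrank_pos (R := ℚ) (M := F)).ne' h1

/-- **Irreducibility of the cyclotomic polynomial over a number field whose discriminant is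
coprime to `m`.** -/
theorem irreducible_cyclotomic_of_coprime_discr (hm : Nat.Coprime m (discr F).natAbs) :
    Irreducible (cyclotomic m F) := by
  let Ω := CyclotomicField m F
  have hnf : NumberField Ω := IsCyclotomicExtension.numberField {m} F Ω
  have hfin : finrank F Ω = Nat.totient m := finrank_of_coprime_discr F m hm Ω
  have hζ : IsPrimitiveRoot (IsCyclotomicExtension.zeta m F Ω) m :=
    IsCyclotomicExtension.zeta_spec m F Ω
  set ζ := IsCyclotomicExtension.zeta m F Ω with hζdef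
  have hint : IsIntegral F ζ := Algebra.IsIntegral.isIntegral ζ
  have htop : F⟮ζ⟯ = ⊤ := by
    apply IntermediateField.toSubalgebra_injective
    rw [IntermediateField.adjoin_simple_toSubalgebra_of_isAlgebraic hint.isAlgebraic,
      IsCyclotomicExtension.adjoin_primitive_root_eq_top hζ, IntermediateField.top_toSubalgebra]
  have hdeg : (minpoly F ζ).natDegree = Nat.totient m := by
    rw [← IntermediateField.adjoin.finrank hint, htop, IntermediateField.finrank_top', hfin]
  have hdvd : minpoly F ζ ∣ cyclotomic m F := by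
    apply minpoly.dvd
    rw [aeval_def, eval₂_eq_eval_map, map_cyclotomic]
    exact hζ.isRoot_cyclotomic (NeZero.pos m)
  have heq : cyclotomic m F = minpoly F ζ :=
    Polynomial.eq_of_monic_of_dvd_of_natDegree_le (minpoly.monic hint) (cyclotomic.monic m F) hdvd
      (by rw [natDegree_cyclotomic, hdeg])
  rw [heq]
  exact minpoly.irreducible hint

end Irreducible

section Tower

variable {K L Ω : Type*} [Field K] [Field L] [Field Ω] [NumberField K] [NumberField L]
  [NumberField Ω] [Algebra K L] [Algebra L Ω] [Algebra K Ω] [IsScalarTower K L Ω]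
  (m : ℕ) [NeZero m] [IsCyclotomicExtension {m} L Ω]

/-- Coprimality to `discr L` descends to `discr K`. -/
theorem coprime_discr_of_tower (hm : Nat.Coprime m (discr L).natAbs) :
    Nat.Coprime m (discr K).natAbs :=
  Nat.Coprime.coprime_dvd_right (Int.natAbs_dvd_natAbs.mpr (discr_dvd_discr K L)) hm

/-- `[L(ζ_m) : L] = φ(m)`. -/
theorem finrank_cyclo_top (hm : Nat.Coprime m (discr L).natAbs) :
    finrank L Ω = Nat.totient m :=
  finrank_of_coprime_discr L m hm Ω

variable (K L) in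
/-- The image of `L` in `Ω`, as an intermediate field of `Ω/K`. -/
noncomputable def Lrange : IntermediateField K Ω := (IsScalarTower.toAlgHom K L Ω).fieldRange

theorem mem_Lrange {x : Ω} : x ∈ Lrange K L (Ω := Ω) ↔ ∃ y : L, algebraMap L Ω y = x := by
  rw [Lrange, AlgHom.mem_fieldRange]; rfl

theorem algebraMap_mem_Lrange (y : L) : algebraMap L Ω y ∈ Lrange K L (Ω := Ω) :=
  mem_Lrange.mpr ⟨y, rfl⟩

variable (K L) in
/-- `L ≃ₐ[K] Lrange`. -/
noncomputable def LrangeEquiv : L ≃ₐ[K] Lrange K L (Ω := Ω) :=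
  AlgEquiv.ofInjectiveField (IsScalarTower.toAlgHom K L Ω)

theorem LrangeEquiv_apply (y : L) : ((LrangeEquiv K L (Ω := Ω) y : Lrange K L (Ω := Ω)) : Ω) =
    algebraMap L Ω y := rfl

theorem finrank_Lrange : finrank K (Lrange K L (Ω := Ω)) = finrank K L :=
  (LinearEquiv.finrank_eq (LrangeEquiv K L (Ω := Ω)).toLinearEquiv).symm

variable {m} {ζ : Ω}

theorem finrank_adjoin_zeta (hζ : IsPrimitiveRoot ζ m) (hm : Nat.Coprime m (discr L).natAbs) :
    finrank K K⟮ζ⟯ = Nat.totient m := by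
  have := hζ.intermediateField_adjoin_isCyclotomicExtension K
  exact IsCyclotomicExtension.finrank K⟮ζ⟯
    (irreducible_cyclotomic_of_coprime_discr K m (coprime_discr_of_tower (L := L) m hm))

theorem Lrange_sup_adjoin_eq_top (hζ : IsPrimitiveRoot ζ m) :
    Lrange K L (Ω := Ω) ⊔ K⟮ζ⟯ = ⊤ := by
  rw [eq_top_iff]
  intro x _
  have hx : x ∈ Algebra.adjoin L {ζ} := by
    rw [IsCyclotomicExtension.adjoin_primitive_root_eq_top hζ]; trivial
  let S : Subalgebra L Ω :=
    { (Lrange K L (Ω := Ω) ⊔ K⟮ζ⟯).toSubalgebra.toSubsemiring with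
      algebraMap_mem' := fun r =>
        (le_sup_left : Lrange K L (Ω := Ω) ≤ Lrange K L (Ω := Ω) ⊔ K⟮ζ⟯)
          (algebraMap_mem_Lrange r) }
  have hS : Algebra.adjoin L {ζ} ≤ S := by
    rw [Algebra.adjoin_le_iff]
    rintro y rfl
    exact (le_sup_right : K⟮y⟯ ≤ Lrange K L (Ω := Ω) ⊔ K⟮y⟯) (mem_adjoin_simple_self K y)
  exact hS hx

theorem finrank_top_eq (hm : Nat.Coprime m (discr L).natAbs) :
    finrank K Ω = finrank K L * Nat.totient m := by
  rw [← finrank_mul_finrank K L Ω, finrank_cyclo_top m hm]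

/-- **Linear disjointness of `L` and `K(ζ_m)` over `K`.** -/
theorem linearDisjoint_Lrange_adjoin (hζ : IsPrimitiveRoot ζ m)
    (hm : Nat.Coprime m (discr L).natAbs) :
    (Lrange K L (Ω := Ω)).LinearDisjoint K⟮ζ⟯ := by
  apply IntermediateField.LinearDisjoint.of_finrank_sup
  rw [Lrange_sup_adjoin_eq_top hζ, finrank_top', finrank_top_eq hm, finrank_Lrange,
    finrank_adjoin_zeta (L := L) hζ hm]

theorem Lrange_inf_adjoin_eq_bot (hζ : IsPrimitiveRoot ζ m)
    (hm : Nat.Coprime m (discr L).natAbs) :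
    Lrange K L (Ω := Ω) ⊓ K⟮ζ⟯ = ⊥ :=
  (linearDisjoint_Lrange_adjoin hζ hm).inf_eq_bot

/-- `Ω = L(ζ_m)` is Galois over `K` when `L/K` is. -/
theorem isGalois_top (hζ : IsPrimitiveRoot ζ m) [IsGalois K L] : IsGalois K Ω := by
  have h1 : Normal K (Lrange K L (Ω := Ω)) := Normal.of_algEquiv (LrangeEquiv K L (Ω := Ω))
  have h2 : IsCyclotomicExtension {m} K K⟮ζ⟯ := hζ.intermediateField_adjoin_isCyclotomicExtension K
  have h3 : IsGalois K K⟮ζ⟯ := IsCyclotomicExtension.isGalois {m} K K⟮ζ⟯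
  have h4 : Normal K ↥(Lrange K L (Ω := Ω) ⊔ K⟮ζ⟯) := IntermediateField.normal_sup K Ω _ _
  rw [Lrange_sup_adjoin_eq_top hζ] at h4
  have h5 : Normal K Ω := Normal.of_algEquiv (IntermediateField.topEquiv (F := K) (E := Ω))
  exact ⟨⟩

/-- An `L`-automorphism of `Ω = L(ζ_m)` raising `ζ` to a prescribed unit power. -/
theorem exists_aut_pow (hζ : IsPrimitiveRoot ζ m) (hm : Nat.Coprime m (discr L).natAbs)
    (t : (ZMod m)ˣ) : ∃ τ : Ω ≃ₐ[L] Ω, τ ζ = ζ ^ (t : ZMod m).val := by
  have hirr := irreducible_cyclotomic_of_coprime_discr L m hm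
  let τ := (IsCyclotomicExtension.autEquivPow Ω hirr).symm t
  have hz := IsCyclotomicExtension.zeta_spec m L Ω
  have h1 : hz.autToPow L τ = t :=
    (IsCyclotomicExtension.autEquivPow Ω hirr).apply_symm_apply t
  have h2 : τ (IsCyclotomicExtension.zeta m L Ω) =
      IsCyclotomicExtension.zeta m L Ω ^ (t : ZMod m).val := by
    rw [← h1]; exact (hz.autToPow_spec L τ).symm
  obtain ⟨k, _, rfl⟩ := hz.eq_pow_of_pow_eq_one hζ.pow_eq_one
  refine ⟨τ, ?_⟩
  rw [map_pow, h2, ← pow_mul, ← pow_mul, mul_comm]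

/-- Two `K`-automorphisms of `Ω = L(ζ_m)` agreeing on `L` and on `ζ` are equal. -/
theorem aut_ext (hζ : IsPrimitiveRoot ζ m) {ω ω' : Ω ≃ₐ[K] Ω}
    (hL : ∀ x : L, ω (algebraMap L Ω x) = ω' (algebraMap L Ω x)) (hz : ω ζ = ω' ζ) :
    ω = ω' := by
  ext x
  have hx : x ∈ Algebra.adjoin L {ζ} := by
    rw [IsCyclotomicExtension.adjoin_primitive_root_eq_top hζ]; trivial
  induction hx using Algebra.adjoin_induction with
  | mem y hy => rw [Set.mem_singleton_iff.mp hy]; exact hz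
  | algebraMap r => exact hL r
  | add a b _ _ ha hb => rw [map_add, map_add, ha, hb]
  | mul a b _ _ ha hb => rw [map_mul, map_mul, ha, hb]

theorem pow_unit_mul (hζ : IsPrimitiveRoot ζ m) (v u : (ZMod m)ˣ) :
    ζ ^ ((v : ZMod m).val * ((v⁻¹ * u : (ZMod m)ˣ) : ZMod m).val) = ζ ^ (u : ZMod m).val := by
  apply pow_eq_pow_of_modEq _ hζ.pow_eq_one
  rw [← ZMod.natCast_eq_natCast_iff]
  simp only [Nat.cast_mul, ZMod.natCast_val, ZMod.cast_id', id, Units.val_mul]
  rw [← mul_assoc, ← Units.val_mul, mul_inv_cancel, Units.val_one, one_mul]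

/-- **Product form of `Gal(L(ζ_m)/K)`**: an automorphism of `L/K` and a unit `u` mod `m`
determine a unique automorphism of `Ω/K` restricting to `σ` on `L` and sending `ζ` to `ζ ^ u`. -/
theorem exists_unique_aut [IsGalois K L] (hζ : IsPrimitiveRoot ζ m)
    (hm : Nat.Coprime m (discr L).natAbs) (σ : L ≃ₐ[K] L) (u : (ZMod m)ˣ) :
    ∃! ω : Ω ≃ₐ[K] Ω, (∀ x : L, ω (algebraMap L Ω x) = algebraMap L Ω (σ x)) ∧
      ω ζ = ζ ^ (u : ZMod m).val := by
  have hgal : IsGalois K Ω := isGalois_top (K := K) (L := L) hζ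
  let ω₀ : Ω ≃ₐ[K] Ω := σ.liftNormal Ω
  have hω₀ : ∀ x : L, ω₀ (algebraMap L Ω x) = algebraMap L Ω (σ x) :=
    fun x => AlgEquiv.liftNormal_commutes σ Ω x
  let v : (ZMod m)ˣ := hζ.autToPow K ω₀
  have hv : ζ ^ (v : ZMod m).val = ω₀ ζ := hζ.autToPow_spec K ω₀
  obtain ⟨τ, hτ⟩ := exists_aut_pow (L := L) hζ hm (v⁻¹ * u)
  refine ⟨(τ.restrictScalars K).trans ω₀, ⟨fun x => ?_, ?_⟩, fun ω' hω' => ?_⟩
  · rw [AlgEquiv.trans_apply, AlgEquiv.restrictScalars_apply, τ.commutes, hω₀]
  · rw [AlgEquiv.trans_apply, AlgEquiv.restrictScalars_apply, hτ, map_pow, ← hv, ← pow_mul]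
    exact pow_unit_mul hζ v u
  · refine aut_ext (L := L) hζ (fun x => ?_) ?_
    · rw [hω'.1, AlgEquiv.trans_apply, AlgEquiv.restrictScalars_apply, τ.commutes, hω₀]
    · rw [hω'.2, AlgEquiv.trans_apply, AlgEquiv.restrictScalars_apply, hτ, map_pow, ← hv,
        ← pow_mul]
      exact (pow_unit_mul hζ v u).symm

theorem pow_val_one (hζ : IsPrimitiveRoot ζ m) :
    ζ ^ ((1 : (ZMod m)ˣ) : ZMod m).val = ζ := by
  rw [Units.val_one, ZMod.val_one_eq_one_mod, ← pow_eq_pow_mod 1 hζ.pow_eq_one, pow_one]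

/-- Restriction to `L` is `σ` iff the automorphism extends `σ`. -/
theorem restrictNormalHom_eq_iff [Normal K L] (ω : Ω ≃ₐ[K] Ω) (σ : L ≃ₐ[K] L) :
    AlgEquiv.restrictNormalHom L ω = σ ↔
      ∀ x : L, ω (algebraMap L Ω x) = algebraMap L Ω (σ x) := by
  constructor
  · rintro rfl x
    exact (AlgEquiv.restrictNormal_commutes ω L x).symm
  · intro h
    ext x
    apply (algebraMap L Ω).injective
    rw [← h x]
    exact AlgEquiv.restrictNormal_commutes ω L x

/-- The cyclotomic character is `u` iff the automorphism raises `ζ` to the `u`-th power. -/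
theorem autToPow_eq_iff (hζ : IsPrimitiveRoot ζ m) (ω : Ω ≃ₐ[K] Ω) (u : (ZMod m)ˣ) :
    hζ.autToPow K ω = u ↔ ω ζ = ζ ^ (u : ZMod m).val := by
  constructor
  · rintro rfl
    exact (hζ.autToPow_spec K ω).symm
  · intro h
    have h1 : ζ ^ ((hζ.autToPow K ω : (ZMod m)ˣ) : ZMod m).val = ζ ^ (u : ZMod m).val := by
      rw [hζ.autToPow_spec K ω, h]
    have h2 := hζ.pow_inj (ZMod.val_lt _) (ZMod.val_lt _) h1
    exact Units.ext (ZMod.val_injective m h2)

/-- Joint injectivity of (restriction to `L`, cyclotomic character) on `Gal(L(ζ_m)/K)`. -/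
theorem eq_one_of_restrict_of_autToPow [Normal K L] (hζ : IsPrimitiveRoot ζ m)
    (g : Ω ≃ₐ[K] Ω) (h1 : AlgEquiv.restrictNormalHom L g = 1) (h2 : hζ.autToPow K g = 1) :
    g = 1 := by
  refine aut_ext (L := L) hζ (fun x => ?_) ?_
  · rw [(restrictNormalHom_eq_iff g 1).mp h1 x]; rfl
  · rw [(autToPow_eq_iff hζ g 1).mp h2, pow_val_one hζ]; rfl

/-- Joint surjectivity of (restriction to `L`, cyclotomic character) on `Gal(L(ζ_m)/K)`. -/
theorem exists_restrict_autToPow [IsGalois K L] (hζ : IsPrimitiveRoot ζ m)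
    (hm : Nat.Coprime m (discr L).natAbs) (σ : L ≃ₐ[K] L) (u : (ZMod m)ˣ) :
    ∃ g : Ω ≃ₐ[K] Ω, AlgEquiv.restrictNormalHom L g = σ ∧ hζ.autToPow K g = u := by
  obtain ⟨g, ⟨hg1, hg2⟩, -⟩ := exists_unique_aut (K := K) hζ hm σ u
  exact ⟨g, (restrictNormalHom_eq_iff g σ).mpr hg1, (autToPow_eq_iff hζ g u).mpr hg2⟩

/-- `Gal(L(ζ_m)/K) ≃* Gal(L/K) × (ℤ/m)ˣ`. -/
noncomputable def galEquivProd [IsGalois K L] (hζ : IsPrimitiveRoot ζ m)
    (hm : Nat.Coprime m (discr L).natAbs) : (Ω ≃ₐ[K] Ω) ≃* (L ≃ₐ[K] L) × (ZMod m)ˣ :=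
  MulEquiv.ofBijective ((AlgEquiv.restrictNormalHom L).prod (hζ.autToPow K))
    ⟨(injective_iff_map_eq_one _).mpr fun g hg => by
        rw [MonoidHom.prod_apply, Prod.mk_eq_one] at hg
        exact eq_one_of_restrict_of_autToPow hζ g hg.1 hg.2,
      fun ⟨σ, u⟩ => by
        obtain ⟨g, h1, h2⟩ := exists_restrict_autToPow (K := K) hζ hm σ u
        exact ⟨g, by rw [MonoidHom.prod_apply, h1, h2]⟩⟩

theorem galEquivProd_apply [IsGalois K L] (hζ : IsPrimitiveRoot ζ m)
    (hm : Nat.Coprime m (discr L).natAbs) (g : Ω ≃ₐ[K] Ω) :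
    galEquivProd (K := K) (L := L) hζ hm g =
      (AlgEquiv.restrictNormalHom L g, hζ.autToPow K g) := rfl

/-- The fixing subgroup of the image of `L` is the kernel of restriction to `L`. -/
theorem fixingSubgroup_Lrange [Normal K L] :
    (Lrange K L (Ω := Ω)).fixingSubgroup =
      (AlgEquiv.restrictNormalHom (F := K) (K₁ := Ω) L).ker := by
  ext g
  rw [IntermediateField.mem_fixingSubgroup_iff, MonoidHom.mem_ker, restrictNormalHom_eq_iff]
  constructor
  · intro h x
    exact h _ (algebraMap_mem_Lrange x)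
  · rintro h _ hx
    obtain ⟨y, rfl⟩ := mem_Lrange.mp hx
    exact h y

/-- The fixing subgroup of `K(ζ)` is the kernel of the cyclotomic character. -/
theorem fixingSubgroup_adjoin_zeta (hζ : IsPrimitiveRoot ζ m) :
    (K⟮ζ⟯).fixingSubgroup = (hζ.autToPow K : (Ω ≃ₐ[K] Ω) →* (ZMod m)ˣ).ker := by
  ext g
  rw [MonoidHom.mem_ker, autToPow_eq_iff, IntermediateField.mem_fixingSubgroup_iff]
  rw [pow_val_one hζ]
  constructor
  · intro h
    exact h ζ (mem_adjoin_simple_self K ζ)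
  · intro h x hx
    induction hx using IntermediateField.adjoin_induction with
    | mem y hy => rw [Set.mem_singleton_iff.mp hy]; exact h
    | algebraMap r => exact g.commutes r
    | add a b _ _ ha hb => rw [map_add, ha, hb]
    | inv a _ ha => rw [map_inv₀, ha]
    | mul a b _ _ ha hb => rw [map_mul, ha, hb]

end Tower

end Fermat.Agent.CFT.CycloDisjoint
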