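/-
Program E (S14), piece C4b-types: the crossing fields as honest fields.

Setting: `K ⊆ L ⊆ Ω` number fields, `L/K` and `Ω/K` Galois, `Φ : IntermediateField K Ω`.
* `Ncomp L Φ : IntermediateField Φ Ω` is the compositum `L·Φ` inside `Ω`, with instances
  `Algebra L (Ncomp L Φ)`, the towers `K L N`, `K Φ N`, `L N Ω`, `Φ N Ω`, `K N Ω`, and
  `IsGalois Φ (Ncomp L Φ)`; so the base-change square `(K, L, Φ, N)` of `FrobFunct` applies verbatim.
* `resHom K L : Gal(N/Φ) →* Gal(L/K)` is injective, its range is the restriction to `L` of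
  `Φ.fixingSubgroup`; when `[L:K]` is prime and some element fixing `Φ` is nontrivial on `L` it is
  surjective and `[N:Φ] = [L:K]`.
* unramified base change: `L/K` unramified everywhere implies `N/Φ` unramified everywhere.
* for `F F' : IntermediateField K Ω`: instances `Algebra F ↥(F ⊔ F')`, `Algebra F' ↥(F ⊔ F')` with
  towers, and transitivity of the relative norm.
-/
import Mathlib
import Fermat.Agent.CFT.CycloDisjoint
import Fermat.Agent.CFT.FrobFunct

set_option autoImplicit false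
set_option linter.unusedSectionVars false

namespace Fermat.Agent.CFT.CrossFields

open NumberField IntermediateField Module
open Fermat.Agent.CFT.CycloDisjoint (Lrange mem_Lrange algebraMap_mem_Lrange)

variable {K : Type*} (L : Type*) {Ω : Type*} [Field K] [Field L] [Field Ω]
  [NumberField K] [NumberField L] [NumberField Ω]
  [Algebra K L] [Algebra L Ω] [Algebra K Ω] [IsScalarTower K L Ω]

/-- The compositum `L·Φ` inside `Ω`, as an intermediate field of `Ω/Φ`. -/
noncomputable def Ncomp (Φ : IntermediateField K Ω) : IntermediateField Φ Ω :=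
  IntermediateField.extendScalars (le_sup_right : Φ ≤ Lrange K L (Ω := Ω) ⊔ Φ)

variable {L}

theorem mem_Ncomp {Φ : IntermediateField K Ω} {x : Ω} :
    x ∈ Ncomp L Φ ↔ x ∈ Lrange K L (Ω := Ω) ⊔ Φ := Iff.rfl

theorem algebraMap_mem_Ncomp (Φ : IntermediateField K Ω) (y : L) :
    algebraMap L Ω y ∈ Ncomp L Φ :=
  (le_sup_left : Lrange K L (Ω := Ω) ≤ Lrange K L (Ω := Ω) ⊔ Φ) (algebraMap_mem_Lrange y)

/-- The embedding `L → L·Φ`. -/
noncomputable def toNcomp (Φ : IntermediateField K Ω) : L →+* Ncomp L Φ :=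
  (algebraMap L Ω).codRestrict (Ncomp L Φ).toSubfield.toSubring (algebraMap_mem_Ncomp Φ)

noncomputable instance algebraLN (Φ : IntermediateField K Ω) : Algebra L (Ncomp L Φ) :=
  (toNcomp Φ).toAlgebra

theorem coe_algebraMap_LN (Φ : IntermediateField K Ω) (y : L) :
    ((algebraMap L (Ncomp L Φ) y : Ncomp L Φ) : Ω) = algebraMap L Ω y := rfl

instance towerLNΩ (Φ : IntermediateField K Ω) : IsScalarTower L (Ncomp L Φ) Ω :=
  IsScalarTower.of_algebraMap_eq fun _ => rfl

instance towerKLN (Φ : IntermediateField K Ω) : IsScalarTower K L (Ncomp L Φ) :=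
  IsScalarTower.of_algebraMap_eq fun x => Subtype.ext (by
    change algebraMap K Ω x = algebraMap L Ω (algebraMap K L x)
    exact IsScalarTower.algebraMap_apply K L Ω x)

example (Φ : IntermediateField K Ω) : IsScalarTower K Φ (Ncomp L Φ) := inferInstance
example (Φ : IntermediateField K Ω) : IsScalarTower Φ (Ncomp L Φ) Ω := inferInstance
noncomputable example (Φ : IntermediateField K Ω) : Algebra K (Ncomp L Φ) := inferInstance
instance towerKNΩ (Φ : IntermediateField K Ω) : IsScalarTower K (Ncomp L Φ) Ω :=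
  IsScalarTower.of_algebraMap_eq fun _ => rfl
noncomputable example (Φ : IntermediateField K Ω) : NumberField Φ := inferInstance
noncomputable example (Φ : IntermediateField K Ω) : NumberField (Ncomp L Φ) := inferInstance


theorem map_Lrange_le [Normal K L] (τ : Ω ≃ₐ[K] Ω) :
    (Lrange K L (Ω := Ω)).map (τ : Ω →ₐ[K] Ω) ≤ Lrange K L (Ω := Ω) := by
  rintro _ ⟨x, hx, rfl⟩
  obtain ⟨y, rfl⟩ := mem_Lrange.1 hx
  exact mem_Lrange.2 ⟨τ.restrictNormal L y, AlgEquiv.restrictNormal_commutes τ L y⟩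

theorem map_sup_le [Normal K L] (Φ : IntermediateField K Ω) (σ : Ω ≃ₐ[Φ] Ω) :
    (Lrange K L (Ω := Ω) ⊔ Φ).map ((σ.restrictScalars K : Ω ≃ₐ[K] Ω) : Ω →ₐ[K] Ω) ≤
      Lrange K L (Ω := Ω) ⊔ Φ := by
  rw [IntermediateField.map_sup]
  refine sup_le_sup (map_Lrange_le _) ?_
  rintro _ ⟨z, hz, rfl⟩
  have h := σ.commutes ⟨z, hz⟩
  change σ z = z at h
  change σ z ∈ Φ
  rw [h]; exact hz

instance normal_Ncomp [Normal K L] [Normal K Ω] (Φ : IntermediateField K Ω) :
    Normal Φ (Ncomp L Φ) := by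
  rw [IntermediateField.normal_iff_forall_map_le']
  intro σ
  rintro _ ⟨x, hx, rfl⟩
  exact map_sup_le (L := L) Φ σ ⟨x, hx, rfl⟩

instance isGalois_Ncomp [Normal K L] [Normal K Ω] (Φ : IntermediateField K Ω) :
    IsGalois Φ (Ncomp L Φ) where

open Fermat.Agent.CFT.FrobFunct

section res

variable [IsGalois K L] [IsGalois K Ω] (Φ : IntermediateField K Ω)

/-- An automorphism of `L·Φ` over `Φ` which restricts trivially to `L` is trivial. -/
theorem eq_one_of_res_eq_one (σ : (Ncomp L Φ) ≃ₐ[Φ] (Ncomp L Φ))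
    (h : res (K := K) (L := L) σ = 1) : σ = 1 := by
  -- the fixed field of `σ`, pushed to `Ω`
  let E : IntermediateField Φ (Ncomp L Φ) := IntermediateField.fixedField (Subgroup.zpowers σ)
  let S : IntermediateField K Ω := (E.map (Ncomp L Φ).val).restrictScalars K
  have hfix : ∀ g ∈ Subgroup.zpowers σ, res (K := K) (L := L) g = 1 := by
    intro g hg
    have : g ∈ (resHom K L (M := Ncomp L Φ) (F := Φ)).ker := by
      refine (Subgroup.zpowers_le (H := (resHom K L (M := Ncomp L Φ) (F := Φ)).ker)).2 ?_ hg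
      rw [MonoidHom.mem_ker, resHom_apply, h]
    exact this
  have hL : Lrange K L (Ω := Ω) ≤ S := by
    intro x hx
    obtain ⟨y, rfl⟩ := mem_Lrange.1 hx
    refine ⟨algebraMap L (Ncomp L Φ) y, ?_, rfl⟩
    rintro ⟨g, hg⟩
    have h1 := algebraMap_res (K := K) (L := L) g y
    rw [hfix g hg] at h1
    exact h1.symm
  have hΦ : Φ ≤ S := by
    intro x hx
    refine ⟨algebraMap Φ (Ncomp L Φ) ⟨x, hx⟩, ?_, rfl⟩
    rintro ⟨g, hg⟩
    exact g.commutes _
  ext x
  have hx : (x : Ω) ∈ S := (sup_le hL hΦ) x.2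
  obtain ⟨y, hy, hyx⟩ := hx
  have hyx' : y = x := Subtype.ext hyx
  subst hyx'
  have := hy ⟨σ, Subgroup.mem_zpowers σ⟩
  simpa using congrArg Subtype.val this

theorem resHom_injective :
    Function.Injective (resHom K L (M := Ncomp L Φ) (F := Φ)) := by
  refine (injective_iff_map_eq_one _).2 fun σ hσ => ?_
  exact eq_one_of_res_eq_one Φ σ hσ

instance isMulCommutative_Ncomp [IsMulCommutative (L ≃ₐ[K] L)] :
    IsMulCommutative ((Ncomp L Φ) ≃ₐ[Φ] (Ncomp L Φ)) :=
  ⟨⟨fun a b => resHom_injective Φ (by rw [map_mul, map_mul]; exact mul_comm' _ _)⟩⟩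

/-- Every element of `Gal(Ω/K)` fixing `Φ` induces an element of `Gal(L·Φ/Φ)` with the same
restriction to `L`. -/
theorem exists_res_eq {γ : Ω ≃ₐ[K] Ω} (hγ : γ ∈ Φ.fixingSubgroup) :
    ∃ σ : (Ncomp L Φ) ≃ₐ[Φ] (Ncomp L Φ), res (K := K) (L := L) σ = γ.restrictNormal L := by
  let γ' : Ω ≃ₐ[Φ] Ω := IntermediateField.fixingSubgroupEquiv Φ ⟨γ, hγ⟩
  refine ⟨γ'.restrictNormal (Ncomp L Φ), ?_⟩
  ext y
  apply (algebraMap L Ω).injective
  rw [AlgEquiv.restrictNormal_commutes γ L y,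
    IsScalarTower.algebraMap_apply L (Ncomp L Φ) Ω, algebraMap_res,
    AlgEquiv.restrictNormal_commutes γ' (Ncomp L Φ), ← IsScalarTower.algebraMap_apply L (Ncomp L Φ) Ω]
  rfl

/-- Every element of `Gal(L·Φ/Φ)` is induced by an element of `Gal(Ω/K)` fixing `Φ`. -/
theorem exists_lift_of_res (σ : (Ncomp L Φ) ≃ₐ[Φ] (Ncomp L Φ)) :
    ∃ γ : Ω ≃ₐ[K] Ω, γ ∈ Φ.fixingSubgroup ∧ γ.restrictNormal L = res (K := K) (L := L) σ := by
  let γ' : Ω ≃ₐ[Φ] Ω := σ.liftNormal Ω
  refine ⟨γ'.restrictScalars K, fun x => γ'.commutes x, ?_⟩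
  ext y
  apply (algebraMap L Ω).injective
  rw [AlgEquiv.restrictNormal_commutes _ L y]
  conv_rhs => rw [IsScalarTower.algebraMap_apply L (Ncomp L Φ) Ω, algebraMap_res,
    ← AlgEquiv.liftNormal_commutes σ Ω]
  rfl

theorem range_resHom :
    (resHom K L (M := Ncomp L Φ) (F := Φ)).range =
      Φ.fixingSubgroup.map (AlgEquiv.restrictNormalHom (F := K) (K₁ := Ω) L) := by
  ext τ
  constructor
  · rintro ⟨σ, rfl⟩
    obtain ⟨γ, hγ, h⟩ := exists_lift_of_res Φ σ
    exact ⟨γ, hγ, h⟩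
  · rintro ⟨γ, hγ, rfl⟩
    obtain ⟨σ, h⟩ := exists_res_eq (L := L) Φ hγ
    exact ⟨σ, h⟩

theorem finrank_Ncomp_eq_card_range :
    finrank Φ (Ncomp L Φ) = Nat.card (resHom K L (M := Ncomp L Φ) (F := Φ)).range := by
  rw [← IsGalois.card_aut_eq_finrank Φ (Ncomp L Φ)]
  exact Nat.card_congr (MonoidHom.ofInjective (resHom_injective Φ)).toEquiv

/-- If `[L : K]` is prime and some element of `Gal(Ω/K)` fixing `Φ` is nontrivial on `L`, then
restriction `Gal(L·Φ/Φ) → Gal(L/K)` is surjective. -/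
theorem resHom_surjective_of_prime (hp : (finrank K L).Prime)
    {γ : Ω ≃ₐ[K] Ω} (hγ : γ ∈ Φ.fixingSubgroup) (hγL : γ.restrictNormal L ≠ 1) :
    Function.Surjective (resHom K L (M := Ncomp L Φ) (F := Φ)) := by
  rw [← MonoidHom.range_eq_top]
  have hcard : Nat.card (L ≃ₐ[K] L) = finrank K L := IsGalois.card_aut_eq_finrank K L
  have : Fact (Nat.card (L ≃ₐ[K] L)).Prime := ⟨hcard ▸ hp⟩
  rcases Subgroup.eq_bot_or_eq_top_of_prime_card (resHom K L (M := Ncomp L Φ) (F := Φ)).range with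
    h | h
  · exfalso
    obtain ⟨σ, hσ⟩ := exists_res_eq (L := L) Φ hγ
    have : res (K := K) (L := L) σ ∈ (resHom K L (M := Ncomp L Φ) (F := Φ)).range := ⟨σ, rfl⟩
    rw [h, Subgroup.mem_bot, hσ] at this
    exact hγL this
  · exact h

theorem finrank_Ncomp_of_prime (hp : (finrank K L).Prime)
    {γ : Ω ≃ₐ[K] Ω} (hγ : γ ∈ Φ.fixingSubgroup) (hγL : γ.restrictNormal L ≠ 1) :
    finrank Φ (Ncomp L Φ) = finrank K L := by
  rw [finrank_Ncomp_eq_card_range, MonoidHom.range_eq_top.2 (resHom_surjective_of_prime Φ hp hγ hγL),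
    Nat.card_congr Subgroup.topEquiv.toEquiv, IsGalois.card_aut_eq_finrank]

/-- Galois-correspondence form of `exists_res_eq`: for `Φ = fixedField H`, every `γ ∈ H` induces
an element of `Gal(L·Φ/Φ)` with the same restriction to `L`. -/
theorem exists_res_eq_of_mem (H : Subgroup (Ω ≃ₐ[K] Ω)) {γ : Ω ≃ₐ[K] Ω} (hγ : γ ∈ H) :
    ∃ σ : (Ncomp L (IntermediateField.fixedField H)) ≃ₐ[IntermediateField.fixedField H]
        (Ncomp L (IntermediateField.fixedField H)),
      res (K := K) (L := L) σ = γ.restrictNormal L :=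
  exists_res_eq _ (by rw [IntermediateField.fixingSubgroup_fixedField]; exact hγ)

/-- Conversely every element of `Gal(L·Φ/Φ)`, `Φ = fixedField H`, comes from some `γ ∈ H`. -/
theorem exists_mem_of_res (H : Subgroup (Ω ≃ₐ[K] Ω))
    (σ : (Ncomp L (IntermediateField.fixedField H)) ≃ₐ[IntermediateField.fixedField H]
        (Ncomp L (IntermediateField.fixedField H))) :
    ∃ γ : Ω ≃ₐ[K] Ω, γ ∈ H ∧ γ.restrictNormal L = res (K := K) (L := L) σ := by
  obtain ⟨γ, hγ, h⟩ := exists_lift_of_res _ σ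
  rw [IntermediateField.fixingSubgroup_fixedField] at hγ
  exact ⟨γ, hγ, h⟩

end res

section square

variable {K L F M : Type*} [Field K] [Field L] [Field F] [Field M]
  [NumberField K] [NumberField L] [NumberField F] [NumberField M]
  [Algebra K L] [Algebra K F] [Algebra L M] [Algebra F M] [Algebra K M]
  [IsScalarTower K L M] [IsScalarTower K F M] [IsGalois K L] [IsGalois F M]

/-- In a base-change square, restriction maps the inertia group of `Q` into the inertia group of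
`Q ∩ 𝓞 L`. -/
theorem res_mem_inertia (Q : Ideal (𝓞 M)) {σ : M ≃ₐ[F] M}
    (hσ : σ ∈ Q.inertia (M ≃ₐ[F] M)) :
    res (K := K) (L := L) σ ∈ (Q.under (𝓞 L)).inertia (L ≃ₐ[K] L) := by
  intro y
  change res (K := K) (L := L) σ • y - y ∈ Q.under (𝓞 L)
  rw [Ideal.under_def, Ideal.mem_comap, map_sub, algebraMap_res_smul]
  exact hσ _

/-- Unramified base change: if restriction is injective and `L/K` is unramified at `Q ∩ 𝓞 L`,
then `M/F` is unramified at `Q`. -/
theorem inertia_eq_bot_of_res_injective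
    (hinj : Function.Injective (resHom K L (M := M) (F := F))) (Q : Ideal (𝓞 M))
    (hunr : (Q.under (𝓞 L)).inertia (L ≃ₐ[K] L) = ⊥) :
    Q.inertia (M ≃ₐ[F] M) = ⊥ := by
  rw [eq_bot_iff]
  intro σ hσ
  have h := res_mem_inertia (K := K) (L := L) Q hσ
  rw [hunr, Subgroup.mem_bot] at h
  rw [Subgroup.mem_bot]
  exact hinj (by rw [resHom_apply, h, map_one])

end square

section unram

variable [IsGalois K L] [IsGalois K Ω] (Φ : IntermediateField K Ω)

/-- **Unramified base change** for the crossing field: if `L/K` is unramified everywhere then so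
is `L·Φ/Φ`. -/
theorem inertia_Ncomp_eq_bot
    (hunr : ∀ P : Ideal (𝓞 L), P.IsPrime → P.inertia (L ≃ₐ[K] L) = ⊥)
    (Q : Ideal (𝓞 (Ncomp L Φ))) [Q.IsPrime] :
    Q.inertia ((Ncomp L Φ) ≃ₐ[Φ] (Ncomp L Φ)) = ⊥ :=
  inertia_eq_bot_of_res_injective (K := K) (L := L) (resHom_injective Φ) Q
    (hunr _ (Ideal.IsPrime.under (𝓞 L) Q))

end unram

section sup

variable (F F' : IntermediateField K Ω)

noncomputable instance algebraSupLeft : Algebra F ↥(F ⊔ F') :=
  (IntermediateField.inclusion (le_sup_left : F ≤ F ⊔ F')).toRingHom.toAlgebra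

noncomputable instance algebraSupRight : Algebra F' ↥(F ⊔ F') :=
  (IntermediateField.inclusion (le_sup_right : F' ≤ F ⊔ F')).toRingHom.toAlgebra

theorem coe_algebraMap_supLeft (x : F) : ((algebraMap F ↥(F ⊔ F') x : ↥(F ⊔ F')) : Ω) = x := rfl

theorem coe_algebraMap_supRight (x : F') : ((algebraMap F' ↥(F ⊔ F') x : ↥(F ⊔ F')) : Ω) = x := rfl

instance towerSupLeft : IsScalarTower K F ↥(F ⊔ F') :=
  IsScalarTower.of_algebraMap_eq fun _ => rfl

instance towerSupRight : IsScalarTower K F' ↥(F ⊔ F') :=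
  IsScalarTower.of_algebraMap_eq fun _ => rfl

instance towerSupLeftTop : IsScalarTower F ↥(F ⊔ F') Ω :=
  IsScalarTower.of_algebraMap_eq fun _ => rfl

instance towerSupRightTop : IsScalarTower F' ↥(F ⊔ F') Ω :=
  IsScalarTower.of_algebraMap_eq fun _ => rfl

theorem relNorm_relNorm_supLeft (B : Ideal (𝓞 ↥(F ⊔ F'))) :
    Ideal.relNorm (𝓞 K) (Ideal.relNorm (𝓞 F) B) = Ideal.relNorm (𝓞 K) B :=
  Ideal.relNorm_relNorm (𝓞 K) (𝓞 F) B

theorem relNorm_relNorm_supRight (B : Ideal (𝓞 ↥(F ⊔ F'))) :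
    Ideal.relNorm (𝓞 K) (Ideal.relNorm (𝓞 F') B) = Ideal.relNorm (𝓞 K) B :=
  Ideal.relNorm_relNorm (𝓞 K) (𝓞 F') B

end sup

end Fermat.Agent.CFT.CrossFields
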