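/-
Program E (S14), piece C4c (second part): the triple-product form of `Gal(L(ζ_{qq'})/K)`.

For `K ⊆ L` number fields, coprime `q, q'` with `q * q'` coprime to `discr L`, and
`Ω = L(ζ_{qq'})`:  `Gal(Ω/K) ≃* Gal(L/K) × (ℤ/q)ˣ × (ℤ/q')ˣ`, the three components being the
restriction to `L` and the cyclotomic characters on `ζ_q = ζ ^ q'` and `ζ_{q'} = ζ ^ q`.
-/
import Mathlib
import Fermat.Agent.CFT.CycloDisjoint
import Fermat.Agent.CFT.ArtinLemmaNT
import Fermat.Agent.CFT.CycloRecip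

set_option autoImplicit false
set_option linter.unusedSectionVars false

namespace Fermat.Agent.CFT.CycloTriple

open NumberField IntermediateField Polynomial Module
open Fermat.Agent.CFT.CycloDisjoint Fermat.Agent.CFT.ArtinLemmaNT

section Roots

variable {R S : Type*} [CommRing R] [CommRing S] [IsDomain S] [Algebra R S]
  {q q' : ℕ} [NeZero q] [NeZero q'] {ζ : S}

/-- `ζ ^ q'` is a primitive `q`-th root of unity. -/
theorem isPrimitiveRoot_fst (hζ : IsPrimitiveRoot ζ (q * q')) : IsPrimitiveRoot (ζ ^ q') q :=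
  hζ.pow (Nat.pos_of_ne_zero (NeZero.ne _)) (mul_comm q q')

/-- `ζ ^ q` is a primitive `q'`-th root of unity. -/
theorem isPrimitiveRoot_snd (hζ : IsPrimitiveRoot ζ (q * q')) : IsPrimitiveRoot (ζ ^ q) q' :=
  hζ.pow (Nat.pos_of_ne_zero (NeZero.ne _)) rfl

/-- The cyclotomic character on `ζ ^ q'` is the reduction mod `q` of the one on `ζ`. -/
theorem autToPow_fst (hζ : IsPrimitiveRoot ζ (q * q')) (γ : S ≃ₐ[R] S) :
    (((isPrimitiveRoot_fst hζ).autToPow R γ : (ZMod q)ˣ) : ZMod q) =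
      ZMod.cast ((hζ.autToPow R γ : (ZMod (q * q'))ˣ) : ZMod (q * q')) := by
  rw [← ZMod.natCast_val]
  apply CycloRecip.autToPow_eq_of_apply_eq
  rw [map_pow, ← hζ.autToPow_spec R γ, ← pow_mul, ← pow_mul, mul_comm]

/-- The cyclotomic character on `ζ ^ q` is the reduction mod `q'` of the one on `ζ`. -/
theorem autToPow_snd (hζ : IsPrimitiveRoot ζ (q * q')) (γ : S ≃ₐ[R] S) :
    (((isPrimitiveRoot_snd hζ).autToPow R γ : (ZMod q')ˣ) : ZMod q') =
      ZMod.cast ((hζ.autToPow R γ : (ZMod (q * q'))ˣ) : ZMod (q * q')) := by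
  rw [← ZMod.natCast_val]
  apply CycloRecip.autToPow_eq_of_apply_eq
  rw [map_pow, ← hζ.autToPow_spec R γ, ← pow_mul, ← pow_mul, mul_comm]

/-- CRT on units applied to the cyclotomic character. -/
theorem unitsCRT_autToPow (hcop : q.Coprime q') (hζ : IsPrimitiveRoot ζ (q * q'))
    (γ : S ≃ₐ[R] S) :
    unitsCRT hcop (hζ.autToPow R γ) =
      ((isPrimitiveRoot_fst hζ).autToPow R γ, (isPrimitiveRoot_snd hζ).autToPow R γ) := by
  apply Prod.ext
  · apply Units.ext
    rw [unitsCRT_fst, autToPow_fst hζ γ]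
    exact Prod.fst_zmod_cast _
  · apply Units.ext
    rw [unitsCRT_snd, autToPow_snd hζ γ]
    exact Prod.snd_zmod_cast _

end Roots

section Triple

variable {K L Ω : Type*} [Field K] [Field L] [Field Ω] [NumberField K] [NumberField L]
  [NumberField Ω] [Algebra K L] [Algebra L Ω] [Algebra K Ω] [IsScalarTower K L Ω]
  {q q' : ℕ} [NeZero q] [NeZero q'] [IsCyclotomicExtension {q * q'} L Ω] {ζ : Ω}
  [IsGalois K L]

/-- `Gal(L(ζ_{qq'})/K) ≃* Gal(L/K) × (ℤ/q)ˣ × (ℤ/q')ˣ`. -/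
noncomputable def galEquivTriple (hcop : q.Coprime q') (hζ : IsPrimitiveRoot ζ (q * q'))
    (hm : Nat.Coprime (q * q') (discr L).natAbs) :
    (Ω ≃ₐ[K] Ω) ≃* (L ≃ₐ[K] L) × (ZMod q)ˣ × (ZMod q')ˣ :=
  (galEquivProd (K := K) (L := L) hζ hm).trans
    ((MulEquiv.refl (L ≃ₐ[K] L)).prodCongr (unitsCRT hcop))

theorem galEquivTriple_apply (hcop : q.Coprime q') (hζ : IsPrimitiveRoot ζ (q * q'))
    (hm : Nat.Coprime (q * q') (discr L).natAbs) (γ : Ω ≃ₐ[K] Ω) :
    galEquivTriple (K := K) (L := L) hcop hζ hm γ =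
      (AlgEquiv.restrictNormalHom L γ, (isPrimitiveRoot_fst hζ).autToPow K γ,
        (isPrimitiveRoot_snd hζ).autToPow K γ) := by
  rw [galEquivTriple, MulEquiv.trans_apply, galEquivProd_apply]
  exact Prod.ext rfl (unitsCRT_autToPow hcop hζ γ)

/-- Joint injectivity of (restriction to `L`, character on `ζ_q`, character on `ζ_{q'}`). -/
theorem eq_one_of_triple (hcop : q.Coprime q') (hζ : IsPrimitiveRoot ζ (q * q'))
    (hm : Nat.Coprime (q * q') (discr L).natAbs) (γ : Ω ≃ₐ[K] Ω)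
    (h1 : AlgEquiv.restrictNormalHom L γ = 1)
    (h2 : (isPrimitiveRoot_fst hζ).autToPow K γ = 1)
    (h3 : (isPrimitiveRoot_snd hζ).autToPow K γ = 1) : γ = 1 := by
  apply (galEquivTriple (K := K) (L := L) hcop hζ hm).injective
  rw [galEquivTriple_apply, h1, h2, h3, map_one]
  rfl

/-- Joint surjectivity of (restriction to `L`, character on `ζ_q`, character on `ζ_{q'}`). -/
theorem exists_triple (hcop : q.Coprime q') (hζ : IsPrimitiveRoot ζ (q * q'))
    (hm : Nat.Coprime (q * q') (discr L).natAbs) (σ : L ≃ₐ[K] L) (u : (ZMod q)ˣ)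
    (u' : (ZMod q')ˣ) :
    ∃ γ : Ω ≃ₐ[K] Ω, AlgEquiv.restrictNormalHom L γ = σ ∧
      (isPrimitiveRoot_fst hζ).autToPow K γ = u ∧ (isPrimitiveRoot_snd hζ).autToPow K γ = u' := by
  obtain ⟨γ, hγ⟩ := (galEquivTriple (K := K) (L := L) hcop hζ hm).surjective (σ, u, u')
  rw [galEquivTriple_apply] at hγ
  have h1 := congrArg Prod.fst hγ
  have h2 := congrArg (fun x => x.2.1) hγ
  have h3 := congrArg (fun x => x.2.2) hγ
  exact ⟨γ, h1, h2, h3⟩

/-- `Gal(L(ζ_{qq'})/K)` is commutative when `Gal(L/K)` is. -/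
theorem isMulCommutative_gal (hcop : q.Coprime q') (hζ : IsPrimitiveRoot ζ (q * q'))
    (hm : Nat.Coprime (q * q') (discr L).natAbs) [IsMulCommutative (L ≃ₐ[K] L)] :
    IsMulCommutative (Ω ≃ₐ[K] Ω) := by
  refine IsMulCommutative.of_comm fun a b => ?_
  apply (galEquivTriple (K := K) (L := L) hcop hζ hm).injective
  rw [map_mul, map_mul]
  refine Prod.ext (mul_comm' _ _) (Prod.ext (mul_comm _ _) (mul_comm _ _))

end Triple

end Fermat.Agent.CFT.CycloTriple
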