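/-
Program E (S14), piece (C4e-U) (helper27): the extension `Ω = L(ζ_m)` of `K`.

* roots of unity stay distinct modulo a prime not containing `m`;
* an automorphism of `Ω/K` is determined by its restriction to `L` and its value at `ζ`;
* if `L/K` is unramified at `P ∩ L` and `m ∉ P` then `Ω/K` is unramified at `P`;
* a Frobenius of `Ω/K` at `P` restricts to a Frobenius of `L/K` at `P ∩ L`, and raises `ζ` to the
  power `#(𝓞 K ⧸ P ∩ 𝓞 K)`.
-/
import Mathlib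

set_option autoImplicit false
set_option linter.unusedSectionVars false
set_option linter.style.haveILetI false

namespace Fermat.Agent.CFT.OmegaUnram

open NumberField
open scoped Pointwise

/-! ### Roots of unity modulo a prime -/

section Roots

variable {R : Type*} [CommRing R] [IsDomain R]

/-- `1 - ζ ^ j` divides `m` for a primitive `m`-th root of unity `ζ` and `0 < j < m`. -/
theorem one_sub_pow_dvd {m : ℕ} {ζ : R} (hζ : IsPrimitiveRoot ζ m) {j : ℕ} (hj0 : 0 < j)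
    (hjm : j < m) : (1 - ζ ^ j) ∣ (m : R) := by
  obtain ⟨n, rfl⟩ : ∃ n, m = n + 1 := ⟨m - 1, by omega⟩
  have h := hζ.prod_one_sub_pow_eq_order
  have hmem : j - 1 ∈ Finset.range n := by rw [Finset.mem_range]; omega
  have hd := Finset.dvd_prod_of_mem (fun k => 1 - ζ ^ (k + 1)) hmem
  have hj : j - 1 + 1 = j := by omega
  simp only [hj] at hd
  rw [h] at hd
  exact_mod_cast hd

/-- Powers of a primitive `m`-th root of unity which are congruent modulo a prime not containing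
`m` are equal. -/
theorem pow_eq_pow_of_sub_mem {m : ℕ} {ζ : R} (hζ : IsPrimitiveRoot ζ m) (P : Ideal R)
    [hP : P.IsPrime] (hmP : (m : R) ∉ P) {i j : ℕ} (h : ζ ^ i - ζ ^ j ∈ P) : ζ ^ i = ζ ^ j := by
  have hm : m ≠ 0 := by
    rintro rfl
    exact hmP (by simp)
  set e := i + (m - 1) * j with he
  have h1 : ζ ^ j * ζ ^ e = ζ ^ i := by
    rw [← pow_add, he]
    have : j + (i + (m - 1) * j) = i + m * j := by
      have : 1 ≤ m := Nat.pos_of_ne_zero hm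
      obtain ⟨n, rfl⟩ : ∃ n, m = n + 1 := ⟨m - 1, by omega⟩
      simp only [Nat.add_sub_cancel]
      ring
    rw [this, pow_add, pow_mul, hζ.pow_eq_one, one_pow, mul_one]
  have h2 : ζ ^ j * (ζ ^ e - 1) ∈ P := by
    rw [mul_sub, h1, mul_one]
    exact h
  have hunit : IsUnit (ζ ^ j) := (hζ.isUnit hm).pow j
  have h3 : ζ ^ e - 1 ∈ P := by
    rcases hP.mem_or_mem h2 with h' | h'
    · exact absurd (P.eq_top_of_isUnit_mem h' hunit) hP.ne_top
    · exact h'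
  have h4 : ζ ^ e = ζ ^ (e % m) := by
    conv_lhs => rw [← Nat.div_add_mod e m, pow_add, pow_mul, hζ.pow_eq_one, one_pow, one_mul]
  rcases Nat.eq_zero_or_pos (e % m) with h0 | h0
  · rw [h0, pow_zero] at h4
    rw [← h1, h4, mul_one]
  · exfalso
    apply hmP
    have hd := one_sub_pow_dvd hζ h0 (Nat.mod_lt e (Nat.pos_of_ne_zero hm))
    rw [← h4] at hd
    obtain ⟨c, hc⟩ := hd
    rw [hc]
    have : (1 - ζ ^ e) ∈ P := by
      have := P.neg_mem h3
      rwa [neg_sub] at this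
    exact P.mul_mem_right c this

end Roots

/-! ### The tower `K ⊆ L ⊆ Ω = L(ζ)` -/

section Tower

variable {K L Ω : Type} [Field K] [Field L] [Field Ω] [Algebra K L] [Algebra L Ω] [Algebra K Ω]
  [IsScalarTower K L Ω]

/-- An automorphism of `Ω = L(ζ)` over `K` is determined by its restriction to `L` and its value
at `ζ`. -/
theorem eq_of_restrict_eq_of_apply_zeta {ζ : Ω} (hΩ : IntermediateField.adjoin L {ζ} = ⊤)
    (σ τ : Ω ≃ₐ[K] Ω) (hL : ∀ x : L, σ (algebraMap L Ω x) = τ (algebraMap L Ω x))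
    (hζ : σ ζ = τ ζ) : σ = τ := by
  let E : IntermediateField L Ω :=
    { carrier := {y | σ y = τ y}
      mul_mem' := fun {a b} ha hb => by
        show σ (a * b) = τ (a * b)
        rw [map_mul, map_mul, ha, hb]
      one_mem' := by show σ 1 = τ 1; rw [map_one, map_one]
      add_mem' := fun {a b} ha hb => by
        show σ (a + b) = τ (a + b)
        rw [map_add, map_add, ha, hb]
      zero_mem' := by show σ 0 = τ 0; rw [map_zero, map_zero]
      algebraMap_mem' := fun x => hL x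
      inv_mem' := fun a ha => by
        show σ a⁻¹ = τ a⁻¹
        rw [map_inv₀, map_inv₀, ha] }
  have hle : IntermediateField.adjoin L {ζ} ≤ E := by
    rw [IntermediateField.adjoin_le_iff]
    intro x hx
    rw [Set.mem_singleton_iff] at hx
    subst hx
    exact hζ
  rw [hΩ] at hle
  ext y
  exact hle (IntermediateField.mem_top (x := y))

end Tower

section NumberFields

variable {K L Ω : Type} [Field K] [Field L] [Field Ω] [NumberField K] [NumberField L]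
  [NumberField Ω] [Algebra K L] [Algebra L Ω] [Algebra K Ω] [IsScalarTower K L Ω] [IsGalois K L]

/-- the action of `Gal(Ω/K)` on `𝓞 Ω`, on coordinates. -/
theorem coe_smul (σ : Ω ≃ₐ[K] Ω) (x : 𝓞 Ω) : ((σ • x : 𝓞 Ω) : Ω) = σ (x : Ω) := rfl

/-- restriction to `L` commutes with the inclusion `𝓞 L → 𝓞 Ω`. -/
theorem algebraMap_restrictNormal_smul (σ : Ω ≃ₐ[K] Ω) (y : 𝓞 L) :
    algebraMap (𝓞 L) (𝓞 Ω) ((σ.restrictNormal L) • y) = σ • algebraMap (𝓞 L) (𝓞 Ω) y := by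
  apply RingOfIntegers.ext
  show algebraMap L Ω ((σ.restrictNormal L) (y : L)) = σ (algebraMap L Ω (y : L))
  exact AlgEquiv.restrictNormal_commutes σ L (y : L)

/-- The restriction to `L` of an element of the inertia group of `P` lies in the inertia group
of `P ∩ 𝓞 L`. -/
theorem restrictNormal_mem_inertia (P : Ideal (𝓞 Ω)) {σ : Ω ≃ₐ[K] Ω}
    (hσ : σ ∈ P.inertia (Ω ≃ₐ[K] Ω)) :
    σ.restrictNormal L ∈ (P.under (𝓞 L)).inertia (L ≃ₐ[K] L) := by
  intro y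
  show (σ.restrictNormal L) • y - y ∈ P.under (𝓞 L)
  rw [Ideal.under_def, Ideal.mem_comap, map_sub, algebraMap_restrictNormal_smul]
  exact hσ _

/-- **(U2)** If `L/K` is unramified at `P ∩ 𝓞 L` and `m ∉ P` then `Ω = L(ζ_m)` is unramified over
`K` at `P`. -/
theorem inertia_eq_bot {m : ℕ} {ζ : Ω} (hζ : IsPrimitiveRoot ζ m)
    (hΩ : IntermediateField.adjoin L {ζ} = ⊤) (P : Ideal (𝓞 Ω)) [hP : P.IsPrime]
    (hmP : (m : 𝓞 Ω) ∉ P) (hunr : (P.under (𝓞 L)).inertia (L ≃ₐ[K] L) = ⊥) :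
    P.inertia (Ω ≃ₐ[K] Ω) = ⊥ := by
  have hm : m ≠ 0 := by
    rintro rfl
    exact hmP (by simp)
  haveI : NeZero m := ⟨hm⟩
  rw [eq_bot_iff]
  intro σ hσ
  rw [Subgroup.mem_bot]
  -- `σ` is trivial on `L`
  have h1 : σ.restrictNormal L = 1 := by
    have := restrictNormal_mem_inertia (L := L) P hσ
    rw [hunr, Subgroup.mem_bot] at this
    exact this
  have hL : ∀ x : L, σ (algebraMap L Ω x) = (1 : Ω ≃ₐ[K] Ω) (algebraMap L Ω x) := by
    intro x
    rw [← AlgEquiv.restrictNormal_commutes σ L x, h1]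
    rfl
  -- `σ` fixes `ζ`
  set ζ' : 𝓞 Ω := hζ.toInteger with hζ'
  have hζ'prim : IsPrimitiveRoot ζ' m := hζ.toInteger_isPrimitiveRoot
  obtain ⟨k, -, hk⟩ := hζ.eq_pow_of_pow_eq_one (ξ := σ ζ)
    (by rw [← map_pow, hζ.pow_eq_one, map_one])
  have hk' : σ • ζ' = ζ' ^ k := by
    apply RingOfIntegers.ext
    rw [coe_smul]
    show σ ζ = ((ζ' ^ k : 𝓞 Ω) : Ω)
    rw [← hk]
    push_cast
    rfl
  have h2 : ζ' ^ k - ζ' ^ 1 ∈ P := by
    rw [pow_one, ← hk']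
    exact hσ ζ'
  have h3 := pow_eq_pow_of_sub_mem hζ'prim P hmP h2
  have hζfix : σ ζ = (1 : Ω ≃ₐ[K] Ω) ζ := by
    rw [← hk]
    have := congrArg (fun x : 𝓞 Ω => (x : Ω)) h3
    simp only [pow_one] at this
    push_cast at this
    exact this
  exact eq_of_restrict_eq_of_apply_zeta hΩ σ 1 hL hζfix

variable [IsGalois K Ω]

/-- **(U4a)** A Frobenius of `Ω/K` at `P` restricts to a Frobenius of `L/K` at `P ∩ 𝓞 L`. -/
theorem isArithFrobAt_restrictNormal (P : Ideal (𝓞 Ω)) {ω : Ω ≃ₐ[K] Ω}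
    (h : IsArithFrobAt (𝓞 K) ω P) :
    IsArithFrobAt (𝓞 K) (ω.restrictNormal L) (P.under (𝓞 L)) := by
  intro y
  show (ω.restrictNormal L) • y - y ^ Nat.card (𝓞 K ⧸ (P.under (𝓞 L)).under (𝓞 K))
    ∈ P.under (𝓞 L)
  rw [Ideal.under_under, Ideal.under_def (B := 𝓞 Ω) (𝓞 L), Ideal.mem_comap, map_sub, map_pow,
    algebraMap_restrictNormal_smul]
  exact h _

/-- **(U4b)** A Frobenius of `Ω/K` at a prime `P` not containing `m` raises every `m`-th root of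
unity to the power `#(𝓞 K ⧸ P ∩ 𝓞 K)`. -/
theorem apply_zeta_of_isArithFrobAt {m : ℕ} {ζ : Ω} (hζ : ζ ^ m = 1) (P : Ideal (𝓞 Ω))
    (hmP : (m : 𝓞 Ω) ∉ P) {ω : Ω ≃ₐ[K] Ω} (h : IsArithFrobAt (𝓞 K) ω P) :
    ω ζ = ζ ^ Nat.card (𝓞 K ⧸ P.under (𝓞 K)) := by
  have hm : m ≠ 0 := by
    rintro rfl
    exact hmP (by simp)
  have hint : IsIntegral ℤ ζ := by
    refine ⟨Polynomial.X ^ m - 1, Polynomial.monic_X_pow_sub_C 1 hm, ?_⟩
    simp [hζ]
  set ζ' : 𝓞 Ω := ⟨ζ, hint⟩ with hζ'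
  have hζ'm : ζ' ^ m = 1 := by
    apply RingOfIntegers.ext
    push_cast
    exact hζ
  have := AlgHom.IsArithFrobAt.apply_of_pow_eq_one h hζ'm hmP
  have h2 : ((MulSemiringAction.toAlgHom (𝓞 K) (𝓞 Ω) ω ζ' : 𝓞 Ω) : Ω)
      = ((ζ' ^ Nat.card (𝓞 K ⧸ P.under (𝓞 K)) : 𝓞 Ω) : Ω) := congrArg _ this
  have h3 : ((ζ' ^ Nat.card (𝓞 K ⧸ P.under (𝓞 K)) : 𝓞 Ω) : Ω)
      = ζ ^ Nat.card (𝓞 K ⧸ P.under (𝓞 K)) := by
    push_cast
    rfl
  rw [h3] at h2
  exact h2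

/-- The absolute norm form of **(U4b)**. -/
theorem apply_zeta_of_isArithFrobAt' {m : ℕ} {ζ : Ω} (hζ : ζ ^ m = 1) (P : Ideal (𝓞 Ω))
    (hmP : (m : 𝓞 Ω) ∉ P) {ω : Ω ≃ₐ[K] Ω} (h : IsArithFrobAt (𝓞 K) ω P) :
    ω ζ = ζ ^ Ideal.absNorm (P.under (𝓞 K)) := by
  rw [apply_zeta_of_isArithFrobAt hζ P hmP h, Ideal.absNorm_apply, Submodule.cardQuot_apply]

/-- **(U5)** Characterisation of the Frobenius of `Ω = L(ζ_m)` over `K` at a prime `P` with
`m ∉ P`, when `L/K` is unramified at `P ∩ 𝓞 L`: `ω` is the Frobenius at `P` as soon as its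
restriction to `L` is a Frobenius at `P ∩ 𝓞 L` and `ω ζ = ζ ^ #(𝓞 K ⧸ P ∩ 𝓞 K)`. -/
theorem isArithFrobAt_of_restrict_of_apply_zeta {m : ℕ} {ζ : Ω} (hζ : ζ ^ m = 1)
    (hΩ : IntermediateField.adjoin L {ζ} = ⊤) (P : Ideal (𝓞 Ω)) [hP : P.IsPrime] (hP0 : P ≠ ⊥)
    (hmP : (m : 𝓞 Ω) ∉ P) (hunr : (P.under (𝓞 L)).inertia (L ≃ₐ[K] L) = ⊥)
    {ω : Ω ≃ₐ[K] Ω} (hL : IsArithFrobAt (𝓞 K) (ω.restrictNormal L) (P.under (𝓞 L)))
    (hω : ω ζ = ζ ^ Nat.card (𝓞 K ⧸ P.under (𝓞 K))) :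
    IsArithFrobAt (𝓞 K) ω P := by
  haveI : Finite (𝓞 Ω ⧸ P) := Ideal.finiteQuotientOfFreeOfNeBot P hP0
  obtain ⟨ω', hω'⟩ := IsArithFrobAt.exists_of_isInvariant (𝓞 K) (Ω ≃ₐ[K] Ω) P
  have h1 := isArithFrobAt_restrictNormal (L := L) P hω'
  have h2 := IsArithFrobAt.mul_inv_mem_inertia h1 hL
  rw [hunr, Subgroup.mem_bot, mul_inv_eq_one] at h2
  have h3 := apply_zeta_of_isArithFrobAt hζ P hmP hω'
  have : ω' = ω := by
    apply eq_of_restrict_eq_of_apply_zeta hΩ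
    · intro x
      rw [← AlgEquiv.restrictNormal_commutes ω' L x, ← AlgEquiv.restrictNormal_commutes ω L x, h2]
    · rw [h3, hω]
  rw [← this]
  exact hω'

end NumberFields

end Fermat.Agent.CFT.OmegaUnram
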