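/-
Program E (S14), piece C4e: the Frobenius (Artin symbol) of `Ω = L(ζ_{qq'})` over `K` in the
product decomposition `Gal(Ω/K) = Gal(L/K) × (ℤ/q)ˣ × (ℤ/q')ˣ`.

For a nonzero prime `𝔞` of `K` not containing `q * q'` and unramified in `L`:
* every prime of `Ω` over `𝔞` has trivial inertia in `Gal(Ω/K)`;
* `artin K Ω 𝔞` restricts to `artin K L 𝔞` on `L` and raises `ζ ^ q'`, `ζ ^ q` (and `ζ`) to the
  power `absNorm 𝔞`.
-/
import Mathlib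
import Fermat.Agent.CFT.CycloTriple
import Fermat.Agent.CFT.OmegaUnram
import Fermat.Agent.CFT.ArtinMap

set_option autoImplicit false
set_option linter.unusedSectionVars false

namespace Fermat.Agent.CFT.FrobOmega

open NumberField IntermediateField
open scoped Pointwise
open Fermat.Agent.CFT.CycloDisjoint Fermat.Agent.CFT.CycloTriple Fermat.Agent.CFT.ArtinMap
  Fermat.Agent.CFT.OmegaUnram

section General

variable {K L Ω : Type} [Field K] [Field L] [Field Ω] [NumberField K] [NumberField L]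
  [NumberField Ω] [Algebra K L] [Algebra L Ω] [Algebra K Ω] [IsScalarTower K L Ω]
  {m : ℕ} [NeZero m] [IsCyclotomicExtension {m} L Ω] {ζ : Ω}

/-- `Ω = L(ζ)` as an equality of intermediate fields. -/
theorem adjoin_eq_top (hζ : IsPrimitiveRoot ζ m) : IntermediateField.adjoin L {ζ} = ⊤ := by
  apply IntermediateField.toSubalgebra_injective
  rw [IntermediateField.adjoin_simple_toSubalgebra_of_isAlgebraic
      (Algebra.IsIntegral.isIntegral ζ).isAlgebraic,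
    IsCyclotomicExtension.adjoin_primitive_root_eq_top hζ, IntermediateField.top_toSubalgebra]

/-- A natural number not in the prime `𝔞` of `K` is not in any prime of `Ω` over `𝔞`. -/
theorem natCast_notMem_of_under {𝔞 : Ideal (𝓞 K)} (P : Ideal (𝓞 Ω)) [P.LiesOver 𝔞] {n : ℕ}
    (hn : (n : 𝓞 K) ∉ 𝔞) : (n : 𝓞 Ω) ∉ P := by
  intro h
  apply hn
  rw [Ideal.over_def P 𝔞, Ideal.under_def, Ideal.mem_comap, map_natCast]
  exact h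

variable [IsGalois K L]

/-- **Unramifiedness of `Ω/K` over a prime of `K` not containing `m` and unramified in `L`.** -/
theorem inertia_eq_bot_of_under (hζ : IsPrimitiveRoot ζ m) {𝔞 : Ideal (𝓞 K)}
    (hm𝔞 : (m : 𝓞 K) ∉ 𝔞)
    (hunr : ∀ Q : Ideal (𝓞 L), Q.IsPrime → Q.under (𝓞 K) = 𝔞 → Q.inertia (L ≃ₐ[K] L) = ⊥)
    (P : Ideal (𝓞 Ω)) [P.IsPrime] [P.LiesOver 𝔞] : P.inertia (Ω ≃ₐ[K] Ω) = ⊥ := by
  refine inertia_eq_bot hζ (adjoin_eq_top (L := L) hζ) P (natCast_notMem_of_under P hm𝔞) ?_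
  refine hunr _ (Ideal.IsPrime.under (𝓞 L) P) ?_
  rw [Ideal.under_under, ← Ideal.over_def P 𝔞]

variable [IsGalois K Ω] [IsMulCommutative (L ≃ₐ[K] L)] [IsMulCommutative (Ω ≃ₐ[K] Ω)]

/-- The Artin symbol of `Ω/K` at `𝔞` restricts to the Artin symbol of `L/K`. -/
theorem restrictNormal_artin {𝔞 : Ideal (𝓞 K)} [𝔞.IsPrime] (h𝔞 : 𝔞 ≠ ⊥)
    (hunr : ∀ Q : Ideal (𝓞 L), Q.IsPrime → Q.under (𝓞 K) = 𝔞 → Q.inertia (L ≃ₐ[K] L) = ⊥) :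
    (artin K Ω 𝔞).restrictNormal L = artin K L 𝔞 := by
  let P := primeOver K Ω 𝔞
  have hP : IsArithFrobAt (𝓞 K) (artin K Ω 𝔞) P := isArithFrobAt_artin Ω 𝔞 h𝔞 P
  have hQ := isArithFrobAt_restrictNormal (L := L) P hP
  have hQprime : (P.under (𝓞 L)).IsPrime := Ideal.IsPrime.under (𝓞 L) P
  have hQunder : (P.under (𝓞 L)).under (𝓞 K) = 𝔞 := by
    rw [Ideal.under_under, ← Ideal.over_def P 𝔞]
  have hQover : (P.under (𝓞 L)).LiesOver 𝔞 := ⟨hQunder.symm⟩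
  exact eq_artin_of_isArithFrobAt L 𝔞 h𝔞 (P.under (𝓞 L)) (hunr _ hQprime hQunder) hQ

theorem restrictNormalHom_artin {𝔞 : Ideal (𝓞 K)} [𝔞.IsPrime] (h𝔞 : 𝔞 ≠ ⊥)
    (hunr : ∀ Q : Ideal (𝓞 L), Q.IsPrime → Q.under (𝓞 K) = 𝔞 → Q.inertia (L ≃ₐ[K] L) = ⊥) :
    AlgEquiv.restrictNormalHom L (artin K Ω 𝔞) = artin K L 𝔞 :=
  restrictNormal_artin h𝔞 hunr

/-- The Artin symbol of `Ω/K` at `𝔞` raises any `n`-th root of unity with `n ∉ 𝔞` to the power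
`absNorm 𝔞`. -/
theorem artin_apply_root {𝔞 : Ideal (𝓞 K)} [𝔞.IsPrime] (h𝔞 : 𝔞 ≠ ⊥) {n : ℕ} {ξ : Ω}
    (hξ : ξ ^ n = 1) (hn : (n : 𝓞 K) ∉ 𝔞) :
    artin K Ω 𝔞 ξ = ξ ^ Ideal.absNorm 𝔞 := by
  let P := primeOver K Ω 𝔞
  have hP : IsArithFrobAt (𝓞 K) (artin K Ω 𝔞) P := isArithFrobAt_artin Ω 𝔞 h𝔞 P
  have h := apply_zeta_of_isArithFrobAt' hξ P (natCast_notMem_of_under P hn) hP
  rwa [← Ideal.over_def P 𝔞] at h

end General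

section Triple

variable {K L Ω : Type} [Field K] [Field L] [Field Ω] [NumberField K] [NumberField L]
  [NumberField Ω] [Algebra K L] [Algebra L Ω] [Algebra K Ω] [IsScalarTower K L Ω]
  {q q' : ℕ} [NeZero q] [NeZero q'] [IsCyclotomicExtension {q * q'} L Ω] {ζ : Ω}
  [IsGalois K L] [IsGalois K Ω] [IsMulCommutative (L ≃ₐ[K] L)] [IsMulCommutative (Ω ≃ₐ[K] Ω)]

theorem natCast_fst_notMem {𝔞 : Ideal (𝓞 K)} (hm𝔞 : ((q * q' : ℕ) : 𝓞 K) ∉ 𝔞) :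
    (q : 𝓞 K) ∉ 𝔞 := by
  intro h
  apply hm𝔞
  rw [Nat.cast_mul]
  exact Ideal.mul_mem_right _ _ h

theorem natCast_snd_notMem {𝔞 : Ideal (𝓞 K)} (hm𝔞 : ((q * q' : ℕ) : 𝓞 K) ∉ 𝔞) :
    (q' : 𝓞 K) ∉ 𝔞 := by
  intro h
  apply hm𝔞
  rw [Nat.cast_mul]
  exact Ideal.mul_mem_left _ _ h

/-- The character on `ζ_q = ζ ^ q'` of the Artin symbol at `𝔞` is `absNorm 𝔞 mod q`. -/
theorem autToPow_fst_artin (hζ : IsPrimitiveRoot ζ (q * q')) {𝔞 : Ideal (𝓞 K)} [𝔞.IsPrime]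
    (h𝔞 : 𝔞 ≠ ⊥) (hm𝔞 : ((q * q' : ℕ) : 𝓞 K) ∉ 𝔞) :
    (((isPrimitiveRoot_fst hζ).autToPow K (artin K Ω 𝔞) : (ZMod q)ˣ) : ZMod q) =
      (Ideal.absNorm 𝔞 : ZMod q) :=
  CycloRecip.autToPow_eq_of_apply_eq _ _ _
    (artin_apply_root h𝔞 (isPrimitiveRoot_fst hζ).pow_eq_one (natCast_fst_notMem hm𝔞))

/-- The character on `ζ_{q'} = ζ ^ q` of the Artin symbol at `𝔞` is `absNorm 𝔞 mod q'`. -/
theorem autToPow_snd_artin (hζ : IsPrimitiveRoot ζ (q * q')) {𝔞 : Ideal (𝓞 K)} [𝔞.IsPrime]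
    (h𝔞 : 𝔞 ≠ ⊥) (hm𝔞 : ((q * q' : ℕ) : 𝓞 K) ∉ 𝔞) :
    (((isPrimitiveRoot_snd hζ).autToPow K (artin K Ω 𝔞) : (ZMod q')ˣ) : ZMod q') =
      (Ideal.absNorm 𝔞 : ZMod q') :=
  CycloRecip.autToPow_eq_of_apply_eq _ _ _
    (artin_apply_root h𝔞 (isPrimitiveRoot_snd hζ).pow_eq_one (natCast_snd_notMem hm𝔞))

/-- **The Frobenius of `Ω/K` in the triple product.** -/
theorem galEquivTriple_artin (hcop : q.Coprime q') (hζ : IsPrimitiveRoot ζ (q * q'))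
    (hm : Nat.Coprime (q * q') (discr L).natAbs) {𝔞 : Ideal (𝓞 K)} [𝔞.IsPrime]
    (h𝔞 : 𝔞 ≠ ⊥) (hm𝔞 : ((q * q' : ℕ) : 𝓞 K) ∉ 𝔞)
    (hunr : ∀ Q : Ideal (𝓞 L), Q.IsPrime → Q.under (𝓞 K) = 𝔞 → Q.inertia (L ≃ₐ[K] L) = ⊥)
    (u : (ZMod q)ˣ) (u' : (ZMod q')ˣ) (hu : (u : ZMod q) = (Ideal.absNorm 𝔞 : ZMod q))
    (hu' : (u' : ZMod q') = (Ideal.absNorm 𝔞 : ZMod q')) :
    galEquivTriple (K := K) (L := L) hcop hζ hm (artin K Ω 𝔞) = (artin K L 𝔞, u, u') := by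
  rw [galEquivTriple_apply, restrictNormalHom_artin h𝔞 hunr]
  refine Prod.ext rfl (Prod.ext (Units.ext ?_) (Units.ext ?_))
  · rw [hu]; exact autToPow_fst_artin hζ h𝔞 hm𝔞
  · rw [hu']; exact autToPow_snd_artin hζ h𝔞 hm𝔞

end Triple

end Fermat.Agent.CFT.FrobOmega
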