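/-
Program E (S14), piece (B1) of the crossing argument (C3/C4):
norms and residues for an unramified Galois extension `M/F` of number fields.

* `norm_cast_eq_one_of_sub_mem_span` : `α ≡ 1 mod m𝓞_F`  ⟹ `N_{F/ℚ} α ≡ 1 mod m`.
* `norm_cast_eq_one_of_forall_prime` : RADICAL modulus: `l` prime and `α ≡ 1` modulo EVERY prime of
  `𝓞_F` containing `l`  ⟹ `N_{F/ℚ} α ≡ 1 mod l`.
* `norm_modEq_one_of_forall_prime` : the same for a squarefree `m`.
* `algebraMap_intNorm_eq_prod_smul` : `N_{M/F} δ = ∏_{σ ∈ Gal(M/F)} σ • δ` in `𝓞_M`.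
* `exists_residue_norm` : one prime `λ` of `F`, `Λ₀ | λ` with trivial inertia: every residue class
  `c mod λ` is `N_{M/F} δ mod λ` for all `δ` in a suitable congruence class modulo the primes
  over `λ`.
* `exists_intNorm_mul_sub_one_mem` : finitely many primes `λ` of `F` unramified in `M`, `γ` prime
  to all of them: there is `δ ∈ 𝓞_M` with `γ · N_{M/F} δ ≡ 1` modulo every `λ`.
* `exists_intNorm_mul_sub_one_mem_of_natCast` : the same for all primes containing `m ≠ 0`.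
* `span_singleton_mem_ker_of_cong`, `span_singleton_mem_ker` : consumer forms (B1): an "Artin map"
  `Φ` on ideals of `𝓞_F` that kills relative norms from `M` and principal ideals `(α)` with
  `α ≡ 1` modulo the primes over `m` kills EVERY principal ideal prime to `m`.
-/
import Mathlib

set_option autoImplicit false

namespace Fermat.Agent.CFT.NormResidue

open NumberField

section NormCongruence

variable {F : Type*} [Field F] [NumberField F]

/-- If `α ≡ 1 mod m 𝓞_F` then `N_{F/ℚ}(α) ≡ 1 mod m`. -/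
theorem norm_cast_eq_one_of_sub_mem_span (m : ℕ) (α : 𝓞 F)
    (h : α - 1 ∈ Ideal.span {(m : 𝓞 F)}) : ((Algebra.norm ℤ α : ℤ) : ZMod m) = 1 := by
  classical
  obtain ⟨β, hβ⟩ := Ideal.mem_span_singleton'.mp h
  have hα : α = 1 + (m : 𝓞 F) * β := by rw [mul_comm, hβ]; ring
  let b := Module.Free.chooseBasis ℤ (𝓞 F)
  rw [Algebra.norm_eq_matrix_det b]
  change (Int.castRingHom (ZMod m)) _ = 1
  rw [RingHom.map_det, hα, map_add, map_one,
    map_mul, map_natCast, map_add, map_one, map_mul, map_natCast]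
  have h0 : ((m : ℕ) : Matrix (Module.Free.ChooseBasisIndex ℤ (𝓞 F))
      (Module.Free.ChooseBasisIndex ℤ (𝓞 F)) (ZMod m)) = 0 := by
    ext i j
    simp [Matrix.natCast_apply]
  rw [h0, zero_mul, add_zero, Matrix.det_one]

/-- **Radical modulus.** If `l` is a prime number and `α ≡ 1` modulo every prime ideal of `𝓞_F`
containing `l`, then `N_{F/ℚ}(α) ≡ 1 mod l`. -/
theorem norm_cast_eq_one_of_forall_prime (l : ℕ) [hl : Fact l.Prime] (α : 𝓞 F)
    (h : ∀ P : Ideal (𝓞 F), P.IsPrime → (l : 𝓞 F) ∈ P → α - 1 ∈ P) :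
    ((Algebra.norm ℤ α : ℤ) : ZMod l) = 1 := by
  have hrad : α - 1 ∈ (Ideal.span {(l : 𝓞 F)}).radical := by
    rw [Ideal.radical_eq_sInf, Ideal.mem_sInf]
    rintro P ⟨hle, hP⟩
    exact h P hP (hle (Ideal.mem_span_singleton_self _))
  obtain ⟨n, hn⟩ := hrad
  have hk : n ≤ l ^ n := (Nat.lt_pow_self hl.out.one_lt).le
  have h1 : (α - 1) ^ (l ^ n) ∈ Ideal.span {(l : 𝓞 F)} := Ideal.pow_mem_of_pow_mem _ hn hk
  obtain ⟨r, hr⟩ := exists_add_pow_prime_pow_eq hl.out (α - 1) 1 n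
  have h2 : α ^ (l ^ n) - 1 ∈ Ideal.span {(l : 𝓞 F)} := by
    have e : α ^ (l ^ n) - 1 = (α - 1) ^ (l ^ n) + (l : 𝓞 F) * ((α - 1) * r) := by
      rw [sub_add_cancel, one_pow] at hr
      rw [hr]; ring
    rw [e]
    exact add_mem h1 (Ideal.mul_mem_right _ _ (Ideal.mem_span_singleton_self _))
  have h3 := norm_cast_eq_one_of_sub_mem_span l (α ^ (l ^ n)) h2
  rwa [map_pow, Int.cast_pow, ZMod.pow_card_pow] at h3

/-- Squarefree version: if `α ≡ 1` modulo every prime ideal of `𝓞_F` containing the squarefree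
natural number `m`, then `N_{F/ℚ}(α) ≡ 1 mod m`. -/
theorem norm_modEq_one_of_forall_prime {m : ℕ} (hm : Squarefree m) (α : 𝓞 F)
    (h : ∀ P : Ideal (𝓞 F), P.IsPrime → (m : 𝓞 F) ∈ P → α - 1 ∈ P) :
    Algebra.norm ℤ α ≡ 1 [ZMOD m] := by
  rw [Int.modEq_iff_dvd, Int.natCast_dvd]
  rw [← Nat.prod_primeFactors_of_squarefree hm]
  refine Finset.prod_primes_dvd _ (fun l hl => (Nat.prime_of_mem_primeFactors hl).prime)
    (fun l hl => ?_)
  have hlp : l.Prime := Nat.prime_of_mem_primeFactors hl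
  have hlm : l ∣ m := Nat.dvd_of_mem_primeFactors hl
  have : Fact l.Prime := ⟨hlp⟩
  have h4 := norm_cast_eq_one_of_forall_prime l α (fun P hP hlP => h P hP (by
    obtain ⟨c, rfl⟩ := hlm
    rw [Nat.cast_mul]
    exact Ideal.mul_mem_right _ _ hlP))
  rw [← Int.natCast_dvd, ← ZMod.intCast_eq_intCast_iff_dvd_sub, h4, Int.cast_one]

end NormCongruence

section NormSurjective

open scoped Pointwise

variable {F M : Type*} [Field F] [Field M] [NumberField F] [NumberField M] [Algebra F M]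
  [IsGalois F M]

/-- In `𝓞_M`, the relative norm of `δ` is the product of its Galois conjugates. -/
theorem algebraMap_intNorm_eq_prod_smul (δ : 𝓞 M) :
    algebraMap (𝓞 F) (𝓞 M) (Algebra.intNorm (𝓞 F) (𝓞 M) δ) = ∏ σ : M ≃ₐ[F] M, σ • δ := by
  apply RingOfIntegers.coe_injective
  rw [← IsScalarTower.algebraMap_apply (𝓞 F) (𝓞 M) M, IsScalarTower.algebraMap_apply (𝓞 F) F M,
    Algebra.algebraMap_intNorm (L := M), Algebra.norm_eq_prod_automorphisms]
  simp only [map_prod]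
  rfl

attribute [local instance] Ideal.Quotient.field in
/-- **Residue norm, one prime.**  Let `λ` be a maximal ideal of `𝓞_F` and `Λ₀` a prime of `𝓞_M`
over `λ` with trivial inertia group.  For every `c : 𝓞_F` there is `x : 𝓞_M` such that every `δ`
with `δ ≡ x mod Λ₀` and `δ ≡ 1` modulo the other conjugates of `Λ₀` has
`N_{M/F} δ ≡ c mod λ`. -/
theorem exists_residue_norm (lam : Ideal (𝓞 F)) [lam.IsMaximal] (Lam0 : Ideal (𝓞 M))
    [Lam0.IsPrime] [Lam0.LiesOver lam] (hLam0 : Lam0 ≠ ⊥)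
    (hin : Lam0.inertia (M ≃ₐ[F] M) = ⊥) (c : 𝓞 F) :
    ∃ x : 𝓞 M, ∀ δ : 𝓞 M, δ - x ∈ Lam0 →
      (∀ σ : M ≃ₐ[F] M, σ • Lam0 ≠ Lam0 → δ - 1 ∈ σ • Lam0) →
      Algebra.intNorm (𝓞 F) (𝓞 M) δ - c ∈ lam := by
  classical
  have hmax : Lam0.IsMaximal := Ideal.IsPrime.isMaximal inferInstance hLam0
  have : Finite (𝓞 M ⧸ Lam0) := Ideal.finiteQuotientOfFreeOfNeBot Lam0 hLam0
  set G := M ≃ₐ[F] M with hG
  have : Fintype ↥(MulAction.stabilizer G Lam0) := Fintype.ofFinite _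
  -- the residue norm is onto
  obtain ⟨xbar, hxbar⟩ := FiniteField.norm_surjective (𝓞 F ⧸ lam) (𝓞 M ⧸ Lam0)
    (Ideal.Quotient.mk lam c)
  obtain ⟨x, rfl⟩ := Ideal.Quotient.mk_surjective xbar
  refine ⟨x, fun δ hδx hδ1 => ?_⟩
  -- reduce to a congruence mod `Lam0`
  rw [(Ideal.LiesOver.over (P := Lam0) (p := lam)), Ideal.under_def, Ideal.mem_comap, map_sub,
    ← Ideal.Quotient.eq, algebraMap_intNorm_eq_prod_smul, map_prod]
  -- the decomposition group is isomorphic to the residue Galois group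
  have hsurj := Ideal.Quotient.stabilizerHom_surjective G lam Lam0
  have hinj : Function.Injective (Ideal.Quotient.stabilizerHom Lam0 lam G) := by
    rw [← MonoidHom.ker_eq_bot_iff]
    have h1 := Ideal.Quotient.map_ker_stabilizer_subtype (P := Lam0) (p := lam) (G := G)
    rw [hin] at h1
    exact (Subgroup.map_eq_bot_iff_of_injective _ (Subgroup.subtype_injective _)).mp h1
  have hbij : Function.Bijective (Ideal.Quotient.stabilizerHom Lam0 lam G) := ⟨hinj, hsurj⟩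
  have hnot : ∀ σ : G, σ ∉ MulAction.stabilizer G Lam0 → Ideal.Quotient.mk Lam0 (σ • δ) = 1 := by
    intro σ hσ
    have h1 : σ⁻¹ • Lam0 ≠ Lam0 := by
      intro h
      apply hσ
      rw [MulAction.mem_stabilizer_iff]
      conv_lhs => rw [← h]
      rw [smul_inv_smul]
    have h2 := hδ1 σ⁻¹ h1
    have h3 : σ • (δ - 1) ∈ Lam0 := by
      have := (Ideal.smul_mem_pointwise_smul_iff (a := σ)).mpr h2
      rwa [smul_inv_smul] at this
    rw [smul_sub, smul_one] at h3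
    rw [← map_one (Ideal.Quotient.mk Lam0)]
    exact Ideal.Quotient.eq.mpr h3
  have hin' : ∀ σ : MulAction.stabilizer G Lam0, Ideal.Quotient.mk Lam0 ((σ : G) • δ) =
      Ideal.Quotient.stabilizerHom Lam0 lam G σ (Ideal.Quotient.mk Lam0 x) := by
    intro σ
    rw [Ideal.Quotient.stabilizerHom_apply]
    apply Ideal.Quotient.eq.mpr
    have h1 : (σ : G) • (δ - x) ∈ (σ : G) • Lam0 :=
      (Ideal.smul_mem_pointwise_smul_iff (a := (σ : G))).mpr hδx
    rw [MulAction.mem_stabilizer_iff.mp σ.2, smul_sub] at h1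
    exact h1
  rw [← Finset.prod_filter_mul_prod_filter_not Finset.univ (· ∈ MulAction.stabilizer G Lam0),
    Finset.prod_eq_one (s := Finset.univ.filter (fun σ : G => ¬ σ ∈ MulAction.stabilizer G Lam0))
      (fun σ hσ => hnot σ (Finset.mem_filter.mp hσ).2), mul_one]
  rw [Finset.prod_subtype (p := (· ∈ MulAction.stabilizer G Lam0))
    (Finset.univ.filter (· ∈ MulAction.stabilizer G Lam0)) (fun σ => by simp)]
  rw [Finset.prod_congr rfl (fun σ _ => hin' σ)]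
  rw [Fintype.prod_bijective _ hbij _ (fun τ => τ (Ideal.Quotient.mk Lam0 x)) (fun σ => rfl)]
  have hnorm := Algebra.norm_eq_prod_automorphisms (𝓞 F ⧸ lam) (Ideal.Quotient.mk Lam0 x)
  rw [hxbar] at hnorm
  rw [← hnorm]
  rfl

/-- **Norm surjectivity modulo finitely many unramified primes.**  `S` a finite set of nonzero
primes of `𝓞_F` such that every prime of `𝓞_M` above `S` has trivial inertia group; `γ : 𝓞_F`
outside every `λ ∈ S`.  Then there is `δ : 𝓞_M` with `γ · N_{M/F}(δ) ≡ 1 mod λ` for all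
`λ ∈ S`. -/
theorem exists_intNorm_mul_sub_one_mem (S : Finset (Ideal (𝓞 F)))
    (hS : ∀ lam ∈ S, lam.IsPrime ∧ lam ≠ ⊥)
    (hunr : ∀ Lam : Ideal (𝓞 M), Lam.IsPrime → Lam.under (𝓞 F) ∈ S →
      Lam.inertia (M ≃ₐ[F] M) = ⊥)
    (γ : 𝓞 F) (hγ : ∀ lam ∈ S, γ ∉ lam) :
    ∃ δ : 𝓞 M, ∀ lam ∈ S, γ * Algebra.intNorm (𝓞 F) (𝓞 M) δ - 1 ∈ lam := by
  classical
  have key : ∀ lam : Ideal (𝓞 F), lam ∈ S → ∃ (Lam0 : Ideal (𝓞 M)) (x : 𝓞 M) (c : 𝓞 F),
      Lam0.IsPrime ∧ Lam0.under (𝓞 F) = lam ∧ Lam0 ≠ ⊥ ∧ γ * c - 1 ∈ lam ∧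
      ∀ δ : 𝓞 M, δ - x ∈ Lam0 → (∀ σ : M ≃ₐ[F] M, σ • Lam0 ≠ Lam0 → δ - 1 ∈ σ • Lam0) →
        Algebra.intNorm (𝓞 F) (𝓞 M) δ - c ∈ lam := by
    intro lam hlam
    obtain ⟨hprime, hne⟩ := hS lam hlam
    have hmax : lam.IsMaximal := Ideal.IsPrime.isMaximal hprime hne
    obtain ⟨Lam0, hLmax, hLover⟩ :=
      Ideal.exists_maximal_ideal_liesOver_of_isIntegral (S := 𝓞 M) lam
    have := hLmax.isPrime
    have hunder : Lam0.under (𝓞 F) = lam := hLover.over.symm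
    have hLne : Lam0 ≠ ⊥ := by
      intro h
      apply hne
      rw [← hunder, h]
      exact Ideal.comap_bot_of_injective _ (FaithfulSMul.algebraMap_injective (𝓞 F) (𝓞 M))
    obtain ⟨c, i, hi, hci⟩ := hmax.exists_inv (hγ lam hlam)
    obtain ⟨x, hx⟩ := exists_residue_norm lam Lam0 hLne
      (hunr Lam0 hLmax.isPrime (hunder ▸ hlam)) c
    refine ⟨Lam0, x, c, hLmax.isPrime, hunder, hLne, ?_, hx⟩
    have : γ * c - 1 = -i := by rw [← hci]; ring
    rw [this]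
    exact neg_mem hi
  choose! Lam0 x c hprime hunder hne hc hx using key
  -- the finite set of primes above `S`
  set T : Finset (Ideal (𝓞 M)) :=
    S.biUnion (fun lam => Finset.univ.image (fun σ : M ≃ₐ[F] M => σ • Lam0 lam)) with hT
  have hTmem : ∀ Lam ∈ T, ∃ lam ∈ S, ∃ σ : M ≃ₐ[F] M, Lam = σ • Lam0 lam := by
    intro Lam hLam
    rw [hT, Finset.mem_biUnion] at hLam
    obtain ⟨lam, hlam, h⟩ := hLam
    rw [Finset.mem_image] at h
    obtain ⟨σ, -, rfl⟩ := h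
    exact ⟨lam, hlam, σ, rfl⟩
  have hTprime : ∀ Lam ∈ T, Prime Lam := by
    intro Lam hLam
    obtain ⟨lam, hlam, σ, rfl⟩ := hTmem Lam hLam
    have := hprime lam hlam
    refine Ideal.prime_of_isPrime ?_ inferInstance
    intro h
    apply hne lam hlam
    have := congrArg (fun I => σ⁻¹ • I) h
    simpa using this
  set t : Ideal (𝓞 M) → 𝓞 M := fun Lam =>
    if Lam = Lam0 (Lam.under (𝓞 F)) then x (Lam.under (𝓞 F)) else 1 with ht
  obtain ⟨δ, hδ⟩ := IsDedekindDomain.exists_forall_sub_mem_ideal (s := T) (fun Lam => Lam)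
    (fun _ => 1) hTprime (fun _ _ _ _ h => h) (fun Lam => t Lam.1)
  refine ⟨δ, fun lam hlam => ?_⟩
  have hmemT : ∀ σ : M ≃ₐ[F] M, σ • Lam0 lam ∈ T := by
    intro σ
    rw [hT, Finset.mem_biUnion]
    exact ⟨lam, hlam, Finset.mem_image.mpr ⟨σ, Finset.mem_univ _, rfl⟩⟩
  have h1 : Algebra.intNorm (𝓞 F) (𝓞 M) δ - c lam ∈ lam := by
    apply hx lam hlam δ
    · have := hδ (Lam0 lam) (by simpa using hmemT 1)
      simp only [pow_one, ht, hunder lam hlam, if_true] at this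
      exact this
    · intro σ hσ
      have := hδ (σ • Lam0 lam) (hmemT σ)
      simp only [pow_one, ht, Ideal.under_smul, hunder lam hlam, if_neg hσ] at this
      exact this
  have : γ * Algebra.intNorm (𝓞 F) (𝓞 M) δ - 1 =
      γ * (Algebra.intNorm (𝓞 F) (𝓞 M) δ - c lam) + (γ * c lam - 1) := by ring
  rw [this]
  exact add_mem (Ideal.mul_mem_left _ _ h1) (hc lam hlam)

/-- The same with `S` = all primes of `𝓞_F` containing a nonzero natural number `m`. -/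
theorem exists_intNorm_mul_sub_one_mem_of_natCast {m : ℕ} (hm : m ≠ 0)
    (hunr : ∀ Lam : Ideal (𝓞 M), Lam.IsPrime → (m : 𝓞 M) ∈ Lam → Lam.inertia (M ≃ₐ[F] M) = ⊥)
    (γ : 𝓞 F) (hγ : ∀ P : Ideal (𝓞 F), P.IsPrime → (m : 𝓞 F) ∈ P → γ ∉ P) :
    ∃ δ : 𝓞 M, ∀ P : Ideal (𝓞 F), P.IsPrime → (m : 𝓞 F) ∈ P →
      γ * Algebra.intNorm (𝓞 F) (𝓞 M) δ - 1 ∈ P := by
  classical
  have hm0 : Ideal.span {(m : 𝓞 F)} ≠ 0 := by
    rw [Ne, Ideal.zero_eq_bot, Ideal.span_singleton_eq_bot]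
    exact_mod_cast hm
  set S : Finset (Ideal (𝓞 F)) :=
    (Ideal.finite_factors hm0).toFinset.image IsDedekindDomain.HeightOneSpectrum.asIdeal with hSdef
  have hSmem : ∀ P : Ideal (𝓞 F), P ∈ S ↔ P.IsPrime ∧ (m : 𝓞 F) ∈ P := by
    intro P
    rw [hSdef, Finset.mem_image]
    constructor
    · rintro ⟨v, hv, rfl⟩
      rw [Set.Finite.mem_toFinset, Set.mem_ofPred_eq, Ideal.dvd_iff_le,
        Ideal.span_singleton_le_iff_mem] at hv
      exact ⟨v.isPrime, hv⟩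
    · rintro ⟨hP, hmP⟩
      have hne : P ≠ ⊥ := by
        rintro rfl
        rw [Ideal.mem_bot] at hmP
        exact hm (by exact_mod_cast hmP)
      refine ⟨⟨P, hP, hne⟩, ?_, rfl⟩
      rw [Set.Finite.mem_toFinset, Set.mem_ofPred_eq, Ideal.dvd_iff_le,
        Ideal.span_singleton_le_iff_mem]
      exact hmP
  have hSne : ∀ lam ∈ S, lam.IsPrime ∧ lam ≠ ⊥ := by
    intro lam hlam
    obtain ⟨hP, hmP⟩ := (hSmem lam).mp hlam
    refine ⟨hP, ?_⟩
    rintro rfl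
    rw [Ideal.mem_bot] at hmP
    exact hm (by exact_mod_cast hmP)
  obtain ⟨δ, hδ⟩ := exists_intNorm_mul_sub_one_mem (M := M) S hSne
    (fun Lam hLam hunder => hunr Lam hLam (by
      have h1 := ((hSmem _).mp hunder).2
      rw [Ideal.mem_comap, map_natCast] at h1
      exact h1))
    γ (fun lam hlam => hγ lam ((hSmem lam).mp hlam).1 ((hSmem lam).mp hlam).2)
  exact ⟨δ, fun P hP hmP => hδ P ((hSmem P).mpr ⟨hP, hmP⟩)⟩

/-- **Consumer form (B1), abstract.**  Let `Φ` be a multiplicative function on the nonzero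
ideals of `𝓞_F` with values in a group, which kills the relative norms of ideals of `𝓞_M` and
kills the principal ideals `(α)` with `α ≡ 1` modulo every prime of `𝓞_F` containing `m`.
If `M/F` is unramified at the primes over `m`, then `Φ` kills EVERY principal ideal `(γ)` with
`γ` prime to `m`. -/
theorem span_singleton_mem_ker_of_cong {G : Type*} [Group G] {m : ℕ} (hm : m ≠ 0)
    (Φ : Ideal (𝓞 F) → G)
    (hmul : ∀ a b : Ideal (𝓞 F), a ≠ ⊥ → b ≠ ⊥ → Φ (a * b) = Φ a * Φ b)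
    (hnorm : ∀ A : Ideal (𝓞 M), A ≠ ⊥ → Φ (Ideal.relNorm (𝓞 F) A) = 1)
    (hcong : ∀ α : 𝓞 F, α ≠ 0 →
      (∀ P : Ideal (𝓞 F), P.IsPrime → (m : 𝓞 F) ∈ P → α - 1 ∈ P) → Φ (Ideal.span {α}) = 1)
    (hunr : ∀ Lam : Ideal (𝓞 M), Lam.IsPrime → (m : 𝓞 M) ∈ Lam → Lam.inertia (M ≃ₐ[F] M) = ⊥)
    (γ : 𝓞 F) (hγ0 : γ ≠ 0)
    (hγ : ∀ P : Ideal (𝓞 F), P.IsPrime → (m : 𝓞 F) ∈ P → γ ∉ P) :
    Φ (Ideal.span {γ}) = 1 := by
  obtain ⟨δ, hδ⟩ := exists_intNorm_mul_sub_one_mem_of_natCast (M := M) hm hunr γ hγ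
  by_cases hex : ∃ P : Ideal (𝓞 F), P.IsPrime ∧ (m : 𝓞 F) ∈ P
  · obtain ⟨P, hP, hmP⟩ := hex
    have hα0 : γ * Algebra.intNorm (𝓞 F) (𝓞 M) δ ≠ 0 := by
      intro h0
      have h1 := hδ P hP hmP
      rw [h0, zero_sub] at h1
      exact hP.ne_top ((Ideal.eq_top_iff_one P).mpr (by simpa using neg_mem h1))
    have hδ0 : δ ≠ 0 := by
      rintro rfl
      apply hα0
      rw [Algebra.intNorm_zero, mul_zero]
    have h2 := hcong _ hα0 hδ
    rw [← Ideal.span_singleton_mul_span_singleton, ← Ideal.relNorm_singleton,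
      hmul _ _ (by rwa [Ne, Ideal.span_singleton_eq_bot])
        (by rw [Ne, Ideal.relNorm_eq_bot_iff, Ideal.span_singleton_eq_bot]; exact hδ0),
      hnorm _ (by rwa [Ne, Ideal.span_singleton_eq_bot]), mul_one] at h2
    exact h2
  · push Not at hex
    exact hcong γ hγ0 (fun P hP hmP => absurd hmP (hex P hP))

/-- **Consumer form (B1), cyclotomic.**  `F` with positive norms (e.g. totally complex), `m`
squarefree, `Φ` multiplicative on nonzero ideals of `𝓞_F`, killing relative norms from `M`, and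
`χ : G → ZMod m` with trivial kernel such that `χ (Φ (α)) = N(α) mod m` for every `α` prime to `m`
(the Frobenius acts on `μ_m` by the absolute norm).  If `M/F` is unramified at the primes over `m`,
then `Φ` kills every principal ideal `(γ)` with `γ` prime to `m`. -/
theorem span_singleton_mem_ker {G : Type*} [Group G] {m : ℕ} (hm : Squarefree m)
    (hpos : ∀ α : 𝓞 F, α ≠ 0 → 0 < Algebra.norm ℤ α)
    (Φ : Ideal (𝓞 F) → G) (χ : G → ZMod m) (hχ1 : ∀ g : G, χ g = 1 → g = 1)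
    (hmul : ∀ a b : Ideal (𝓞 F), a ≠ ⊥ → b ≠ ⊥ → Φ (a * b) = Φ a * Φ b)
    (hnorm : ∀ A : Ideal (𝓞 M), A ≠ ⊥ → Φ (Ideal.relNorm (𝓞 F) A) = 1)
    (hχ : ∀ α : 𝓞 F, α ≠ 0 → (∀ P : Ideal (𝓞 F), P.IsPrime → (m : 𝓞 F) ∈ P → α ∉ P) →
      χ (Φ (Ideal.span {α})) = (Ideal.absNorm (Ideal.span {α}) : ZMod m))
    (hunr : ∀ Lam : Ideal (𝓞 M), Lam.IsPrime → (m : 𝓞 M) ∈ Lam → Lam.inertia (M ≃ₐ[F] M) = ⊥)
    (γ : 𝓞 F) (hγ0 : γ ≠ 0)
    (hγ : ∀ P : Ideal (𝓞 F), P.IsPrime → (m : 𝓞 F) ∈ P → γ ∉ P) :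
    Φ (Ideal.span {γ}) = 1 := by
  refine span_singleton_mem_ker_of_cong (M := M) hm.ne_zero Φ hmul hnorm ?_ hunr γ hγ0 hγ
  intro α hα0 hα
  apply hχ1
  rw [hχ α hα0 (fun P hP hmP hαP => hP.ne_top ((Ideal.eq_top_iff_one P).mpr (by
    have := sub_mem hαP (hα P hP hmP)
    simpa using this))), Ideal.absNorm_span_singleton]
  have h1 := norm_modEq_one_of_forall_prime hm α hα
  have h2 : ((Algebra.norm ℤ α).natAbs : ℤ) = Algebra.norm ℤ α :=
    Int.natAbs_of_nonneg (hpos α hα0).le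
  have h3 : (((Algebra.norm ℤ α).natAbs : ℤ) : ZMod m) = ((1 : ℤ) : ZMod m) := by
    rw [h2]
    exact (ZMod.intCast_eq_intCast_iff _ _ _).mpr h1
  simpa using h3

end NormSurjective

end Fermat.Agent.CFT.NormResidue

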