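/-
Program E (S14), piece (C4-A) of the crossing argument (helper22): the Artin map of an everywhere
unramified abelian extension `N/F` kills the principal ideals prime to `m`, as soon as `N` is
contained in the cyclotomic extension `Ω = F(ζ_m)` (`m` squarefree, `F` totally complex).

Setting: number fields `F ⊆ N ⊆ Ω`, `N/F` and `Ω/F` abelian, `N/F` unramified at every finite
prime.

* `artin_restrict` (A1) : `artin F N I = (artin F Ω I)|_N` for EVERY nonzero ideal `I` of `𝓞 F`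
  (no coprimality is needed: `artin F Ω q` is a Frobenius at every prime over `q`, its restriction
  is a Frobenius at the prime below, and `N/F` is unramified).
* `artin_apply_root_of_coprime` : `artin F Ω I ξ = ξ ^ N(I)` for a root of unity `ξ` of order
  dividing `n`, when no prime factor of `I` contains `n`.
* `artin_omega_eq_one_of_cong`, `artin_cong` (A2) : for `Ω = F(ζ_m)`, `m` squarefree, `F` totally
  complex: `α ≡ 1` modulo every prime over `m` implies `artin F Ω (α) = 1` and `artin F N (α) = 1`.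
* `artin_span_singleton_eq_one` (A3) : `artin F N (γ) = 1` for every `γ ≠ 0` prime to `m`
  (via `NormResidue.span_singleton_mem_ker_of_cong`: `γ · N_{N/F}(δ) ≡ 1` mod the primes over `m`).
* `not_mem_of_coprime_absNorm`, `artin_span_singleton_eq_one_of_coprime` : the same with the
  coprimality written `Nat.Coprime (absNorm (γ)) m`.
-/
import Mathlib
import Fermat.Agent.CFT.ArtinMap
import Fermat.Agent.CFT.ArtinBridge
import Fermat.Agent.CFT.FrobOmega
import Fermat.Agent.CFT.CycloRecip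
import Fermat.Agent.CFT.NormResidue

set_option autoImplicit false
set_option linter.unusedSectionVars false
set_option linter.style.haveILetI false

namespace Fermat.Agent.CFT.CycloKills

open NumberField
open scoped Pointwise
open Fermat.Agent.CFT.ArtinMap

variable {F N Ω : Type} [Field F] [Field N] [Field Ω] [NumberField F] [NumberField N]
  [NumberField Ω] [Algebra F N] [Algebra N Ω] [Algebra F Ω] [IsScalarTower F N Ω]
  [IsGalois F N] [IsGalois F Ω] [IsMulCommutative (N ≃ₐ[F] N)] [IsMulCommutative (Ω ≃ₐ[F] Ω)]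

/-- **(A1)** For `N/F` everywhere unramified, the Artin map of `N/F` is the restriction of the
Artin map of `Ω/F`, on ALL nonzero ideals. -/
theorem artin_restrict
    (hunrN : ∀ P : Ideal (𝓞 N), P.IsPrime → P ≠ ⊥ → P.inertia (N ≃ₐ[F] N) = ⊥)
    (I : Ideal (𝓞 F)) (hI : I ≠ ⊥) :
    artin F N I = AlgEquiv.restrictNormalHom N (artin F Ω I) := by
  refine artin_ext Ω (AlgEquiv.restrictNormalHom N) (artin F N) (artin_one F N) ?_ ?_ I hI
  · intro q J _ hq hJ
    exact artin_mul N hq hJ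
  · intro q hqP hq
    haveI := hqP
    rw [← artin_prime Ω q hq]
    refine (FrobOmega.restrictNormalHom_artin hq ?_).symm
    intro Q hQ hQq
    haveI : Q.LiesOver q := ⟨hQq.symm⟩
    exact hunrN Q hQ (Ideal.ne_bot_of_liesOver_of_ne_bot hq Q)

/-- The Artin map of `Ω/F` raises a root of unity `ξ` (`ξ ^ n = 1`) to the power `N(I)`, for
every nonzero ideal `I` none of whose prime factors contains `n`. -/
theorem artin_apply_root_of_coprime {n : ℕ} {ξ : Ω} (hξ : ξ ^ n = 1) (I : Ideal (𝓞 F))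
    (hI : I ≠ ⊥) (hcop : ∀ q : Ideal (𝓞 F), q.IsPrime → I ≤ q → (n : 𝓞 F) ∉ q) :
    artin F Ω I ξ = ξ ^ Ideal.absNorm I := by
  revert hcop
  refine ideal_induction (P := fun I => (∀ q : Ideal (𝓞 F), q.IsPrime → I ≤ q → (n : 𝓞 F) ∉ q) →
    artin F Ω I ξ = ξ ^ Ideal.absNorm I) ?_ ?_ I hI
  · intro _
    rw [artin_one, Ideal.one_eq_top, Ideal.absNorm_top, pow_one]
    rfl
  · intro q J hqP hq hJ ih hcop
    haveI := hqP
    rw [artin_mul Ω hq hJ, AlgEquiv.mul_apply,
      ih (fun q' hq' hle => hcop q' hq' (le_trans Ideal.mul_le_right hle)), map_pow,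
      FrobOmega.artin_apply_root hq hξ (hcop q hqP Ideal.mul_le_left), map_mul, pow_mul]

section Cyclotomic

variable {m : ℕ} [NeZero m] [IsCyclotomicExtension {m} F Ω] [IsTotallyComplex F]

/-- For `Ω = F(ζ_m)`, `m` squarefree, `F` totally complex: `artin F Ω (α) = 1` whenever `α ≡ 1`
modulo every prime of `𝓞 F` containing `m`. -/
theorem artin_omega_eq_one_of_cong (hm : Squarefree m) (α : 𝓞 F) (hα : α ≠ 0)
    (hcong : ∀ P : Ideal (𝓞 F), P.IsPrime → (m : 𝓞 F) ∈ P → α - 1 ∈ P) :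
    artin F Ω (Ideal.span {α}) = 1 := by
  obtain ⟨ζ, hζ⟩ := IsCyclotomicExtension.exists_isPrimitiveRoot F Ω (Set.mem_singleton m)
    (NeZero.ne m)
  have hI : Ideal.span {α} ≠ ⊥ := by rwa [Ne, Ideal.span_singleton_eq_bot]
  have hcop : ∀ q : Ideal (𝓞 F), q.IsPrime → Ideal.span {α} ≤ q → (m : 𝓞 F) ∉ q := by
    intro q hq hle hmq
    have h1 : α ∈ q := hle (Ideal.mem_span_singleton_self α)
    have h2 := sub_mem h1 (hcong q hq hmq)
    rw [sub_sub_cancel] at h2
    exact hq.ne_top ((Ideal.eq_top_iff_one q).mpr h2)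
  have h1 := artin_apply_root_of_coprime (Ω := Ω) hζ.pow_eq_one _ hI hcop
  -- the absolute norm is `≡ 1 mod m`
  have hmod : Ideal.absNorm (Ideal.span {α}) ≡ 1 [MOD m] := by
    rw [Ideal.absNorm_span_singleton, ← Int.natCast_modEq_iff,
      Int.natAbs_of_nonneg (CycloRecip.norm_int_pos_of_isTotallyComplex hα).le]
    exact NormResidue.norm_modEq_one_of_forall_prime hm α hcong
  have h2 : ζ ^ Ideal.absNorm (Ideal.span {α}) = ζ ^ 1 := by
    rw [← pow_mod_orderOf ζ (Ideal.absNorm _), ← pow_mod_orderOf ζ 1, ← hζ.eq_orderOf]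
    exact congrArg _ hmod
  rw [h2] at h1
  apply hζ.autToPow_injective F
  apply Units.ext
  rw [CycloRecip.autToPow_eq_of_apply_eq hζ _ 1 h1, map_one, Units.val_one, Nat.cast_one]

/-- **(A2)** `artin F N (α) = 1` for `α ≡ 1` modulo every prime of `𝓞 F` containing `m`. -/
theorem artin_cong (Ω : Type) [Field Ω] [NumberField Ω] [Algebra N Ω] [Algebra F Ω]
    [IsScalarTower F N Ω] [IsGalois F Ω] [IsMulCommutative (Ω ≃ₐ[F] Ω)]
    [IsCyclotomicExtension {m} F Ω] (hm : Squarefree m)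
    (hunrN : ∀ P : Ideal (𝓞 N), P.IsPrime → P ≠ ⊥ → P.inertia (N ≃ₐ[F] N) = ⊥)
    (α : 𝓞 F) (hα : α ≠ 0)
    (hcong : ∀ P : Ideal (𝓞 F), P.IsPrime → (m : 𝓞 F) ∈ P → α - 1 ∈ P) :
    artin F N (Ideal.span {α}) = 1 := by
  have hI : Ideal.span {α} ≠ ⊥ := by rwa [Ne, Ideal.span_singleton_eq_bot]
  rw [artin_restrict (Ω := Ω) hunrN _ hI, artin_omega_eq_one_of_cong hm α hα hcong, map_one]

/-- **(A3)** `artin F N (γ) = 1` for every nonzero `γ` prime to `m`. -/
theorem artin_span_singleton_eq_one (Ω : Type) [Field Ω] [NumberField Ω] [Algebra N Ω]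
    [Algebra F Ω] [IsScalarTower F N Ω] [IsGalois F Ω] [IsMulCommutative (Ω ≃ₐ[F] Ω)]
    [IsCyclotomicExtension {m} F Ω] (hm : Squarefree m)
    (hunrN : ∀ P : Ideal (𝓞 N), P.IsPrime → P ≠ ⊥ → P.inertia (N ≃ₐ[F] N) = ⊥)
    (γ : 𝓞 F) (hγ0 : γ ≠ 0)
    (hγ : ∀ P : Ideal (𝓞 F), P.IsPrime → (m : 𝓞 F) ∈ P → γ ∉ P) :
    artin F N (Ideal.span {γ}) = 1 := by
  refine NormResidue.span_singleton_mem_ker_of_cong (M := N) (NeZero.ne m) (artin F N)
    (fun a b ha hb => artin_mul N ha hb)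
    (fun A hA => ArtinBridge.artin_relNorm_of_unramified hunrN hA)
    (fun α hα hcong => artin_cong Ω hm hunrN α hα hcong)
    ?_ γ hγ0 hγ
  intro Lam hLam hmLam
  refine hunrN Lam hLam ?_
  rintro rfl
  rw [Ideal.mem_bot] at hmLam
  exact NeZero.ne m (by exact_mod_cast hmLam)

omit [NeZero m] [IsCyclotomicExtension {m} F Ω] [IsTotallyComplex F] in
/-- Coprimality bridge: if `N((γ))` is prime to `m` then `γ` lies in no prime containing `m`. -/
theorem not_mem_of_coprime_absNorm {B : Ideal (𝓞 F)} (hB : Nat.Coprime (Ideal.absNorm B) m)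
    (P : Ideal (𝓞 F)) (hP : P.IsPrime) (hmP : (m : 𝓞 F) ∈ P) : ¬ B ≤ P := by
  intro hle
  have h1 : ((Ideal.absNorm B : ℕ) : 𝓞 F) ∈ P := hle (Ideal.absNorm_mem B)
  have h2 : ((Nat.gcd (Ideal.absNorm B) m : ℕ) : 𝓞 F) ∈ P := by
    have := Nat.gcd_eq_gcd_ab (Ideal.absNorm B) m
    have h3 : ((Nat.gcd (Ideal.absNorm B) m : ℕ) : 𝓞 F) =
        ((Ideal.absNorm B : ℕ) : 𝓞 F) * ((Nat.gcdA (Ideal.absNorm B) m : ℤ) : 𝓞 F) +
          (m : 𝓞 F) * ((Nat.gcdB (Ideal.absNorm B) m : ℤ) : 𝓞 F) := by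
      have h4 := congrArg (fun z : ℤ => (z : 𝓞 F)) this
      simpa using h4
    rw [h3]
    exact add_mem (Ideal.mul_mem_right _ _ h1) (Ideal.mul_mem_right _ _ hmP)
  rw [hB, Nat.cast_one] at h2
  exact hP.ne_top ((Ideal.eq_top_iff_one P).mpr h2)

/-- **(A3)**, with the coprimality written through the absolute norm. -/
theorem artin_span_singleton_eq_one_of_coprime (Ω : Type) [Field Ω] [NumberField Ω]
    [Algebra N Ω] [Algebra F Ω] [IsScalarTower F N Ω] [IsGalois F Ω]
    [IsMulCommutative (Ω ≃ₐ[F] Ω)] [IsCyclotomicExtension {m} F Ω] (hm : Squarefree m)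
    (hunrN : ∀ P : Ideal (𝓞 N), P.IsPrime → P ≠ ⊥ → P.inertia (N ≃ₐ[F] N) = ⊥)
    (γ : 𝓞 F) (hγ0 : γ ≠ 0) (hγ : Nat.Coprime (Ideal.absNorm (Ideal.span {γ})) m) :
    artin F N (Ideal.span {γ}) = 1 :=
  artin_span_singleton_eq_one Ω hm hunrN γ hγ0 fun P hP hmP hγP =>
    not_mem_of_coprime_absNorm hγ P hP hmP ((Ideal.span_singleton_le_iff_mem P).mpr hγP)

end Cyclotomic

end Fermat.Agent.CFT.CycloKills
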