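import Mathlib

/-!
# Shared definitions for the analytic first inequality, class-group (modulus one) version

`K` a number field, `G` a commutative group, `φ : (Ideal (𝓞 K))⁰ →* G`.

* `classL K φ χ s` : the `L`-series `∑ χ(φ a) N(a)^(-s)` over nonzero integral ideals (`s` real).
* `zetaR K s` : the Dedekind zeta function as a sum over nonzero integral ideals (`s` real).
* `primeToIdeal0` : a height one prime as an element of `(Ideal (𝓞 K))⁰`.
* `kerPrimes φ` : the set of primes killed by `φ`.
* `degOnePrimes K L` : primes of `K` having a prime of `L` above them with the same absolute norm.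

Sums over primes use Mathlib's `NumberField.Set.primeIdealZetaSum`.
-/

set_option autoImplicit false
set_option linter.unusedSectionVars false

open NumberField Ideal IsDedekindDomain nonZeroDivisors

namespace Fermat.Agent.CFT.C1ClassDefs

variable (K : Type*) [Field K] [NumberField K]
variable {G : Type*} [CommGroup G]

/-- The `L`-series of `χ ∘ φ` at a real argument, as a sum over nonzero integral ideals. -/
noncomputable def classL (φ : (Ideal (𝓞 K))⁰ →* G) (χ : G →* ℂˣ) (s : ℝ) : ℂ :=
  ∑' a : (Ideal (𝓞 K))⁰,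
    ((χ (φ a) : ℂˣ) : ℂ) * (((Ideal.absNorm (a : Ideal (𝓞 K)) : ℝ) ^ (-s) : ℝ) : ℂ)

/-- The Dedekind zeta function at a real argument, as a sum over nonzero integral ideals. -/
noncomputable def zetaR (s : ℝ) : ℝ :=
  ∑' a : (Ideal (𝓞 K))⁰, (Ideal.absNorm (a : Ideal (𝓞 K)) : ℝ) ^ (-s)

variable {K}

/-- A height one prime as a nonzero ideal. -/
def primeToIdeal0 (P : HeightOneSpectrum (𝓞 K)) : (Ideal (𝓞 K))⁰ :=
  ⟨P.asIdeal, mem_nonZeroDivisors_of_ne_zero P.ne_bot⟩

@[simp] theorem coe_primeToIdeal0 (P : HeightOneSpectrum (𝓞 K)) :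
    (primeToIdeal0 P : Ideal (𝓞 K)) = P.asIdeal := rfl

/-- The primes killed by `φ`. -/
def kerPrimes (φ : (Ideal (𝓞 K))⁰ →* G) : Set (HeightOneSpectrum (𝓞 K)) :=
  {P | φ (primeToIdeal0 P) = 1}

variable (K)

/-- The primes `p` of `K` having a prime `P` of `L` above them with `N P = N p`
(relative residue degree one). For `L/K` Galois and unramified at `p` these are the primes
splitting completely. -/
def degOnePrimes (L : Type*) [Field L] [NumberField L] [Algebra K L] :
    Set (HeightOneSpectrum (𝓞 K)) :=
  {p | ∃ P : HeightOneSpectrum (𝓞 L), P.asIdeal.under (𝓞 K) = p.asIdeal ∧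
    Ideal.absNorm P.asIdeal = Ideal.absNorm p.asIdeal}

end Fermat.Agent.CFT.C1ClassDefs
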