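/-
Program E (S14), helper26: bridge from the analytic first inequality (helper12's `norm_index_le`,
class-group form) to hypothesis (iv) of `ClassNormQuot.kernel_form`:
a prime of `F` of relative degree one in `M` is a relative norm, hence its class lies in
`normClasses F M`; therefore the quotient map `ClassGroup (𝓞 F) → ClassGroup (𝓞 F) ⧸ normClasses`
kills all degree-one primes and `(normClasses F M).index ≤ [M : F]`.
-/
import Fermat.Agent.CFT.ClassNormQuot
import Fermat.Agent.CFT.C1ClassDefs

set_option autoImplicit false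
set_option linter.unusedSectionVars false
set_option linter.style.haveILetI false

namespace Fermat.Agent.CFT.ClassNormQuotBridge

open NumberField Ideal IsDedekindDomain nonZeroDivisors
open Fermat.Agent.CFT.ClassNormQuot Fermat.Agent.CFT.C1ClassDefs

variable (F M : Type) [Field F] [Field M] [NumberField F] [NumberField M] [Algebra F M]

/-- A prime `P` of `M` over `p` with `N P = N p` has `relNorm P = p`. -/
theorem relNorm_eq_of_absNorm_eq (p : HeightOneSpectrum (𝓞 F)) (P : HeightOneSpectrum (𝓞 M))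
    (hP : P.asIdeal.under (𝓞 F) = p.asIdeal)
    (hN : Ideal.absNorm P.asIdeal = Ideal.absNorm p.asIdeal) :
    Ideal.relNorm (𝓞 F) P.asIdeal = p.asIdeal := by
  haveI : P.asIdeal.LiesOver p.asIdeal := ⟨hP.symm⟩
  haveI := p.isPrime
  obtain ⟨s, hs⟩ := Ideal.exists_relNorm_eq_pow_of_isPrime (R := 𝓞 F) P.asIdeal p.asIdeal
  have h1 : Ideal.absNorm (Ideal.relNorm (𝓞 F) P.asIdeal) = Ideal.absNorm P.asIdeal :=
    Ideal.absNorm_relNorm (𝓞 F) (𝓞 M) P.asIdeal
  rw [hs, map_pow, hN] at h1
  have hgt : 1 < Ideal.absNorm p.asIdeal := by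
    have h0 : Ideal.absNorm p.asIdeal ≠ 0 := by
      rw [Ne, Ideal.absNorm_eq_zero_iff]; exact p.ne_bot
    have h1' : Ideal.absNorm p.asIdeal ≠ 1 := by
      rw [Ne, Ideal.absNorm_eq_one_iff]; exact p.isPrime.ne_top
    omega
  have hs1 : s = 1 := (Nat.pow_eq_self_iff hgt).mp h1
  rw [hs, hs1, pow_one]

/-- The class of a degree-one prime is a norm class. -/
theorem mk0_mem_normClasses (p : HeightOneSpectrum (𝓞 F)) (hp : p ∈ degOnePrimes F M) :
    ClassGroup.mk0 (primeToIdeal0 p) ∈ normClasses F M := by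
  obtain ⟨P, hP, hN⟩ := hp
  have h := relNorm_eq_of_absNorm_eq F M p P hP hN
  refine ⟨P.asIdeal, P.ne_bot, ?_⟩
  unfold cls
  congr 1
  exact Subtype.ext h.symm

/-- Hypothesis (iv) of the kernel theorem from a `norm_index_le`-shaped statement. -/
theorem index_normClasses_le {n : ℕ}
    (h : ∀ {G : Type} [CommGroup G] [Finite G] (ψ : ClassGroup (𝓞 F) →* G),
      Function.Surjective ψ →
      (∀ p ∈ degOnePrimes F M, ψ (ClassGroup.mk0 (primeToIdeal0 p)) = 1) → Nat.card G ≤ n) :
    (normClasses F M).index ≤ n := by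
  rw [Subgroup.index_eq_card]
  refine h (QuotientGroup.mk' (normClasses F M)) (QuotientGroup.mk'_surjective _) ?_
  intro p hp
  rw [QuotientGroup.mk'_apply, QuotientGroup.eq_one_iff]
  exact mk0_mem_normClasses F M p hp

end Fermat.Agent.CFT.ClassNormQuotBridge
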