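import Mathlib

/-!
# Characters `G →* ℂˣ` of a finite abelian group: finiteness, cardinality, orthogonality
-/

namespace Fermat.Agent.CFT.CharOrtho

variable (G : Type*) [CommGroup G] [Finite G]

theorem hasEnoughRootsOfUnity_complex : HasEnoughRootsOfUnity ℂ (Monoid.exponent G) := by
  have : NeZero (Monoid.exponent G) := ⟨Monoid.exponent_ne_zero_of_finite⟩
  have : NeZero ((Monoid.exponent G : ℕ) : ℂ) := ⟨Nat.cast_ne_zero.mpr (NeZero.ne _)⟩
  infer_instance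

theorem natCard_monoidHom : Nat.card (G →* ℂˣ) = Nat.card G := by
  have := hasEnoughRootsOfUnity_complex G
  exact CommGroup.card_monoidHom_of_hasEnoughRootsOfUnity G ℂ

instance finite_monoidHom : Finite (G →* ℂˣ) :=
  Nat.finite_of_card_ne_zero (by rw [natCard_monoidHom]; exact Nat.card_pos.ne')

theorem card_monoidHom [Fintype (G →* ℂˣ)] : Fintype.card (G →* ℂˣ) = Nat.card G := by
  rw [← Nat.card_eq_fintype_card, natCard_monoidHom]

variable {G}

theorem exists_apply_ne_one {g : G} (hg : g ≠ 1) : ∃ χ : G →* ℂˣ, χ g ≠ 1 := by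
  have := hasEnoughRootsOfUnity_complex G
  exact CommGroup.exists_apply_ne_one_of_hasEnoughRootsOfUnity G ℂ hg

/-- Orthogonality, trivial element. -/
theorem sum_apply_one [Fintype (G →* ℂˣ)] :
    ∑ χ : G →* ℂˣ, ((χ (1 : G) : ℂˣ) : ℂ) = (Nat.card G : ℂ) := by
  simp [card_monoidHom G]

/-- Orthogonality, nontrivial element. -/
theorem sum_apply_of_ne_one [Fintype (G →* ℂˣ)] {g : G} (hg : g ≠ 1) :
    ∑ χ : G →* ℂˣ, ((χ g : ℂˣ) : ℂ) = 0 := by
  obtain ⟨χ₀, hχ₀⟩ := exists_apply_ne_one hg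
  have hbij : Function.Bijective (fun χ : G →* ℂˣ ↦ χ₀ * χ) :=
    (Group.mulLeft_bijective χ₀)
  have h1 : ∑ χ : G →* ℂˣ, ((χ g : ℂˣ) : ℂ) =
      ((χ₀ g : ℂˣ) : ℂ) * ∑ χ : G →* ℂˣ, ((χ g : ℂˣ) : ℂ) := by
    rw [Finset.mul_sum]
    refine (Fintype.sum_bijective _ hbij _ _ fun χ ↦ ?_).symm
    simp [MonoidHom.mul_apply]
  have h2 : (1 - ((χ₀ g : ℂˣ) : ℂ)) * ∑ χ : G →* ℂˣ, ((χ g : ℂˣ) : ℂ) = 0 := by
    rw [sub_mul, one_mul, ← h1, sub_self]
  rcases mul_eq_zero.mp h2 with h | h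
  · exfalso
    apply hχ₀
    ext
    rw [Units.val_one]
    exact (sub_eq_zero.mp h).symm
  · exact h

open scoped Classical in
/-- Orthogonality: the sum of `χ g` over all characters. -/
theorem sum_apply [Fintype (G →* ℂˣ)] (g : G) :
    ∑ χ : G →* ℂˣ, ((χ g : ℂˣ) : ℂ) = if g = 1 then (Nat.card G : ℂ) else 0 := by
  split_ifs with hg
  · subst hg
    exact sum_apply_one
  · exact sum_apply_of_ne_one hg

end Fermat.Agent.CFT.CharOrtho
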