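import Mathlib

/-!
# Euler products over the prime ideals of a Dedekind domain

(EP1) For a Dedekind domain `R` and a completely multiplicative `f : Ideal R →*₀ F` with values in
a complete normed field such that `∑ ‖f 𝔞‖ < ∞`, we prove (Euler's sieve)
`HasProd (fun 𝔭 : HeightOneSpectrum R ↦ (1 - f 𝔭.asIdeal)⁻¹) (∑' 𝔞, f 𝔞)`.
-/

namespace Fermat.Agent.CFT.IdealEuler

open IsDedekindDomain Filter Topology Function

open scoped Classical

set_option linter.unusedSectionVars false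

section sieve

variable {R : Type*} [CommRing R] [IsDedekindDomain R]
variable {F : Type*} [NormedField F] [CompleteSpace F]

/-- Nonzero ideals not divisible by any prime in `S`. -/
def sieved (S : Finset (HeightOneSpectrum R)) : Set (Ideal R) :=
  {𝔞 | 𝔞 ≠ 0 ∧ ∀ 𝔭 ∈ S, ¬ 𝔭.asIdeal ∣ 𝔞}

theorem mem_sieved {S : Finset (HeightOneSpectrum R)} {𝔞 : Ideal R} :
    𝔞 ∈ sieved S ↔ 𝔞 ≠ 0 ∧ ∀ 𝔭 ∈ S, ¬ 𝔭.asIdeal ∣ 𝔞 := Iff.rfl

theorem one_mem_sieved (S : Finset (HeightOneSpectrum R)) : (1 : Ideal R) ∈ sieved S := by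
  refine ⟨one_ne_zero, fun 𝔭 _ h ↦ ?_⟩
  have : 𝔭.asIdeal = ⊤ := by
    rw [Ideal.one_eq_top] at h
    exact top_le_iff.mp (Ideal.le_of_dvd h)
  exact 𝔭.isPrime.ne_top this

theorem dvd_asIdeal_iff {𝔭 𝔮 : HeightOneSpectrum R} : 𝔮.asIdeal ∣ 𝔭.asIdeal ↔ 𝔮 = 𝔭 := by
  constructor
  · intro h
    have hle : 𝔭.asIdeal ≤ 𝔮.asIdeal := Ideal.le_of_dvd h
    have := 𝔭.isMaximal.eq_of_le 𝔮.isPrime.ne_top hle
    exact (HeightOneSpectrum.ext this).symm
  · rintro rfl; exact dvd_rfl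

theorem mul_mem_sieved_iff {S : Finset (HeightOneSpectrum R)} {𝔭 : HeightOneSpectrum R}
    (h𝔭 : 𝔭 ∉ S) (𝔟 : Ideal R) : 𝔭.asIdeal * 𝔟 ∈ sieved S ↔ 𝔟 ∈ sieved S := by
  simp only [mem_sieved, ne_eq, mul_eq_zero, not_or]
  constructor
  · rintro ⟨⟨_, hb⟩, h⟩
    exact ⟨hb, fun 𝔮 h𝔮 hd ↦ h 𝔮 h𝔮 (Dvd.dvd.mul_left hd _)⟩
  · rintro ⟨hb, h⟩
    refine ⟨⟨𝔭.ne_bot, hb⟩, fun 𝔮 h𝔮 hd ↦ ?_⟩
    have hprime : Prime 𝔮.asIdeal := 𝔮.prime
    rcases hprime.dvd_or_dvd hd with h1 | h1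
    · exact h𝔭 (dvd_asIdeal_iff.mp h1 ▸ h𝔮)
    · exact h 𝔮 h𝔮 h1

theorem sieved_insert (S : Finset (HeightOneSpectrum R)) (𝔭 : HeightOneSpectrum R) :
    sieved (insert 𝔭 S) = sieved S \ {𝔞 | 𝔭.asIdeal ∣ 𝔞} := by
  ext 𝔞
  simp only [mem_sieved, Finset.mem_insert, forall_eq_or_imp, Set.mem_sdiff, Set.mem_ofPred_eq]
  tauto

variable (f : Ideal R →*₀ F)

theorem summable_of_norm (hsum : Summable (‖f ·‖)) : Summable f := hsum.of_norm

/-- One step of Euler's sieve. -/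
theorem tsum_sieved_insert (hsum : Summable (‖f ·‖)) {S : Finset (HeightOneSpectrum R)}
    {𝔭 : HeightOneSpectrum R} (h𝔭 : 𝔭 ∉ S) :
    ∑' 𝔞, (sieved (insert 𝔭 S)).indicator f 𝔞 =
      (1 - f 𝔭.asIdeal) * ∑' 𝔞, (sieved S).indicator f 𝔞 := by
  classical
  have hf : Summable f := hsum.of_norm
  have hS : Summable ((sieved S).indicator f) := hf.indicator _
  set D : Set (Ideal R) := {𝔞 | 𝔭.asIdeal ∣ 𝔞} with hD
  have hSD : Summable ((sieved S ∩ D).indicator f) := hf.indicator _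
  -- split
  have h1 : (sieved (insert 𝔭 S)).indicator f =
      fun 𝔞 ↦ (sieved S).indicator f 𝔞 - (sieved S ∩ D).indicator f 𝔞 := by
    funext 𝔞
    rw [sieved_insert]
    by_cases ha : 𝔞 ∈ sieved S <;> by_cases hd : 𝔞 ∈ D
    · have hmem : 𝔞 ∈ sieved S ∩ D := ⟨ha, hd⟩
      rw [Set.indicator_of_notMem (fun h ↦ h.2 hd), Set.indicator_of_mem ha,
        Set.indicator_of_mem hmem, sub_self]
    · have hmem : 𝔞 ∈ sieved S \ D := ⟨ha, hd⟩
      rw [Set.indicator_of_mem hmem, Set.indicator_of_mem ha,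
        Set.indicator_of_notMem (fun h ↦ hd h.2), sub_zero]
    · rw [Set.indicator_of_notMem (fun h ↦ ha h.1), Set.indicator_of_notMem ha,
        Set.indicator_of_notMem (fun h ↦ ha h.1), sub_zero]
    · rw [Set.indicator_of_notMem (fun h ↦ ha h.1), Set.indicator_of_notMem ha,
        Set.indicator_of_notMem (fun h ↦ ha h.1), sub_zero]
  -- the divisible part
  have h2 : ∑' 𝔞, (sieved S ∩ D).indicator f 𝔞 =
      f 𝔭.asIdeal * ∑' 𝔞, (sieved S).indicator f 𝔞 := by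
    have hinj : Injective (fun 𝔟 : Ideal R ↦ 𝔭.asIdeal * 𝔟) :=
      mul_right_injective₀ 𝔭.ne_bot
    have hsupp : support ((sieved S ∩ D).indicator f) ⊆
        Set.range (fun 𝔟 : Ideal R ↦ 𝔭.asIdeal * 𝔟) := by
      intro 𝔞 ha
      have : 𝔞 ∈ sieved S ∩ D := by
        by_contra hcon
        exact ha (Set.indicator_of_notMem hcon f)
      obtain ⟨𝔟, rfl⟩ := this.2
      exact ⟨𝔟, rfl⟩
    rw [← hinj.tsum_eq hsupp, ← tsum_mul_left]
    congr 1
    funext 𝔟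
    by_cases hb : 𝔟 ∈ sieved S
    · have : 𝔭.asIdeal * 𝔟 ∈ sieved S ∩ D :=
        ⟨(mul_mem_sieved_iff h𝔭 𝔟).mpr hb, Dvd.intro _ rfl⟩
      rw [Set.indicator_of_mem this, Set.indicator_of_mem hb, map_mul]
    · have : 𝔭.asIdeal * 𝔟 ∉ sieved S ∩ D := fun h ↦ hb ((mul_mem_sieved_iff h𝔭 𝔟).mp h.1)
      rw [Set.indicator_of_notMem this, Set.indicator_of_notMem hb, mul_zero]
  rw [h1, hS.tsum_sub hSD, h2]
  ring

/-- Euler's sieve: the sum over ideals prime to `S`. -/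
theorem tsum_sieved_eq (hsum : Summable (‖f ·‖)) (S : Finset (HeightOneSpectrum R)) :
    ∑' 𝔞, (sieved S).indicator f 𝔞 = (∏ 𝔭 ∈ S, (1 - f 𝔭.asIdeal)) * ∑' 𝔞, f 𝔞 := by
  classical
  induction S using Finset.induction_on with
  | empty =>
    rw [Finset.prod_empty, one_mul]
    refine tsum_congr fun 𝔞 ↦ ?_
    by_cases ha : 𝔞 = 0
    · subst ha
      rw [Set.indicator_of_notMem (fun h : (0 : Ideal R) ∈ sieved ∅ ↦ h.1 rfl), map_zero]
    · have hmem : 𝔞 ∈ sieved (∅ : Finset (HeightOneSpectrum R)) := ⟨ha, by simp⟩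
      exact Set.indicator_of_mem hmem f
  | insert 𝔭 S h𝔭 ih =>
    rw [tsum_sieved_insert f hsum h𝔭, ih, Finset.prod_insert h𝔭, mul_assoc]

/-- The sieved sums tend to `1`. -/
theorem tendsto_tsum_sieved (hsum : Summable (‖f ·‖)) :
    Tendsto (fun S : Finset (HeightOneSpectrum R) ↦ ∑' 𝔞, (sieved S).indicator f 𝔞)
      atTop (𝓝 1) := by
  classical
  have hf : Summable f := hsum.of_norm
  rw [Metric.tendsto_atTop]
  intro ε hε
  obtain ⟨T, hT⟩ := hf.tsum_vanishing (Metric.ball_mem_nhds (0 : F) hε)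
  -- primes dividing the nonzero elements of `T`
  let S₀ : Finset (HeightOneSpectrum R) :=
    T.biUnion fun 𝔞 ↦ if h : 𝔞 ≠ 0 then (Ideal.finite_factors h).toFinset else ∅
  refine ⟨S₀, fun S hS ↦ ?_⟩
  have hone : (1 : Ideal R) ∈ sieved S := one_mem_sieved S
  have hsplit : (sieved S).indicator f =
      fun 𝔞 ↦ ({(1 : Ideal R)} : Set (Ideal R)).indicator f 𝔞 +
        (sieved S \ {1}).indicator f 𝔞 := by
    funext 𝔞
    by_cases h1 : 𝔞 = 1
    · subst h1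
      rw [Set.indicator_of_mem hone, Set.indicator_of_mem (Set.mem_singleton _),
        Set.indicator_of_notMem (fun h ↦ h.2 (Set.mem_singleton _)), add_zero]
    · rw [Set.indicator_of_notMem (fun h ↦ h1 (Set.mem_singleton_iff.mp h)), zero_add]
      by_cases ha : 𝔞 ∈ sieved S
      · have hmem : 𝔞 ∈ sieved S \ {1} := ⟨ha, fun h ↦ h1 (Set.mem_singleton_iff.mp h)⟩
        rw [Set.indicator_of_mem ha, Set.indicator_of_mem hmem]
      · rw [Set.indicator_of_notMem ha, Set.indicator_of_notMem (fun h ↦ ha h.1)]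
  have hs1 : Summable (({(1 : Ideal R)} : Set (Ideal R)).indicator f) := hf.indicator _
  have hs2 : Summable ((sieved S \ {1}).indicator f) := hf.indicator _
  have hval : ∑' 𝔞, ({(1 : Ideal R)} : Set (Ideal R)).indicator f 𝔞 = 1 := by
    rw [← tsum_subtype, tsum_singleton (1 : Ideal R) f, map_one]
  rw [hsplit, hs1.tsum_add hs2, hval, dist_eq_norm, add_sub_cancel_left, ← tsum_subtype]
  have hdisj : Disjoint (sieved S \ {1}) (T : Set (Ideal R)) := by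
    rw [Set.disjoint_left]
    rintro 𝔞 ⟨⟨ha0, ha⟩, ha1⟩ haT
    have ha1' : 𝔞 ≠ ⊤ := by simpa [Ideal.one_eq_top] using ha1
    obtain ⟨M, hM, hle⟩ := Ideal.exists_le_maximal 𝔞 ha1'
    have hM0 : M ≠ ⊥ := fun h ↦ ha0 (by rw [Ideal.zero_eq_bot]; exact le_bot_iff.mp (h ▸ hle))
    let 𝔭 : HeightOneSpectrum R := ⟨M, hM.isPrime, hM0⟩
    have hdvd : 𝔭.asIdeal ∣ 𝔞 := Ideal.dvd_iff_le.mpr hle
    have hmem : 𝔭 ∈ S₀ := by
      refine Finset.mem_biUnion.mpr ⟨𝔞, haT, ?_⟩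
      rw [dif_pos ha0]
      simpa using hdvd
    exact ha 𝔭 (hS hmem) hdvd
  simpa using hT _ hdisj

/-- The sum of a summable completely multiplicative function on ideals is nonzero. -/
theorem tsum_ne_zero (hsum : Summable (‖f ·‖)) : ∑' 𝔞, f 𝔞 ≠ 0 := by
  intro h0
  have h := tendsto_tsum_sieved f hsum
  simp_rw [tsum_sieved_eq f hsum, h0, mul_zero] at h
  exact zero_ne_one (tendsto_nhds_unique tendsto_const_nhds h)

/-- Euler product, sieve form. -/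
theorem hasProd_one_sub (hsum : Summable (‖f ·‖)) :
    HasProd (fun 𝔭 : HeightOneSpectrum R ↦ 1 - f 𝔭.asIdeal) (∑' 𝔞, f 𝔞)⁻¹ := by
  have h := tendsto_tsum_sieved f hsum
  simp_rw [tsum_sieved_eq f hsum] at h
  have h0 := tsum_ne_zero f hsum
  have := h.mul_const (∑' 𝔞, f 𝔞)⁻¹
  simp_rw [mul_assoc, mul_inv_cancel₀ h0, mul_one, one_mul] at this
  exact this

/-- **Euler product over the prime ideals** for a completely multiplicative function on the
ideals of a Dedekind domain. -/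
theorem hasProd_inv_one_sub (hsum : Summable (‖f ·‖)) :
    HasProd (fun 𝔭 : HeightOneSpectrum R ↦ (1 - f 𝔭.asIdeal)⁻¹) (∑' 𝔞, f 𝔞) := by
  have h := hasProd_one_sub f hsum
  have h0 : (∑' 𝔞, f 𝔞)⁻¹ ≠ 0 := inv_ne_zero (tsum_ne_zero f hsum)
  have := (h.inv₀ h0)
  simpa using this

theorem norm_apply_lt_one (hsum : Summable (‖f ·‖)) (𝔭 : HeightOneSpectrum R) :
    ‖f 𝔭.asIdeal‖ < 1 := by
  have hinj : Injective (fun k : ℕ ↦ 𝔭.asIdeal ^ k) :=
    (Ideal.pow_right_strictAnti 𝔭.asIdeal 𝔭.ne_bot 𝔭.isPrime.ne_top).injective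
  have h := hsum.comp_injective hinj
  have h' : Summable (fun k : ℕ ↦ ‖f 𝔭.asIdeal‖ ^ k) := by
    refine h.congr fun k ↦ ?_
    simp [Function.comp, map_pow, norm_pow]
  simpa using summable_geometric_iff_norm_lt_one.mp h'

theorem one_sub_apply_ne_zero (hsum : Summable (‖f ·‖)) (𝔭 : HeightOneSpectrum R) :
    1 - f 𝔭.asIdeal ≠ 0 := by
  intro h
  have h1 : f 𝔭.asIdeal = 1 := (sub_eq_zero.mp h).symm
  have := norm_apply_lt_one f hsum 𝔭
  rw [h1, norm_one] at this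
  exact lt_irrefl _ this

end sieve

end Fermat.Agent.CFT.IdealEuler
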