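import Fermat.Agent.CFT.ZetaRBounds
import Fermat.Agent.CFT.IdealEuler
import Fermat.Agent.CFT.CharOrtho

/-!
# Euler products for `classL` and the product over all characters (input (I1))
-/

set_option linter.unusedSectionVars false

namespace Fermat.Agent.CFT.ClassLEuler

open NumberField Ideal IsDedekindDomain Filter Topology nonZeroDivisors
open Fermat.Agent.CFT.C1ClassDefs Fermat.Agent.CFT.IdealZetaSum Fermat.Agent.CFT.ZetaRBounds
open Fermat.Agent.CFT.IdealEuler Fermat.Agent.CFT.CharOrtho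

section localFactor

variable {G : Type*} [CommGroup G] [Finite G]

theorem inv_one_sub_eq_exp {z : ℂ} (hz : ‖z‖ < 1) :
    (1 - z)⁻¹ = Complex.exp (-Complex.log (1 - z)) := by
  have h : 1 - z ≠ 0 := by
    intro h
    have : z = 1 := (sub_eq_zero.mp h).symm
    rw [this, norm_one] at hz
    exact lt_irrefl _ hz
  rw [Complex.exp_neg, Complex.exp_log h]

open scoped Classical in
/-- The product over all characters of the local Euler factors is the exponential of a series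
with nonnegative real terms. -/
theorem prod_inv_one_sub [Fintype (G →* ℂˣ)] (g : G) {x : ℝ} (hx0 : 0 ≤ x) (hx1 : x < 1) :
    ∃ V : ℂ, ∏ χ : G →* ℂˣ, (1 - ((χ g : ℂˣ) : ℂ) * (x : ℂ))⁻¹ = Complex.exp V ∧
      HasSum (fun k : ℕ ↦
        (((if g ^ k = 1 then (Nat.card G : ℝ) else 0) * x ^ k / k : ℝ) : ℂ)) V := by
  have hz : ∀ χ : G →* ℂˣ, ‖((χ g : ℂˣ) : ℂ) * (x : ℂ)‖ < 1 := fun χ ↦ by
    rw [norm_mul, norm_unit_apply, one_mul, Complex.norm_real, Real.norm_of_nonneg hx0]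
    exact hx1
  refine ⟨∑ χ : G →* ℂˣ, -Complex.log (1 - ((χ g : ℂˣ) : ℂ) * (x : ℂ)), ?_, ?_⟩
  · rw [Complex.exp_sum]
    exact Finset.prod_congr rfl fun χ _ ↦ inv_one_sub_eq_exp (hz χ)
  · have h := hasSum_sum (s := (Finset.univ : Finset (G →* ℂˣ)))
      (f := fun (χ : G →* ℂˣ) (k : ℕ) ↦ (((χ g : ℂˣ) : ℂ) * (x : ℂ)) ^ k / k)
      fun χ _ ↦ Complex.hasSum_taylorSeries_neg_log (hz χ)
    refine h.congr_fun fun k ↦ ?_
    have hk : ∀ χ : G →* ℂˣ, (((χ g : ℂˣ) : ℂ) * (x : ℂ)) ^ k / k =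
        ((χ (g ^ k) : ℂˣ) : ℂ) * ((x : ℂ) ^ k / k) := fun χ ↦ by
      rw [mul_pow, map_pow, Units.val_pow_eq_pow_val, mul_div_assoc]
    rw [Finset.sum_congr rfl fun χ _ ↦ hk χ, ← Finset.sum_mul, CharOrtho.sum_apply]
    split_ifs <;> push_cast <;> ring

/-- Each product of local factors has norm at least `1`, and at least `exp (|G| x)` at the
trivial element. -/
theorem exp_le_norm_prod_inv_one_sub [Fintype (G →* ℂˣ)] (g : G) {x : ℝ} (hx0 : 0 ≤ x)
    (hx1 : x < 1) :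
    (g = 1 → Real.exp (Nat.card G * x) ≤
        ‖∏ χ : G →* ℂˣ, (1 - ((χ g : ℂˣ) : ℂ) * (x : ℂ))⁻¹‖) ∧
      1 ≤ ‖∏ χ : G →* ℂˣ, (1 - ((χ g : ℂˣ) : ℂ) * (x : ℂ))⁻¹‖ := by
  classical
  obtain ⟨V, hV, hsum⟩ := prod_inv_one_sub g hx0 hx1
  rw [hV, Complex.norm_exp]
  have hre := ((Complex.hasSum_iff _ _).mp hsum).1
  simp only [Complex.ofReal_re] at hre
  have hnn : ∀ k : ℕ, 0 ≤ (if g ^ k = 1 then (Nat.card G : ℝ) else 0) * x ^ k / k := fun k ↦ by
    have : 0 ≤ (if g ^ k = 1 then (Nat.card G : ℝ) else 0) := by split_ifs <;> positivity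
    positivity
  refine ⟨fun hg ↦ ?_, ?_⟩
  · refine Real.exp_le_exp.mpr ?_
    have := le_hasSum hre 1 (fun k _ ↦ hnn k)
    simpa [hg] using this
  · rw [← Real.exp_zero]
    exact Real.exp_le_exp.mpr (hre.nonneg hnn)

end localFactor

section twist

variable {K : Type*} [Field K] [NumberField K]
variable {G : Type*} [CommGroup G]

theorem mem_nzd_iff {a : Ideal (𝓞 K)} : a ∈ (Ideal (𝓞 K))⁰ ↔ a ≠ 0 :=
  mem_nonZeroDivisors_iff_ne_zero

open scoped Classical in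
/-- The completely multiplicative function `𝔞 ↦ χ(φ 𝔞) N(𝔞)^(-s)` on all ideals (zero at `0`). -/
noncomputable def twist (φ : (Ideal (𝓞 K))⁰ →* G) (χ : G →* ℂˣ) (s : ℝ) :
    Ideal (𝓞 K) →*₀ ℂ where
  toFun a := if h : a ∈ (Ideal (𝓞 K))⁰ then
    ((χ (φ ⟨a, h⟩) : ℂˣ) : ℂ) * (((absNorm a : ℝ) ^ (-s) : ℝ) : ℂ) else 0
  map_zero' := by
    rw [dif_neg]
    exact fun h ↦ (mem_nzd_iff.mp h) rfl
  map_one' := by
    have h1 : (1 : Ideal (𝓞 K)) ∈ (Ideal (𝓞 K))⁰ := one_mem _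
    rw [dif_pos h1]
    have : (⟨1, h1⟩ : (Ideal (𝓞 K))⁰) = 1 := rfl
    rw [this, map_one, map_one]
    simp
  map_mul' a b := by
    by_cases ha : a ∈ (Ideal (𝓞 K))⁰
    · by_cases hb : b ∈ (Ideal (𝓞 K))⁰
      · have hab : a * b ∈ (Ideal (𝓞 K))⁰ := mul_mem ha hb
        rw [dif_pos ha, dif_pos hb, dif_pos hab]
        have : (⟨a * b, hab⟩ : (Ideal (𝓞 K))⁰) = ⟨a, ha⟩ * ⟨b, hb⟩ := rfl
        rw [this, map_mul, map_mul, Units.val_mul, map_mul, Nat.cast_mul,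
          Real.mul_rpow (Nat.cast_nonneg _) (Nat.cast_nonneg _), Complex.ofReal_mul]
        ring
      · have hab : a * b ∉ (Ideal (𝓞 K))⁰ := by
          rw [mem_nzd_iff] at hb ⊢
          rw [not_not] at hb ⊢
          rw [hb, mul_zero]
        rw [dif_neg hb, dif_neg hab, mul_zero]
    · have hab : a * b ∉ (Ideal (𝓞 K))⁰ := by
        rw [mem_nzd_iff] at ha ⊢
        rw [not_not] at ha ⊢
        rw [ha, zero_mul]
      rw [dif_neg ha, dif_neg hab, zero_mul]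

theorem twist_apply_of_mem (φ : (Ideal (𝓞 K))⁰ →* G) (χ : G →* ℂˣ) (s : ℝ)
    (a : (Ideal (𝓞 K))⁰) :
    twist φ χ s (a : Ideal (𝓞 K)) =
      ((χ (φ a) : ℂˣ) : ℂ) * (((absNorm (a : Ideal (𝓞 K)) : ℝ) ^ (-s) : ℝ) : ℂ) := by
  classical
  change (if h : (a : Ideal (𝓞 K)) ∈ (Ideal (𝓞 K))⁰ then _ else _) = _
  rw [dif_pos a.2]

theorem twist_apply_zero' (φ : (Ideal (𝓞 K))⁰ →* G) (χ : G →* ℂˣ) (s : ℝ)
    {a : Ideal (𝓞 K)} (ha : a ∉ (Ideal (𝓞 K))⁰) : twist φ χ s a = 0 := by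
  classical
  change (if h : a ∈ (Ideal (𝓞 K))⁰ then _ else _) = _
  rw [dif_neg ha]

theorem classL_eq_tsum_twist (φ : (Ideal (𝓞 K))⁰ →* G) (χ : G →* ℂˣ) (s : ℝ) :
    classL K φ χ s = ∑' a : Ideal (𝓞 K), twist φ χ s a := by
  have hsupp : Function.support (fun a : Ideal (𝓞 K) ↦ twist φ χ s a) ⊆
      ((Ideal (𝓞 K))⁰ : Set (Ideal (𝓞 K))) := by
    intro a ha
    by_contra h
    exact ha (twist_apply_zero' φ χ s h)
  rw [← tsum_subtype_eq_of_support_subset hsupp, classL]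
  exact tsum_congr fun a ↦ (twist_apply_of_mem φ χ s a).symm

variable [Finite G]

theorem norm_twist_le (φ : (Ideal (𝓞 K))⁰ →* G) (χ : G →* ℂˣ) (s : ℝ) (a : Ideal (𝓞 K)) :
    ‖twist φ χ s a‖ ≤ (absNorm a : ℝ) ^ (-s) := by
  by_cases ha : a ∈ (Ideal (𝓞 K))⁰
  · have := twist_apply_of_mem φ χ s ⟨a, ha⟩
    simp only at this
    rw [this]
    exact (norm_classL_term φ χ s ⟨a, ha⟩).le
  · rw [twist_apply_zero' φ χ s ha, norm_zero]
    exact Real.rpow_nonneg (Nat.cast_nonneg _) _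

theorem summable_norm_twist (φ : (Ideal (𝓞 K))⁰ →* G) (χ : G →* ℂˣ) {s : ℝ} (hs : 1 < s) :
    Summable (fun a : Ideal (𝓞 K) ↦ ‖twist φ χ s a‖) :=
  Summable.of_nonneg_of_le (fun _ ↦ norm_nonneg _) (norm_twist_le φ χ s)
    (summable_absNorm_rpow K hs)

/-- The Euler product of `classL`. -/
theorem hasProd_classL (φ : (Ideal (𝓞 K))⁰ →* G) (χ : G →* ℂˣ) {s : ℝ} (hs : 1 < s) :
    HasProd (fun P : HeightOneSpectrum (𝓞 K) ↦
      (1 - ((χ (φ (primeToIdeal0 P)) : ℂˣ) : ℂ) *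
        (((absNorm P.asIdeal : ℝ) ^ (-s) : ℝ) : ℂ))⁻¹) (classL K φ χ s) := by
  have h := hasProd_inv_one_sub (twist φ χ s) (summable_norm_twist φ χ hs)
  rw [← classL_eq_tsum_twist] at h
  refine h.congr_fun fun P ↦ ?_
  rw [← coe_primeToIdeal0 P, twist_apply_of_mem]

theorem absNorm_prime_rpow_lt_one (P : HeightOneSpectrum (𝓞 K)) {s : ℝ} (hs : 0 < s) :
    (absNorm P.asIdeal : ℝ) ^ (-s) < 1 := by
  have h0 : absNorm P.asIdeal ≠ 0 := by
    rw [Ne, Ideal.absNorm_eq_zero_iff]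
    exact P.ne_bot
  have h1 : absNorm P.asIdeal ≠ 1 := by
    rw [Ne, Ideal.absNorm_eq_one_iff]
    exact P.isPrime.ne_top
  have h2 : (1 : ℝ) < absNorm P.asIdeal := by
    have : 1 < absNorm P.asIdeal := by omega
    exact_mod_cast this
  exact Real.rpow_lt_one_of_one_lt_of_neg h2 (by linarith)

theorem summable_prime_rpow {s : ℝ} (hs : 1 < s) :
    Summable (fun P : HeightOneSpectrum (𝓞 K) ↦ (absNorm P.asIdeal : ℝ) ^ (-s)) := by
  have hinj : Function.Injective (fun P : HeightOneSpectrum (𝓞 K) ↦ P.asIdeal) :=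
    fun P Q h ↦ HeightOneSpectrum.ext h
  exact (summable_absNorm_rpow K hs).comp_injective hinj

/-- **Input (I1)**: the product of all `L`-functions dominates the exponential of `|G|` times the
prime zeta sum over the primes killed by `φ`. -/
theorem exp_le_norm_prod_classL [Fintype (G →* ℂˣ)] (φ : (Ideal (𝓞 K))⁰ →* G) {s : ℝ}
    (hs : 1 < s) :
    Real.exp (Nat.card G * (kerPrimes φ).primeIdealZetaSum s) ≤
      ‖∏ χ : G →* ℂˣ, classL K φ χ s‖ := by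
  classical
  set x : HeightOneSpectrum (𝓞 K) → ℝ := fun P ↦ (absNorm P.asIdeal : ℝ) ^ (-s) with hx
  have hx0 : ∀ P, 0 ≤ x P := fun P ↦ Real.rpow_nonneg (Nat.cast_nonneg _) _
  have hx1 : ∀ P, x P < 1 := fun P ↦ absNorm_prime_rpow_lt_one P (by linarith)
  -- the product of the Euler products
  have hprod : HasProd (fun P : HeightOneSpectrum (𝓞 K) ↦
      ∏ χ : G →* ℂˣ, (1 - ((χ (φ (primeToIdeal0 P)) : ℂˣ) : ℂ) * ((x P : ℝ) : ℂ))⁻¹)
      (∏ χ : G →* ℂˣ, classL K φ χ s) :=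
    hasProd_prod fun χ _ ↦ hasProd_classL φ χ hs
  have hlim1 := (continuous_norm.tendsto _).comp hprod
  -- the sum over the kernel primes
  have hsumm : Summable ((kerPrimes φ).indicator x) := (summable_prime_rpow hs).indicator _
  have htsum : ∑' P, (kerPrimes φ).indicator x P = (kerPrimes φ).primeIdealZetaSum s := by
    rw [NumberField.Set.primeIdealZetaSum_def, ← tsum_subtype]
  have hlim2 : Tendsto (fun S : Finset (HeightOneSpectrum (𝓞 K)) ↦
      Real.exp (Nat.card G * ∑ P ∈ S, (kerPrimes φ).indicator x P)) atTop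
      (𝓝 (Real.exp (Nat.card G * (kerPrimes φ).primeIdealZetaSum s))) := by
    rw [← htsum]
    exact (Real.continuous_exp.tendsto _).comp ((hsumm.hasSum.const_mul _))
  refine le_of_tendsto_of_tendsto' hlim2 hlim1 fun S ↦ ?_
  rw [Function.comp_apply, norm_prod, Finset.mul_sum, Real.exp_sum]
  refine Finset.prod_le_prod (fun _ _ ↦ (Real.exp_pos _).le) fun P _ ↦ ?_
  obtain ⟨h1, h2⟩ := exp_le_norm_prod_inv_one_sub (φ (primeToIdeal0 P)) (hx0 P) (hx1 P)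
  by_cases hP : P ∈ kerPrimes φ
  · rw [Set.indicator_of_mem hP]
    exact h1 hP
  · rw [Set.indicator_of_notMem hP, mul_zero, Real.exp_zero]
    exact h2

end twist

end Fermat.Agent.CFT.ClassLEuler
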