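/-
Program E (S14), E-C1 analytic part, helper24.

`UnitWeight`: a Lipschitz partition of unity for the action of the unit group `(𝓞 K)ˣ` on the
mixed space of a number field `K`, and the weight `W s x = Ψ x * η (N x) * (N x) ^ (-s)`.

Main exports (namespace `Fermat.Agent.CFT.UnitWeight`):
* `tent`, `hasSum_tent`, `hasSum_prod_tent`
* `psi`, `Psi`, `hasSum_Psi_unit_smul` : `∑ over units u, Ψ (u • x) = 1` when `N x ≠ 0`
* `W`, `W_nonneg`, `W_zero`, `W_eq_of_one_le`
* `hasSum_W_unit_smul`, `hasSum_W_units_mul` (unfolding over the unit group)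
* `W_sub_le` (Lipschitz bound with decay `(1 + ‖x‖)^(-(n+1))`, uniform in `s ∈ [1,2]`)
* `W_le_rpow` (decay `(1 + ‖x‖)^(-n s)`).
-/
import Mathlib

set_option autoImplicit false

noncomputable section

namespace Fermat.Agent.CFT.UnitWeight

open Finset

/-! ### The tent function -/

/-- The tent function `max 0 (1 - |t|)`. -/
def tent (t : ℝ) : ℝ := max 0 (1 - |t|)

lemma tent_nonneg (t : ℝ) : 0 ≤ tent t := le_max_left _ _

lemma tent_le_one (t : ℝ) : tent t ≤ 1 := by
  unfold tent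
  exact max_le zero_le_one (by linarith [abs_nonneg t])

lemma tent_eq_zero {t : ℝ} (ht : 1 ≤ |t|) : tent t = 0 := by
  unfold tent
  exact max_eq_left (by linarith)

lemma abs_lt_one_of_tent_ne_zero {t : ℝ} (ht : tent t ≠ 0) : |t| < 1 := by
  by_contra h
  exact ht (tent_eq_zero (not_lt.mp h))

lemma tent_of_abs_le {t : ℝ} (ht : |t| ≤ 1) : tent t = 1 - |t| := by
  unfold tent
  exact max_eq_right (by linarith)

lemma abs_tent_sub_le (t t' : ℝ) : |tent t - tent t'| ≤ |t - t'| := by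
  unfold tent
  have h1 := abs_max_sub_max_le_max (0 : ℝ) (1 - |t|) 0 (1 - |t'|)
  have h2 : |1 - |t| - (1 - |t'|)| ≤ |t - t'| := by
    have : 1 - |t| - (1 - |t'|) = |t'| - |t| := by ring
    rw [this, abs_sub_comm t t']
    exact abs_abs_sub_abs_le_abs_sub t' t
  refine h1.trans (max_le ?_ h2)
  simp

/-- `tent (c + k)` vanishes for all integers `k` except `⌊-c⌋` and `⌊-c⌋ + 1`. -/
lemma tent_add_int_eq_zero (c : ℝ) (k : ℤ) (hk : k ∉ ({⌊-c⌋, ⌊-c⌋ + 1} : Finset ℤ)) :
    tent (c + k) = 0 := by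
  set m : ℤ := ⌊-c⌋ with hm
  have h1 : (m : ℝ) ≤ -c := Int.floor_le _
  have h2 : -c < m + 1 := Int.lt_floor_add_one _
  simp only [Finset.mem_insert, Finset.mem_singleton, not_or] at hk
  apply tent_eq_zero
  rcases lt_or_gt_of_ne hk.1 with h | h
  · have : (k : ℝ) ≤ m - 1 := by exact_mod_cast Int.le_sub_one_of_lt h
    rw [le_abs]; right; linarith
  · have h' : m + 1 < k := lt_of_le_of_ne (by omega) (Ne.symm hk.2)
    have : (m : ℝ) + 2 ≤ k := by exact_mod_cast (by omega : m + 2 ≤ k)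
    rw [le_abs]; left; linarith

/-- `∑_{k ∈ ℤ} tent (c + k) = 1`. -/
lemma hasSum_tent (c : ℝ) : HasSum (fun k : ℤ => tent (c + k)) 1 := by
  set m : ℤ := ⌊-c⌋ with hm
  have h1 : (m : ℝ) ≤ -c := Int.floor_le _
  have h2 : -c < m + 1 := Int.lt_floor_add_one _
  have hsupp : ∀ k : ℤ, k ∉ ({m, m + 1} : Finset ℤ) → tent (c + k) = 0 :=
    fun k hk => tent_add_int_eq_zero c k hk
  have hsum : ∑ k ∈ ({m, m + 1} : Finset ℤ), tent (c + k) = 1 := by
    rw [Finset.sum_pair (by omega)]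
    have e1 : tent (c + m) = 1 + (c + m) := by
      rw [tent_of_abs_le (by rw [abs_le]; constructor <;> linarith), abs_of_nonpos (by linarith)]
      ring
    have e2 : tent (c + ((m + 1 : ℤ) : ℝ)) = 1 - (c + (m + 1)) := by
      push_cast
      rw [tent_of_abs_le (by rw [abs_le]; constructor <;> linarith), abs_of_nonneg (by linarith)]
    rw [e1, e2]; ring
  have : HasSum (fun k : ℤ => tent (c + k)) (∑ k ∈ ({m, m + 1} : Finset ℤ), tent (c + k)) :=
    hasSum_sum_of_ne_finset_zero hsupp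
  rwa [hsum] at this

/-- `∑_{k ∈ ℤ^r} ∏ i, tent (c i + k i) = 1`. -/
lemma hasSum_prod_tent {ι : Type*} [Fintype ι] [DecidableEq ι] (c : ι → ℝ) :
    HasSum (fun k : ι → ℤ => ∏ i, tent (c i + k i)) 1 := by
  set s : ι → Finset ℤ := fun i => {⌊-(c i)⌋, ⌊-(c i)⌋ + 1} with hs
  have hsupp1 : ∀ (i : ι) (k : ℤ), k ∉ s i → tent (c i + k) = 0 :=
    fun i k hk => tent_add_int_eq_zero (c i) k hk
  have hsum1 : ∀ i, ∑ k ∈ s i, tent (c i + k) = 1 := by
    intro i
    have h := hasSum_tent (c i)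
    have h' : HasSum (fun k : ℤ => tent (c i + k)) (∑ k ∈ s i, tent (c i + k)) :=
      hasSum_sum_of_ne_finset_zero (hsupp1 i)
    exact h'.unique h
  have hsupp : ∀ k : ι → ℤ, k ∉ Fintype.piFinset s → ∏ i, tent (c i + k i) = 0 := by
    intro k hk
    rw [Fintype.mem_piFinset] at hk
    push Not at hk
    obtain ⟨i, hi⟩ := hk
    exact Finset.prod_eq_zero (Finset.mem_univ i) (hsupp1 i _ hi)
  have : HasSum (fun k : ι → ℤ => ∏ i, tent (c i + k i))
      (∑ k ∈ Fintype.piFinset s, ∏ i, tent (c i + k i)) :=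
    hasSum_sum_of_ne_finset_zero hsupp
  have hprod : ∑ k ∈ Fintype.piFinset s, ∏ i, tent (c i + k i) = 1 := by
    rw [← Finset.prod_univ_sum (f := fun i (k : ℤ) => tent (c i + k))]
    simp [hsum1]
  rwa [hprod] at this

/-- Products of numbers in `[0,1]` are Lipschitz in each factor. -/
lemma abs_prod_sub_prod_le {ι : Type*} (s : Finset ι) (a b : ι → ℝ)
    (ha : ∀ i ∈ s, 0 ≤ a i ∧ a i ≤ 1) (hb : ∀ i ∈ s, 0 ≤ b i ∧ b i ≤ 1) :
    |∏ i ∈ s, a i - ∏ i ∈ s, b i| ≤ ∑ i ∈ s, |a i - b i| := by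
  classical
  induction s using Finset.induction_on with
  | empty => simp
  | insert j s hj ih =>
    rw [Finset.prod_insert hj, Finset.prod_insert hj, Finset.sum_insert hj]
    have ha' : ∀ i ∈ s, 0 ≤ a i ∧ a i ≤ 1 := fun i hi => ha i (Finset.mem_insert_of_mem hi)
    have hb' : ∀ i ∈ s, 0 ≤ b i ∧ b i ≤ 1 := fun i hi => hb i (Finset.mem_insert_of_mem hi)
    have hA : 0 ≤ ∏ i ∈ s, a i ∧ ∏ i ∈ s, a i ≤ 1 :=
      ⟨Finset.prod_nonneg fun i hi => (ha' i hi).1,
        Finset.prod_le_one (fun i hi => (ha' i hi).1) fun i hi => (ha' i hi).2⟩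
    have hbj := hb j (Finset.mem_insert_self j s)
    have key : a j * ∏ i ∈ s, a i - b j * ∏ i ∈ s, b i =
        (a j - b j) * ∏ i ∈ s, a i + b j * (∏ i ∈ s, a i - ∏ i ∈ s, b i) := by ring
    rw [key]
    refine (abs_add_le _ _).trans (add_le_add ?_ ?_)
    · rw [abs_mul, abs_of_nonneg hA.1]
      exact mul_le_of_le_one_right (abs_nonneg _) hA.2
    · rw [abs_mul, abs_of_nonneg hbj.1]
      exact (mul_le_of_le_one_left (abs_nonneg _) hbj.2).trans (ih ha' hb')

/-! ### The partition of unity on the mixed space -/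

open NumberField NumberField.InfinitePlace NumberField.mixedEmbedding NumberField.Units
  NumberField.Units.dirichletUnitTheorem Module

open scoped Classical

variable (K : Type*) [Field K] [NumberField K]

/-- The real basis of `logSpace K` given by the fundamental system of units. -/
def logBasis : Basis (Fin (rank K)) ℝ (logSpace K) :=
  (basisUnitLattice K).ofZLatticeBasis ℝ _

lemma logBasis_apply (i : Fin (rank K)) :
    logBasis K i = logEmbedding K (Additive.ofMul (fundSystem K i)) := by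
  rw [logBasis, Basis.ofZLatticeBasis_apply, logEmbedding_fundSystem]

/-- The partition-of-unity bump on `logSpace K`. -/
def psi (y : logSpace K) : ℝ := ∏ i, tent ((logBasis K).repr y i)

lemma psi_nonneg (y : logSpace K) : 0 ≤ psi K y :=
  Finset.prod_nonneg fun _ _ => tent_nonneg _

lemma psi_le_one (y : logSpace K) : psi K y ≤ 1 :=
  Finset.prod_le_one (fun _ _ => tent_nonneg _) fun _ _ => tent_le_one _

/-- `logEmbedding` of a unit written on the fundamental system. -/
lemma logEmbedding_torsion_mul_prod (ζ : torsion K) (k : Fin (rank K) → ℤ) :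
    logEmbedding K (Additive.ofMul ((ζ : (𝓞 K)ˣ) * ∏ i, (fundSystem K i) ^ (k i))) =
      ∑ i, (k i : ℝ) • logBasis K i := by
  rw [ofMul_mul, map_add, (logEmbedding_eq_zero_iff (K := K)).mpr ζ.2, zero_add, ofMul_prod, map_sum]
  refine Finset.sum_congr rfl fun i _ => ?_
  rw [ofMul_zpow, map_zsmul, logBasis_apply, Int.cast_smul_eq_zsmul]

/-- The bijection `torsion × ℤ^r ≃ units` of Dirichlet's unit theorem. -/
def unitsEquiv : torsion K × (Fin (rank K) → ℤ) ≃ (𝓞 K)ˣ :=
  Equiv.ofBijective (fun ζe => (ζe.1 : (𝓞 K)ˣ) * ∏ i, (fundSystem K i) ^ (ζe.2 i)) (by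
    constructor
    · intro a b hab
      obtain ⟨c, _, hc⟩ := exist_unique_eq_mul_prod K ((a.1 : (𝓞 K)ˣ) * ∏ i, (fundSystem K i) ^ (a.2 i))
      rw [hc a rfl, hc b hab]
    · intro x
      obtain ⟨c, hc, _⟩ := exist_unique_eq_mul_prod K x
      exact ⟨c, hc.symm⟩)

lemma psi_logEmbedding_add (ζ : torsion K) (k : Fin (rank K) → ℤ) (y : logSpace K) :
    psi K (logEmbedding K (Additive.ofMul (unitsEquiv K (ζ, k))) + y) =
      ∏ i, tent ((logBasis K).repr y i + k i) := by
  unfold psi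
  refine Finset.prod_congr rfl fun i _ => ?_
  congr 1
  have : unitsEquiv K (ζ, k) = (ζ : (𝓞 K)ˣ) * ∏ i, (fundSystem K i) ^ (k i) := rfl
  rw [this, logEmbedding_torsion_mul_prod, map_add, Finsupp.add_apply, map_sum]
  simp only [map_smul, Basis.repr_self, Finsupp.coe_finsetSum, Finsupp.coe_smul, Finset.sum_apply,
    Pi.smul_apply, smul_eq_mul]
  rw [Finset.sum_eq_single i]
  · simp [add_comm]
  · intro j _ hj; simp [hj]
  · intro h; exact absurd (Finset.mem_univ i) h

/-- The unit-invariant partition of unity on the mixed space. -/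
def Psi (x : mixedSpace K) : ℝ := (torsionOrder K : ℝ)⁻¹ * psi K (logMap x)

lemma Psi_nonneg (x : mixedSpace K) : 0 ≤ Psi K x :=
  mul_nonneg (inv_nonneg.mpr (Nat.cast_nonneg _)) (psi_nonneg K _)

lemma Psi_le_one (x : mixedSpace K) : Psi K x ≤ 1 := by
  unfold Psi
  have h1 : (torsionOrder K : ℝ)⁻¹ ≤ 1 :=
    inv_le_one_of_one_le₀ (by exact_mod_cast (torsionOrder_pos K))
  calc (torsionOrder K : ℝ)⁻¹ * psi K (logMap x) ≤ 1 * 1 :=
        mul_le_mul h1 (psi_le_one K _) (psi_nonneg K _) zero_le_one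
    _ = 1 := one_mul 1

/-- **Partition of unity**: the sum of `Ψ` over a unit orbit of an element of nonzero norm is `1`. -/
theorem hasSum_Psi_unit_smul {x : mixedSpace K} (hx : mixedEmbedding.norm x ≠ 0) :
    HasSum (fun u : (𝓞 K)ˣ => Psi K (u • x)) 1 := by
  rw [← (unitsEquiv K).hasSum_iff]
  set y := logMap x with hy
  set f : torsion K × (Fin (rank K) → ℤ) → ℝ :=
    (fun u : (𝓞 K)ˣ => Psi K (u • x)) ∘ (unitsEquiv K) with hf
  have hfe : ∀ ζ k, f (ζ, k) =
      (torsionOrder K : ℝ)⁻¹ * ∏ i, tent ((logBasis K).repr y i + k i) := by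
    intro ζ k
    simp only [hf, Function.comp_apply, Psi]
    rw [logMap_unit_smul _ hx, psi_logEmbedding_add]
  have hfib : ∀ ζ : torsion K, HasSum (fun k => f (ζ, k)) ((torsionOrder K : ℝ)⁻¹) := by
    intro ζ
    have h := (hasSum_prod_tent (fun i => (logBasis K).repr y i)).mul_left
      ((torsionOrder K : ℝ)⁻¹)
    rw [mul_one] at h
    simpa only [hfe] using h
  -- summability: finite support
  have hsummable : Summable f := by
    set s : Fin (rank K) → Finset ℤ := fun i =>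
      {⌊-((logBasis K).repr y i)⌋, ⌊-((logBasis K).repr y i)⌋ + 1} with hs
    let _ : Fintype (torsion K) := Fintype.ofFinite _
    refine summable_of_ne_finset_zero (s := (Finset.univ : Finset (torsion K)) ×ˢ Fintype.piFinset s) ?_
    rintro ⟨ζ, k⟩ hk
    rw [hfe]
    simp only [Finset.mem_product, Finset.mem_univ, true_and, Fintype.mem_piFinset] at hk
    push Not at hk
    obtain ⟨i, hi⟩ := hk
    rw [Finset.prod_eq_zero (Finset.mem_univ i) (tent_add_int_eq_zero _ _ hi), mul_zero]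
  have h1 := hsummable.hasSum.prod_fiberwise hfib
  let _ : Fintype (torsion K) := Fintype.ofFinite _
  have h2 : HasSum (fun _ : torsion K => (torsionOrder K : ℝ)⁻¹)
      (∑ _ζ : torsion K, (torsionOrder K : ℝ)⁻¹) := hasSum_fintype _
  have h3 : ∑ _ζ : torsion K, (torsionOrder K : ℝ)⁻¹ = 1 := by
    rw [Finset.sum_const, Finset.card_univ, nsmul_eq_mul, ← Nat.card_eq_fintype_card]
    have : (Nat.card (torsion K) : ℝ) = torsionOrder K := rfl
    rw [this, mul_inv_cancel₀]
    exact_mod_cast torsionOrder_ne_zero K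
  rw [h3] at h2
  have := h1.unique h2
  rw [← this]
  exact hsummable.hasSum

/-! ### The support of `Ψ` -/

omit [NumberField K] in
lemma mult_le_two (w : InfinitePlace K) : (mult w : ℝ) ≤ 2 := by
  unfold mult
  split_ifs <;> norm_num

/-- `log N(x) = ∑ mult w * log (normAtPlace w x)` for `N x ≠ 0`. -/
lemma log_norm_eq_sum {x : mixedSpace K} (hx : mixedEmbedding.norm x ≠ 0) :
    Real.log (mixedEmbedding.norm x) = ∑ w, (mult w : ℝ) * Real.log (normAtPlace w x) := by
  rw [mixedEmbedding.norm_apply, Real.log_prod]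
  · refine Finset.sum_congr rfl fun w _ => ?_
    rw [Real.log_pow]
  · intro w _
    exact pow_ne_zero _ (mixedEmbedding.norm_ne_zero_iff.mp hx w)

/-- The sum over all places of `mult w * (log normAtPlace w x - log N x / n)` vanishes. -/
lemma sum_mult_log_sub {x : mixedSpace K} (hx : mixedEmbedding.norm x ≠ 0) :
    ∑ w, (mult w : ℝ) * (Real.log (normAtPlace w x) -
      Real.log (mixedEmbedding.norm x) * (finrank ℚ K : ℝ)⁻¹) = 0 := by
  simp_rw [mul_sub]
  rw [Finset.sum_sub_distrib, ← log_norm_eq_sum K hx, ← Finset.sum_mul, ← Nat.cast_sum,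
    sum_mult_eq, ← mul_assoc, mul_comm ((finrank ℚ K : ℕ) : ℝ), mul_assoc,
    mul_inv_cancel₀ (Nat.cast_ne_zero.mpr finrank_pos.ne'), mul_one, sub_self]

/-- The constant bounding the log-coordinates on the support of `Ψ`. -/
def suppBound : ℝ := (Fintype.card (InfinitePlace K) : ℝ) * ∑ i, ‖logBasis K i‖

lemma suppBound_nonneg : 0 ≤ suppBound K :=
  mul_nonneg (Nat.cast_nonneg _) (Finset.sum_nonneg fun _ _ => norm_nonneg _)

lemma norm_logMap_le_of_psi_ne_zero {y : logSpace K} (hy : psi K y ≠ 0) :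
    ‖y‖ ≤ ∑ i, ‖logBasis K i‖ := by
  have hcoef : ∀ i, |(logBasis K).repr y i| < 1 := by
    intro i
    apply abs_lt_one_of_tent_ne_zero
    intro h
    exact hy (Finset.prod_eq_zero (Finset.mem_univ i) h)
  conv_lhs => rw [← (logBasis K).sum_repr y]
  refine (norm_sum_le _ _).trans (Finset.sum_le_sum fun i _ => ?_)
  rw [_root_.norm_smul, Real.norm_eq_abs]
  exact mul_le_of_le_one_left (norm_nonneg _) (hcoef i).le

/-- **Support bound**: on the support of `Ψ` all the `log normAtPlace w x` are within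
`suppBound K` of `log N(x) / n`. -/
theorem abs_log_normAtPlace_sub_le {x : mixedSpace K} (hx : mixedEmbedding.norm x ≠ 0)
    (hP : Psi K x ≠ 0) (w : InfinitePlace K) :
    |Real.log (normAtPlace w x) - Real.log (mixedEmbedding.norm x) * (finrank ℚ K : ℝ)⁻¹| ≤
      suppBound K := by
  have hpsi : psi K (logMap x) ≠ 0 := fun h => hP (by rw [Psi, h, mul_zero])
  have hB1 := norm_logMap_le_of_psi_ne_zero K hpsi
  set B1 := ∑ i, ‖logBasis K i‖ with hB1def
  have hB1nn : 0 ≤ B1 := Finset.sum_nonneg fun _ _ => norm_nonneg _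
  set g : InfinitePlace K → ℝ := fun w => Real.log (normAtPlace w x) -
      Real.log (mixedEmbedding.norm x) * (finrank ℚ K : ℝ)⁻¹ with hg
  have hne : ∀ w : {w : InfinitePlace K // w ≠ w₀}, |(mult w.1 : ℝ) * g w.1| ≤ B1 := by
    intro w
    have := norm_le_pi_norm (logMap x) w
    rw [logMap_apply, Real.norm_eq_abs] at this
    exact this.trans hB1
  have hne' : ∀ w : InfinitePlace K, w ≠ w₀ → |g w| ≤ B1 := by
    intro w hw
    have h1 := hne ⟨w, hw⟩
    rw [abs_mul, abs_of_pos (by exact_mod_cast mult_pos : (0 : ℝ) < mult w)] at h1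
    calc |g w| ≤ (mult w : ℝ) * |g w| := le_mul_of_one_le_left (abs_nonneg _) one_le_mult
      _ ≤ B1 := h1
  have hcard : (1 : ℝ) ≤ Fintype.card (InfinitePlace K) := by
    exact_mod_cast Fintype.card_pos
  by_cases hw : w = w₀
  · -- the distinguished place
    have hsum := sum_mult_log_sub K hx
    rw [← Finset.add_sum_erase _ _ (Finset.mem_univ (w₀ : InfinitePlace K))] at hsum
    have h0 : (mult (w₀ : InfinitePlace K) : ℝ) * g w₀ =
        -∑ v ∈ Finset.univ.erase (w₀ : InfinitePlace K), (mult v : ℝ) * g v := by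
      linarith
    have h1 : |(mult (w₀ : InfinitePlace K) : ℝ) * g w₀| ≤
        ((Fintype.card (InfinitePlace K) : ℝ) - 1) * B1 := by
      rw [h0, abs_neg]
      refine (Finset.abs_sum_le_sum_abs _ _).trans ?_
      have : ∀ v ∈ Finset.univ.erase (w₀ : InfinitePlace K), |(mult v : ℝ) * g v| ≤ B1 := by
        intro v hv
        exact hne ⟨v, (Finset.mem_erase.mp hv).1⟩
      refine (Finset.sum_le_sum this).trans ?_
      rw [Finset.sum_const, Finset.card_erase_of_mem (Finset.mem_univ _), Finset.card_univ,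
        nsmul_eq_mul, Nat.cast_sub Fintype.card_pos, Nat.cast_one]
    rw [abs_mul, abs_of_pos (by exact_mod_cast mult_pos : (0 : ℝ) < mult (w₀ : InfinitePlace K))] at h1
    rw [hw]
    calc |g w₀| ≤ (mult (w₀ : InfinitePlace K) : ℝ) * |g w₀| :=
          le_mul_of_one_le_left (abs_nonneg _) one_le_mult
      _ ≤ ((Fintype.card (InfinitePlace K) : ℝ) - 1) * B1 := h1
      _ ≤ (Fintype.card (InfinitePlace K) : ℝ) * B1 := by nlinarith
  · calc |g w| ≤ B1 := hne' w hw
      _ ≤ (Fintype.card (InfinitePlace K) : ℝ) * B1 := le_mul_of_one_le_left hB1nn hcard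

/-! ### Lipschitz estimates in log-coordinates -/

/-- Lipschitz constant of `psi`. -/
def psiLip : ℝ := (rank K : ℝ) * ‖((logBasis K).equivFunL : logSpace K →L[ℝ] (Fin (rank K) → ℝ))‖

lemma psiLip_nonneg : 0 ≤ psiLip K := mul_nonneg (Nat.cast_nonneg _) (norm_nonneg _)

lemma abs_psi_sub_le (y y' : logSpace K) : |psi K y - psi K y'| ≤ psiLip K * ‖y - y'‖ := by
  unfold psi
  refine (abs_prod_sub_prod_le _ _ _ (fun i _ => ⟨tent_nonneg _, tent_le_one _⟩)
    (fun i _ => ⟨tent_nonneg _, tent_le_one _⟩)).trans ?_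
  have h : ∀ i ∈ (Finset.univ : Finset (Fin (rank K))),
      |tent ((logBasis K).repr y i) - tent ((logBasis K).repr y' i)| ≤
        ‖((logBasis K).equivFunL : logSpace K →L[ℝ] (Fin (rank K) → ℝ))‖ * ‖y - y'‖ := by
    intro i _
    refine (abs_tent_sub_le _ _).trans ?_
    have h1 : (logBasis K).repr y i - (logBasis K).repr y' i =
        ((logBasis K).equivFunL : logSpace K →L[ℝ] (Fin (rank K) → ℝ)) (y - y') i := by
      simp [Basis.equivFunL]
    rw [h1, ← Real.norm_eq_abs]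
    exact (norm_le_pi_norm _ i).trans (ContinuousLinearMap.le_opNorm _ _)
  refine (Finset.sum_le_sum h).trans ?_
  rw [Finset.sum_const, Finset.card_univ, Fintype.card_fin, nsmul_eq_mul, psiLip, mul_assoc]

/-- Lemma C: `logMap` is Lipschitz in the log-coordinates. -/
lemma norm_logMap_sub_le {x y : mixedSpace K} (hx : mixedEmbedding.norm x ≠ 0)
    (hy : mixedEmbedding.norm y ≠ 0) {δ : ℝ}
    (h : ∀ w, |Real.log (normAtPlace w x) - Real.log (normAtPlace w y)| ≤ δ) :
    ‖logMap x - logMap y‖ ≤ 4 * δ ∧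
      |Real.log (mixedEmbedding.norm x) - Real.log (mixedEmbedding.norm y)| ≤
        (finrank ℚ K : ℝ) * δ := by
  have hδ : 0 ≤ δ := (abs_nonneg _).trans (h w₀)
  have hn : (0 : ℝ) < finrank ℚ K := Nat.cast_pos.mpr finrank_pos
  have ht : |Real.log (mixedEmbedding.norm x) - Real.log (mixedEmbedding.norm y)| ≤
      (finrank ℚ K : ℝ) * δ := by
    rw [log_norm_eq_sum K hx, log_norm_eq_sum K hy, ← Finset.sum_sub_distrib]
    refine (Finset.abs_sum_le_sum_abs _ _).trans ?_
    have : ∀ w ∈ (Finset.univ : Finset (InfinitePlace K)),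
        |(mult w : ℝ) * Real.log (normAtPlace w x) - (mult w : ℝ) * Real.log (normAtPlace w y)| ≤
          (mult w : ℝ) * δ := by
      intro w _
      rw [← mul_sub, abs_mul, abs_of_pos (by exact_mod_cast mult_pos : (0 : ℝ) < mult w)]
      exact mul_le_mul_of_nonneg_left (h w) (Nat.cast_nonneg _)
    refine (Finset.sum_le_sum this).trans ?_
    rw [← Finset.sum_mul, ← Nat.cast_sum, sum_mult_eq]
  refine ⟨?_, ht⟩
  rw [pi_norm_le_iff_of_nonneg (by positivity)]
  intro w
  rw [Pi.sub_apply, logMap_apply, logMap_apply, Real.norm_eq_abs, ← mul_sub, abs_mul,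
    abs_of_pos (by exact_mod_cast mult_pos : (0 : ℝ) < mult w.1)]
  have h1 : |Real.log (normAtPlace w.1 x) - Real.log (mixedEmbedding.norm x) * (finrank ℚ K : ℝ)⁻¹ -
      (Real.log (normAtPlace w.1 y) - Real.log (mixedEmbedding.norm y) * (finrank ℚ K : ℝ)⁻¹)| ≤
      2 * δ := by
    have e : Real.log (normAtPlace w.1 x) - Real.log (mixedEmbedding.norm x) * (finrank ℚ K : ℝ)⁻¹ -
      (Real.log (normAtPlace w.1 y) - Real.log (mixedEmbedding.norm y) * (finrank ℚ K : ℝ)⁻¹) =
      (Real.log (normAtPlace w.1 x) - Real.log (normAtPlace w.1 y)) -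
      (Real.log (mixedEmbedding.norm x) - Real.log (mixedEmbedding.norm y)) * (finrank ℚ K : ℝ)⁻¹ := by
      ring
    rw [e]
    refine (abs_sub _ _).trans ?_
    have h2 : |(Real.log (mixedEmbedding.norm x) - Real.log (mixedEmbedding.norm y)) *
        (finrank ℚ K : ℝ)⁻¹| ≤ δ := by
      rw [abs_mul, abs_of_pos (inv_pos.mpr hn), ← div_eq_mul_inv, div_le_iff₀ hn, mul_comm]
      exact ht
    linarith [h w.1]
  calc (mult w.1 : ℝ) * _ ≤ 2 * (2 * δ) :=
        mul_le_mul (mult_le_two K w.1) h1 (abs_nonneg _) (by norm_num)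
    _ = 4 * δ := by ring

/-! ### The cutoff and the scalar profile -/

/-- Lipschitz cutoff in the variable `t = log N`: `0` for `t ≤ -1`, `1` for `t ≥ 0`. -/
def cut (t : ℝ) : ℝ := max 0 (min 1 (1 + t))

lemma cut_nonneg (t : ℝ) : 0 ≤ cut t := le_max_left _ _

lemma cut_le_one (t : ℝ) : cut t ≤ 1 := max_le zero_le_one (min_le_left _ _)

lemma cut_of_nonneg {t : ℝ} (ht : 0 ≤ t) : cut t = 1 := by
  unfold cut
  rw [min_eq_left (by linarith), max_eq_right zero_le_one]

lemma cut_of_le {t : ℝ} (ht : t ≤ -1) : cut t = 0 := by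
  unfold cut
  exact max_eq_left ((min_le_right _ _).trans (by linarith))

lemma abs_cut_sub_le (t t' : ℝ) : |cut t - cut t'| ≤ |t - t'| := by
  unfold cut
  refine (abs_max_sub_max_le_max _ _ _ _).trans (max_le (by simp) ?_)
  refine (abs_min_sub_min_le_max _ _ _ _).trans (max_le (by simp) ?_)
  simp

lemma abs_exp_neg_sub_le (a b : ℝ) :
    |Real.exp (-a) - Real.exp (-b)| ≤ |a - b| * Real.exp (-(min a b)) := by
  wlog hab : a ≤ b generalizing a b
  · have := this b a (le_of_not_ge hab)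
    rwa [abs_sub_comm, abs_sub_comm b a, min_comm] at this
  rw [min_eq_left hab]
  have h1 : Real.exp (-b) ≤ Real.exp (-a) := Real.exp_le_exp.mpr (by linarith)
  rw [abs_of_nonneg (by linarith), abs_of_nonpos (by linarith)]
  have h2 : Real.exp (-b) = Real.exp (-a) * Real.exp (-(b - a)) := by
    rw [← Real.exp_add]; congr 1; ring
  have h3 : 1 - (b - a) ≤ Real.exp (-(b - a)) := by
    have := Real.add_one_le_exp (-(b - a)); linarith
  rw [h2]
  have : 0 < Real.exp (-a) := Real.exp_pos _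
  nlinarith

/-- The scalar profile `H s t = cut t * exp (-s t)`. -/
def prof (s t : ℝ) : ℝ := cut t * Real.exp (-(s * t))

lemma prof_nonneg (s t : ℝ) : 0 ≤ prof s t := mul_nonneg (cut_nonneg t) (Real.exp_pos _).le

lemma prof_le (s t : ℝ) : prof s t ≤ Real.exp (-(s * t)) :=
  mul_le_of_le_one_left (Real.exp_pos _).le (cut_le_one t)

lemma abs_prof_sub_le {s : ℝ} (hs : 0 ≤ s) (t t' : ℝ) :
    |prof s t - prof s t'| ≤ (1 + s) * |t - t'| * Real.exp (-(s * min t t')) := by
  unfold prof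
  have e : cut t * Real.exp (-(s * t)) - cut t' * Real.exp (-(s * t')) =
      (cut t - cut t') * Real.exp (-(s * t)) +
        cut t' * (Real.exp (-(s * t)) - Real.exp (-(s * t'))) := by ring
  rw [e]
  refine (abs_add_le _ _).trans ?_
  have hmin : s * min t t' = min (s * t) (s * t') := by
    rcases le_total t t' with h | h
    · rw [min_eq_left h, min_eq_left (mul_le_mul_of_nonneg_left h hs)]
    · rw [min_eq_right h, min_eq_right (mul_le_mul_of_nonneg_left h hs)]
  have h1 : |(cut t - cut t') * Real.exp (-(s * t))| ≤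
      |t - t'| * Real.exp (-(s * min t t')) := by
    rw [abs_mul, abs_of_pos (Real.exp_pos _)]
    refine mul_le_mul (abs_cut_sub_le t t') ?_ (Real.exp_pos _).le (abs_nonneg _)
    rw [Real.exp_le_exp, hmin]
    linarith [min_le_left (s * t) (s * t')]
  have h2 : |cut t' * (Real.exp (-(s * t)) - Real.exp (-(s * t')))| ≤
      s * |t - t'| * Real.exp (-(s * min t t')) := by
    rw [abs_mul, abs_of_nonneg (cut_nonneg t')]
    refine (mul_le_of_le_one_left (abs_nonneg _) (cut_le_one t')).trans ?_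
    refine (abs_exp_neg_sub_le _ _).trans ?_
    rw [← hmin, ← mul_sub, abs_mul, abs_of_nonneg hs]
  calc _ ≤ |t - t'| * Real.exp (-(s * min t t')) + s * |t - t'| * Real.exp (-(s * min t t')) :=
        add_le_add h1 h2
    _ = (1 + s) * |t - t'| * Real.exp (-(s * min t t')) := by ring

/-! ### The weight `W` -/

/-- The weight `W s x = Ψ x * cut (log N x) * (N x) ^ (-s)`. -/
def W (s : ℝ) (x : mixedSpace K) : ℝ :=
  Psi K x * cut (Real.log (mixedEmbedding.norm x)) * (mixedEmbedding.norm x) ^ (-s)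

lemma W_nonneg (s : ℝ) (x : mixedSpace K) : 0 ≤ W K s x :=
  mul_nonneg (mul_nonneg (Psi_nonneg K x) (cut_nonneg _))
    (Real.rpow_nonneg (mixedEmbedding.norm_nonneg x) _)

lemma W_eq_of_one_le (s : ℝ) {x : mixedSpace K} (hx : 1 ≤ mixedEmbedding.norm x) :
    W K s x = Psi K x * (mixedEmbedding.norm x) ^ (-s) := by
  rw [W, cut_of_nonneg (Real.log_nonneg hx), mul_one]

lemma W_eq_prof {s : ℝ} {x : mixedSpace K} (hx : mixedEmbedding.norm x ≠ 0) :
    W K s x = Psi K x * prof s (Real.log (mixedEmbedding.norm x)) := by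
  have hpos : 0 < mixedEmbedding.norm x := lt_of_le_of_ne (mixedEmbedding.norm_nonneg x) (Ne.symm hx)
  rw [W, prof, Real.rpow_def_of_pos hpos, mul_assoc]
  congr 3
  ring

lemma W_eq_zero_of_norm_eq_zero {s : ℝ} (hs : s ≠ 0) {x : mixedSpace K}
    (hx : mixedEmbedding.norm x = 0) : W K s x = 0 := by
  rw [W, hx, Real.zero_rpow (neg_ne_zero.mpr hs), mul_zero]

/-! ### Geometry of the mixed space -/

lemma normAtPlace_le_norm (w : InfinitePlace K) (x : mixedSpace K) : normAtPlace w x ≤ ‖x‖ := by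
  rw [norm_eq_sup'_normAtPlace]
  exact Finset.le_sup' (fun w => normAtPlace w x) (Finset.mem_univ w)

lemma exists_normAtPlace_eq_norm (x : mixedSpace K) : ∃ w, normAtPlace w x = ‖x‖ := by
  rw [norm_eq_sup'_normAtPlace]
  obtain ⟨w, _, hw⟩ := Finset.exists_mem_eq_sup' Finset.univ_nonempty (fun w => normAtPlace w x)
  exact ⟨w, hw.symm⟩

lemma abs_normAtPlace_sub_le (w : InfinitePlace K) (x y : mixedSpace K) :
    |normAtPlace w x - normAtPlace w y| ≤ ‖x - y‖ := by
  have h1 := normAtPlace_add_le w (x - y) y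
  have h2 := normAtPlace_add_le w (y - x) x
  rw [sub_add_cancel] at h1 h2
  have h3 := normAtPlace_le_norm K w (x - y)
  have h4 := normAtPlace_le_norm K w (y - x)
  rw [norm_sub_rev] at h4
  rw [abs_le]
  constructor <;> linarith

omit [NumberField K] in
lemma abs_log_sub_log_le {u v : ℝ} (hu : 0 < u) (hv : 0 < v) :
    |Real.log u - Real.log v| ≤ |u - v| / min u v := by
  wlog huv : v ≤ u generalizing u v
  · have := this hv hu (le_of_not_ge huv)
    rwa [abs_sub_comm, abs_sub_comm v u, min_comm] at this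
  rw [min_eq_right huv, ← Real.log_div hu.ne' hv.ne',
    abs_of_nonneg (Real.log_nonneg ((one_le_div hv).mpr huv)), abs_of_nonneg (by linarith)]
  have := Real.log_le_sub_one_of_pos (div_pos hu hv)
  have e : u / v - 1 = (u - v) / v := by field_simp
  linarith [e ▸ this]

/-- `W ≤ exp s`. -/
lemma W_le_exp {s : ℝ} (hs : 0 ≤ s) (x : mixedSpace K) : W K s x ≤ Real.exp s := by
  by_cases hx : mixedEmbedding.norm x = 0
  · by_cases hs0 : s = 0
    · subst hs0
      rw [W, hx]
      simp only [neg_zero, Real.rpow_zero, mul_one, Real.exp_zero]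
      exact (mul_le_mul (Psi_le_one K x) (cut_le_one _) (cut_nonneg _) zero_le_one).trans (by simp)
    · rw [W_eq_zero_of_norm_eq_zero K hs0 hx]; exact (Real.exp_pos _).le
  · rw [W_eq_prof K hx]
    set T := Real.log (mixedEmbedding.norm x)
    by_cases hT : T ≤ -1
    · rw [prof, cut_of_le hT, zero_mul, mul_zero]; exact (Real.exp_pos _).le
    · push Not at hT
      calc Psi K x * prof s T ≤ 1 * Real.exp (-(s * T)) :=
            mul_le_mul (Psi_le_one K x) (prof_le s T) (prof_nonneg s T) zero_le_one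
        _ = Real.exp (-(s * T)) := one_mul _
        _ ≤ Real.exp s := by
            rw [Real.exp_le_exp]
            nlinarith

/-- Core estimate: both norms nonzero and the log-coordinates are `δ`-close. -/
lemma abs_W_sub_le_of_log_close {x y : mixedSpace K} (hx : mixedEmbedding.norm x ≠ 0)
    (hy : mixedEmbedding.norm y ≠ 0) {δ : ℝ} (hδ1 : δ ≤ 1)
    (h : ∀ w, |Real.log (normAtPlace w x) - Real.log (normAtPlace w y)| ≤ δ)
    {s : ℝ} (hs : s ∈ Set.Icc (1 : ℝ) 2) :
    |W K s x - W K s y| ≤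
      (4 * psiLip K + 3 * (finrank ℚ K : ℝ) * Real.exp (2 * (finrank ℚ K : ℝ))) * δ *
        Real.exp (-(s * Real.log (mixedEmbedding.norm x))) := by
  obtain ⟨hs1, hs2⟩ := hs
  have hδ0 : 0 ≤ δ := (abs_nonneg _).trans (h w₀)
  have hn : (0 : ℝ) < finrank ℚ K := Nat.cast_pos.mpr finrank_pos
  obtain ⟨hlm, hT⟩ := norm_logMap_sub_le K hx hy h
  set T := Real.log (mixedEmbedding.norm x) with hTdef
  set T' := Real.log (mixedEmbedding.norm y) with hT'def
  rw [W_eq_prof K hx, W_eq_prof K hy]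
  have e : Psi K x * prof s T - Psi K y * prof s T' =
      (Psi K x - Psi K y) * prof s T + Psi K y * (prof s T - prof s T') := by ring
  rw [e]
  refine (abs_add_le _ _).trans ?_
  -- first term
  have hPsi : |Psi K x - Psi K y| ≤ psiLip K * (4 * δ) := by
    unfold Psi
    rw [← mul_sub, abs_mul, abs_of_nonneg (inv_nonneg.mpr (Nat.cast_nonneg _))]
    have h1 : (torsionOrder K : ℝ)⁻¹ ≤ 1 :=
      inv_le_one_of_one_le₀ (by exact_mod_cast (torsionOrder_pos K))
    calc (torsionOrder K : ℝ)⁻¹ * |psi K (logMap x) - psi K (logMap y)|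
        ≤ 1 * |psi K (logMap x) - psi K (logMap y)| :=
          mul_le_mul_of_nonneg_right h1 (abs_nonneg _)
      _ = |psi K (logMap x) - psi K (logMap y)| := one_mul _
      _ ≤ psiLip K * ‖logMap x - logMap y‖ := abs_psi_sub_le K _ _
      _ ≤ psiLip K * (4 * δ) := mul_le_mul_of_nonneg_left hlm (psiLip_nonneg K)
  have hE : 0 < Real.exp (-(s * T)) := Real.exp_pos _
  have h1 : |(Psi K x - Psi K y) * prof s T| ≤ psiLip K * (4 * δ) * Real.exp (-(s * T)) := by
    rw [abs_mul, abs_of_nonneg (prof_nonneg s T)]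
    exact mul_le_mul hPsi (prof_le s T) (prof_nonneg s T)
      (mul_nonneg (psiLip_nonneg K) (by positivity))
  -- second term
  have hmin : -(s * min T T') ≤ -(s * T) + 2 * (finrank ℚ K : ℝ) := by
    have h2 : T - (finrank ℚ K : ℝ) * δ ≤ min T T' := by
      rw [le_min_iff]
      constructor
      · nlinarith
      · have := (abs_le.mp hT).2
        linarith
    have h3 : s * (T - (finrank ℚ K : ℝ) * δ) ≤ s * min T T' :=
      mul_le_mul_of_nonneg_left h2 (by linarith)
    have h4 : s * ((finrank ℚ K : ℝ) * δ) ≤ 2 * (finrank ℚ K : ℝ) := by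
      have : (finrank ℚ K : ℝ) * δ ≤ (finrank ℚ K : ℝ) := by nlinarith
      nlinarith
    nlinarith
  have h2 : |Psi K y * (prof s T - prof s T')| ≤
      3 * (finrank ℚ K : ℝ) * Real.exp (2 * (finrank ℚ K : ℝ)) * δ * Real.exp (-(s * T)) := by
    rw [abs_mul, abs_of_nonneg (Psi_nonneg K y)]
    refine (mul_le_of_le_one_left (abs_nonneg _) (Psi_le_one K y)).trans ?_
    refine (abs_prof_sub_le (by linarith) T T').trans ?_
    have hexp : Real.exp (-(s * min T T')) ≤
        Real.exp (2 * (finrank ℚ K : ℝ)) * Real.exp (-(s * T)) := by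
      rw [← Real.exp_add, Real.exp_le_exp]
      linarith
    have hfac : (1 + s) * |T - T'| ≤ 3 * ((finrank ℚ K : ℝ) * δ) :=
      mul_le_mul (by linarith) hT (abs_nonneg _) (by norm_num)
    calc (1 + s) * |T - T'| * Real.exp (-(s * min T T'))
        ≤ 3 * ((finrank ℚ K : ℝ) * δ) *
            (Real.exp (2 * (finrank ℚ K : ℝ)) * Real.exp (-(s * T))) :=
          mul_le_mul hfac hexp (Real.exp_pos _).le (by positivity)
      _ = 3 * (finrank ℚ K : ℝ) * Real.exp (2 * (finrank ℚ K : ℝ)) * δ * Real.exp (-(s * T)) := by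
          ring
  calc _ ≤ psiLip K * (4 * δ) * Real.exp (-(s * T)) +
        3 * (finrank ℚ K : ℝ) * Real.exp (2 * (finrank ℚ K : ℝ)) * δ * Real.exp (-(s * T)) :=
        add_le_add h1 h2
    _ = _ := by ring

omit [NumberField K] in
lemma aux_sT {n s T L B : ℝ} (hn : 0 < n) (hs1 : 1 ≤ s) (hs2 : s ≤ 2) (hL : 0 ≤ L) (hB : 0 ≤ B)
    (hT : n * (L - B) ≤ T) : n * L - 2 * n * B ≤ s * T := by
  have hnB : 0 ≤ n * B := mul_nonneg hn.le hB
  have hnL : 0 ≤ n * L := mul_nonneg hn.le hL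
  by_cases hc : B ≤ L
  · have h0 : 0 ≤ n * (L - B) := mul_nonneg hn.le (by linarith)
    have hT0 : 0 ≤ T := h0.trans hT
    have h1 : T ≤ s * T := le_mul_of_one_le_left hT0 hs1
    have h2 : n * (L - B) = n * L - n * B := by ring
    linarith
  · push Not at hc
    have h0 : n * (L - B) ≤ 0 := mul_nonpos_of_nonneg_of_nonpos hn.le (by linarith)
    have h1 : s * (n * (L - B)) ≤ s * T := mul_le_mul_of_nonneg_left hT (by linarith)
    have h2 : 2 * (n * (L - B)) ≤ s * (n * (L - B)) :=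
      mul_le_mul_of_nonpos_right hs2 h0
    have h3 : 2 * (n * (L - B)) = 2 * (n * L) - 2 * n * B := by ring
    linarith

/-- One-sided Lipschitz-decay estimate (the point `x` is in the support of `W s`). -/
lemma abs_W_sub_le_of_ne_zero {d : ℝ} (hd : 0 ≤ d) :
    ∃ C : ℝ, 0 ≤ C ∧ ∀ s ∈ Set.Icc (1 : ℝ) 2, ∀ x y : mixedSpace K, ‖x - y‖ ≤ d →
      W K s x ≠ 0 → |W K s x - W K s y| ≤ C * ((1 + ‖x‖) ^ (finrank ℚ K + 1))⁻¹ := by
  set n := finrank ℚ K with hn
  have hnpos : (0 : ℝ) < n := Nat.cast_pos.mpr finrank_pos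
  set B := suppBound K with hB
  have hB0 : 0 ≤ B := suppBound_nonneg K
  set R₀ : ℝ := 2 * d * Real.exp (2 * B) + 1 with hR₀
  have hR₀1 : 1 ≤ R₀ := by
    have : 0 ≤ 2 * d * Real.exp (2 * B) := by positivity
    linarith
  set C₁ : ℝ := 2 * Real.exp 2 * (1 + R₀) ^ (n + 1) with hC₁
  set A : ℝ := 4 * psiLip K + 3 * (n : ℝ) * Real.exp (2 * (n : ℝ)) with hA
  have hA0 : 0 ≤ A := by
    have := psiLip_nonneg K
    positivity
  set C₂ : ℝ := A * (2 * d * Real.exp (2 * B)) * Real.exp (2 * n * B) * 2 ^ (n + 1) with hC₂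
  have hC₁0 : 0 ≤ C₁ := by positivity
  have hC₂0 : 0 ≤ C₂ := by positivity
  refine ⟨max C₁ C₂, le_max_of_le_left hC₁0, ?_⟩
  intro s hs x y hxy hWx
  obtain ⟨hs1, hs2⟩ := hs
  set ρ := ‖x‖ with hρ
  have hρ0 : 0 ≤ ρ := norm_nonneg _
  have hWy0 := W_nonneg K s y
  have hWx0 := W_nonneg K s x
  by_cases hsmall : ρ ≤ R₀
  · -- small points: trivial bound
    have h1 : |W K s x - W K s y| ≤ 2 * Real.exp 2 := by
      have hx2 : W K s x ≤ Real.exp 2 :=
        (W_le_exp K (by linarith) x).trans (Real.exp_le_exp.mpr hs2)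
      have hy2 : W K s y ≤ Real.exp 2 :=
        (W_le_exp K (by linarith) y).trans (Real.exp_le_exp.mpr hs2)
      rw [abs_le]; constructor <;> linarith
    have h2 : (1 + ρ) ^ (n + 1) ≤ (1 + R₀) ^ (n + 1) :=
      pow_le_pow_left₀ (by linarith) (by linarith) _
    have h3 : 0 < (1 + ρ) ^ (n + 1) := by positivity
    calc |W K s x - W K s y| ≤ 2 * Real.exp 2 := h1
      _ = 2 * Real.exp 2 * ((1 + ρ) ^ (n + 1) * ((1 + ρ) ^ (n + 1))⁻¹) := by
          rw [mul_inv_cancel₀ h3.ne', mul_one]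
      _ ≤ 2 * Real.exp 2 * ((1 + R₀) ^ (n + 1) * ((1 + ρ) ^ (n + 1))⁻¹) := by
          gcongr
      _ = C₁ * ((1 + ρ) ^ (n + 1))⁻¹ := by rw [hC₁]; ring
      _ ≤ max C₁ C₂ * ((1 + ρ) ^ (n + 1))⁻¹ :=
          mul_le_mul_of_nonneg_right (le_max_left _ _) (inv_nonneg.mpr h3.le)
  · -- large points
    push Not at hsmall
    have hρ1 : 1 ≤ ρ := hR₀1.trans hsmall.le
    have hρpos : 0 < ρ := by linarith
    have hNx : mixedEmbedding.norm x ≠ 0 := by
      intro h0
      exact hWx (W_eq_zero_of_norm_eq_zero K (by linarith) h0)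
    have hPx : Psi K x ≠ 0 := by
      intro h0
      apply hWx
      rw [W, h0, zero_mul, zero_mul]
    set T := Real.log (mixedEmbedding.norm x) with hT
    have hsupp := abs_log_normAtPlace_sub_le K hNx hPx
    have hpos : ∀ w, 0 < normAtPlace w x := fun w =>
      lt_of_le_of_ne (normAtPlace_nonneg w x) (Ne.symm (mixedEmbedding.norm_ne_zero_iff.mp hNx w))
    -- lower bound for T / n
    obtain ⟨w₁, hw₁⟩ := exists_normAtPlace_eq_norm K x
    have hTn : Real.log ρ - B ≤ T * (n : ℝ)⁻¹ := by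
      have := (abs_le.mp (hsupp w₁)).2
      rw [hw₁] at this
      linarith
    -- all coordinates are comparable to ρ
    have hcoord : ∀ w, ρ * Real.exp (-(2 * B)) ≤ normAtPlace w x := by
      intro w
      have h1 := (abs_le.mp (hsupp w)).1
      have h2 : Real.log ρ - 2 * B ≤ Real.log (normAtPlace w x) := by linarith
      calc ρ * Real.exp (-(2 * B)) = Real.exp (Real.log ρ - 2 * B) := by
            rw [sub_eq_add_neg, Real.exp_add, Real.exp_log hρpos]
        _ ≤ Real.exp (Real.log (normAtPlace w x)) := Real.exp_le_exp.mpr h2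
        _ = normAtPlace w x := Real.exp_log (hpos w)
    have hbig : 2 * d ≤ ρ * Real.exp (-(2 * B)) := by
      have h1 : 2 * d * Real.exp (2 * B) ≤ ρ := by linarith
      have h2 : 2 * d * Real.exp (2 * B) * Real.exp (-(2 * B)) ≤ ρ * Real.exp (-(2 * B)) :=
        mul_le_mul_of_nonneg_right h1 (Real.exp_pos _).le
      rwa [mul_assoc, ← Real.exp_add, add_neg_cancel, Real.exp_zero, mul_one] at h2
    have hm0 : 0 < ρ * Real.exp (-(2 * B)) := by positivity
    have hcoordy : ∀ w, ρ * Real.exp (-(2 * B)) / 2 ≤ normAtPlace w y := by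
      intro w
      have h1 := (abs_le.mp (abs_normAtPlace_sub_le K w x y)).2
      have := hcoord w
      linarith
    have hposy : ∀ w, 0 < normAtPlace w y := fun w => lt_of_lt_of_le (by positivity) (hcoordy w)
    have hNy : mixedEmbedding.norm y ≠ 0 :=
      mixedEmbedding.norm_ne_zero_iff.mpr fun w => (hposy w).ne'
    set δ : ℝ := 2 * d * Real.exp (2 * B) / ρ with hδ
    have hδ1 : δ ≤ 1 := by
      rw [hδ, div_le_one hρpos]; linarith
    have hlog : ∀ w, |Real.log (normAtPlace w x) - Real.log (normAtPlace w y)| ≤ δ := by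
      intro w
      refine (abs_log_sub_log_le (hpos w) (hposy w)).trans ?_
      have h1 : |normAtPlace w x - normAtPlace w y| ≤ d :=
        (abs_normAtPlace_sub_le K w x y).trans hxy
      have h2 : ρ * Real.exp (-(2 * B)) / 2 ≤ min (normAtPlace w x) (normAtPlace w y) := by
        rw [le_min_iff]
        exact ⟨by linarith [hcoord w], hcoordy w⟩
      calc |normAtPlace w x - normAtPlace w y| / min (normAtPlace w x) (normAtPlace w y)
          ≤ d / (ρ * Real.exp (-(2 * B)) / 2) :=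
            div_le_div₀ hd h1 (by positivity) h2
        _ = δ := by
            rw [hδ, Real.exp_neg]
            field_simp
    have hcore := abs_W_sub_le_of_log_close K hNx hNy hδ1 hlog ⟨hs1, hs2⟩
    -- bound on exp (-(s T))
    have hlogρ : 0 ≤ Real.log ρ := Real.log_nonneg hρ1
    have hsT : (n : ℝ) * Real.log ρ - 2 * n * B ≤ s * T := by
      have hT' : (n : ℝ) * (Real.log ρ - B) ≤ T := by
        have := mul_le_mul_of_nonneg_left hTn hnpos.le
        rwa [mul_comm T, ← mul_assoc, mul_inv_cancel₀ hnpos.ne', one_mul] at this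
      exact aux_sT hnpos hs1 hs2 hlogρ hB0 hT'
    have hexp : Real.exp (-(s * T)) ≤ Real.exp (2 * n * B) * (ρ ^ n)⁻¹ := by
      calc Real.exp (-(s * T)) ≤ Real.exp (2 * n * B - n * Real.log ρ) :=
            Real.exp_le_exp.mpr (by linarith)
        _ = Real.exp (2 * n * B) * (ρ ^ n)⁻¹ := by
            rw [sub_eq_add_neg, Real.exp_add, Real.exp_neg, Real.exp_nat_mul, Real.exp_log hρpos]
    have hδ0 : 0 ≤ δ := by positivity
    have h2ρ : (1 + ρ) ^ (n + 1) ≤ 2 ^ (n + 1) * ρ ^ (n + 1) := by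
      rw [← mul_pow]
      exact pow_le_pow_left₀ (by linarith) (by linarith) _
    have hρn : 0 < ρ ^ (n + 1) := by positivity
    have h1ρ : 0 < (1 + ρ) ^ (n + 1) := by positivity
    calc |W K s x - W K s y| ≤ A * δ * Real.exp (-(s * T)) := hcore
      _ ≤ A * δ * (Real.exp (2 * n * B) * (ρ ^ n)⁻¹) :=
          mul_le_mul_of_nonneg_left hexp (mul_nonneg hA0 hδ0)
      _ = A * (2 * d * Real.exp (2 * B)) * Real.exp (2 * n * B) * (ρ ^ (n + 1))⁻¹ := by
          rw [hδ, pow_succ]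
          field_simp
      _ ≤ A * (2 * d * Real.exp (2 * B)) * Real.exp (2 * n * B) *
            (2 ^ (n + 1) * ((1 + ρ) ^ (n + 1))⁻¹) := by
          refine mul_le_mul_of_nonneg_left ?_ (by positivity)
          rw [inv_le_iff_one_le_mul₀ hρn]
          calc (1 : ℝ) = (1 + ρ) ^ (n + 1) * ((1 + ρ) ^ (n + 1))⁻¹ := (mul_inv_cancel₀ h1ρ.ne').symm
            _ ≤ 2 ^ (n + 1) * ρ ^ (n + 1) * ((1 + ρ) ^ (n + 1))⁻¹ :=
                mul_le_mul_of_nonneg_right h2ρ (inv_nonneg.mpr h1ρ.le)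
            _ = 2 ^ (n + 1) * ((1 + ρ) ^ (n + 1))⁻¹ * ρ ^ (n + 1) := by ring
      _ = C₂ * ((1 + ρ) ^ (n + 1))⁻¹ := by rw [hC₂]; ring
      _ ≤ max C₁ C₂ * ((1 + ρ) ^ (n + 1))⁻¹ :=
          mul_le_mul_of_nonneg_right (le_max_right _ _) (inv_nonneg.mpr h1ρ.le)

/-! ### Final exports -/

/-- **(U2)/(W2)**: Lipschitz estimate with decay, uniform in `s ∈ [1,2]`. -/
theorem W_sub_le (d : ℝ) :
    ∃ C : ℝ, 0 ≤ C ∧ ∀ s ∈ Set.Icc (1 : ℝ) 2, ∀ x y : mixedSpace K, ‖x - y‖ ≤ d →
      |W K s x - W K s y| ≤ C * ((1 + ‖x‖) ^ (finrank ℚ K + 1))⁻¹ := by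
  set n := finrank ℚ K with hn
  obtain ⟨C, hC0, hC⟩ := abs_W_sub_le_of_ne_zero K (le_max_left 0 d)
  set D := max 0 d with hD
  have hD0 : 0 ≤ D := le_max_left _ _
  refine ⟨C * (1 + D) ^ (n + 1), by positivity, ?_⟩
  intro s hs x y hxy
  have hxy' : ‖x - y‖ ≤ D := hxy.trans (le_max_right _ _)
  have h1x : 0 < (1 + ‖x‖) ^ (n + 1) := by positivity
  have hone : (1 : ℝ) ≤ (1 + D) ^ (n + 1) := one_le_pow₀ (by linarith)
  by_cases hx : W K s x = 0
  · by_cases hy : W K s y = 0
    · rw [hx, hy, sub_self, abs_zero]; positivity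
    · have h := hC s hs y x (by rwa [norm_sub_rev]) hy
      rw [abs_sub_comm] at h
      refine h.trans ?_
      -- (1 + ‖x‖) ≤ (1 + D) (1 + ‖y‖)
      have hxle : 1 + ‖x‖ ≤ (1 + D) * (1 + ‖y‖) := by
        have : ‖x‖ ≤ ‖y‖ + ‖x - y‖ := by
          have := norm_add_le y (x - y)
          rwa [add_sub_cancel] at this
        nlinarith [norm_nonneg y]
      have h1y : 0 < (1 + ‖y‖) ^ (n + 1) := by positivity
      have hpow : (1 + ‖x‖) ^ (n + 1) ≤ (1 + D) ^ (n + 1) * (1 + ‖y‖) ^ (n + 1) := by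
        rw [← mul_pow]
        exact pow_le_pow_left₀ (by positivity) hxle _
      have hinv : ((1 + ‖y‖) ^ (n + 1))⁻¹ ≤ (1 + D) ^ (n + 1) * ((1 + ‖x‖) ^ (n + 1))⁻¹ := by
        rw [inv_le_iff_one_le_mul₀ h1y]
        calc (1 : ℝ) = (1 + ‖x‖) ^ (n + 1) * ((1 + ‖x‖) ^ (n + 1))⁻¹ :=
              (mul_inv_cancel₀ h1x.ne').symm
          _ ≤ (1 + D) ^ (n + 1) * (1 + ‖y‖) ^ (n + 1) * ((1 + ‖x‖) ^ (n + 1))⁻¹ :=
              mul_le_mul_of_nonneg_right hpow (inv_nonneg.mpr h1x.le)
          _ = (1 + D) ^ (n + 1) * ((1 + ‖x‖) ^ (n + 1))⁻¹ * (1 + ‖y‖) ^ (n + 1) := by ring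
      calc C * ((1 + ‖y‖) ^ (n + 1))⁻¹ ≤ C * ((1 + D) ^ (n + 1) * ((1 + ‖x‖) ^ (n + 1))⁻¹) :=
            mul_le_mul_of_nonneg_left hinv hC0
        _ = C * (1 + D) ^ (n + 1) * ((1 + ‖x‖) ^ (n + 1))⁻¹ := by ring
  · refine (hC s hs x y hxy' hx).trans ?_
    refine mul_le_mul_of_nonneg_right ?_ (inv_nonneg.mpr h1x.le)
    exact le_mul_of_one_le_right hC0 hone

/-- **(U3)**: `W s 0 = 0`. -/
theorem W_zero {s : ℝ} (hs : s ≠ 0) : W K s 0 = 0 :=
  W_eq_zero_of_norm_eq_zero K hs (map_zero _)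

/-- **(W3)**: decay of `W s`, uniform in `s ∈ [1,2]` (exponent `n + 1` is NOT claimed here:
this is the pointwise bound by `(1 + ‖x‖)^(-n)`). For `s > 1` use `W_le_rpow`. -/
theorem W_le_rpow : ∃ C : ℝ, 0 ≤ C ∧ ∀ s ∈ Set.Icc (1 : ℝ) 2, ∀ x : mixedSpace K,
    W K s x ≤ C * (1 + ‖x‖) ^ (-((finrank ℚ K : ℝ) * s)) := by
  set n := finrank ℚ K with hn
  have hnpos : (0 : ℝ) < n := Nat.cast_pos.mpr finrank_pos
  set B := suppBound K with hB
  have hB0 : 0 ≤ B := suppBound_nonneg K
  -- on the support: ‖x‖ ≤ exp B * N^(1/n), N ≥ exp (-1)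
  refine ⟨Real.exp (2 * n * (B + 1)) * 2 ^ (2 * (n : ℝ)), by positivity, ?_⟩
  intro s hs x
  obtain ⟨hs1, hs2⟩ := hs
  by_cases hWx : W K s x = 0
  · rw [hWx]; positivity
  have hNx : mixedEmbedding.norm x ≠ 0 := by
    intro h0
    exact hWx (W_eq_zero_of_norm_eq_zero K (by linarith) h0)
  have hPx : Psi K x ≠ 0 := by
    intro h0
    apply hWx
    rw [W, h0, zero_mul, zero_mul]
  set T := Real.log (mixedEmbedding.norm x) with hT
  have hcut : -1 < T := by
    by_contra h
    push Not at h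
    apply hWx
    rw [W, cut_of_le h, mul_zero, zero_mul]
  have hsupp := abs_log_normAtPlace_sub_le K hNx hPx
  obtain ⟨w₁, hw₁⟩ := exists_normAtPlace_eq_norm K x
  have hpos : ∀ w, 0 < normAtPlace w x := fun w =>
    lt_of_le_of_ne (normAtPlace_nonneg w x) (Ne.symm (mixedEmbedding.norm_ne_zero_iff.mp hNx w))
  set ρ := ‖x‖ with hρ
  have hρpos : 0 < ρ := by rw [← hw₁]; exact hpos w₁
  have hTn : Real.log ρ - B ≤ T * (n : ℝ)⁻¹ := by
    have := (abs_le.mp (hsupp w₁)).2
    rw [hw₁] at this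
    linarith
  -- log (1 + ρ) ≤ T / n + B + 1 + log 2 ... we use: 1 + ρ ≤ 2 * max 1 ρ
  have hWle : W K s x ≤ Real.exp (-(s * T)) := by
    rw [W_eq_prof K hNx]
    calc Psi K x * prof s T ≤ 1 * Real.exp (-(s * T)) :=
          mul_le_mul (Psi_le_one K x) (prof_le s T) (prof_nonneg s T) zero_le_one
      _ = _ := one_mul _
  refine hWle.trans ?_
  -- log(1+ρ) ≤ log 2 + max 0 (log ρ)
  have h1ρ : 0 < 1 + ρ := by linarith
  have hkey : (n : ℝ) * s * Real.log (1 + ρ) ≤ s * T + 2 * n * (B + 1) + 2 * n * Real.log 2 := by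
    have hlog2 : 0 ≤ Real.log 2 := Real.log_nonneg (by norm_num)
    have hT' : (n : ℝ) * (Real.log ρ - B) ≤ T := by
      have := mul_le_mul_of_nonneg_left hTn hnpos.le
      rwa [mul_comm T, ← mul_assoc, mul_inv_cancel₀ hnpos.ne', one_mul] at this
    have hns : 0 ≤ (n : ℝ) * s := by positivity
    by_cases hρ1 : 1 ≤ ρ
    · have h2 : Real.log (1 + ρ) ≤ Real.log 2 + Real.log ρ := by
        rw [← Real.log_mul (by norm_num) hρpos.ne']
        exact Real.log_le_log h1ρ (by linarith)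
      have h3 : (n : ℝ) * s * Real.log (1 + ρ) ≤ (n : ℝ) * s * (Real.log 2 + Real.log ρ) :=
        mul_le_mul_of_nonneg_left h2 hns
      have h4 : s * ((n : ℝ) * (Real.log ρ - B)) ≤ s * T :=
        mul_le_mul_of_nonneg_left hT' (by linarith)
      have h5 : (n : ℝ) * s * Real.log 2 ≤ 2 * n * Real.log 2 := by
        have : (n : ℝ) * s ≤ 2 * n := by nlinarith
        nlinarith
      have h6 : s * ((n : ℝ) * B) ≤ 2 * n * (B + 1) := by
        have : (n : ℝ) * B ≤ n * (B + 1) := by nlinarith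
        have h7 : 0 ≤ (n : ℝ) * (B + 1) := by positivity
        nlinarith
      nlinarith
    · push Not at hρ1
      have h2 : Real.log (1 + ρ) ≤ Real.log 2 :=
        Real.log_le_log h1ρ (by linarith)
      have h3 : (n : ℝ) * s * Real.log (1 + ρ) ≤ (n : ℝ) * s * Real.log 2 :=
        mul_le_mul_of_nonneg_left h2 hns
      have h5 : (n : ℝ) * s * Real.log 2 ≤ 2 * n * Real.log 2 := by
        have : (n : ℝ) * s ≤ 2 * n := by nlinarith
        nlinarith
      have h6 : -(2 : ℝ) ≤ s * T := by nlinarith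
      have h7 : (2 : ℝ) ≤ 2 * n * (B + 1) := by
        have : (1 : ℝ) ≤ n := by exact_mod_cast finrank_pos
        nlinarith
      linarith
  rw [Real.rpow_def_of_pos h1ρ, Real.rpow_def_of_pos (by norm_num : (0 : ℝ) < 2),
    ← Real.exp_add, ← Real.exp_add, Real.exp_le_exp]
  linarith

/-- **(U1)**: unfolding over the unit group. -/
theorem hasSum_W_unit_smul {s : ℝ} {x : mixedSpace K} (hx : 1 ≤ mixedEmbedding.norm x) :
    HasSum (fun u : (𝓞 K)ˣ => W K s (u • x)) ((mixedEmbedding.norm x) ^ (-s)) := by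
  have hx0 : mixedEmbedding.norm x ≠ 0 := by linarith
  have h := (hasSum_Psi_unit_smul K hx0).mul_right ((mixedEmbedding.norm x) ^ (-s))
  rw [one_mul] at h
  have e : (fun u : (𝓞 K)ˣ => W K s (u • x)) =
      fun u : (𝓞 K)ˣ => Psi K (u • x) * mixedEmbedding.norm x ^ (-s) := by
    funext u
    rw [W_eq_of_one_le K s (by rwa [norm_unit_smul]), norm_unit_smul]
  rw [e]
  exact h

/-- The mixed norm of a nonzero integer is the absolute norm of the principal ideal. -/
lemma norm_mixedEmbedding_eq_absNorm (α : 𝓞 K) :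
    mixedEmbedding.norm (mixedEmbedding K (α : K)) = (Ideal.absNorm (Ideal.span {α}) : ℝ) := by
  rw [norm_eq_norm, Ideal.absNorm_span_singleton, ← Algebra.coe_norm_int, Nat.cast_natAbs]
  push_cast
  rfl

/-- **(U1)** in the shape used for ideals: for a nonzero integer `α`, the sum of `W s` over the
unit multiples of `α` is `N((α)) ^ (-s)`. -/
theorem hasSum_W_units_mul {s : ℝ} (α : 𝓞 K) (hα : α ≠ 0) :
    HasSum (fun u : (𝓞 K)ˣ => W K s (mixedEmbedding K (((u : 𝓞 K) * α : 𝓞 K) : K)))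
      ((Ideal.absNorm (Ideal.span {α}) : ℝ) ^ (-s)) := by
  have hnorm := norm_mixedEmbedding_eq_absNorm K α
  have h1 : 1 ≤ mixedEmbedding.norm (mixedEmbedding K (α : K)) := by
    rw [hnorm]
    have : Ideal.absNorm (Ideal.span {α}) ≠ 0 := by
      rw [ne_eq, Ideal.absNorm_eq_zero_iff, Ideal.span_singleton_eq_bot]; exact hα
    exact_mod_cast Nat.one_le_iff_ne_zero.mpr this
  have h := hasSum_W_unit_smul K (s := s) h1
  rw [hnorm] at h
  have e : (fun u : (𝓞 K)ˣ => W K s (mixedEmbedding K (((u : 𝓞 K) * α : 𝓞 K) : K))) =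
      fun u : (𝓞 K)ˣ => W K s (u • mixedEmbedding K (α : K)) := by
    funext u
    rw [unitSMul_smul, ← map_mul]
    rfl
  rw [e]
  exact h

end Fermat.Agent.CFT.UnitWeight
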