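import Mathlib

/-!
# Summability of `N(𝔞)^(-s)` over the ideals of a number field, `s > 1`
-/

namespace Fermat.Agent.CFT.IdealZetaSum

open NumberField Ideal Filter Topology Finset Asymptotics

variable (K : Type*) [Field K] [NumberField K]

/-- Mathlib's partial sum asymptotics, in `LSeries` coefficient form. -/
theorem tendsto_sum_card_div :
    Tendsto (fun n : ℕ ↦
      (∑ k ∈ Icc 1 n, (Nat.card {I : Ideal (𝓞 K) // absNorm I = k} : ℝ)) / (n : ℝ)) atTop
      (𝓝 (dedekindZeta_residue K)) := by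
  refine ((NumberField.Ideal.tendsto_norm_le_div_atTop₀ K).comp
    tendsto_natCast_atTop_atTop).congr fun n ↦ ?_
  simp only [Function.comp_apply, Nat.cast_le, ← Nat.cast_sum]
  congr
  rw [← add_left_inj 1, ← card_norm_le_eq_card_norm_le_add_one,
    show Finset.Icc 1 n = Finset.Ioc 0 n from Finset.Icc_succ_left_eq_Ioc _ _,
    show 1 = Nat.card {I : Ideal (𝓞 K) // absNorm I = 0} by simp [Ideal.absNorm_eq_zero_iff],
    Finset.sum_Ioc_add_eq_sum_Icc (n.zero_le),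
    ← Finset.card_preimage_eq_sum_card_image_eq (fun k _ ↦ finite_setOfPred_absNorm_eq k)]
  simp [Set.coe_eq_subtype]

theorem lseriesSummable_card {s : ℝ} (hs : 1 < s) :
    LSeriesSummable (fun n ↦ ((Nat.card {I : Ideal (𝓞 K) // absNorm I = n} : ℝ) : ℂ)) s := by
  refine LSeriesSummable_of_sum_norm_bigO_and_nonneg
    (f := fun n ↦ (Nat.card {I : Ideal (𝓞 K) // absNorm I = n} : ℝ)) (r := 1) ?_
    (fun _ ↦ Nat.cast_nonneg _) zero_le_one (by simpa using hs)
  exact isBigO_atTop_natCast_rpow_of_tendsto_div_rpow (by simpa using tendsto_sum_card_div K)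

theorem norm_term_card {s : ℝ} (hs : s ≠ 0) (n : ℕ) :
    ‖LSeries.term (fun n ↦ ((Nat.card {I : Ideal (𝓞 K) // absNorm I = n} : ℝ) : ℂ)) s n‖ =
      (Nat.card {I : Ideal (𝓞 K) // absNorm I = n} : ℝ) * (n : ℝ) ^ (-s) := by
  rcases Nat.eq_zero_or_pos n with rfl | hn
  · simp [LSeries.term_zero, Real.zero_rpow (neg_ne_zero.mpr hs)]
  · rw [LSeries.term_of_ne_zero hn.ne', norm_div, Complex.norm_natCast_cpow_of_pos hn,
      Complex.ofReal_re, Complex.norm_real, Real.norm_of_nonneg (Nat.cast_nonneg _),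
      Real.rpow_neg (Nat.cast_nonneg _), div_eq_mul_inv]

theorem summable_card_mul_rpow {s : ℝ} (hs : 1 < s) :
    Summable (fun n : ℕ ↦
      (Nat.card {I : Ideal (𝓞 K) // absNorm I = n} : ℝ) * (n : ℝ) ^ (-s)) :=
  (lseriesSummable_card K hs).norm.congr fun n ↦ norm_term_card K (by linarith) n

/-- `∑ N(𝔞)^(-s)` over all ideals converges for `s > 1` (the zero ideal contributes `0`). -/
theorem summable_absNorm_rpow {s : ℝ} (hs : 1 < s) :
    Summable (fun a : Ideal (𝓞 K) ↦ (absNorm a : ℝ) ^ (-s)) := by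
  rw [← (Equiv.sigmaFiberEquiv (fun a : Ideal (𝓞 K) ↦ absNorm a)).summable_iff]
  refine (summable_sigma_of_nonneg
    (fun _ ↦ Real.rpow_nonneg (Nat.cast_nonneg _) _)).mpr ⟨fun n ↦ ?_, ?_⟩
  · have : Finite {I : Ideal (𝓞 K) // absNorm I = n} := finite_setOfPred_absNorm_eq n
    exact Summable.of_finite
  · refine (summable_card_mul_rpow K hs).congr fun n ↦ ?_
    have : ∀ y : {I : Ideal (𝓞 K) // absNorm I = n},
        (absNorm ((Equiv.sigmaFiberEquiv (fun a : Ideal (𝓞 K) ↦ absNorm a)) ⟨n, y⟩) : ℝ) ^ (-s)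
          = (n : ℝ) ^ (-s) := by
      rintro ⟨I, hI⟩
      simp [Equiv.sigmaFiberEquiv, hI]
    rw [tsum_congr this, tsum_const, nsmul_eq_mul]

/-- The sum over all ideals as a sum over `n`. -/
theorem tsum_absNorm_rpow_eq {s : ℝ} (hs : 1 < s) :
    ∑' a : Ideal (𝓞 K), (absNorm a : ℝ) ^ (-s) =
      ∑' n : ℕ, (Nat.card {I : Ideal (𝓞 K) // absNorm I = n} : ℝ) * (n : ℝ) ^ (-s) := by
  have hsum := summable_absNorm_rpow K hs
  have h2 := (Equiv.sigmaFiberEquiv (fun a : Ideal (𝓞 K) ↦ absNorm a)).summable_iff.mpr hsum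
  refine ((Equiv.sigmaFiberEquiv (fun a : Ideal (𝓞 K) ↦ absNorm a)).tsum_eq _).symm.trans
    (h2.tsum_sigma.trans ?_)
  refine tsum_congr fun n ↦ ?_
  have : ∀ y : {I : Ideal (𝓞 K) // absNorm I = n},
      ((fun a : Ideal (𝓞 K) ↦ (absNorm a : ℝ) ^ (-s)) ∘
        (Equiv.sigmaFiberEquiv (fun a : Ideal (𝓞 K) ↦ absNorm a))) ⟨n, y⟩ = (n : ℝ) ^ (-s) := by
    rintro ⟨I, hI⟩
    simp [Equiv.sigmaFiberEquiv, hI]
  rw [tsum_congr this, tsum_const, nsmul_eq_mul]

/-- `LSeries.term` of the counting coefficients at a real `s ≠ 0`. -/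
theorem term_card_eq {s : ℝ} (hs : s ≠ 0) (n : ℕ) :
    LSeries.term (fun n ↦ (Nat.card {I : Ideal (𝓞 K) // absNorm I = n} : ℂ)) s n =
      (((Nat.card {I : Ideal (𝓞 K) // absNorm I = n} : ℝ) * (n : ℝ) ^ (-s) : ℝ) : ℂ) := by
  rcases Nat.eq_zero_or_pos n with rfl | hn
  · simp [LSeries.term_zero, Real.zero_rpow (neg_ne_zero.mpr hs)]
  · rw [LSeries.term_of_ne_zero hn.ne', Complex.ofReal_mul, Real.rpow_neg (Nat.cast_nonneg _),
      Complex.ofReal_inv, Complex.ofReal_cpow (Nat.cast_nonneg _), div_eq_mul_inv]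
    simp

/-- Mathlib's Dedekind zeta function at a real `s > 1` is the sum of `N(𝔞)^(-s)` over all
ideals. -/
theorem dedekindZeta_eq_tsum {s : ℝ} (hs : 1 < s) :
    dedekindZeta K s = ((∑' a : Ideal (𝓞 K), (absNorm a : ℝ) ^ (-s) : ℝ) : ℂ) := by
  rw [tsum_absNorm_rpow_eq K hs, Complex.ofReal_tsum, dedekindZeta, LSeries]
  exact tsum_congr fun n ↦ term_card_eq K (by linarith) n

end Fermat.Agent.CFT.IdealZetaSum
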