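import Fermat.Agent.CFT.C1ClassDefs
import Fermat.Agent.CFT.IdealZetaSum

/-!
# Bounds for `zetaR` and `classL` (input (I3) of the analytic first inequality)
-/

namespace Fermat.Agent.CFT.ZetaRBounds

open NumberField Ideal Filter Topology nonZeroDivisors
open Fermat.Agent.CFT.C1ClassDefs Fermat.Agent.CFT.IdealZetaSum

variable (K : Type*) [Field K] [NumberField K]

theorem summable_zetaR {s : ℝ} (hs : 1 < s) :
    Summable (fun a : (Ideal (𝓞 K))⁰ ↦ (absNorm (a : Ideal (𝓞 K)) : ℝ) ^ (-s)) :=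
  (summable_absNorm_rpow K hs).subtype _

theorem zetaR_eq_tsum {s : ℝ} (hs : 1 < s) :
    zetaR K s = ∑' a : Ideal (𝓞 K), (absNorm a : ℝ) ^ (-s) := by
  have hsupp : Function.support (fun a : Ideal (𝓞 K) ↦ (absNorm a : ℝ) ^ (-s)) ⊆
      ((Ideal (𝓞 K))⁰ : Set (Ideal (𝓞 K))) := by
    intro a ha
    rw [SetLike.mem_coe, mem_nonZeroDivisors_iff_ne_zero]
    rintro rfl
    apply ha
    simp [Real.zero_rpow (neg_ne_zero.mpr (by linarith : s ≠ 0))]
  exact tsum_subtype_eq_of_support_subset hsupp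

theorem zetaR_eq_dedekindZeta {s : ℝ} (hs : 1 < s) :
    ((zetaR K s : ℝ) : ℂ) = dedekindZeta K s := by
  rw [dedekindZeta_eq_tsum K hs, zetaR_eq_tsum K hs]

theorem one_le_absNorm (a : (Ideal (𝓞 K))⁰) : (1 : ℝ) ≤ (absNorm (a : Ideal (𝓞 K)) : ℝ) := by
  have : absNorm (a : Ideal (𝓞 K)) ≠ 0 :=
    absNorm_ne_zero_of_nonZeroDivisors a
  exact_mod_cast Nat.one_le_iff_ne_zero.mpr this

theorem zetaR_nonneg (s : ℝ) : 0 ≤ zetaR K s :=
  tsum_nonneg fun _ ↦ Real.rpow_nonneg (Nat.cast_nonneg _) _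

theorem one_le_zetaR {s : ℝ} (hs : 1 < s) : 1 ≤ zetaR K s := by
  have h := (summable_zetaR K hs).le_tsum (1 : (Ideal (𝓞 K))⁰)
    (fun _ _ ↦ Real.rpow_nonneg (Nat.cast_nonneg _) _)
  simpa [zetaR, Ideal.one_eq_top] using h

theorem zetaR_anti {s t : ℝ} (ht : 1 < t) (hts : t ≤ s) : zetaR K s ≤ zetaR K t := by
  refine (summable_zetaR K (ht.trans_le hts)).tsum_le_tsum (fun a ↦ ?_) (summable_zetaR K ht)
  exact Real.rpow_le_rpow_of_exponent_le (one_le_absNorm K a) (by linarith)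

theorem tendsto_sub_one_mul_zetaR :
    Tendsto (fun s : ℝ ↦ (s - 1) * zetaR K s) (𝓝[>] 1) (𝓝 (dedekindZeta_residue K)) := by
  have h := (Complex.continuous_re.tendsto _).comp (tendsto_sub_one_mul_dedekindZeta_nhdsGT K)
  rw [Complex.ofReal_re] at h
  refine h.congr' ?_
  filter_upwards [self_mem_nhdsWithin] with s hs
  rw [Function.comp_apply, ← zetaR_eq_dedekindZeta K hs]
  simp

/-- Upper bound `ζ_K(s) ≤ C / (s - 1)` on `(1, 2]`. -/
theorem exists_zetaR_le : ∃ C : ℝ, 0 < C ∧ ∀ s ∈ Set.Ioc (1 : ℝ) 2, zetaR K s ≤ C / (s - 1) := by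
  have hρ := dedekindZeta_residue_pos K
  have hev : ∀ᶠ s in 𝓝[>] (1 : ℝ), (s - 1) * zetaR K s < 2 * dedekindZeta_residue K :=
    (tendsto_sub_one_mul_zetaR K).eventually (gt_mem_nhds (by linarith))
  rw [eventually_nhdsWithin_iff, Metric.eventually_nhds_iff] at hev
  obtain ⟨δ, hδ, hball⟩ := hev
  set t : ℝ := 1 + min δ 1 / 2 with ht
  have hmin : 0 < min δ 1 := lt_min hδ one_pos
  have ht1 : 1 < t := by rw [ht]; linarith
  refine ⟨max (2 * dedekindZeta_residue K) (zetaR K t), lt_max_of_lt_left (by linarith), ?_⟩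
  rintro s ⟨hs1, hs2⟩
  have hs0 : 0 < s - 1 := by linarith
  rw [le_div_iff₀ hs0]
  by_cases hst : s < t
  · have hd : dist s 1 < δ := by
      rw [Real.dist_eq, abs_of_pos hs0]
      have : min δ 1 ≤ δ := min_le_left _ _
      rw [ht] at hst
      linarith
    have := hball hd hs1
    rw [mul_comm]
    exact this.le.trans (le_max_left _ _)
  · rw [not_lt] at hst
    calc zetaR K s * (s - 1) ≤ zetaR K t * 1 := by
          refine mul_le_mul (zetaR_anti K ht1 hst) (by linarith) hs0.le (zetaR_nonneg K t)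
      _ = zetaR K t := mul_one _
      _ ≤ _ := le_max_right _ _

/-- Lower bound `c / (s - 1) ≤ ζ_K(s)` on `(1, 2]`. -/
theorem exists_le_zetaR : ∃ c : ℝ, 0 < c ∧ ∀ s ∈ Set.Ioc (1 : ℝ) 2, c / (s - 1) ≤ zetaR K s := by
  have hρ := dedekindZeta_residue_pos K
  have hev : ∀ᶠ s in 𝓝[>] (1 : ℝ), dedekindZeta_residue K / 2 < (s - 1) * zetaR K s :=
    (tendsto_sub_one_mul_zetaR K).eventually (lt_mem_nhds (by linarith))
  rw [eventually_nhdsWithin_iff, Metric.eventually_nhds_iff] at hev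
  obtain ⟨δ, hδ, hball⟩ := hev
  refine ⟨min (dedekindZeta_residue K / 2) δ, lt_min (by linarith) hδ, ?_⟩
  rintro s ⟨hs1, hs2⟩
  have hs0 : 0 < s - 1 := by linarith
  rw [div_le_iff₀ hs0]
  by_cases hst : s - 1 < δ
  · have hd : dist s 1 < δ := by rwa [Real.dist_eq, abs_of_pos hs0]
    have := hball hd hs1
    rw [mul_comm] at this
    exact (min_le_left _ _).trans this.le
  · rw [not_lt] at hst
    calc min (dedekindZeta_residue K / 2) δ ≤ δ := min_le_right _ _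
      _ ≤ s - 1 := hst
      _ = 1 * (s - 1) := (one_mul _).symm
      _ ≤ zetaR K s * (s - 1) := by
          exact mul_le_mul_of_nonneg_right (one_le_zetaR K hs1) hs0.le

variable {K}
variable {G : Type*} [CommGroup G]

theorem norm_unit_apply [Finite G] (χ : G →* ℂˣ) (g : G) : ‖((χ g : ℂˣ) : ℂ)‖ = 1 := by
  have hfin : IsOfFinOrder g := isOfFinOrder_of_finite g
  have h1 : ((χ g : ℂˣ) : ℂ) ^ orderOf g = 1 := by
    rw [← Units.val_pow_eq_pow_val, ← map_pow, pow_orderOf_eq_one, map_one, Units.val_one]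
  exact Complex.norm_eq_one_of_pow_eq_one h1 (orderOf_pos g).ne'

theorem norm_classL_term [Finite G] (φ : (Ideal (𝓞 K))⁰ →* G) (χ : G →* ℂˣ) (s : ℝ)
    (a : (Ideal (𝓞 K))⁰) :
    ‖((χ (φ a) : ℂˣ) : ℂ) * (((absNorm (a : Ideal (𝓞 K)) : ℝ) ^ (-s) : ℝ) : ℂ)‖ =
      (absNorm (a : Ideal (𝓞 K)) : ℝ) ^ (-s) := by
  rw [norm_mul, norm_unit_apply, one_mul, Complex.norm_real,
    Real.norm_of_nonneg (Real.rpow_nonneg (Nat.cast_nonneg _) _)]

theorem summable_classL [Finite G] (φ : (Ideal (𝓞 K))⁰ →* G) (χ : G →* ℂˣ) {s : ℝ}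
    (hs : 1 < s) :
    Summable (fun a : (Ideal (𝓞 K))⁰ ↦
      ((χ (φ a) : ℂˣ) : ℂ) * (((absNorm (a : Ideal (𝓞 K)) : ℝ) ^ (-s) : ℝ) : ℂ)) := by
  refine Summable.of_norm ?_
  simp_rw [norm_classL_term]
  exact summable_zetaR K hs

/-- `‖L(s, χ)‖ ≤ ζ_K(s)`. -/
theorem norm_classL_le [Finite G] (φ : (Ideal (𝓞 K))⁰ →* G) (χ : G →* ℂˣ) {s : ℝ}
    (hs : 1 < s) : ‖classL K φ χ s‖ ≤ zetaR K s := by
  have h : Summable (fun a : (Ideal (𝓞 K))⁰ ↦
      ‖((χ (φ a) : ℂˣ) : ℂ) * (((absNorm (a : Ideal (𝓞 K)) : ℝ) ^ (-s) : ℝ) : ℂ)‖) := by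
    simp_rw [norm_classL_term]
    exact summable_zetaR K hs
  refine (norm_tsum_le_tsum_norm h).trans (le_of_eq ?_)
  simp_rw [norm_classL_term]
  rfl

end Fermat.Agent.CFT.ZetaRBounds
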