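/-
Program E (S14), E-C1 analytic part, helper7.

`ClassZeta`: the partial zeta functions of two ideal classes of a number field differ by a bounded
amount on `(1, 2]`; hence `L(s, χ)` is bounded on `(1, 2]` for every nontrivial character `χ` of
the class group (input (I2) of the analytic first inequality).

Method (helper24's smoothed unfolding): with a weight `W s` on the mixed space such that the sum
of `W s` over the unit multiples of `α` is `N(α)^(-s)`, the partial zeta function of the class `C`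
is `N(b)^s ∑_{α ∈ b} W s α` for an ideal `b` in `C⁻¹`; two cosets of a common sublattice have the
same `W`-sum up to `O(1)` by the Lipschitz-decay estimate for `W`.
-/
import Mathlib
import Fermat.Agent.CFT.C1ClassDefs
import Fermat.Agent.CFT.ZetaRBounds
import Fermat.Agent.CFT.UnitWeight

set_option autoImplicit false
set_option linter.unusedSectionVars false
set_option linter.style.haveILetI false

open NumberField NumberField.mixedEmbedding Module nonZeroDivisors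

namespace Fermat.Agent.CFT.ClassZeta


variable (K : Type*) [Field K] [NumberField K]

/-- the decay exponent -/
noncomputable def dexp : ℝ := -(finrank ℚ K : ℝ) - 1

theorem dexp_neg : dexp K < 0 := by
  unfold dexp
  have : (0:ℝ) ≤ (finrank ℚ K : ℝ) := Nat.cast_nonneg _
  linarith

open scoped Classical in
theorem summable_integerLattice :
    Summable fun z : mixedEmbedding.integerLattice K => (1 + ‖(z : mixedSpace K)‖) ^ (dexp K) := by
  have hr : dexp K < -(finrank ℤ (mixedEmbedding.integerLattice K) : ℝ) := by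
    rw [ZLattice.rank ℝ, mixedEmbedding.finrank]
    unfold dexp; linarith
  have h0 := dexp_neg K
  have hs := ZLattice.summable_norm_rpow (mixedEmbedding.integerLattice K) (dexp K) hr
  -- all but z = 0 are bounded by ‖z‖^r
  refine Summable.of_norm_bounded_eventually hs ?_
  refine (Set.finite_singleton (0 : mixedEmbedding.integerLattice K)).subset ?_
  intro z hz
  by_contra hne
  have hz0 : (z : mixedSpace K) ≠ 0 := fun h => hne (by simpa using Subtype.ext h)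
  have hpos : 0 < ‖(z : mixedSpace K)‖ := norm_pos_iff.mpr hz0
  have : ‖(1 + ‖(z : mixedSpace K)‖) ^ (dexp K)‖ ≤ ‖z‖ ^ (dexp K) := by
    rw [Real.norm_of_nonneg (by positivity)]
    exact Real.rpow_le_rpow_of_nonpos hpos (by simp) h0.le
  exact hz this

theorem mem_integerLattice (α : 𝓞 K) :
    mixedEmbedding K (α : K) ∈ mixedEmbedding.integerLattice K :=
  LinearMap.mem_range.mpr ⟨α, rfl⟩

/-- the embedding of `𝓞 K` into the integer lattice -/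
noncomputable def toLattice (α : 𝓞 K) : mixedEmbedding.integerLattice K :=
  ⟨mixedEmbedding K (α : K), mem_integerLattice K α⟩

theorem toLattice_injective : Function.Injective (toLattice K) := by
  intro a b hab
  have := congrArg Subtype.val hab
  exact RingOfIntegers.ext (mixedEmbedding_injective K this)

open scoped Classical in
theorem summable_one_add_norm_rpow :
    Summable fun α : 𝓞 K => (1 + ‖mixedEmbedding K (α : K)‖) ^ (dexp K) := by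
  have := (summable_integerLattice K).comp_injective (toLattice_injective K)
  exact this



variable (K : Type*) [Field K] [NumberField K]

open scoped Classical in
/-- abstract weight function for unfolding sums over principal ideals -/
structure WeightData where
  W : ℝ → mixedSpace K → ℝ
  nonneg : ∀ s x, 0 ≤ W s x
  map_zero : ∀ s : ℝ, 1 < s → W s 0 = 0
  unfold : ∀ s : ℝ, 1 < s → ∀ α : 𝓞 K, α ≠ 0 →
    HasSum (fun ε : (𝓞 K)ˣ => W s (mixedEmbedding K (((ε : 𝓞 K) * α : 𝓞 K) : K)))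
      ((Ideal.absNorm (Ideal.span {α}) : ℝ) ^ (-s))
  lip : ∀ d : ℝ, ∃ C : ℝ, ∀ s ∈ Set.Icc (1:ℝ) 2, ∀ x v : mixedSpace K, ‖v‖ ≤ d →
    |W s (x + v) - W s x| ≤ C * (1 + ‖x‖) ^ (dexp K)

variable {K}

/-- the weight as a function on `𝓞 K` -/
noncomputable def WeightData.F (U : WeightData K) (s : ℝ) (α : 𝓞 K) : ℝ :=
  U.W s (mixedEmbedding K (α : K))

theorem WeightData.F_nonneg (U : WeightData K) (s : ℝ) (α : 𝓞 K) : 0 ≤ U.F s α := U.nonneg _ _

theorem WeightData.F_zero (U : WeightData K) {s : ℝ} (hs : 1 < s) : U.F s 0 = 0 := by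
  simp [WeightData.F, U.map_zero s hs]

/-- nonzero elements of `J` -/
abbrev J0 (J : Ideal (𝓞 K)) := {α : 𝓞 K // α ∈ J ∧ α ≠ 0}

/-- nonzero principal ideals divisible by `J` -/
abbrev PJ (J : Ideal (𝓞 K)) := {I : Ideal (𝓞 K) // I ≠ ⊥ ∧ J ∣ I ∧ I.IsPrincipal}

/-- the ideal generated by an element -/
def toPJ (J : Ideal (𝓞 K)) (α : J0 J) : PJ J :=
  ⟨Ideal.span {α.1}, by simpa using α.2.2, Ideal.dvd_span_singleton.mpr α.2.1, ⟨⟨α.1, rfl⟩⟩⟩

/-- a generator -/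
noncomputable def PJ.gen {J : Ideal (𝓞 K)} (t : PJ J) : 𝓞 K :=
  haveI := t.2.2.2
  Submodule.IsPrincipal.generator t.1

theorem PJ.span_gen {J : Ideal (𝓞 K)} (t : PJ J) : Ideal.span {t.gen} = t.1 := by
  haveI := t.2.2.2
  exact Ideal.span_singleton_generator t.1

theorem PJ.gen_ne_zero {J : Ideal (𝓞 K)} (t : PJ J) : t.gen ≠ 0 := by
  intro h
  have := t.span_gen
  rw [h] at this
  exact t.2.1 (by rw [← this]; simp)

theorem PJ.gen_mem {J : Ideal (𝓞 K)} (t : PJ J) : t.gen ∈ J := by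
  have h := t.2.2.1
  rw [← t.span_gen, Ideal.dvd_span_singleton] at h
  exact h

/-- the fibre of `toPJ` over `t` is a torsor under the units -/
noncomputable def fiberMap {J : Ideal (𝓞 K)} (t : PJ J) (ε : (𝓞 K)ˣ) :
    {a : J0 J // toPJ J a = t} :=
  ⟨⟨(ε : 𝓞 K) * t.gen, J.mul_mem_left _ t.gen_mem, mul_ne_zero ε.ne_zero t.gen_ne_zero⟩, by
    apply Subtype.ext
    show Ideal.span {(ε : 𝓞 K) * t.gen} = t.1
    rw [← t.span_gen, Ideal.span_singleton_eq_span_singleton]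
    exact ⟨ε⁻¹, by simp [mul_comm]⟩⟩

theorem fiberMap_bijective {J : Ideal (𝓞 K)} (t : PJ J) : Function.Bijective (fiberMap t) := by
  constructor
  · intro ε ε' h
    have h1 : (ε : 𝓞 K) * t.gen = (ε' : 𝓞 K) * t.gen := congrArg (fun x => x.1.1) h
    exact Units.ext (mul_right_cancel₀ t.gen_ne_zero h1)
  · rintro ⟨⟨a, haJ, ha0⟩, hat⟩
    have h1 : Ideal.span {a} = Ideal.span {t.gen} := by
      rw [t.span_gen]; exact congrArg Subtype.val hat
    rw [Ideal.span_singleton_eq_span_singleton] at h1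
    obtain ⟨u, hu⟩ := h1
    refine ⟨u⁻¹, ?_⟩
    apply Subtype.ext; apply Subtype.ext
    show (↑u⁻¹ : 𝓞 K) * t.gen = a
    rw [← hu]; simp [mul_comm]


theorem hasSum_fiber (U : WeightData K) {s : ℝ} (hs : 1 < s) {J : Ideal (𝓞 K)} (t : PJ J) :
    HasSum (fun a : {a : J0 J // toPJ J a = t} => U.F s a.1.1)
      ((Ideal.absNorm t.1 : ℝ) ^ (-s)) := by
  have h := U.unfold s hs t.gen t.gen_ne_zero
  rw [t.span_gen] at h
  exact ((Equiv.ofBijective _ (fiberMap_bijective t)).hasSum_iff).mp h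

theorem hasSum_J0 (U : WeightData K) {s : ℝ} (hs : 1 < s) (J : Ideal (𝓞 K))
    (hS : Summable fun t : PJ J => (Ideal.absNorm t.1 : ℝ) ^ (-s)) :
    HasSum (fun a : J0 J => U.F s a.1) (∑' t : PJ J, (Ideal.absNorm t.1 : ℝ) ^ (-s)) := by
  let G : (Σ t : PJ J, {a : J0 J // toPJ J a = t}) → ℝ := fun p => U.F s p.2.1.1
  have hG : Summable G := by
    refine (summable_sigma_of_nonneg (fun _ => U.F_nonneg _ _)).mpr ⟨fun t =>
      (hasSum_fiber U hs t).summable, ?_⟩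
    refine hS.congr (fun t => ?_)
    exact ((hasSum_fiber U hs t).tsum_eq).symm
  have h2 : HasSum G (∑' t : PJ J, (Ideal.absNorm t.1 : ℝ) ^ (-s)) :=
    HasSum.sigma_of_hasSum hS.hasSum (fun t => hasSum_fiber U hs t) hG
  exact ((Equiv.sigmaFiberEquiv (toPJ J)).hasSum_iff).mp h2

theorem hasSum_J (U : WeightData K) {s : ℝ} (hs : 1 < s) (J : Ideal (𝓞 K))
    (hS : Summable fun t : PJ J => (Ideal.absNorm t.1 : ℝ) ^ (-s)) :
    HasSum (fun a : J => U.F s a.1) (∑' t : PJ J, (Ideal.absNorm t.1 : ℝ) ^ (-s)) := by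
  let g : J0 J → J := fun a => ⟨a.1, a.2.1⟩
  have hg : Function.Injective g := by
    intro a b h
    exact Subtype.ext (congrArg (fun x : J => x.1) h)
  refine (hg.hasSum_iff ?_).mp (hasSum_J0 U hs J hS)
  intro x hx
  have : x.1 = 0 := by
    by_contra h0
    exact hx ⟨⟨x.1, x.2, h0⟩, rfl⟩
  rw [this]; exact U.F_zero hs


/-- partial zeta function of an ideal class (real argument) -/
noncomputable def classZeta (C : ClassGroup (𝓞 K)) (s : ℝ) : ℝ :=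
  ∑' I : {I : (Ideal (𝓞 K))⁰ // ClassGroup.mk0 I = C},
    (Ideal.absNorm (I.1 : Ideal (𝓞 K)) : ℝ) ^ (-s)

/-- multiplication by `J` : ideals in the class `C` to principal ideals divisible by `J` -/
noncomputable def mulJ (J : (Ideal (𝓞 K))⁰) (C : ClassGroup (𝓞 K)) (hJ : ClassGroup.mk0 J = C⁻¹)
    (I : {I : (Ideal (𝓞 K))⁰ // ClassGroup.mk0 I = C}) : PJ (J : Ideal (𝓞 K)) :=
  ⟨(J : Ideal (𝓞 K)) * (I.1 : Ideal (𝓞 K)),
    mul_ne_zero (nonZeroDivisors.coe_ne_zero J) (nonZeroDivisors.coe_ne_zero I.1),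
    dvd_mul_right _ _, by
      have h : ClassGroup.mk0 (J * I.1) = 1 := by rw [map_mul, hJ, I.2]; simp
      exact (ClassGroup.mk0_eq_one_iff (J * I.1).2).mp h⟩

theorem mulJ_bijective (J : (Ideal (𝓞 K))⁰) (C : ClassGroup (𝓞 K))
    (hJ : ClassGroup.mk0 J = C⁻¹) : Function.Bijective (mulJ J C hJ) := by
  constructor
  · intro I I' h
    have h1 : (J : Ideal (𝓞 K)) * (I.1 : Ideal (𝓞 K)) = (J : Ideal (𝓞 K)) * (I'.1 : Ideal (𝓞 K)) :=
      congrArg Subtype.val h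
    have h2 := mul_left_cancel₀ (nonZeroDivisors.coe_ne_zero J) h1
    exact Subtype.ext (Subtype.ext h2)
  · rintro ⟨T, hT0, ⟨I', hI'⟩, hTp⟩
    have hI'0 : I' ≠ 0 := by
      rintro rfl
      exact hT0 (by rw [hI']; simp)
    let I'' : (Ideal (𝓞 K))⁰ := ⟨I', mem_nonZeroDivisors_of_ne_zero hI'0⟩
    have hmem : T ∈ (Ideal (𝓞 K))⁰ := mem_nonZeroDivisors_of_ne_zero hT0
    have h1 : ClassGroup.mk0 ⟨T, hmem⟩ = 1 := (ClassGroup.mk0_eq_one_iff hmem).mpr hTp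
    have h2 : (⟨T, hmem⟩ : (Ideal (𝓞 K))⁰) = J * I'' := Subtype.ext hI'
    have h3 : ClassGroup.mk0 I'' = C := by
      rw [h2, map_mul, hJ] at h1
      exact (inv_mul_eq_one.mp h1).symm
    exact ⟨⟨I'', h3⟩, Subtype.ext hI'.symm⟩

theorem tsum_PJ (J : (Ideal (𝓞 K))⁰) (C : ClassGroup (𝓞 K)) (hJ : ClassGroup.mk0 J = C⁻¹)
    (s : ℝ) :
    ∑' t : PJ (J : Ideal (𝓞 K)), (Ideal.absNorm t.1 : ℝ) ^ (-s) =
      (Ideal.absNorm (J : Ideal (𝓞 K)) : ℝ) ^ (-s) * classZeta C s := by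
  rw [classZeta, ← tsum_mul_left,
    ← (Equiv.ofBijective _ (mulJ_bijective J C hJ)).tsum_eq]
  refine tsum_congr (fun I => ?_)
  show (Ideal.absNorm ((J : Ideal (𝓞 K)) * (I.1 : Ideal (𝓞 K))) : ℝ) ^ (-s) = _
  rw [map_mul, Nat.cast_mul, Real.mul_rpow (Nat.cast_nonneg _) (Nat.cast_nonneg _)]

theorem summable_PJ (J : (Ideal (𝓞 K))⁰) (C : ClassGroup (𝓞 K)) (hJ : ClassGroup.mk0 J = C⁻¹)
    (s : ℝ)
    (hS : Summable fun I : (Ideal (𝓞 K))⁰ => (Ideal.absNorm (I : Ideal (𝓞 K)) : ℝ) ^ (-s)) :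
    Summable fun t : PJ (J : Ideal (𝓞 K)) => (Ideal.absNorm t.1 : ℝ) ^ (-s) := by
  rw [← (Equiv.ofBijective _ (mulJ_bijective J C hJ)).summable_iff]
  have h1 : Summable fun I : {I : (Ideal (𝓞 K))⁰ // ClassGroup.mk0 I = C} =>
      (Ideal.absNorm (J : Ideal (𝓞 K)) : ℝ) ^ (-s) *
        (Ideal.absNorm (I.1 : Ideal (𝓞 K)) : ℝ) ^ (-s) :=
    (hS.subtype _).mul_left _
  refine h1.congr (fun I => ?_)
  show _ = (Ideal.absNorm ((J : Ideal (𝓞 K)) * (I.1 : Ideal (𝓞 K))) : ℝ) ^ (-s)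
  rw [map_mul, Nat.cast_mul, Real.mul_rpow (Nat.cast_nonneg _) (Nat.cast_nonneg _)]

/-- **Unfolding**: the sum of the weight over an ideal `J` in the class `C⁻¹` is
`N(J)^(-s) ζ(s, C)`. -/
theorem hasSum_ideal (U : WeightData K) {s : ℝ} (hs : 1 < s) (J : (Ideal (𝓞 K))⁰)
    (C : ClassGroup (𝓞 K)) (hJ : ClassGroup.mk0 J = C⁻¹)
    (hS : Summable fun I : (Ideal (𝓞 K))⁰ => (Ideal.absNorm (I : Ideal (𝓞 K)) : ℝ) ^ (-s)) :
    HasSum (fun a : (J : Ideal (𝓞 K)) => U.F s a.1)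
      ((Ideal.absNorm (J : Ideal (𝓞 K)) : ℝ) ^ (-s) * classZeta C s) := by
  rw [← tsum_PJ J C hJ s]
  exact hasSum_J U hs _ (summable_PJ J C hJ s hS)




/-- coset decomposition of `𝔟` along `𝔠 ≤ 𝔟` -/
noncomputable def cosetEquiv (𝔟 𝔠 : Ideal (𝓞 K)) (hle : 𝔠 ≤ 𝔟) :
    {q : 𝓞 K ⧸ 𝔠 // Quotient.out q ∈ 𝔟} × 𝔠 ≃ 𝔟 where
  toFun p := ⟨Quotient.out p.1.1 + p.2.1, 𝔟.add_mem p.1.2 (hle p.2.2)⟩
  invFun β :=
    have h1 : Quotient.out (Ideal.Quotient.mk 𝔠 β.1) - β.1 ∈ 𝔠 := by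
      rw [← Ideal.Quotient.eq]; exact Ideal.Quotient.mk_out _
    (⟨Ideal.Quotient.mk 𝔠 β.1, by
      have := 𝔟.add_mem (hle h1) β.2
      simpa using this⟩,
     ⟨β.1 - Quotient.out (Ideal.Quotient.mk 𝔠 β.1), by
      have := 𝔠.neg_mem h1
      simpa using this⟩)
  left_inv p := by
    obtain ⟨⟨q, hq⟩, ⟨γ, hγ⟩⟩ := p
    have h2 : Ideal.Quotient.mk 𝔠 (Quotient.out q + γ) = q := by
      rw [map_add, Ideal.Quotient.mk_out, Ideal.Quotient.eq_zero_iff_mem.mpr hγ, add_zero]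
    ext
    · simp [h2]
    · simp [h2]
  right_inv β := by
    ext; simp

theorem cosetEquiv_apply (𝔟 𝔠 : Ideal (𝓞 K)) (hle : 𝔠 ≤ 𝔟)
    (p : {q : 𝓞 K ⧸ 𝔠 // Quotient.out q ∈ 𝔟} × 𝔠) :
    ((cosetEquiv 𝔟 𝔠 hle p : 𝔟) : 𝓞 K) = Quotient.out p.1.1 + p.2.1 := rfl


open scoped Classical in
/-- the total mass of the majorant -/
noncomputable def majT (K : Type*) [Field K] [NumberField K] : ℝ :=
  ∑' α : 𝓞 K, (1 + ‖mixedEmbedding K (α : K)‖) ^ (dexp K)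

open scoped Classical in
theorem shift_bound (U : WeightData K) (𝔠 : Ideal (𝓞 K)) {s : ℝ} (hs : s ∈ Set.Icc (1:ℝ) 2)
    {d C : ℝ}
    (hC : ∀ s ∈ Set.Icc (1:ℝ) 2, ∀ x v : mixedSpace K, ‖v‖ ≤ d →
      |U.W s (x + v) - U.W s x| ≤ C * (1 + ‖x‖) ^ (dexp K))
    (r : 𝓞 K) (hr : ‖mixedEmbedding K (r : K)‖ ≤ d)
    (hsum : Summable (fun γ : 𝔠 => U.F s γ.1)) :
    Summable (fun γ : 𝔠 => U.F s (r + γ.1)) ∧
      |∑' γ : 𝔠, U.F s (r + γ.1) - ∑' γ : 𝔠, U.F s γ.1| ≤ C * majT K := by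
  have hmaj : Summable fun γ : 𝔠 => (1 + ‖mixedEmbedding K ((γ.1 : 𝓞 K) : K)‖) ^ (dexp K) :=
    (summable_one_add_norm_rpow K).subtype _
  have hpt : ∀ γ : 𝔠, |U.F s (r + γ.1) - U.F s γ.1| ≤
      C * (1 + ‖mixedEmbedding K ((γ.1 : 𝓞 K) : K)‖) ^ (dexp K) := by
    intro γ
    have := hC s hs (mixedEmbedding K ((γ.1 : 𝓞 K) : K)) (mixedEmbedding K (r : K)) hr
    simpa [WeightData.F, map_add, add_comm] using this
  have hdiff : Summable fun γ : 𝔠 => U.F s (r + γ.1) - U.F s γ.1 :=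
    Summable.of_norm_bounded (hmaj.mul_left C) (fun γ => by simpa using hpt γ)
  have hshift : Summable (fun γ : 𝔠 => U.F s (r + γ.1)) := by
    have := hdiff.add hsum
    simpa using this
  refine ⟨hshift, ?_⟩
  rw [← hshift.tsum_sub hsum]
  calc |∑' γ : 𝔠, (U.F s (r + γ.1) - U.F s γ.1)|
      ≤ ∑' γ : 𝔠, |U.F s (r + γ.1) - U.F s γ.1| := by
        simpa [Real.norm_eq_abs] using norm_tsum_le_tsum_norm (f := fun γ : 𝔠 => U.F s (r + γ.1) - U.F s γ.1) (by simpa [Real.norm_eq_abs] using hdiff.abs)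
    _ ≤ ∑' γ : 𝔠, C * (1 + ‖mixedEmbedding K ((γ.1 : 𝓞 K) : K)‖) ^ (dexp K) :=
        hdiff.abs.tsum_le_tsum hpt (hmaj.mul_left C)
    _ = C * ∑' γ : 𝔠, (1 + ‖mixedEmbedding K ((γ.1 : 𝓞 K) : K)‖) ^ (dexp K) := tsum_mul_left
    _ ≤ C * majT K := by
        have hC0 : 0 ≤ C := by
          have h1 := hC s hs 0 0 (by simpa using (norm_nonneg _).trans hr)
          simp at h1
          exact h1
        refine mul_le_mul_of_nonneg_left ?_ hC0
        exact (summable_one_add_norm_rpow K).tsum_subtype_le _ _ (fun α => by positivity)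


/-- **Coset comparison**: for nonzero ideals `𝔠 ≤ 𝔟` the sum of the weight over `𝔟` is
`[𝔟 : 𝔠]` times the sum over `𝔠`, up to a bounded error (uniformly in `s ∈ [1,2]`). -/
theorem coset_compare (U : WeightData K) (𝔟 𝔠 : Ideal (𝓞 K)) (h𝔠 : 𝔠 ≠ ⊥) (hle : 𝔠 ≤ 𝔟) :
    ∃ B : ℝ, ∀ s ∈ Set.Icc (1:ℝ) 2, Summable (fun γ : 𝔠 => U.F s γ.1) →
      Summable (fun β : 𝔟 => U.F s β.1) ∧
      |∑' β : 𝔟, U.F s β.1 -
        (Nat.card {q : 𝓞 K ⧸ 𝔠 // Quotient.out q ∈ 𝔟} : ℝ) * ∑' γ : 𝔠, U.F s γ.1| ≤ B := by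
  classical
  haveI : Finite (𝓞 K ⧸ 𝔠) := Ideal.finiteQuotientOfFreeOfNeBot 𝔠 h𝔠
  haveI : Fintype {q : 𝓞 K ⧸ 𝔠 // Quotient.out q ∈ 𝔟} := Fintype.ofFinite _
  set d : ℝ := ∑ q : {q : 𝓞 K ⧸ 𝔠 // Quotient.out q ∈ 𝔟},
    ‖mixedEmbedding K ((Quotient.out q.1 : 𝓞 K) : K)‖ with hd
  obtain ⟨C, hC⟩ := U.lip d
  refine ⟨(Fintype.card {q : 𝓞 K ⧸ 𝔠 // Quotient.out q ∈ 𝔟} : ℝ) * (C * majT K), ?_⟩
  intro s hs hsum
  have hq : ∀ q : {q : 𝓞 K ⧸ 𝔠 // Quotient.out q ∈ 𝔟},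
      ‖mixedEmbedding K ((Quotient.out q.1 : 𝓞 K) : K)‖ ≤ d := by
    intro q
    rw [hd]
    exact Finset.single_le_sum (f := fun q : {q : 𝓞 K ⧸ 𝔠 // Quotient.out q ∈ 𝔟} =>
      ‖mixedEmbedding K ((Quotient.out q.1 : 𝓞 K) : K)‖) (fun _ _ => norm_nonneg _)
      (Finset.mem_univ q)
  have hsh := fun q : {q : 𝓞 K ⧸ 𝔠 // Quotient.out q ∈ 𝔟} =>
    shift_bound U 𝔠 hs hC (Quotient.out q.1) (hq q) hsum
  -- the sum over `𝔟` via the coset decomposition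
  let G : {q : 𝓞 K ⧸ 𝔠 // Quotient.out q ∈ 𝔟} × 𝔠 → ℝ :=
    fun p => U.F s (Quotient.out p.1.1 + p.2.1)
  have hG0 : 0 ≤ G := fun p => U.F_nonneg _ _
  have hGs : Summable G := by
    refine (summable_prod_of_nonneg hG0).mpr ⟨fun q => (hsh q).1, ?_⟩
    exact Summable.of_finite
  have hGe : (fun β : 𝔟 => U.F s β.1) ∘ (cosetEquiv 𝔟 𝔠 hle) = G := by
    funext p; rfl
  have hsumb : Summable (fun β : 𝔟 => U.F s β.1) := by
    rw [← (cosetEquiv 𝔟 𝔠 hle).summable_iff, hGe]; exact hGs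
  refine ⟨hsumb, ?_⟩
  have htsum : ∑' β : 𝔟, U.F s β.1 =
      ∑ q : {q : 𝓞 K ⧸ 𝔠 // Quotient.out q ∈ 𝔟}, ∑' γ : 𝔠, U.F s (Quotient.out q.1 + γ.1) := by
    calc ∑' β : 𝔟, U.F s β.1 = ∑' p, G p := by
          rw [← (cosetEquiv 𝔟 𝔠 hle).tsum_eq (fun β : 𝔟 => U.F s β.1)]; rfl
      _ = ∑' q : {q : 𝓞 K ⧸ 𝔠 // Quotient.out q ∈ 𝔟}, ∑' γ : 𝔠, G (q, γ) := hGs.tsum_prod
      _ = _ := tsum_fintype _
  rw [htsum, Nat.card_eq_fintype_card, ← nsmul_eq_mul, ← Finset.card_univ, ← Finset.sum_const,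
    ← Finset.sum_sub_distrib]
  calc |∑ q : {q : 𝓞 K ⧸ 𝔠 // Quotient.out q ∈ 𝔟},
        (∑' γ : 𝔠, U.F s (Quotient.out q.1 + γ.1) - ∑' γ : 𝔠, U.F s γ.1)|
      ≤ ∑ q : {q : 𝓞 K ⧸ 𝔠 // Quotient.out q ∈ 𝔟},
        |∑' γ : 𝔠, U.F s (Quotient.out q.1 + γ.1) - ∑' γ : 𝔠, U.F s γ.1| :=
        Finset.abs_sum_le_sum_abs _ _
    _ ≤ ∑ _q : {q : 𝓞 K ⧸ 𝔠 // Quotient.out q ∈ 𝔟}, C * majT K :=
        Finset.sum_le_sum (fun q _ => (hsh q).2)
    _ = _ := by rw [Finset.sum_const, nsmul_eq_mul, Finset.card_univ]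




theorem card_coset_mul (𝔟 𝔠 : Ideal (𝓞 K)) (hle : 𝔠 ≤ 𝔟) :
    Nat.card {q : 𝓞 K ⧸ 𝔠 // Quotient.out q ∈ 𝔟} * Ideal.absNorm 𝔟 = Ideal.absNorm 𝔠 := by
  let f : (𝓞 K ⧸ 𝔠) →+ (𝓞 K ⧸ 𝔟) := (Ideal.Quotient.factor hle).toAddMonoidHom
  have hf : Function.Surjective f := Ideal.Quotient.factor_surjective hle
  have hker : ∀ q : 𝓞 K ⧸ 𝔠, Quotient.out q ∈ 𝔟 ↔ q ∈ f.ker := by
    intro q
    rw [AddMonoidHom.mem_ker]
    have h1 : f q = Ideal.Quotient.mk 𝔟 (Quotient.out q) := by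
      conv_lhs => rw [← Ideal.Quotient.mk_out q]
      rfl
    rw [h1, Ideal.Quotient.eq_zero_iff_mem]
  have h1 : Nat.card {q : 𝓞 K ⧸ 𝔠 // Quotient.out q ∈ 𝔟} = Nat.card f.ker :=
    Nat.card_congr (Equiv.subtypeEquivRight hker)
  have h2 := AddSubgroup.card_mul_index f.ker
  rw [AddSubgroup.index_ker, AddMonoidHom.range_eq_top.mpr hf, AddSubgroup.card_top] at h2
  rw [h1, Ideal.absNorm_apply, Ideal.absNorm_apply, Submodule.cardQuot_apply,
    Submodule.cardQuot_apply]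
  exact h2


theorem absNorm_one_le (J : (Ideal (𝓞 K))⁰) : (1:ℝ) ≤ (Ideal.absNorm (J : Ideal (𝓞 K)) : ℝ) := by
  have := Ideal.absNorm_ne_zero_of_nonZeroDivisors J
  exact_mod_cast Nat.one_le_iff_ne_zero.mpr this

theorem classZeta_nonneg (C : ClassGroup (𝓞 K)) (s : ℝ) : 0 ≤ classZeta C s :=
  tsum_nonneg (fun _ => by positivity)

theorem classZeta_le (C : ClassGroup (𝓞 K)) {s : ℝ}
    (hS : Summable fun I : (Ideal (𝓞 K))⁰ => (Ideal.absNorm (I : Ideal (𝓞 K)) : ℝ) ^ (-s)) :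
    classZeta C s ≤ ∑' I : (Ideal (𝓞 K))⁰, (Ideal.absNorm (I : Ideal (𝓞 K)) : ℝ) ^ (-s) :=
  hS.tsum_subtype_le _ _ (fun _ => by positivity)

/-- the sum over the common sublattice is `O(1/(s-1))` -/
theorem sum_ideal_le (U : WeightData K) {s : ℝ} (hs : 1 < s) (c : (Ideal (𝓞 K))⁰)
    (hS : Summable fun I : (Ideal (𝓞 K))⁰ => (Ideal.absNorm (I : Ideal (𝓞 K)) : ℝ) ^ (-s)) :
    Summable (fun γ : (c : Ideal (𝓞 K)) => U.F s γ.1) ∧
    0 ≤ ∑' γ : (c : Ideal (𝓞 K)), U.F s γ.1 ∧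
    ∑' γ : (c : Ideal (𝓞 K)), U.F s γ.1 ≤
      ∑' I : (Ideal (𝓞 K))⁰, (Ideal.absNorm (I : Ideal (𝓞 K)) : ℝ) ^ (-s) := by
  have h := hasSum_ideal U hs c (ClassGroup.mk0 c)⁻¹ (by simp) hS
  refine ⟨h.summable, tsum_nonneg (fun _ => U.F_nonneg _ _), ?_⟩
  rw [h.tsum_eq]
  have h1 : (Ideal.absNorm (c : Ideal (𝓞 K)) : ℝ) ^ (-s) ≤ 1 :=
    Real.rpow_le_one_of_one_le_of_nonpos (absNorm_one_le c) (by linarith)
  calc (Ideal.absNorm (c : Ideal (𝓞 K)) : ℝ) ^ (-s) * classZeta (ClassGroup.mk0 c)⁻¹ s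
      ≤ 1 * classZeta (ClassGroup.mk0 c)⁻¹ s :=
        mul_le_mul_of_nonneg_right h1 (classZeta_nonneg _ _)
    _ = classZeta (ClassGroup.mk0 c)⁻¹ s := one_mul _
    _ ≤ _ := classZeta_le _ hS

theorem classZeta_approx (U : WeightData K)
    (hS : ∀ s : ℝ, 1 < s →
      Summable fun I : (Ideal (𝓞 K))⁰ => (Ideal.absNorm (I : Ideal (𝓞 K)) : ℝ) ^ (-s))
    (A : ℝ) (hA : ∀ s ∈ Set.Ioc (1:ℝ) 2,
      (∑' I : (Ideal (𝓞 K))⁰, (Ideal.absNorm (I : Ideal (𝓞 K)) : ℝ) ^ (-s)) ≤ A / (s - 1))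
    (J c : (Ideal (𝓞 K))⁰) (C : ClassGroup (𝓞 K)) (hJ : ClassGroup.mk0 J = C⁻¹)
    (hle : (c : Ideal (𝓞 K)) ≤ (J : Ideal (𝓞 K))) :
    ∃ D : ℝ, ∀ s ∈ Set.Ioc (1:ℝ) 2,
      |classZeta C s - (Ideal.absNorm (c : Ideal (𝓞 K)) : ℝ) *
        ∑' γ : (c : Ideal (𝓞 K)), U.F s γ.1| ≤ D := by
  obtain ⟨B, hB⟩ := coset_compare U (J : Ideal (𝓞 K)) (c : Ideal (𝓞 K))
    (nonZeroDivisors.coe_ne_zero c) hle
  set N : ℝ := (Ideal.absNorm (J : Ideal (𝓞 K)) : ℝ) with hN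
  set M : ℝ := (Ideal.absNorm (c : Ideal (𝓞 K)) : ℝ) with hM
  set k : ℝ := (Nat.card {q : 𝓞 K ⧸ (c : Ideal (𝓞 K)) // Quotient.out q ∈ (J : Ideal (𝓞 K))} : ℝ)
    with hk
  have hkN : k * N = M := by
    rw [hk, hN, hM]; exact_mod_cast card_coset_mul (J : Ideal (𝓞 K)) (c : Ideal (𝓞 K)) hle
  have hN1 : 1 ≤ N := absNorm_one_le J
  have hM0 : 0 ≤ M := Nat.cast_nonneg _
  refine ⟨N ^ (2:ℝ) * |B| + (N - 1) * M * A, ?_⟩
  intro s hs
  have hs1 : 1 < s := hs.1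
  have hs2 : s ≤ 2 := hs.2
  obtain ⟨hsumc, hS0, hSle⟩ := sum_ideal_le U hs1 c (hS s hs1)
  set S₀ : ℝ := ∑' γ : (c : Ideal (𝓞 K)), U.F s γ.1 with hS₀
  obtain ⟨_, h1⟩ := hB s ⟨hs1.le, hs2⟩ hsumc
  have h2 := (hasSum_ideal U hs1 J C hJ (hS s hs1)).tsum_eq
  rw [h2] at h1
  have hNpos : 0 < N := by linarith
  have hNs : N ^ s * N ^ (-s) = 1 := by
    rw [← Real.rpow_add hNpos]; simp
  have hNs2 : N ^ s ≤ N ^ (2:ℝ) := Real.rpow_le_rpow_of_exponent_le hN1 hs2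
  have hNs0 : 0 ≤ N ^ s := by positivity
  -- decomposition
  have hdec : classZeta C s - M * S₀ =
      N ^ s * (N ^ (-s) * classZeta C s - k * S₀) + (N ^ (s - 1) - 1) * M * S₀ := by
    have : N ^ s * k = N ^ (s - 1) * M := by
      rw [← hkN, Real.rpow_sub hNpos, Real.rpow_one]
      field_simp
    calc classZeta C s - M * S₀
        = (N ^ s * N ^ (-s)) * classZeta C s - M * S₀ := by rw [hNs, one_mul]
      _ = N ^ s * (N ^ (-s) * classZeta C s - k * S₀) + (N ^ s * k - M) * S₀ := by ring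
      _ = _ := by rw [this]; ring
  have hA0 : S₀ ≤ A / (s - 1) := hSle.trans (hA s hs)
  have hpow : N ^ (s - 1) - 1 ≤ (s - 1) * (N - 1) := by
    have := rpow_one_add_le_one_add_mul_self (s := N - 1) (by linarith)
      (p := s - 1) (by linarith) (by linarith)
    simp only [add_sub_cancel] at this
    linarith
  have hpow0 : 0 ≤ N ^ (s - 1) - 1 := by
    have := Real.one_le_rpow hN1 (by linarith : 0 ≤ s - 1)
    linarith
  rw [hdec]
  calc |N ^ s * (N ^ (-s) * classZeta C s - k * S₀) + (N ^ (s - 1) - 1) * M * S₀|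
      ≤ |N ^ s * (N ^ (-s) * classZeta C s - k * S₀)| + |(N ^ (s - 1) - 1) * M * S₀| :=
        abs_add_le _ _
    _ ≤ N ^ (2:ℝ) * |B| + (N - 1) * M * A := by
        gcongr
        · rw [abs_mul, abs_of_nonneg hNs0]
          exact mul_le_mul hNs2 (h1.trans (le_abs_self B)) (abs_nonneg _) (by positivity)
        · rw [abs_of_nonneg (by positivity)]
          have hs10 : 0 < s - 1 := by linarith
          calc (N ^ (s - 1) - 1) * M * S₀
              ≤ ((s - 1) * (N - 1)) * M * (A / (s - 1)) := by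
                have hA' : 0 ≤ A / (s - 1) := hS0.trans hA0
                gcongr
            _ = (N - 1) * M * A := by field_simp




/-- **Main comparison**: the partial zeta functions of any two ideal classes differ by a bounded
amount on `(1, 2]`. -/
theorem exists_classZeta_sub_le (U : WeightData K)
    (hS : ∀ s : ℝ, 1 < s →
      Summable fun I : (Ideal (𝓞 K))⁰ => (Ideal.absNorm (I : Ideal (𝓞 K)) : ℝ) ^ (-s))
    (hZ : ∃ A : ℝ, ∀ s ∈ Set.Ioc (1:ℝ) 2,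
      (∑' I : (Ideal (𝓞 K))⁰, (Ideal.absNorm (I : Ideal (𝓞 K)) : ℝ) ^ (-s)) ≤ A / (s - 1)) :
    ∃ B : ℝ, ∀ s ∈ Set.Ioc (1:ℝ) 2, ∀ C C' : ClassGroup (𝓞 K),
      |classZeta C s - classZeta C' s| ≤ B := by
  classical
  obtain ⟨A, hA⟩ := hZ
  choose b hb using fun C : ClassGroup (𝓞 K) => ClassGroup.mk0_surjective C⁻¹
  let c : (Ideal (𝓞 K))⁰ := ∏ C : ClassGroup (𝓞 K), b C
  have hle : ∀ C, (c : Ideal (𝓞 K)) ≤ (b C : Ideal (𝓞 K)) := by
    intro C
    apply Ideal.le_of_dvd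
    have h1 : b C ∣ c := Finset.dvd_prod_of_mem _ (Finset.mem_univ C)
    exact nonZeroDivisors_dvd_iff_dvd_coe.mp h1
  choose D hD using fun C => classZeta_approx U hS A hA (b C) c C (hb C) (hle C)
  refine ⟨∑ C, |D C| + ∑ C, |D C|, ?_⟩
  intro s hs C C'
  have h1 := (hD C s hs).trans (le_abs_self _)
  have h2 := (hD C' s hs).trans (le_abs_self _)
  have h3 : |D C| ≤ ∑ C, |D C| :=
    Finset.single_le_sum (f := fun C => |D C|) (fun _ _ => abs_nonneg _) (Finset.mem_univ C)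
  have h4 : |D C'| ≤ ∑ C, |D C| :=
    Finset.single_le_sum (f := fun C => |D C|) (fun _ _ => abs_nonneg _) (Finset.mem_univ C')
  calc |classZeta C s - classZeta C' s|
      = |(classZeta C s - (Ideal.absNorm (c : Ideal (𝓞 K)) : ℝ) *
            ∑' γ : (c : Ideal (𝓞 K)), U.F s γ.1) -
          (classZeta C' s - (Ideal.absNorm (c : Ideal (𝓞 K)) : ℝ) *
            ∑' γ : (c : Ideal (𝓞 K)), U.F s γ.1)| := by congr 1; ring
    _ ≤ _ := (abs_sub _ _).trans (add_le_add (h1.trans h3) (h2.trans h4))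


/-! ### Instantiation with helper24's weight and helper19's zeta bounds -/

open Fermat.Agent.CFT.C1ClassDefs Fermat.Agent.CFT.ZetaRBounds

open scoped Classical in
/-- helper24's weight `W s = Ψ · cut(log N) · N^(-s)` as a `WeightData`. -/
noncomputable def weightData (K : Type*) [Field K] [NumberField K] : WeightData K where
  W := Fermat.Agent.CFT.UnitWeight.W K
  nonneg := fun s x => Fermat.Agent.CFT.UnitWeight.W_nonneg K s x
  map_zero := fun s hs => Fermat.Agent.CFT.UnitWeight.W_zero K (by linarith)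
  unfold := fun s _ α hα => Fermat.Agent.CFT.UnitWeight.hasSum_W_units_mul K α hα
  lip := by
    intro d
    obtain ⟨C, _, hC⟩ := Fermat.Agent.CFT.UnitWeight.W_sub_le K d
    refine ⟨C, fun s hs x v hv => ?_⟩
    have h := hC s hs x (x + v) (by simpa using hv)
    rw [abs_sub_comm] at h
    have hpos : (0:ℝ) < 1 + ‖x‖ := by positivity
    have he : ((1 + ‖x‖) ^ (finrank ℚ K + 1))⁻¹ = (1 + ‖x‖) ^ (dexp K) := by
      have : dexp K = -(((finrank ℚ K + 1 : ℕ)) : ℝ) := by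
        unfold dexp; push_cast; ring
      rw [this, Real.rpow_neg hpos.le, Real.rpow_natCast]
    rwa [he] at h

/-- **(Z3)** The partial zeta functions of two ideal classes differ by a bounded amount on
`(1, 2]`. -/
theorem exists_classZeta_sub_le' (K : Type*) [Field K] [NumberField K] :
    ∃ B : ℝ, ∀ s ∈ Set.Ioc (1:ℝ) 2, ∀ C C' : ClassGroup (𝓞 K),
      |classZeta C s - classZeta C' s| ≤ B := by
  obtain ⟨A, _, hA⟩ := exists_zetaR_le K
  exact exists_classZeta_sub_le (weightData K) (fun s hs => summable_zetaR K hs) ⟨A, hA⟩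

/-! ### Bounded `L`-series for nontrivial class group characters -/

variable {K : Type*} [Field K] [NumberField K]

/-- decomposition of the `L`-series along ideal classes -/
theorem classL_eq_sum {G : Type*} [CommGroup G] [Finite G] (ψ : ClassGroup (𝓞 K) →* G)
    (χ : G →* ℂˣ) {s : ℝ} (hs : 1 < s) :
    classL K (ψ.comp ClassGroup.mk0) χ s =
      ∑ C : ClassGroup (𝓞 K), ((χ (ψ C) : ℂˣ) : ℂ) * ((classZeta C s : ℝ) : ℂ) := by
  classical
  have hsum := summable_classL (K := K) (ψ.comp ClassGroup.mk0) χ hs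
  rw [classL, ← (Equiv.sigmaFiberEquiv (ClassGroup.mk0 (R := 𝓞 K))).tsum_eq]
  rw [Summable.tsum_sigma' (fun C => ?_) ?_, tsum_fintype]
  · refine Finset.sum_congr rfl (fun C _ => ?_)
    rw [classZeta, Complex.ofReal_tsum, ← tsum_mul_left]
    refine tsum_congr (fun a => ?_)
    have ha : ClassGroup.mk0 a.1 = C := a.2
    simp [Equiv.sigmaFiberEquiv, ha]
  · exact hsum.comp_injective (Equiv.sigmaFiberEquiv (ClassGroup.mk0 (R := 𝓞 K))).injective
  · exact hsum.comp_injective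
      ((Equiv.sigmaFiberEquiv (ClassGroup.mk0 (R := 𝓞 K))).injective.comp sigma_mk_injective)

/-- **(I2)** `L(s, χ ∘ ψ)` is bounded on `(1, 2]` when `χ ∘ ψ` is a nontrivial character of the
class group. -/
theorem classL_bounded {G : Type*} [CommGroup G] [Finite G] (ψ : ClassGroup (𝓞 K) →* G)
    (χ : G →* ℂˣ) (hχ : χ.comp ψ ≠ 1) :
    ∃ B : ℝ, ∀ s ∈ Set.Ioc (1:ℝ) 2, ‖classL K (ψ.comp ClassGroup.mk0) χ s‖ ≤ B := by
  classical
  obtain ⟨B, hB⟩ := exists_classZeta_sub_le' K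
  set θ : ClassGroup (𝓞 K) →* ℂˣ := χ.comp ψ with hθ
  refine ⟨(Fintype.card (ClassGroup (𝓞 K)) : ℝ) * B, fun s hs => ?_⟩
  rw [classL_eq_sum ψ χ hs.1]
  have hθC : ∀ C, χ (ψ C) = θ C := fun _ => rfl
  simp only [hθC]
  -- orthogonality
  have horth : ∑ C : ClassGroup (𝓞 K), ((θ C : ℂˣ) : ℂ) = 0 := by
    have hne : (Units.coeHom ℂ).comp θ ≠ 1 := by
      intro h
      apply hχ
      ext C
      have := DFunLike.congr_fun h C
      simpa using this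
    simpa using sum_hom_units_eq_zero ((Units.coeHom ℂ).comp θ) hne
  have h2 : ∑ C : ClassGroup (𝓞 K), ((θ C : ℂˣ) : ℂ) * ((classZeta C s : ℝ) : ℂ) =
      ∑ C : ClassGroup (𝓞 K), ((θ C : ℂˣ) : ℂ) *
        (((classZeta C s - classZeta (1 : ClassGroup (𝓞 K)) s : ℝ)) : ℂ) := by
    have : ∑ C : ClassGroup (𝓞 K), ((θ C : ℂˣ) : ℂ) * (((classZeta C s - classZeta (1 : ClassGroup (𝓞 K)) s : ℝ)) : ℂ)
        = ∑ C : ClassGroup (𝓞 K), ((θ C : ℂˣ) : ℂ) * ((classZeta C s : ℝ) : ℂ) -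
          (∑ C : ClassGroup (𝓞 K), ((θ C : ℂˣ) : ℂ)) * ((classZeta (1 : ClassGroup (𝓞 K)) s : ℝ) : ℂ) := by
      rw [Finset.sum_mul, ← Finset.sum_sub_distrib]
      refine Finset.sum_congr rfl (fun C _ => ?_)
      push_cast; ring
    rw [this, horth, zero_mul, sub_zero]
  rw [h2]
  calc ‖∑ C : ClassGroup (𝓞 K), ((θ C : ℂˣ) : ℂ) * (((classZeta C s - classZeta (1 : ClassGroup (𝓞 K)) s : ℝ)) : ℂ)‖
      ≤ ∑ C : ClassGroup (𝓞 K),
          ‖((θ C : ℂˣ) : ℂ) * (((classZeta C s - classZeta (1 : ClassGroup (𝓞 K)) s : ℝ)) : ℂ)‖ := norm_sum_le _ _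
    _ ≤ ∑ _C : ClassGroup (𝓞 K), B := by
        refine Finset.sum_le_sum (fun C _ => ?_)
        rw [norm_mul, norm_unit_apply θ C, one_mul, Complex.norm_real,
          Real.norm_eq_abs]
        exact hB s hs C 1
    _ = _ := by rw [Finset.sum_const, nsmul_eq_mul, Finset.card_univ]

end Fermat.Agent.CFT.ClassZeta
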