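/-
Program E / E-C1 (helper16): split primes.

For number fields `K ⊆ L` (`n = [L : K]`) and real `s > 1`:

* `primeZeta_bound` (PZ): `∑_P N P ^ (-s) = log (1 / (s - 1)) + O(1)` on `(1, 2]`, from the Euler
  product of the Dedekind zeta function and its residue at `1`;
* `log_le_degOnePrimes` (SP): the primes `p` of `K` having a prime `P` of `L` above them with
  `N P = N p` satisfy `log (1 / (s - 1)) - B ≤ n * ∑_{p ∈ degOnePrimes} N p ^ (-s)`
  (no Galois or ramification hypothesis).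

The consequences for Frobenius elements (NS) are in `NotAllSplit.lean`.
-/
import Mathlib
import Fermat.Agent.CFT.C1ClassDefs
import Fermat.Agent.CFT.ZetaRBounds
import Fermat.Agent.CFT.IdealEuler

set_option autoImplicit false
set_option linter.unusedSectionVars false

open IsDedekindDomain Ideal NumberField
open scoped ENNReal NNReal Pointwise nonZeroDivisors
open Fermat.Agent.CFT.C1ClassDefs Fermat.Agent.CFT.ZetaRBounds Fermat.Agent.CFT.IdealZetaSum
  Fermat.Agent.CFT.IdealEuler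

namespace Fermat.Agent.CFT.SplitPrimes

noncomputable section

/-! ### Fibre bounds for sums in `ℝ≥0∞` -/

/-- If all fibres of `π` have at most `n` elements then `∑ g ∘ π ≤ n * ∑ g`. -/
theorem tsum_comp_le_mul_tsum {α β : Type*} (π : α → β) (n : ℕ)
    (hfib : ∀ b, (π ⁻¹' {b}).Finite ∧ (π ⁻¹' {b}).ncard ≤ n) (g : β → ℝ≥0∞) :
    ∑' a, g (π a) ≤ n * ∑' b, g b := by
  rw [← ENNReal.tsum_fiberwise (fun a => g (π a)) π, ← ENNReal.tsum_mul_left]
  refine ENNReal.tsum_le_tsum fun b => ?_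
  have h1 : ∀ a : π ⁻¹' {b}, g (π a) = g b := fun a => by rw [a.2]
  simp_rw [h1]
  have := (hfib b).1.fintype
  rw [tsum_fintype, Finset.sum_const, Finset.card_univ, nsmul_eq_mul]
  gcongr
  rw [← Nat.card_eq_fintype_card, Nat.card_coe_set_eq]
  exact (hfib b).2

/-- If `g` is supported on `T` and all fibres of `π` over `T` have exactly `n` elements then
`∑ g ∘ π = n * ∑ g`. -/
theorem tsum_comp_eq_mul_tsum {α β : Type*} (π : α → β) (n : ℕ) (T : Set β)
    (hfib : ∀ b ∈ T, (π ⁻¹' {b}).Finite ∧ (π ⁻¹' {b}).ncard = n) (g : β → ℝ≥0∞)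
    (hg : ∀ b ∉ T, g b = 0) :
    ∑' a, g (π a) = n * ∑' b, g b := by
  rw [← ENNReal.tsum_fiberwise (fun a => g (π a)) π, ← ENNReal.tsum_mul_left]
  refine tsum_congr fun b => ?_
  have h1 : ∀ a : π ⁻¹' {b}, g (π a) = g b := fun a => by rw [a.2]
  simp_rw [h1]
  by_cases hb : b ∈ T
  · have := (hfib b hb).1.fintype
    rw [tsum_fintype, Finset.sum_const, Finset.card_univ, nsmul_eq_mul]
    congr 2
    rw [← Nat.card_eq_fintype_card, Nat.card_coe_set_eq]
    exact (hfib b hb).2
  · rw [hg b hb]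
    simp

/-! ### The prime below a prime -/

section Generic

variable {R S : Type*} [CommRing R] [IsDedekindDomain R] [CommRing S] [IsDedekindDomain S]
  [Algebra R S] [Module.Finite R S] [FaithfulSMul R S]

/-- The prime of `R` below a prime of `S`. -/
def below (P : HeightOneSpectrum S) : HeightOneSpectrum R where
  asIdeal := P.asIdeal.under R
  isPrime := inferInstance
  ne_bot := Ideal.under_ne_bot R P.ne_bot

theorem below_asIdeal (P : HeightOneSpectrum S) :
    (below (R := R) P).asIdeal = P.asIdeal.under R := rfl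

instance liesOver_below (P : HeightOneSpectrum S) :
    P.asIdeal.LiesOver (below (R := R) P).asIdeal := ⟨rfl⟩

omit [FaithfulSMul R S] in
theorem ncard_primesOver_le [Module.Flat R S] (p : Ideal R) [p.IsMaximal] :
    (p.primesOver S).Finite ∧ (p.primesOver S).ncard ≤ Module.finrank R S := by
  have hfin : (p.primesOver S).Finite := IsDedekindDomain.primesOver_finite p S
  refine ⟨hfin, ?_⟩
  have := hfin.fintype
  have h := Ideal.sum_ramification_inertia_eq_finrank p S
  rw [← h, ← Nat.card_coe_set_eq, Nat.card_eq_fintype_card, ← Finset.card_univ,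
    Finset.card_eq_sum_ones]
  refine Finset.sum_le_sum fun q _ => ?_
  have : q.1.IsPrime := q.2.1
  exact Right.one_le_mul (q.1.ramificationIdx_pos R) (q.1.inertiaDeg_pos R)

theorem asIdeal_injOn_fiber (p : HeightOneSpectrum R) :
    Set.InjOn (fun P : HeightOneSpectrum S => P.asIdeal) (below (R := R) ⁻¹' {p}) :=
  fun _ _ _ _ h => HeightOneSpectrum.ext h

theorem mapsTo_fiber_primesOver (p : HeightOneSpectrum R) :
    Set.MapsTo (fun P : HeightOneSpectrum S => P.asIdeal) (below (R := R) ⁻¹' {p})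
      (p.asIdeal.primesOver S) := by
  intro P hP
  have hP' : below (R := R) P = p := hP
  exact ⟨P.isPrime, ⟨by rw [← hP']; rfl⟩⟩

theorem ncard_fiber_le [Module.Flat R S] (p : HeightOneSpectrum R) :
    ((below (R := R) (S := S)) ⁻¹' {p}).Finite ∧
      ((below (R := R) (S := S)) ⁻¹' {p}).ncard ≤ Module.finrank R S := by
  have := p.isMaximal
  obtain ⟨hfin, hle⟩ := ncard_primesOver_le (S := S) p.asIdeal
  exact ⟨Set.Finite.of_injOn (mapsTo_fiber_primesOver p) (asIdeal_injOn_fiber p) hfin,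
    (Set.ncard_le_ncard_of_injOn _ (mapsTo_fiber_primesOver p) (asIdeal_injOn_fiber p)
      hfin).trans hle⟩

/-- The fibre of `below` over `p` is in bijection with `primesOver`. -/
theorem ncard_fiber_eq (p : HeightOneSpectrum R) :
    ((below (R := R) (S := S)) ⁻¹' {p}).ncard = (p.asIdeal.primesOver S).ncard := by
  refine Set.ncard_congr (fun P _ => P.asIdeal) (fun P hP => mapsTo_fiber_primesOver p hP)
    (fun P Q hP hQ h => asIdeal_injOn_fiber p hP hQ h) ?_
  rintro Q ⟨hQ1, hQ2⟩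
  have hQ0 : Q ≠ ⊥ := by
    intro h
    have h1 : Q.under R = ⊥ := by
      rw [h]
      exact Ideal.under_bot R S
    have h2 : p.asIdeal = Q.under R := hQ2.over
    exact p.ne_bot (h2.trans h1)
  refine ⟨⟨Q, hQ1, hQ0⟩, ?_, rfl⟩
  show below (R := R) ⟨Q, hQ1, hQ0⟩ = p
  exact HeightOneSpectrum.ext hQ2.over.symm

end Generic

/-! ### Elementary inequalities for `-log (1 - x)` -/

theorem le_neg_log_one_sub {x : ℝ} (hx : x < 1) : x ≤ -Real.log (1 - x) := by
  have := Real.log_le_sub_one_of_pos (show 0 < 1 - x by linarith)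
  linarith

theorem neg_log_one_sub_le {x : ℝ} (hx0 : 0 ≤ x) (hx : x ≤ 1 / 2) :
    -Real.log (1 - x) ≤ x + 2 * x ^ 2 := by
  have h1 : 0 < 1 - x := by linarith
  have h2 := Real.log_le_sub_one_of_pos (inv_pos.mpr h1)
  rw [Real.log_inv] at h2
  refine h2.trans ?_
  rw [sub_le_iff_le_add, inv_le_iff_one_le_mul₀ h1]
  nlinarith [mul_nonneg hx0 hx0, mul_nonneg (mul_nonneg hx0 hx0) (show 0 ≤ 1 - 2 * x by linarith)]

/-! ### The prime zeta function of a number field -/

section PrimeZeta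

variable (F : Type*) [Field F] [NumberField F]

/-- The norm of a height one prime is at least `2`. -/
theorem two_le_absNorm (P : HeightOneSpectrum (𝓞 F)) : 2 ≤ absNorm P.asIdeal := by
  have h0 : absNorm P.asIdeal ≠ 0 := fun h => P.ne_bot (absNorm_eq_zero_iff.mp h)
  have h1 : absNorm P.asIdeal ≠ 1 := fun h => P.isPrime.ne_top (absNorm_eq_one_iff.mp h)
  omega

/-- `N P ^ (-s)`. -/
def xP (s : ℝ) (P : HeightOneSpectrum (𝓞 F)) : ℝ := (absNorm P.asIdeal : ℝ) ^ (-s)

theorem xP_pos (s : ℝ) (P : HeightOneSpectrum (𝓞 F)) : 0 < xP F s P := by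
  have := two_le_absNorm F P
  exact Real.rpow_pos_of_pos (by positivity) _

theorem xP_le_half {s : ℝ} (hs : 1 ≤ s) (P : HeightOneSpectrum (𝓞 F)) : xP F s P ≤ 1 / 2 := by
  have h2 : (2 : ℝ) ≤ absNorm P.asIdeal := by exact_mod_cast two_le_absNorm F P
  calc xP F s P ≤ (absNorm P.asIdeal : ℝ) ^ (-1 : ℝ) :=
        Real.rpow_le_rpow_of_exponent_le (by linarith) (by linarith)
    _ = ((absNorm P.asIdeal : ℝ))⁻¹ := Real.rpow_neg_one _
    _ ≤ 1 / 2 := by
        rw [one_div]
        exact inv_anti₀ (by norm_num) h2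

/-- The prime zeta function `∑_P N P ^ (-s)`. -/
def primeZeta (s : ℝ) : ℝ := ∑' P : HeightOneSpectrum (𝓞 F), xP F s P

theorem summable_xP {s : ℝ} (hs : 1 < s) : Summable (xP F s) :=
  (summable_absNorm_rpow F hs).comp_injective
    (fun P Q (h : P.asIdeal = Q.asIdeal) => HeightOneSpectrum.ext h)

theorem primeZeta_nonneg (s : ℝ) : 0 ≤ primeZeta F s :=
  tsum_nonneg fun P => (xP_pos F s P).le

/-- `𝔞 ↦ N 𝔞 ^ (-s)` as a completely multiplicative function. -/
def normPow (s : ℝ) (hs : s ≠ 0) : Ideal (𝓞 F) →*₀ ℝ where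
  toFun a := (absNorm a : ℝ) ^ (-s)
  map_zero' := by
    show (absNorm (0 : Ideal (𝓞 F)) : ℝ) ^ (-s) = 0
    rw [map_zero, Nat.cast_zero, Real.zero_rpow (neg_ne_zero.mpr hs)]
  map_one' := by
    show (absNorm (1 : Ideal (𝓞 F)) : ℝ) ^ (-s) = 1
    rw [map_one, Nat.cast_one, Real.one_rpow]
  map_mul' a b := by
    show (absNorm (a * b) : ℝ) ^ (-s) = (absNorm a : ℝ) ^ (-s) * (absNorm b : ℝ) ^ (-s)
    rw [map_mul, Nat.cast_mul, Real.mul_rpow (Nat.cast_nonneg _) (Nat.cast_nonneg _)]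

theorem hasProd_euler {s : ℝ} (hs : 1 < s) :
    HasProd (fun P : HeightOneSpectrum (𝓞 F) => (1 - xP F s P)⁻¹) (zetaR F s) := by
  have hsum : Summable (fun a : Ideal (𝓞 F) => ‖normPow F s (by linarith) a‖) := by
    refine (summable_absNorm_rpow F hs).congr fun a => ?_
    show _ = ‖(absNorm a : ℝ) ^ (-s)‖
    rw [Real.norm_of_nonneg (Real.rpow_nonneg (Nat.cast_nonneg _) _)]
  have h := hasProd_inv_one_sub (normPow F s (by linarith)) hsum
  rw [zetaR_eq_tsum F hs]
  exact h

/-- `log ζ_F(s) = ∑_P -log (1 - N P ^ (-s))`. -/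
theorem summable_neg_log {s : ℝ} (hs : 1 < s) :
    Summable (fun P : HeightOneSpectrum (𝓞 F) => -Real.log (1 - xP F s P)) := by
  refine Summable.of_nonneg_of_le (fun P => ?_) (fun P => ?_) ((summable_xP F hs).mul_left 2)
  · have := le_neg_log_one_sub (x := xP F s P) (by linarith [xP_le_half F hs.le P])
    linarith [xP_pos F s P]
  · have h1 := xP_pos F s P
    have h2 := xP_le_half F hs.le P
    have := neg_log_one_sub_le h1.le h2
    nlinarith

theorem log_zetaR_eq {s : ℝ} (hs : 1 < s) :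
    Real.log (zetaR F s) = ∑' P : HeightOneSpectrum (𝓞 F), -Real.log (1 - xP F s P) := by
  have hpos : ∀ P : HeightOneSpectrum (𝓞 F), 0 < (1 - xP F s P)⁻¹ := fun P =>
    inv_pos.mpr (by linarith [xP_le_half F hs.le P])
  have hlog : ∀ P : HeightOneSpectrum (𝓞 F),
      Real.log ((1 - xP F s P)⁻¹) = -Real.log (1 - xP F s P) := fun P => Real.log_inv _
  have hsum : Summable fun P : HeightOneSpectrum (𝓞 F) => Real.log ((1 - xP F s P)⁻¹) :=
    (summable_neg_log F hs).congr fun P => (hlog P).symm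
  have h := Real.rexp_tsum_eq_tprod hpos hsum
  rw [(hasProd_euler F hs).tprod_eq] at h
  rw [← h, Real.log_exp]
  exact tsum_congr hlog

theorem primeZeta_le_log_zetaR {s : ℝ} (hs : 1 < s) :
    primeZeta F s ≤ Real.log (zetaR F s) := by
  rw [log_zetaR_eq F hs]
  exact (summable_xP F hs).tsum_le_tsum
    (fun P => le_neg_log_one_sub (by linarith [xP_le_half F hs.le P])) (summable_neg_log F hs)

theorem summable_xP_sq {s : ℝ} (hs : 1 < s) : Summable (fun P => xP F s P ^ 2) := by
  refine Summable.of_nonneg_of_le (fun P => sq_nonneg _) (fun P => ?_) (summable_xP F hs)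
  have h1 := xP_pos F s P
  have h2 := xP_le_half F hs.le P
  nlinarith

theorem xP_sq_le {s : ℝ} (hs : 1 ≤ s) (P : HeightOneSpectrum (𝓞 F)) :
    xP F s P ^ 2 ≤ xP F 2 P := by
  have h2 : (1 : ℝ) ≤ absNorm P.asIdeal := by
    have := two_le_absNorm F P
    exact_mod_cast (by omega : 1 ≤ absNorm P.asIdeal)
  unfold xP
  rw [← Real.rpow_natCast, ← Real.rpow_mul (Nat.cast_nonneg _)]
  exact Real.rpow_le_rpow_of_exponent_le h2 (by push_cast; linarith)

theorem log_zetaR_le {s : ℝ} (hs : 1 < s) :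
    Real.log (zetaR F s) ≤ primeZeta F s + 2 * primeZeta F 2 := by
  rw [log_zetaR_eq F hs]
  have h2 : Summable (fun P => xP F s P + 2 * xP F 2 P) :=
    (summable_xP F hs).add ((summable_xP F one_lt_two).mul_left 2)
  calc ∑' P : HeightOneSpectrum (𝓞 F), -Real.log (1 - xP F s P)
      ≤ ∑' P : HeightOneSpectrum (𝓞 F), (xP F s P + 2 * xP F 2 P) := by
        refine (summable_neg_log F hs).tsum_le_tsum (fun P => ?_) h2
        have := neg_log_one_sub_le (xP_pos F s P).le (xP_le_half F hs.le P)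
        have := xP_sq_le F hs.le P
        linarith
    _ = primeZeta F s + 2 * primeZeta F 2 := by
        rw [(summable_xP F hs).tsum_add ((summable_xP F one_lt_two).mul_left 2), tsum_mul_left]
        rfl

/-- **Prime zeta asymptotics**: `∑_P N P ^ (-s) = log (1 / (s - 1)) + O(1)` on `(1, 2]`. -/
theorem primeZeta_bound :
    ∃ B : ℝ, ∀ s ∈ Set.Ioc (1 : ℝ) 2, |primeZeta F s - Real.log (1 / (s - 1))| ≤ B := by
  obtain ⟨C, hC0, hC⟩ := exists_zetaR_le F
  obtain ⟨c, hc0, hc⟩ := exists_le_zetaR F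
  refine ⟨|Real.log C| + |Real.log c| + 2 * primeZeta F 2, fun s hs => ?_⟩
  have hs1 : 1 < s := hs.1
  have hs0 : 0 < s - 1 := by linarith
  have hz : 0 < zetaR F s := lt_of_lt_of_le one_pos (one_le_zetaR F hs1)
  have hpz := primeZeta_nonneg F 2
  have hlogdiv : ∀ a : ℝ, 0 < a → Real.log (a / (s - 1)) = Real.log a + Real.log (1 / (s - 1)) := by
    intro a ha
    rw [div_eq_mul_one_div, Real.log_mul ha.ne' (one_div_pos.mpr hs0).ne']
  have hup : primeZeta F s ≤ Real.log C + Real.log (1 / (s - 1)) := by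
    rw [← hlogdiv C hC0]
    exact (primeZeta_le_log_zetaR F hs1).trans (Real.log_le_log hz (hC s hs))
  have hlow : Real.log c + Real.log (1 / (s - 1)) ≤ primeZeta F s + 2 * primeZeta F 2 := by
    rw [← hlogdiv c hc0]
    exact (Real.log_le_log (div_pos hc0 hs0) (hc s hs)).trans (log_zetaR_le F hs1)
  rw [abs_le]
  constructor
  · linarith [neg_abs_le (Real.log c), abs_nonneg (Real.log C)]
  · linarith [le_abs_self (Real.log C), abs_nonneg (Real.log c)]

end PrimeZeta

section Split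

variable (K L : Type*) [Field K] [Field L] [NumberField K] [NumberField L] [Algebra K L]

theorem finrank_int : Module.finrank (𝓞 K) (𝓞 L) = Module.finrank K L :=
  (IsFractionRing.finrank_eq (𝓞 K) K (𝓞 L) L).symm

/-- `N p ^ f = N P` for `p` the prime below `P`. -/
theorem absNorm_below_pow (P : HeightOneSpectrum (𝓞 L)) :
    absNorm (below (R := 𝓞 K) P).asIdeal ^ P.asIdeal.inertiaDeg (𝓞 K) = absNorm P.asIdeal :=
  Ideal.absNorm_pow_inertiaDeg (below (R := 𝓞 K) P).asIdeal P.asIdeal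

theorem one_le_absNorm_real (P : HeightOneSpectrum (𝓞 K)) : (1 : ℝ) ≤ absNorm P.asIdeal := by
  have := two_le_absNorm K P
  exact_mod_cast (by omega : 1 ≤ absNorm P.asIdeal)

/-- The pointwise bound behind (SP). -/
theorem xP_le_of_below {s : ℝ} (hs : 1 ≤ s) (P : HeightOneSpectrum (𝓞 L)) :
    (absNorm P.asIdeal = absNorm (below (R := 𝓞 K) P).asIdeal ∧
        xP L s P = xP K s (below (R := 𝓞 K) P)) ∨
      (absNorm P.asIdeal ≠ absNorm (below (R := 𝓞 K) P).asIdeal ∧
        xP L s P ≤ xP K 2 (below (R := 𝓞 K) P)) := by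
  have hpow := absNorm_below_pow K L P
  have hf : 0 < P.asIdeal.inertiaDeg (𝓞 K) := P.asIdeal.inertiaDeg_pos (𝓞 K)
  by_cases h1 : P.asIdeal.inertiaDeg (𝓞 K) = 1
  · rw [h1, pow_one] at hpow
    left
    refine ⟨hpow.symm, ?_⟩
    unfold xP
    rw [hpow]
  · right
    have h2 : 2 ≤ P.asIdeal.inertiaDeg (𝓞 K) := by omega
    have hN := one_le_absNorm_real K (below (R := 𝓞 K) P)
    have hN2 := two_le_absNorm K (below (R := 𝓞 K) P)
    refine ⟨?_, ?_⟩
    · rw [← hpow]
      intro h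
      have : absNorm (below (R := 𝓞 K) P).asIdeal ^ P.asIdeal.inertiaDeg (𝓞 K) =
          absNorm (below (R := 𝓞 K) P).asIdeal ^ 1 := by rw [pow_one]; exact h
      exact h1 (Nat.pow_right_injective hN2 this)
    · unfold xP
      rw [← hpow, Nat.cast_pow, ← Real.rpow_natCast, ← Real.rpow_mul (Nat.cast_nonneg _)]
      refine Real.rpow_le_rpow_of_exponent_le hN ?_
      have : (2 : ℝ) ≤ (P.asIdeal.inertiaDeg (𝓞 K) : ℝ) := by exact_mod_cast h2
      nlinarith

theorem below_mem_degOnePrimes (P : HeightOneSpectrum (𝓞 L))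
    (h : absNorm P.asIdeal = absNorm (below (R := 𝓞 K) P).asIdeal) :
    below (R := 𝓞 K) P ∈ degOnePrimes K L :=
  ⟨P, rfl, h⟩

/-- Sum over a set of primes, in `ℝ≥0∞`. -/
theorem tsum_indicator_ofReal (T : Set (HeightOneSpectrum (𝓞 K))) {s : ℝ} (hs : 1 < s) :
    ∑' p : HeightOneSpectrum (𝓞 K), T.indicator (fun p => ENNReal.ofReal (xP K s p)) p =
      ENNReal.ofReal (T.primeIdealZetaSum s) := by
  have h1 : T.primeIdealZetaSum s = ∑' p : T, xP K s p.1 := rfl
  have h2 : ENNReal.ofReal (∑' p : T, xP K s p.1) = ∑' p : T, ENNReal.ofReal (xP K s p.1) :=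
    ENNReal.ofReal_tsum_of_nonneg (fun p => (xP_pos K s p.1).le) ((summable_xP K hs).subtype T)
  rw [h1, h2]
  exact (tsum_subtype T (fun p => ENNReal.ofReal (xP K s p))).symm

theorem tsum_ofReal_xP {s : ℝ} (hs : 1 < s) :
    ∑' p : HeightOneSpectrum (𝓞 K), ENNReal.ofReal (xP K s p) = ENNReal.ofReal (primeZeta K s) :=
  (ENNReal.ofReal_tsum_of_nonneg (fun p => (xP_pos K s p).le) (summable_xP K hs)).symm

/-- `∑_P N P ^ (-s) ≤ n * (∑_{p ∈ degOnePrimes} N p ^ (-s) + ∑_p N p ^ (-2))`. -/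
theorem primeZeta_le_degOnePrimes {s : ℝ} (hs : 1 < s) :
    primeZeta L s ≤ Module.finrank K L *
      ((degOnePrimes K L).primeIdealZetaSum s + primeZeta K 2) := by
  classical
  have key : ∀ P : HeightOneSpectrum (𝓞 L), ENNReal.ofReal (xP L s P) ≤
      (fun p : HeightOneSpectrum (𝓞 K) =>
        (degOnePrimes K L).indicator (fun p => ENNReal.ofReal (xP K s p)) p +
          ENNReal.ofReal (xP K 2 p)) (below (R := 𝓞 K) P) := by
    intro P
    beta_reduce
    rcases xP_le_of_below K L hs.le P with ⟨h1, h2⟩ | ⟨_, h2⟩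
    · rw [Set.indicator_of_mem (below_mem_degOnePrimes K L P h1), h2]
      exact le_self_add
    · exact (ENNReal.ofReal_le_ofReal h2).trans le_add_self
  have h1 : ∑' P : HeightOneSpectrum (𝓞 L), ENNReal.ofReal (xP L s P) ≤
      (Module.finrank (𝓞 K) (𝓞 L) : ℕ) * ∑' p : HeightOneSpectrum (𝓞 K),
        ((degOnePrimes K L).indicator (fun p => ENNReal.ofReal (xP K s p)) p +
          ENNReal.ofReal (xP K 2 p)) :=
    (ENNReal.tsum_le_tsum key).trans
      (tsum_comp_le_mul_tsum (below (R := 𝓞 K) (S := 𝓞 L)) _ (fun p => ncard_fiber_le p) _)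
  rw [tsum_ofReal_xP L hs, ENNReal.tsum_add, tsum_indicator_ofReal K _ hs,
    tsum_ofReal_xP K one_lt_two, finrank_int,
    ← ENNReal.ofReal_add (NumberField.Set.primeIdealZetaSum_nonneg _ _) (primeZeta_nonneg K 2),
    ← ENNReal.ofReal_natCast, ← ENNReal.ofReal_mul (Nat.cast_nonneg _)] at h1
  exact (ENNReal.ofReal_le_ofReal_iff (mul_nonneg (Nat.cast_nonneg _)
    (add_nonneg (NumberField.Set.primeIdealZetaSum_nonneg _ _) (primeZeta_nonneg K 2)))).mp h1

/-- **(SP) = (I4)**: the degree-one primes of `K` relative to `L` have "density" at least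
`1 / [L : K]`. No Galois or ramification hypothesis. -/
theorem log_le_degOnePrimes :
    ∃ B : ℝ, ∀ s ∈ Set.Ioc (1 : ℝ) 2, Real.log (1 / (s - 1)) - B ≤
      Module.finrank K L * (degOnePrimes K L).primeIdealZetaSum s := by
  obtain ⟨B, hB⟩ := primeZeta_bound L
  refine ⟨B + Module.finrank K L * primeZeta K 2, fun s hs => ?_⟩
  have h1 := (abs_le.mp (hB s hs)).1
  have h2 := primeZeta_le_degOnePrimes K L hs.1
  rw [mul_add] at h2
  linarith

end Split

end

end Fermat.Agent.CFT.SplitPrimes
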