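import Fermat.Agent.CFT.FirstIneqCore
import Fermat.Agent.CFT.ZetaRBounds
import Fermat.Agent.CFT.ClassLEuler
import Fermat.Agent.CFT.CharOrtho
import Fermat.Agent.CFT.ClassZeta
import Fermat.Agent.CFT.SplitPrimes

/-!
# The first inequality of class field theory, class group (modulus one) version

`norm_index_le` : for number fields `K ⊆ L`, a surjective hom `ψ : ClassGroup (𝓞 K) →* G` which
kills all the primes of `K` of relative degree one in `L` (outside a finite set `S`) satisfies
`Nat.card G ≤ [L : K]`. No Galois or ramification hypothesis.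
-/

set_option autoImplicit false
set_option linter.unusedSectionVars false

open NumberField Ideal IsDedekindDomain nonZeroDivisors
open Fermat.Agent.CFT.C1ClassDefs Fermat.Agent.CFT.FirstIneqCore Fermat.Agent.CFT.ZetaRBounds

namespace Fermat.Agent.CFT.FirstIneq

variable (K : Type*) [Field K] [NumberField K]
variable {G : Type*} [CommGroup G] [Finite G]

theorem primeToIdeal0_injective :
    Function.Injective (primeToIdeal0 : HeightOneSpectrum (𝓞 K) → (Ideal (𝓞 K))⁰) := by
  intro p q h
  apply HeightOneSpectrum.ext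
  have h2 := congrArg (fun x : (Ideal (𝓞 K))⁰ => (x : Ideal (𝓞 K))) h
  simpa using h2

/-- Summability of the prime zeta sum. -/
theorem summable_primes {s : ℝ} (hs : 1 < s) :
    Summable (fun p : HeightOneSpectrum (𝓞 K) => (Ideal.absNorm p.asIdeal : ℝ) ^ (-s)) := by
  have h := (summable_zetaR K hs).comp_injective (primeToIdeal0_injective K)
  refine h.congr (fun p => ?_)
  simp only [Function.comp_apply, coe_primeToIdeal0]

/-- Input (I3). -/
theorem I3_holds (φ : (Ideal (𝓞 K))⁰ →* G) :
    ∃ C, ∀ s ∈ Set.Ioc (1:ℝ) 2, ‖classL K φ (1 : G →* ℂˣ) s‖ ≤ C / (s - 1) := by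
  obtain ⟨C, _, hC⟩ := exists_zetaR_le K
  exact ⟨C, fun s hs => (norm_classL_le φ 1 hs.1).trans (hC s hs)⟩

/-- Input (I2) for a surjective `ψ`. -/
theorem I2_holds (ψ : ClassGroup (𝓞 K) →* G) (hsurj : Function.Surjective ψ)
    (χ : G →* ℂˣ) (hχ : χ ≠ 1) :
    ∃ B, ∀ s ∈ Set.Ioc (1:ℝ) 2, ‖classL K (ψ.comp ClassGroup.mk0) χ s‖ ≤ B := by
  refine Fermat.Agent.CFT.ClassZeta.classL_bounded ψ χ (fun h => hχ ?_)
  ext g
  obtain ⟨c, rfl⟩ := hsurj g
  have := DFunLike.congr_fun h c
  simpa using congrArg Units.val this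

variable (L : Type*) [Field L] [NumberField L] [Algebra K L]

/-- **The first inequality** (class group version). -/
theorem norm_index_le (ψ : ClassGroup (𝓞 K) →* G) (hsurj : Function.Surjective ψ)
    (S : Finset (HeightOneSpectrum (𝓞 K)))
    (hsplit : ∀ p ∈ degOnePrimes K L, p ∉ S → ψ (ClassGroup.mk0 (primeToIdeal0 p)) = 1) :
    Nat.card G ≤ Module.finrank K L := by
  classical
  have : Fintype (G →* ℂˣ) := Fintype.ofFinite _
  have : FiniteDimensional K L := Module.Finite.of_restrictScalars_finite ℚ K L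
  exact norm_index_le_of K L (ψ.comp ClassGroup.mk0) S (fun p hp hpS => hsplit p hp hpS)
    (fun s hs => summable_primes K hs)
    (fun s hs => Fermat.Agent.CFT.ClassLEuler.exp_le_norm_prod_classL _ hs)
    (fun χ hχ => I2_holds K ψ hsurj χ hχ)
    (I3_holds K _)
    (Fermat.Agent.CFT.SplitPrimes.log_le_degOnePrimes K L)
    Module.finrank_pos

end Fermat.Agent.CFT.FirstIneq
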