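/-
Program E (S14), piece C4h-4 (helper23): the kernel form `PerField.KernelForm F M m` for an
everywhere unramified Galois extension `M/F` of prime degree `p`, from
* (i)   `artin F M` kills the principal ideals prime to `m`   [hypothesis; = CycloKills (A3)],
* (ii)  `artin F M` kills norms                                [ArtinBridge, landed],
* (iii) (NS) for `M/F`                                         [hypothesis `NotAllSplitShape F M`],
* (iv)  the first inequality                                   [FirstIneq.norm_index_le, landed].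
-/
import Mathlib
import Fermat.Agent.CFT.PerField
import Fermat.Agent.CFT.ClassNormQuotBridge
import Fermat.Agent.CFT.FirstIneq
import Fermat.Agent.CFT.ArtinBridge
import Fermat.Agent.S14.ArtinGlue

set_option autoImplicit false
set_option linter.unusedSectionVars false

open NumberField

namespace Fermat.Agent.CFT.KernelFormMain

open Fermat.Agent.CFT.ArtinMap Fermat.Agent.CFT.PerField Fermat.Agent.CFT.ClassNormQuot

variable (F M : Type) [Field F] [Field M] [NumberField F] [NumberField M] [Algebra F M]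

/-- Hypothesis (iv): the index of the norm classes is at most the degree. -/
theorem index_normClasses_le_finrank : (normClasses F M).index ≤ Module.finrank F M :=
  ClassNormQuotBridge.index_normClasses_le F M (n := Module.finrank F M)
    (fun {G} _ _ ψ hsurj hsplit =>
      FirstIneq.norm_index_le F M ψ hsurj ∅ (fun p hp _ => hsplit p hp))

variable [IsGalois F M] [IsMulCommutative (M ≃ₐ[F] M)]

/-- `span {m}` is a nonzero ideal of `𝓞 F` for `m ≠ 0`. -/
theorem span_natCast_ne_bot {m : ℕ} (hm : m ≠ 0) : Ideal.span {(m : 𝓞 F)} ≠ ⊥ := by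
  rw [Ne, Ideal.span_singleton_eq_bot]
  exact_mod_cast hm

/-- An ideal comaximal with `(m)` has absolute norm prime to `m`... we only need the converse
direction (`PerField.sup_span_eq_top_of_coprime`) and, for the prime from (NS), the direct one. -/
theorem kernelForm {p : ℕ} (hp : p.Prime) (hdeg : Module.finrank F M = p)
    (hunr : ∀ P : Ideal (𝓞 M), P.IsPrime → P ≠ ⊥ → P.inertia (M ≃ₐ[F] M) = ⊥)
    {m : ℕ} (hm : m ≠ 0)
    (hi : ∀ g : 𝓞 F, g ≠ 0 → Ideal.span {g} ⊔ Ideal.span {(m : 𝓞 F)} = ⊤ →
      artin F M (Ideal.span {g}) = 1)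
    (hNS : Fermat.Agent.S14.ArtinGlue.NotAllSplitShape F M) :
    KernelForm F M m := by
  intro B hB hc hart
  have hG : Nat.card (M ≃ₐ[F] M) = p := by rw [IsGalois.card_aut_eq_finrank, hdeg]
  -- (iii) from (NS)
  obtain ⟨q, P, σ, hq, hqn, hqm, hP, hPq, hσ, hσ1⟩ := hNS m hm
  have hq0 : q ≠ ⊥ := by
    rintro rfl
    rw [Ideal.absNorm_bot] at hqn
    exact Nat.not_prime_zero hqn
  have hP0 : P ≠ ⊥ := by
    rintro rfl
    apply hq0
    rw [← hPq]
    exact Ideal.under_bot (𝓞 F) (𝓞 M)
  have := hq
  have := hP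
  have : P.LiesOver q := ⟨hPq.symm⟩
  have hσq : σ = artin F M q := eq_artin_of_isArithFrobAt M q hq0 P (hunr P hP hP0) hσ
  have hqc : Nat.Coprime (Ideal.absNorm q) m := (Nat.Prime.coprime_iff_not_dvd hqn).mpr hqm
  have hiii : ∃ q : Ideal (𝓞 F), q ≠ ⊥ ∧ q ⊔ Ideal.span {(m : 𝓞 F)} = ⊤ ∧ artin F M q ≠ 1 :=
    ⟨q, hq0, sup_span_eq_top_of_coprime hqc, fun h => hσ1 (hσq.trans h)⟩
  obtain ⟨x, y, A, A', hx, hy, hA, hA', h⟩ :=
    kernel_form' (F := F) (M := M) hp hG (artin F M) (fun a b ha hb => artin_mul M ha hb)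
      (Ideal.span {(m : 𝓞 F)}) (span_natCast_ne_bot F hm) hi
      (fun A hA => ArtinBridge.artin_relNorm_of_unramified hunr hA) hiii
      (hdeg ▸ index_normClasses_le_finrank F M) B hB (sup_span_eq_top_of_coprime hc) hart
  exact ⟨x, y, hx, hy, A, A', hA, hA', h⟩

end Fermat.Agent.CFT.KernelFormMain
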