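/-
Program E / E-C1 (helper16): not all degree-one primes split.

For number fields `K ⊆ L` (`n = [L : K]`):

* `splitPrimes K L`: the primes of `K` with exactly `n` primes of `L` above them;
* `splitPrimes_le_log` (easy direction): `n * ∑_{p ∈ splitPrimes} N p ^ (-s) ≤ log (1 / (s - 1)) + B`
  on `(1, 2]`;
* `ncard_primesOver_eq_of_frob_trivial`: for `L / K` Galois, if `1` is the only Frobenius at `P`
  then the prime below `P` splits completely;
* `exists_frob_ne_one` (NS): if `L / K` is Galois and `n ≠ 1`, then for every `m ≠ 0` there are a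
  prime `q` of `K` of prime norm not dividing `m`, a prime `P` of `L` above `q` and a Frobenius
  `σ ≠ 1` at `P`.
-/
import Mathlib
import Fermat.Agent.CFT.SplitPrimes

set_option autoImplicit false
set_option linter.unusedSectionVars false

open IsDedekindDomain Ideal NumberField
open scoped ENNReal NNReal Pointwise nonZeroDivisors
open Fermat.Agent.CFT.C1ClassDefs Fermat.Agent.CFT.SplitPrimes

namespace Fermat.Agent.CFT.NotAllSplit

noncomputable section

/-! ### Ramification and inertia when there are `[S : R]` primes above `p` -/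

section Generic

variable {R S : Type*} [CommRing R] [IsDedekindDomain R] [CommRing S] [IsDedekindDomain S]
  [Algebra R S] [Module.Finite R S] [Module.Flat R S]

/-- `e * f ≤ [S : R]` for a single prime. -/
theorem ramificationIdx_mul_inertiaDeg_le (p : Ideal R) [p.IsMaximal] {Q : Ideal S}
    (hQ : Q ∈ p.primesOver S) :
    Q.ramificationIdx R * Q.inertiaDeg R ≤ Module.finrank R S := by
  have hfin : (p.primesOver S).Finite := IsDedekindDomain.primesOver_finite p S
  have := hfin.fintype
  rw [← Ideal.sum_ramification_inertia_eq_finrank p S]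
  exact Finset.single_le_sum (f := fun q : p.primesOver S =>
    q.1.ramificationIdx R * q.1.inertiaDeg R) (fun _ _ => Nat.zero_le _)
    (Finset.mem_univ (⟨Q, hQ⟩ : p.primesOver S))

/-- If there are exactly `[S : R]` primes above `p` then all of them have `e = f = 1`. -/
theorem ramificationIdx_inertiaDeg_eq_one_of_ncard_eq (p : Ideal R) [p.IsMaximal]
    (h : (p.primesOver S).ncard = Module.finrank R S) {Q : Ideal S} (hQ : Q ∈ p.primesOver S) :
    Q.ramificationIdx R = 1 ∧ Q.inertiaDeg R = 1 := by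
  have hfin : (p.primesOver S).Finite := IsDedekindDomain.primesOver_finite p S
  have := hfin.fintype
  have hsum := Ideal.sum_ramification_inertia_eq_finrank p S
  have hcard : ∑ _q : p.primesOver S, 1 = Module.finrank R S := by
    rw [← h, ← Nat.card_coe_set_eq, Nat.card_eq_fintype_card, ← Finset.card_univ,
      Finset.card_eq_sum_ones]
  have hle : ∀ q ∈ (Finset.univ : Finset (p.primesOver S)),
      1 ≤ q.1.ramificationIdx R * q.1.inertiaDeg R := fun q _ => by
    have : q.1.IsPrime := q.2.1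
    exact Right.one_le_mul (q.1.ramificationIdx_pos R) (q.1.inertiaDeg_pos R)
  have hall := (Finset.sum_eq_sum_iff_of_le hle).mp (hcard.trans hsum.symm)
  have h1 := hall ⟨Q, hQ⟩ (Finset.mem_univ _)
  exact mul_eq_one.mp h1.symm

end Generic

/-! ### Completely split primes and the easy inequality -/

section Split

variable (K L : Type*) [Field K] [Field L] [NumberField K] [NumberField L] [Algebra K L]

/-- The primes of `K` with exactly `[L : K]` primes of `L` above them. -/
def splitPrimes : Set (HeightOneSpectrum (𝓞 K)) :=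
  {p | (p.asIdeal.primesOver (𝓞 L)).ncard = Module.finrank K L}

variable {K L}

theorem asIdeal_mem_primesOver_below (P : HeightOneSpectrum (𝓞 L)) :
    P.asIdeal ∈ (below (R := 𝓞 K) P).asIdeal.primesOver (𝓞 L) :=
  ⟨P.isPrime, ⟨rfl⟩⟩

/-- Above a completely split prime all primes have the same norm. -/
theorem absNorm_eq_of_below_mem_splitPrimes (P : HeightOneSpectrum (𝓞 L))
    (h : below (R := 𝓞 K) P ∈ splitPrimes K L) :
    absNorm P.asIdeal = absNorm (below (R := 𝓞 K) P).asIdeal := by
  have := (below (R := 𝓞 K) P).isMaximal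
  have h' : ((below (R := 𝓞 K) P).asIdeal.primesOver (𝓞 L)).ncard =
      Module.finrank (𝓞 K) (𝓞 L) := by
    rw [finrank_int]
    exact h
  have hf := (ramificationIdx_inertiaDeg_eq_one_of_ncard_eq _ h'
    (asIdeal_mem_primesOver_below (K := K) P)).2
  have hpow := absNorm_below_pow K L P
  rw [hf, pow_one] at hpow
  exact hpow.symm

theorem fiber_of_mem_splitPrimes {p : HeightOneSpectrum (𝓞 K)} (hp : p ∈ splitPrimes K L) :
    ((below (R := 𝓞 K) (S := 𝓞 L)) ⁻¹' {p}).Finite ∧
      ((below (R := 𝓞 K) (S := 𝓞 L)) ⁻¹' {p}).ncard = Module.finrank K L :=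
  ⟨(ncard_fiber_le p).1, (ncard_fiber_eq p).trans hp⟩

variable (K L)

/-- For a set `T` of completely split primes, `[L : K] * ∑_{p ∈ T} N p ^ (-s) ≤ ∑_P N P ^ (-s)`. -/
theorem mul_primeIdealZetaSum_le_primeZeta (T : Set (HeightOneSpectrum (𝓞 K)))
    (hT : T ⊆ splitPrimes K L) {s : ℝ} (hs : 1 < s) :
    Module.finrank K L * T.primeIdealZetaSum s ≤ primeZeta L s := by
  classical
  have h1 := tsum_comp_eq_mul_tsum (below (R := 𝓞 K) (S := 𝓞 L)) (Module.finrank K L) T
    (fun p hp => fiber_of_mem_splitPrimes (hT hp))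
    (T.indicator (fun p => ENNReal.ofReal (xP K s p)))
    (fun p hp => Set.indicator_of_notMem hp _)
  have h2 : ∀ P : HeightOneSpectrum (𝓞 L),
      T.indicator (fun p => ENNReal.ofReal (xP K s p)) (below (R := 𝓞 K) P) ≤
        ENNReal.ofReal (xP L s P) := by
    intro P
    by_cases hP : below (R := 𝓞 K) P ∈ T
    · rw [Set.indicator_of_mem hP]
      have := absNorm_eq_of_below_mem_splitPrimes P (hT hP)
      unfold xP
      rw [this]
    · rw [Set.indicator_of_notMem hP]
      exact zero_le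
  have h3 := ENNReal.tsum_le_tsum h2
  rw [h1, tsum_indicator_ofReal K T hs, tsum_ofReal_xP L hs, ← ENNReal.ofReal_natCast,
    ← ENNReal.ofReal_mul (Nat.cast_nonneg _)] at h3
  exact (ENNReal.ofReal_le_ofReal_iff (primeZeta_nonneg L s)).mp h3

/-- **Easy direction**: `[L : K] * ∑_{p split completely} N p ^ (-s) ≤ log (1 / (s - 1)) + B`. -/
theorem splitPrimes_le_log :
    ∃ B : ℝ, ∀ s ∈ Set.Ioc (1 : ℝ) 2,
      Module.finrank K L * (splitPrimes K L).primeIdealZetaSum s ≤
        Real.log (1 / (s - 1)) + B := by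
  obtain ⟨B, hB⟩ := primeZeta_bound L
  refine ⟨B, fun s hs => ?_⟩
  have h1 := (abs_le.mp (hB s hs)).2
  have h2 := mul_primeIdealZetaSum_le_primeZeta K L _ (subset_refl _) hs.1
  linarith

end Split

/-! ### Trivial Frobenius implies completely split -/

section Frob

variable {K L : Type*} [Field K] [Field L] [NumberField K] [NumberField L] [Algebra K L]
  [IsGalois K L]

/-- A finite field all of whose elements satisfy `x ^ q = x` has at most `q` elements. -/
theorem card_le_of_pow_eq_self {k : Type*} [Field k] [Fintype k] {q : ℕ} (hq : 1 < q)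
    (hx : ∀ x : k, x ^ q = x) : Fintype.card k ≤ q := by
  classical
  have hne : (Polynomial.X ^ q - Polynomial.X : Polynomial k) ≠ 0 :=
    FiniteField.X_pow_card_sub_X_ne_zero k hq
  have hdeg := FiniteField.X_pow_card_sub_X_natDegree_eq k hq
  have hsub : (Finset.univ : Finset k) ⊆
      (Polynomial.X ^ q - Polynomial.X : Polynomial k).roots.toFinset := by
    intro x _
    rw [Multiset.mem_toFinset, Polynomial.mem_roots hne, Polynomial.IsRoot.def]
    simp [hx x]
  calc Fintype.card k = (Finset.univ : Finset k).card := Finset.card_univ.symm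
    _ ≤ (Polynomial.X ^ q - Polynomial.X : Polynomial k).roots.toFinset.card :=
        Finset.card_le_card hsub
    _ ≤ Multiset.card (Polynomial.X ^ q - Polynomial.X : Polynomial k).roots :=
        Multiset.toFinset_card_le _
    _ ≤ (Polynomial.X ^ q - Polynomial.X : Polynomial k).natDegree := Polynomial.card_roots' _
    _ = q := hdeg

theorem two_le_absNorm_of_isPrime {F : Type*} [Field F] [NumberField F] (p : Ideal (𝓞 F))
    [p.IsPrime] (hp : p ≠ ⊥) : 2 ≤ absNorm p := by
  have h0 : absNorm p ≠ 0 := fun h => hp (absNorm_eq_zero_iff.mp h)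
  have h1 : absNorm p ≠ 1 := fun h => IsPrime.ne_top' (absNorm_eq_one_iff.mp h)
  omega

/-- If `1` is a Frobenius at `P` then `P` has residue degree one. -/
theorem inertiaDeg_eq_one_of_frob_one (P : Ideal (𝓞 L)) [P.IsPrime] (hP : P ≠ ⊥)
    (h1 : IsArithFrobAt (𝓞 K) (1 : L ≃ₐ[K] L) P) : P.inertiaDeg (𝓞 K) = 1 := by
  have hfin : Finite (𝓞 L ⧸ P) := Ideal.finiteQuotientOfFreeOfNeBot P hP
  have hmax : P.IsMaximal := Ideal.IsPrime.isMaximal inferInstance hP
  let _ : Field (𝓞 L ⧸ P) := Ideal.Quotient.field P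
  have := Fintype.ofFinite (𝓞 L ⧸ P)
  set q := Nat.card (𝓞 K ⧸ P.under (𝓞 K)) with hq
  -- every element of the residue field is a root of `X ^ q - X`
  have hx : ∀ x : 𝓞 L ⧸ P, x ^ q = x := by
    intro x
    obtain ⟨x, rfl⟩ := Ideal.Quotient.mk_surjective x
    have := h1.mk_apply x
    simpa using this.symm
  have hqN : absNorm (P.under (𝓞 K)) = q := by
    rw [Ideal.absNorm_apply, Submodule.cardQuot_apply]
  have hq2 : 2 ≤ q := by
    rw [← hqN]
    exact two_le_absNorm_of_isPrime _ (Ideal.under_ne_bot (𝓞 K) hP)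
  have hcard : Fintype.card (𝓞 L ⧸ P) ≤ q := card_le_of_pow_eq_self (by omega) hx
  have hPN : absNorm P = Fintype.card (𝓞 L ⧸ P) := by
    rw [Ideal.absNorm_apply, Submodule.cardQuot_apply, Nat.card_eq_fintype_card]
  have hpow := Ideal.absNorm_pow_inertiaDeg (P.under (𝓞 K)) P
  rw [hqN, hPN] at hpow
  have hf : 0 < P.inertiaDeg (𝓞 K) := P.inertiaDeg_pos (𝓞 K)
  by_contra hne
  have h2 : 2 ≤ P.inertiaDeg (𝓞 K) := by omega
  have : q ^ 2 ≤ q := (Nat.pow_le_pow_right (by omega) h2).trans (hpow.trans_le hcard)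
  nlinarith

/-- If every Frobenius at `P` is trivial, the prime below `P` splits completely. -/
theorem ncard_primesOver_eq_of_frob_trivial (p : Ideal (𝓞 K)) [p.IsPrime] (hp : p ≠ ⊥)
    (P : Ideal (𝓞 L)) [P.IsPrime] [P.LiesOver p]
    (h : ∀ σ : L ≃ₐ[K] L, IsArithFrobAt (𝓞 K) σ P → σ = 1) :
    (p.primesOver (𝓞 L)).ncard = Module.finrank K L := by
  have hP : P ≠ ⊥ := Ideal.ne_bot_of_liesOver_of_ne_bot hp P
  have hfin : Finite (𝓞 L ⧸ P) := Ideal.finiteQuotientOfFreeOfNeBot P hP
  obtain ⟨σ, hσ⟩ := IsArithFrobAt.exists_of_isInvariant (𝓞 K) (L ≃ₐ[K] L) P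
  have h1 : IsArithFrobAt (𝓞 K) (1 : L ≃ₐ[K] L) P := by
    rw [← h σ hσ]
    exact hσ
  have hinert : P.inertia (L ≃ₐ[K] L) = ⊥ := by
    rw [Subgroup.eq_bot_iff_forall]
    intro τ hτ
    apply h τ
    intro x
    have e1 := hτ x
    have e2 := h1 x
    have e3 : (MulSemiringAction.toAlgHom (𝓞 K) (𝓞 L) (1 : L ≃ₐ[K] L)) x = x := by simp
    rw [e3] at e2
    have := add_mem e1 e2
    convert this using 1
    simp
  have hf : P.inertiaDeg (𝓞 K) = 1 := inertiaDeg_eq_one_of_frob_one P hP h1
  have hmain := Ideal.ncard_primesOver_mul_card_inertia_mul_finrank (G := L ≃ₐ[K] L) p P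
  rw [hinert, hf, Subgroup.card_bot, mul_one, mul_one, IsGalois.card_aut_eq_finrank] at hmain
  exact hmain

end Frob

/-! ### Primes of prime norm and the theorem (NS) -/

section Rat

/-- The norm of a nonzero prime of `𝓞 ℚ` is a prime number. -/
theorem absNorm_prime_of_rat (p₀ : HeightOneSpectrum (𝓞 ℚ)) : (absNorm p₀.asIdeal).Prime := by
  have : NeZero p₀.asIdeal := ⟨p₀.ne_bot⟩
  have hℓ := Nat.absNorm_under_prime p₀.asIdeal
  have hmax : (under ℤ p₀.asIdeal).IsMaximal :=
    Ideal.IsPrime.isMaximal inferInstance (Ideal.under_ne_bot ℤ p₀.ne_bot)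
  have hle := ramificationIdx_mul_inertiaDeg_le (under ℤ p₀.asIdeal) (Q := p₀.asIdeal)
    ⟨p₀.isPrime, inferInstance⟩
  have hrank : Module.finrank ℤ (𝓞 ℚ) = 1 := by
    rw [RingOfIntegers.rank, Module.finrank_self]
  have he : 0 < p₀.asIdeal.ramificationIdx ℤ := p₀.asIdeal.ramificationIdx_pos ℤ
  have hf0 : 0 < p₀.asIdeal.inertiaDeg ℤ := p₀.asIdeal.inertiaDeg_pos ℤ
  have hf : p₀.asIdeal.inertiaDeg ℤ = 1 := by
    rw [hrank] at hle
    nlinarith
  have hpow := Ideal.absNorm_pow_inertiaDeg (under ℤ p₀.asIdeal) p₀.asIdeal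
  rw [hf, pow_one] at hpow
  rwa [← hpow]

end Rat

section Main

variable (K L : Type*) [Field K] [Field L] [NumberField K] [NumberField L] [Algebra K L]

/-- The primes of `K` of prime norm not dividing `m`. -/
def goodPrimes (m : ℕ) : Set (HeightOneSpectrum (𝓞 K)) :=
  {p | (absNorm p.asIdeal).Prime ∧ ¬ absNorm p.asIdeal ∣ m}

/-- The primes of `K` of norm at most `m`. -/
def smallPrimes (m : ℕ) : Set (HeightOneSpectrum (𝓞 K)) :=
  {p | absNorm p.asIdeal ≤ m}

theorem finite_smallPrimes (m : ℕ) : (smallPrimes K m).Finite := by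
  have h : smallPrimes K m = (fun p : HeightOneSpectrum (𝓞 K) => p.asIdeal) ⁻¹'
      {I : Ideal (𝓞 K) | absNorm I ≤ m} := rfl
  rw [h]
  exact Set.Finite.preimage (fun _ _ _ _ h => HeightOneSpectrum.ext h)
    (Ideal.finite_setOfPred_absNorm_le m)

/-- The primes of prime norm not dividing `m` carry all of the prime zeta function up to a
bounded error. -/
theorem primeZeta_le_goodPrimes {m : ℕ} (hm : m ≠ 0) {s : ℝ} (hs : 1 < s) :
    primeZeta K s ≤ (goodPrimes K m).primeIdealZetaSum s +
      (Module.finrank ℚ K * primeZeta ℚ 2 + (smallPrimes K m).ncard) := by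
  classical
  have key : ∀ p : HeightOneSpectrum (𝓞 K), ENNReal.ofReal (xP K s p) ≤
      (fun p₀ : HeightOneSpectrum (𝓞 ℚ) => ENNReal.ofReal (xP ℚ 2 p₀)) (below (R := 𝓞 ℚ) p) +
        ((goodPrimes K m).indicator (fun p => ENNReal.ofReal (xP K s p)) p +
          (smallPrimes K m).indicator (fun p => ENNReal.ofReal (xP K s p)) p) := by
    intro p
    beta_reduce
    rcases xP_le_of_below ℚ K hs.le p with ⟨h1, -⟩ | ⟨-, h2⟩
    · have hprime : (absNorm p.asIdeal).Prime := by
        rw [h1]
        exact absNorm_prime_of_rat _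
      by_cases hdvd : absNorm p.asIdeal ∣ m
      · have hmem : p ∈ smallPrimes K m := Nat.le_of_dvd (Nat.pos_of_ne_zero hm) hdvd
        rw [Set.indicator_of_mem hmem]
        exact le_add_self.trans le_add_self
      · have hmem : p ∈ goodPrimes K m := ⟨hprime, hdvd⟩
        rw [Set.indicator_of_mem hmem]
        exact le_self_add.trans le_add_self
    · exact (ENNReal.ofReal_le_ofReal h2).trans le_self_add
  have h1 := ENNReal.tsum_le_tsum key
  rw [ENNReal.tsum_add, ENNReal.tsum_add, tsum_ofReal_xP K hs, tsum_indicator_ofReal K _ hs,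
    tsum_indicator_ofReal K _ hs] at h1
  have h2 := tsum_comp_le_mul_tsum (below (R := 𝓞 ℚ) (S := 𝓞 K)) _ (fun p => ncard_fiber_le p)
    (fun p₀ : HeightOneSpectrum (𝓞 ℚ) => ENNReal.ofReal (xP ℚ 2 p₀))
  rw [tsum_ofReal_xP ℚ one_lt_two, finrank_int] at h2
  have h3 := h1.trans (add_le_add_left h2 _)
  have hA := NumberField.Set.primeIdealZetaSum_nonneg (goodPrimes K m) s
  have hB := NumberField.Set.primeIdealZetaSum_nonneg (smallPrimes K m) s
  have hC := primeZeta_nonneg ℚ 2
  rw [← ENNReal.ofReal_natCast, ← ENNReal.ofReal_mul (Nat.cast_nonneg _),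
    ← ENNReal.ofReal_add hA hB,
    ← ENNReal.ofReal_add (mul_nonneg (Nat.cast_nonneg _) hC) (add_nonneg hA hB)] at h3
  have h4 := (ENNReal.ofReal_le_ofReal_iff (add_nonneg (mul_nonneg (Nat.cast_nonneg _) hC)
    (add_nonneg hA hB))).mp h3
  have h5 := NumberField.Set.primeIdealZetaSum_le_card_of_finite (finite_smallPrimes K m)
    (by linarith : (0 : ℝ) ≤ s)
  linarith


/-- If all Frobenius elements at primes above good primes are trivial, good primes split
completely. -/
theorem goodPrimes_subset_splitPrimes [IsGalois K L] (m : ℕ)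
    (H : ∀ (q : Ideal (𝓞 K)) (P : Ideal (𝓞 L)) (σ : L ≃ₐ[K] L), q.IsPrime →
      (absNorm q).Prime → ¬ (absNorm q ∣ m) → P.IsPrime → P.under (𝓞 K) = q →
        IsArithFrobAt (𝓞 K) σ P → σ = 1) :
    goodPrimes K m ⊆ splitPrimes K L := by
  intro p hp
  obtain ⟨⟨P, hP1, hP2⟩⟩ := p.asIdeal.nonempty_primesOver (S := 𝓞 L)
  exact ncard_primesOver_eq_of_frob_trivial p.asIdeal p.ne_bot P
    (fun σ hσ => H p.asIdeal P σ p.isPrime hp.1 hp.2 hP1 hP2.over.symm hσ)

/-- **(NS)**: in a nontrivial Galois extension of number fields, for every `m ≠ 0` there is a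
prime `q` of `K` of prime norm not dividing `m` and a prime `P` of `L` above it with a nontrivial
Frobenius. -/
theorem exists_frob_ne_one [IsGalois K L] (hn : Module.finrank K L ≠ 1) (m : ℕ) (hm : m ≠ 0) :
    ∃ (q : Ideal (𝓞 K)) (P : Ideal (𝓞 L)) (σ : L ≃ₐ[K] L),
      q.IsPrime ∧ (absNorm q).Prime ∧ ¬ (absNorm q ∣ m) ∧ P.IsPrime ∧
        P.under (𝓞 K) = q ∧ IsArithFrobAt (𝓞 K) σ P ∧ σ ≠ 1 := by
  by_contra Hcon
  have H : ∀ (q : Ideal (𝓞 K)) (P : Ideal (𝓞 L)) (σ : L ≃ₐ[K] L), q.IsPrime →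
      (absNorm q).Prime → ¬ (absNorm q ∣ m) → P.IsPrime → P.under (𝓞 K) = q →
        IsArithFrobAt (𝓞 K) σ P → σ = 1 := by
    intro q P σ h1 h2 h3 h4 h5 h6
    by_contra h7
    exact Hcon ⟨q, P, σ, h1, h2, h3, h4, h5, h6, h7⟩
  have hsub := goodPrimes_subset_splitPrimes K L m H
  obtain ⟨BK, hBK⟩ := primeZeta_bound K
  obtain ⟨BL, hBL⟩ := primeZeta_bound L
  have hn2 : (2 : ℝ) ≤ Module.finrank K L := by
    have : 0 < Module.finrank K L := Module.finrank_pos
    exact_mod_cast (by omega : 2 ≤ Module.finrank K L)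
  set C : ℝ := BK + (Module.finrank ℚ K * primeZeta ℚ 2 + (smallPrimes K m).ncard) with hC
  set M : ℝ := |Module.finrank K L * C + BL| + 1 with hM
  have hM0 : 0 < M := by positivity
  set s : ℝ := 1 + Real.exp (-M) with hs
  have hs1 : 1 < s := by
    have := Real.exp_pos (-M)
    linarith
  have hs2 : s ≤ 2 := by
    have : Real.exp (-M) ≤ 1 := Real.exp_le_one_iff.mpr (by linarith)
    linarith
  have hlog : Real.log (1 / (s - 1)) = M := by
    rw [hs, add_sub_cancel_left, one_div, ← Real.exp_neg, neg_neg, Real.log_exp]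
  have h1 := (abs_le.mp (hBK s ⟨hs1, hs2⟩)).1
  have h2 := (abs_le.mp (hBL s ⟨hs1, hs2⟩)).2
  have h3 := primeZeta_le_goodPrimes K hm hs1
  have h4 := mul_primeIdealZetaSum_le_primeZeta K L _ hsub hs1
  rw [hlog] at h1 h2
  have h5 : M - C ≤ (goodPrimes K m).primeIdealZetaSum s := by
    rw [hC]
    linarith
  have h6 : Module.finrank K L * (M - C) ≤ M + BL :=
    (mul_le_mul_of_nonneg_left h5 (by linarith)).trans (by linarith)
  have h7 : Module.finrank K L * C + BL < M := by
    rw [hM]
    linarith [le_abs_self (Module.finrank K L * C + BL)]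
  nlinarith

end Main

end

end Fermat.Agent.CFT.NotAllSplit
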