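/-
Program E (S14), piece C4h-5 (helper23): the per-subgroup theorem of the crossing argument.

`K ⊆ L ⊆ Ω` number fields, `L/K` Galois of prime degree `p`, unramified everywhere, `Ω/K` abelian,
`ζ ∈ Ω` a primitive `m`-th root of unity (`m` squarefree), `K` totally complex.
For a subgroup `H ≤ Gal(Ω/K)` with
* `(hsurj)` restriction `H → Gal(L/K)` onto, and
* `(hsup)`  `fixedField H ⊔ K(ζ) = ⊤` (i.e. `Ω = Φ(ζ)`),
the submonoid `Y_Φ = normSub K Φ m` (`Φ = fixedField H`) is good for `(artin K L, π)` and contains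
an element with nontrivial Artin symbol.
-/
import Mathlib
import Fermat.Agent.CFT.CrossFields
import Fermat.Agent.CFT.CycloKills
import Fermat.Agent.CFT.KernelFormMain
import Fermat.Agent.CFT.ArtinNormBridge
import Fermat.Agent.CFT.NotAllSplit

set_option autoImplicit false
set_option linter.unusedSectionVars false

open NumberField IntermediateField

namespace Fermat.Agent.CFT.CrossGood

open Fermat.Agent.CFT.ArtinMap Fermat.Agent.CFT.CrossFields Fermat.Agent.CFT.PerField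
  Fermat.Agent.CFT.FrobFunct Fermat.Agent.CFT.CrossAssembly

section General

variable {K Ω : Type} [Field K] [Field Ω] [NumberField K] [NumberField Ω] [Algebra K Ω]

/-- `Gal(Ω/Φ)` is commutative when `Gal(Ω/K)` is. -/
theorem isMulCommutative_top (Φ : IntermediateField K Ω) [IsMulCommutative (Ω ≃ₐ[K] Ω)] :
    IsMulCommutative (Ω ≃ₐ[Φ] Ω) := by
  refine IsMulCommutative.of_comm fun a b => ?_
  apply AlgEquiv.restrictScalars_injective K
  have h : ∀ x y : Ω ≃ₐ[Φ] Ω, (x * y).restrictScalars K =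
      x.restrictScalars K * y.restrictScalars K := fun _ _ => rfl
  rw [h, h]
  exact mul_comm' _ _

/-- If `Φ ⊔ K(ζ) = ⊤` then `Ω = Φ(ζ)` is the `m`-th cyclotomic extension of `Φ`. -/
theorem isCyclotomicExtension_of_sup_eq_top (Φ : IntermediateField K Ω) {m : ℕ} [NeZero m]
    {ζ : Ω} (hζ : IsPrimitiveRoot ζ m) (hsup : Φ ⊔ K⟮ζ⟯ = ⊤) :
    IsCyclotomicExtension {m} Φ Ω := by
  rw [IsCyclotomicExtension.iff_singleton]
  refine ⟨⟨ζ, hζ⟩, fun x => ?_⟩
  set S : Set Ω := {b | b ^ m = 1} with hS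
  have halg : ∀ y ∈ S, IsAlgebraic Φ y := fun y _ => Algebra.IsAlgebraic.isAlgebraic y
  rw [← IntermediateField.adjoin_toSubalgebra_of_isAlgebraic halg, IntermediateField.mem_toSubalgebra]
  have htop : (IntermediateField.adjoin Φ S).restrictScalars K = ⊤ := by
    rw [eq_top_iff, ← hsup, sup_le_iff]
    constructor
    · intro y hy
      rw [IntermediateField.mem_restrictScalars]
      exact (IntermediateField.adjoin Φ S).algebraMap_mem ⟨y, hy⟩
    · rw [IntermediateField.adjoin_le_iff]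
      rintro y hy
      rw [Set.mem_singleton_iff.mp hy]
      change ζ ∈ IntermediateField.adjoin Φ S
      exact IntermediateField.subset_adjoin Φ S hζ.pow_eq_one
  have : x ∈ (IntermediateField.adjoin Φ S).restrictScalars K := by rw [htop]; trivial
  exact this

end General

section Main

variable {K L Ω : Type} [Field K] [Field L] [Field Ω] [NumberField K] [NumberField L]
  [NumberField Ω] [Algebra K L] [Algebra L Ω] [Algebra K Ω] [IsScalarTower K L Ω]
  [IsGalois K L] [IsGalois K Ω] [IsMulCommutative (L ≃ₐ[K] L)] [IsMulCommutative (Ω ≃ₐ[K] Ω)]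
  [IsTotallyComplex K]

/-- The under-ideal of a nonzero ideal in an extension of rings of integers is nonzero. -/
theorem under_ne_bot' {A B : Type*} [Field A] [Field B] [NumberField A] [NumberField B]
    [Algebra A B] {Q : Ideal (𝓞 B)} (hQ : Q ≠ ⊥) : Q.under (𝓞 A) ≠ ⊥ := by
  intro h
  have h1 : ((Ideal.absNorm Q : ℕ) : 𝓞 A) ∈ Q.under (𝓞 A) := by
    rw [Ideal.under_def, Ideal.mem_comap, map_natCast]
    exact Ideal.absNorm_mem Q
  rw [h, Ideal.mem_bot] at h1
  have h2 : Ideal.absNorm Q = 0 := by exact_mod_cast h1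
  exact hQ (Ideal.absNorm_eq_zero_iff.mp h2)

theorem crossGood {p : ℕ} (hp : p.Prime) (hfin : Module.finrank K L = p)
    (hunr : ∀ P : Ideal (𝓞 L), P.IsPrime → P ≠ ⊥ → P.inertia (L ≃ₐ[K] L) = ⊥)
    {m : ℕ} [NeZero m] (hsq : Squarefree m) {ζ : Ω} (hζ : IsPrimitiveRoot ζ m)
    (H : Subgroup (Ω ≃ₐ[K] Ω))
    (hsurj : ∀ τ : L ≃ₐ[K] L, ∃ γ ∈ H, AlgEquiv.restrictNormalHom L γ = τ)
    (hsup : IntermediateField.fixedField H ⊔ K⟮ζ⟯ = ⊤)
    {Q : Type*} [CommGroup Q] (π : Ideal (𝓞 K) → Q)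
    (hπmul : ∀ I J : Ideal (𝓞 K), I ≠ ⊥ → J ≠ ⊥ → π (I * J) = π I * π J)
    (hπprinc : ∀ a : 𝓞 K, a ≠ 0 → π (Ideal.span {a}) = 1)
    (hπnorm : ∀ A : Ideal (𝓞 L), A ≠ ⊥ → π (Ideal.relNorm (𝓞 K) A) = 1) :
    IsGood (artin K L) π (normSub K (IntermediateField.fixedField H) m) ∧
      ∃ b₀ ∈ normSub K (IntermediateField.fixedField H) m, artin K L b₀ ≠ 1 := by
  set Φ : IntermediateField K Ω := IntermediateField.fixedField H with hΦ
  have hm0 : m ≠ 0 := NeZero.ne m
  -- instances over `Φ`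
  haveI : IsMulCommutative (Ω ≃ₐ[Φ] Ω) := isMulCommutative_top Φ
  haveI : IsCyclotomicExtension {m} Φ Ω := isCyclotomicExtension_of_sup_eq_top Φ hζ hsup
  haveI : IsTotallyComplex Φ := isTotallyComplex_of_algebra K Φ
  -- degree
  have hcard : Nat.card (L ≃ₐ[K] L) = p := by rw [IsGalois.card_aut_eq_finrank, hfin]
  have hnt : Nontrivial (L ≃ₐ[K] L) := by
    haveI : Finite (L ≃ₐ[K] L) := Nat.finite_of_card_ne_zero (by rw [hcard]; exact hp.ne_zero)
    rw [← Finite.one_lt_card_iff_nontrivial, hcard]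
    exact hp.one_lt
  obtain ⟨τ, hτ⟩ := exists_ne (1 : L ≃ₐ[K] L)
  obtain ⟨γ, hγH, hγτ⟩ := hsurj τ
  have hγΦ : γ ∈ Φ.fixingSubgroup := by
    rw [hΦ, IntermediateField.fixingSubgroup_fixedField]; exact hγH
  have hγL : γ.restrictNormal L ≠ 1 := by
    intro h
    apply hτ
    rw [← hγτ]
    exact h
  have hdeg : Module.finrank Φ (Ncomp L Φ) = p := by
    rw [finrank_Ncomp_of_prime Φ (hfin ▸ hp) hγΦ hγL, hfin]
  -- unramified base change
  have hunrN : ∀ P : Ideal (𝓞 (Ncomp L Φ)), P.IsPrime → P ≠ ⊥ →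
      P.inertia ((Ncomp L Φ) ≃ₐ[Φ] (Ncomp L Φ)) = ⊥ := by
    intro P hP hP0
    haveI := hP
    exact inertia_eq_bot_of_res_injective (K := K) (L := L) (resHom_injective Φ) P
      (hunr _ (Ideal.IsPrime.under (𝓞 L) P) (under_ne_bot' hP0))
  -- (NS)
  have hNS : Fermat.Agent.S14.ArtinGlue.NotAllSplitShape Φ (Ncomp L Φ) := fun n hn =>
    NotAllSplit.exists_frob_ne_one Φ (Ncomp L Φ) (by rw [hdeg]; exact hp.ne_one) n hn
  -- (i)
  have hi : ∀ g : 𝓞 Φ, g ≠ 0 → Ideal.span {g} ⊔ Ideal.span {(m : 𝓞 Φ)} = ⊤ →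
      artin Φ (Ncomp L Φ) (Ideal.span {g}) = 1 := by
    intro g hg hgm
    refine CycloKills.artin_span_singleton_eq_one Ω hsq hunrN g hg ?_
    intro P hP hmP hgP
    apply hP.ne_top
    rw [eq_top_iff, ← hgm]
    exact sup_le ((Ideal.span_singleton_le_iff_mem _).mpr hgP)
      ((Ideal.span_singleton_le_iff_mem _).mpr hmP)
  have hker : KernelForm Φ (Ncomp L Φ) m :=
    KernelFormMain.kernelForm Φ (Ncomp L Φ) hp hdeg hunrN hm0 hi hNS
  have hfun : Functorial K L Φ (Ncomp L Φ) := ArtinNormBridge.functorial_of_unramified hunr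
  have hinj := resHom_injective (L := L) Φ
  exact ⟨isGood_normSub m π hπmul hπprinc hπnorm hfun hinj hker,
    exists_mem_normSub_artin_ne_one m hfun hinj hunrN (hNS m hm0)⟩

end Main

end Fermat.Agent.CFT.CrossGood
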