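/-
Program E (S14), piece C4b: the group-theoretic and Galois-theoretic core of Artin's
"crossing with a cyclotomic extension" argument, in the prime-degree form.

* `Fermat.Agent.CFT.CrossGroup.closure_pair_inf_ker_eq_bot` : the group lemma.
* `...fixedField_sup_eq_top` , `...inf_fixedField_eq_bot` : Galois correspondence for the
  crossing field `F = fixedField H`.
-/
import Mathlib

set_option autoImplicit false

namespace Fermat.Agent.CFT.CrossGroup

open IntermediateField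

section Group

variable {Γ G₁ G₂ : Type*} [Group Γ] [Group G₁] [Group G₂]

/-- Every element of the closure of two commuting elements is `g₁ ^ x * g₂ ^ y`. -/
theorem mem_closure_pair_of_commute {g₁ g₂ : Γ} (hc : Commute g₁ g₂) {h : Γ}
    (hh : h ∈ Subgroup.closure ({g₁, g₂} : Set Γ)) :
    ∃ x y : ℤ, h = g₁ ^ x * g₂ ^ y := by
  induction hh using Subgroup.closure_induction with
  | mem z hz =>
    rcases hz with rfl | rfl
    · exact ⟨1, 0, by simp⟩
    · exact ⟨0, 1, by simp⟩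
  | one => exact ⟨0, 0, by simp⟩
  | mul a b _ _ ha hb =>
    obtain ⟨x, y, rfl⟩ := ha
    obtain ⟨x', y', rfl⟩ := hb
    refine ⟨x + x', y + y', ?_⟩
    have h1 : Commute (g₂ ^ y) (g₁ ^ x') := (hc.zpow_zpow x' y).symm
    calc g₁ ^ x * g₂ ^ y * (g₁ ^ x' * g₂ ^ y')
        = g₁ ^ x * (g₂ ^ y * g₁ ^ x') * g₂ ^ y' := by group
      _ = g₁ ^ x * (g₁ ^ x' * g₂ ^ y) * g₂ ^ y' := by rw [h1.eq]
      _ = g₁ ^ (x + x') * g₂ ^ (y + y') := by rw [zpow_add, zpow_add]; group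
  | inv a _ ha =>
    obtain ⟨x, y, rfl⟩ := ha
    refine ⟨-x, -y, ?_⟩
    have h1 : Commute (g₁ ^ x) (g₂ ^ y) := hc.zpow_zpow x y
    rw [mul_inv_rev, zpow_neg, zpow_neg]
    exact ((h1.inv_inv).eq).symm

/-- **Group lemma of the crossing argument.**  Let `r₁ : Γ → G₁`, `r₂ : Γ → G₂` be jointly
injective homomorphisms, `g₁ g₂ : Γ` commuting elements whose images in `G₁` are killed by `p`,
and assume the images `τ = r₂ g₁`, `φ = r₂ g₂` in `G₂` satisfy
`τ ^ x * φ ^ y = 1 → p ∣ x ∧ p ∣ y`.  Then the subgroup generated by `g₁, g₂` meets `ker r₂`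
trivially. -/
theorem closure_pair_inf_ker_eq_bot (r₁ : Γ →* G₁) (r₂ : Γ →* G₂)
    (hinj : ∀ g : Γ, r₁ g = 1 → r₂ g = 1 → g = 1)
    {g₁ g₂ : Γ} (hc : Commute g₁ g₂) (p : ℕ)
    (h₁ : r₁ g₁ ^ p = 1) (h₂ : r₁ g₂ ^ p = 1)
    (hexp : ∀ x y : ℤ, r₂ g₁ ^ x * r₂ g₂ ^ y = 1 → (p : ℤ) ∣ x ∧ (p : ℤ) ∣ y) :
    Subgroup.closure ({g₁, g₂} : Set Γ) ⊓ r₂.ker = ⊥ := by
  rw [eq_bot_iff]
  rintro h ⟨hh, hk⟩
  rw [Subgroup.mem_bot]
  obtain ⟨x, y, rfl⟩ := mem_closure_pair_of_commute hc hh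
  have hk' : r₂ g₁ ^ x * r₂ g₂ ^ y = 1 := by
    have := MonoidHom.mem_ker.mp hk
    simpa [map_mul, map_zpow] using this
  obtain ⟨⟨a, rfl⟩, ⟨b, rfl⟩⟩ := hexp x y hk'
  apply hinj
  · rw [map_mul, map_zpow, map_zpow, zpow_mul, zpow_mul, zpow_natCast, zpow_natCast, h₁, h₂]
    simp
  · rw [map_mul, map_zpow, map_zpow]; exact hk'

/-- The subgroup generated by `g₁, g₂` surjects onto `G₁` under `r₁` as soon as `r₁ g₁`
generates `G₁`. -/
theorem exists_mem_closure_pair_map_eq (r₁ : Γ →* G₁) {g₁ g₂ : Γ}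
    (hgen : ∀ s : G₁, s ∈ Subgroup.zpowers (r₁ g₁)) (s : G₁) :
    ∃ h ∈ Subgroup.closure ({g₁, g₂} : Set Γ), r₁ h = s := by
  obtain ⟨k, rfl⟩ := Subgroup.mem_zpowers_iff.mp (hgen s)
  refine ⟨g₁ ^ k, Subgroup.zpow_mem _ (Subgroup.subset_closure (by simp)) k, ?_⟩
  rw [map_zpow]

end Group

section Galois

variable {K Ω : Type*} [Field K] [Field Ω] [Algebra K Ω] [FiniteDimensional K Ω] [IsGalois K Ω]

/-- If `H` meets the fixing subgroup of `E` trivially, then `fixedField H ⊔ E = ⊤`. -/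
theorem fixedField_sup_eq_top (H : Subgroup Gal(Ω/K)) (E : IntermediateField K Ω)
    (h : H ⊓ E.fixingSubgroup = ⊥) : fixedField H ⊔ E = ⊤ := by
  have h1 : (fixedField H ⊔ E).fixingSubgroup = (⊤ : IntermediateField K Ω).fixingSubgroup := by
    rw [fixingSubgroup_sup, fixingSubgroup_fixedField, h, fixingSubgroup_top]
  have h2 := congrArg fixedField h1
  rwa [IsGalois.fixedField_fixingSubgroup, IsGalois.fixedField_fixingSubgroup] at h2

/-- If every element of `Gal(Ω/K)` agrees on `L` with some element of `H`, then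
`L ⊓ fixedField H = ⊥`. -/
theorem inf_fixedField_eq_bot (H : Subgroup Gal(Ω/K)) (L : IntermediateField K Ω)
    (h : ∀ g : Gal(Ω/K), ∃ h ∈ H, ∀ x ∈ L, h x = g x) : L ⊓ fixedField H = ⊥ := by
  rw [eq_bot_iff]
  intro x hx
  obtain ⟨hxL, hxH⟩ := IntermediateField.mem_inf.mp hx
  rw [IsGalois.mem_bot_iff_fixed]
  intro g
  obtain ⟨h', hh', hg⟩ := h g
  rw [← hg x hxL]
  exact (mem_fixedField_iff H x).mp hxH h' hh'

/-- Restriction version of `inf_fixedField_eq_bot` for a normal intermediate field `L`. -/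
theorem inf_fixedField_eq_bot_of_restrict (H : Subgroup Gal(Ω/K)) (L : IntermediateField K Ω)
    [Normal K L]
    (h : ∀ s : Gal(L/K), ∃ h ∈ H, AlgEquiv.restrictNormalHom L h = s) :
    L ⊓ fixedField H = ⊥ := by
  refine inf_fixedField_eq_bot H L fun g => ?_
  obtain ⟨h', hh', hs⟩ := h (AlgEquiv.restrictNormalHom L g)
  refine ⟨h', hh', fun x hx => ?_⟩
  have := congrArg (fun s : Gal(L/K) => ((s ⟨x, hx⟩ : L) : Ω)) hs
  simpa [AlgEquiv.restrictNormalHom_apply] using this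

omit [IsGalois K Ω] in
/-- The fixing subgroup of the compositum `fixedField H ⊔ L` is `H ⊓ L.fixingSubgroup`
(recorded for the consumer). -/
theorem fixingSubgroup_fixedField_sup (H : Subgroup Gal(Ω/K)) (L : IntermediateField K Ω) :
    (fixedField H ⊔ L).fixingSubgroup = H ⊓ L.fixingSubgroup := by
  rw [fixingSubgroup_sup, fixingSubgroup_fixedField]

end Galois

end Fermat.Agent.CFT.CrossGroup
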