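/-
Program E (S14), piece C4 (G1)–(G4): the subgroups `H`, `H'` of `Gal(Ω/K)`, `Ω = L(ζ_{qq'})`, used in
the crossing argument for Artin reciprocity.

`Hsub hζ σ u` is the set of `γ ∈ Gal(Ω/K)` whose pair (restriction to `L`, character on
`ζ_q = ζ ^ q'`) is a power of `(σ, u)`; `Hsub' hζ σ' u'` is the same with the character on
`ζ_{q'} = ζ ^ q`.

* (G1) the Artin symbol of `Ω/K` at a prime `𝔞` lies in `Hsub hζ (artin K L 𝔞) (N𝔞 mod q)`;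
* (G2) an element of `Hsub hζ σ u` fixing `ζ` restricts to `1` on `L` when `σ ^ p = 1` and
  `p ∣ orderOf u` (hence is `1`: `eq_one_of_mem_Hsub`; field form: `Ω = Φ(ζ)` for
  `Φ = fixedField H`, `fixedField_sup_adjoin_eq_top`);
* (G3) if `Gal(L/K)` has prime order and `σ, σ' ≠ 1`, every `τ ∈ Gal(L/K)` is the restriction of an
  element of `Hsub hζ σ u ⊓ Hsub' hζ σ' u'`;
  (field form: `L ∩ fixedField (H ⊓ H') = K`, `Lrange_inf_fixedField_inf_eq_bot`);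
* (G4) `Gal(Ω / fixedField H) = H`.
-/
import Mathlib
import Fermat.Agent.CFT.FrobOmega
import Fermat.Agent.CFT.CrossGroup

set_option autoImplicit false
set_option linter.unusedSectionVars false

namespace Fermat.Agent.CFT.CrossSubgroups

open NumberField IntermediateField
open scoped Pointwise
open Fermat.Agent.CFT.CycloDisjoint Fermat.Agent.CFT.CycloTriple Fermat.Agent.CFT.ArtinMap
  Fermat.Agent.CFT.FrobOmega

section Triple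

variable {K L Ω : Type} [Field K] [Field L] [Field Ω] [NumberField K] [NumberField L]
  [NumberField Ω] [Algebra K L] [Algebra L Ω] [Algebra K Ω] [IsScalarTower K L Ω]
  {q q' : ℕ} [NeZero q] [NeZero q'] [IsCyclotomicExtension {q * q'} L Ω] {ζ : Ω}
  [IsGalois K L]

/-- The subgroup of `Gal(Ω/K)` of the `γ` with `(γ|_L, χ_q γ) ∈ ⟨(σ, u)⟩`. -/
noncomputable def Hsub (hζ : IsPrimitiveRoot ζ (q * q')) (σ : L ≃ₐ[K] L) (u : (ZMod q)ˣ) :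
    Subgroup (Ω ≃ₐ[K] Ω) :=
  (Subgroup.zpowers (σ, u)).comap
    ((AlgEquiv.restrictNormalHom L).prod ((isPrimitiveRoot_fst hζ).autToPow K))

/-- The subgroup of `Gal(Ω/K)` of the `γ` with `(γ|_L, χ_{q'} γ) ∈ ⟨(σ', u')⟩`. -/
noncomputable def Hsub' (hζ : IsPrimitiveRoot ζ (q * q')) (σ' : L ≃ₐ[K] L) (u' : (ZMod q')ˣ) :
    Subgroup (Ω ≃ₐ[K] Ω) :=
  (Subgroup.zpowers (σ', u')).comap
    ((AlgEquiv.restrictNormalHom L).prod ((isPrimitiveRoot_snd hζ).autToPow K))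

theorem mem_Hsub (hζ : IsPrimitiveRoot ζ (q * q')) {σ : L ≃ₐ[K] L} {u : (ZMod q)ˣ}
    {γ : Ω ≃ₐ[K] Ω} :
    γ ∈ Hsub hζ σ u ↔ ∃ k : ℤ, AlgEquiv.restrictNormalHom L γ = σ ^ k ∧
      (isPrimitiveRoot_fst hζ).autToPow K γ = u ^ k := by
  rw [Hsub, Subgroup.mem_comap, Subgroup.mem_zpowers_iff]
  constructor
  · rintro ⟨k, hk⟩
    exact ⟨k, (congrArg Prod.fst hk).symm, (congrArg Prod.snd hk).symm⟩
  · rintro ⟨k, h1, h2⟩
    exact ⟨k, Prod.ext h1.symm h2.symm⟩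

theorem mem_Hsub' (hζ : IsPrimitiveRoot ζ (q * q')) {σ' : L ≃ₐ[K] L} {u' : (ZMod q')ˣ}
    {γ : Ω ≃ₐ[K] Ω} :
    γ ∈ Hsub' hζ σ' u' ↔ ∃ k : ℤ, AlgEquiv.restrictNormalHom L γ = σ' ^ k ∧
      (isPrimitiveRoot_snd hζ).autToPow K γ = u' ^ k := by
  rw [Hsub', Subgroup.mem_comap, Subgroup.mem_zpowers_iff]
  constructor
  · rintro ⟨k, hk⟩
    exact ⟨k, (congrArg Prod.fst hk).symm, (congrArg Prod.snd hk).symm⟩
  · rintro ⟨k, h1, h2⟩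
    exact ⟨k, Prod.ext h1.symm h2.symm⟩

/-- An automorphism fixing `ζ` has trivial character on `ζ_q = ζ ^ q'`. -/
theorem autToPow_fst_eq_one_of_fix (hζ : IsPrimitiveRoot ζ (q * q')) {γ : Ω ≃ₐ[K] Ω}
    (hfix : γ ζ = ζ) : (isPrimitiveRoot_fst hζ).autToPow K γ = 1 := by
  apply Units.ext
  rw [Units.val_one, ← Nat.cast_one (R := ZMod q)]
  apply CycloRecip.autToPow_eq_of_apply_eq
  rw [map_pow, hfix, pow_one]

/-- An automorphism fixing `ζ` has trivial character on `ζ_{q'} = ζ ^ q`. -/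
theorem autToPow_snd_eq_one_of_fix (hζ : IsPrimitiveRoot ζ (q * q')) {γ : Ω ≃ₐ[K] Ω}
    (hfix : γ ζ = ζ) : (isPrimitiveRoot_snd hζ).autToPow K γ = 1 := by
  apply Units.ext
  rw [Units.val_one, ← Nat.cast_one (R := ZMod q')]
  apply CycloRecip.autToPow_eq_of_apply_eq
  rw [map_pow, hfix, pow_one]

/-- Abstract form of (G2): in a group, `σ ^ p = 1`, `p ∣ orderOf u` and `u ^ k = 1` give
`σ ^ k = 1`. -/
theorem zpow_eq_one_of_dvd_orderOf {G U : Type*} [Group G] [Group U] {σ : G} {u : U} {p : ℕ}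
    (hσ : σ ^ p = 1) (hu : p ∣ orderOf u) {k : ℤ} (hk : u ^ k = 1) : σ ^ k = 1 := by
  have h1 : (orderOf u : ℤ) ∣ k := orderOf_dvd_iff_zpow_eq_one.mpr hk
  have h2 : (p : ℤ) ∣ k := (Int.natCast_dvd_natCast.mpr hu).trans h1
  obtain ⟨c, rfl⟩ := h2
  rw [zpow_mul, zpow_natCast, hσ, one_zpow]

/-- **(G2)** An element of `Hsub hζ σ u` fixing `ζ` is trivial on `L`, when `σ ^ p = 1` and
`p ∣ orderOf u`. -/
theorem restrict_eq_one_of_mem_Hsub (hζ : IsPrimitiveRoot ζ (q * q')) {σ : L ≃ₐ[K] L}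
    {u : (ZMod q)ˣ} {p : ℕ} (hσ : σ ^ p = 1) (hu : p ∣ orderOf u) {γ : Ω ≃ₐ[K] Ω}
    (hγ : γ ∈ Hsub hζ σ u) (hfix : γ ζ = ζ) : AlgEquiv.restrictNormalHom L γ = 1 := by
  obtain ⟨k, h1, h2⟩ := (mem_Hsub hζ).mp hγ
  rw [autToPow_fst_eq_one_of_fix hζ hfix] at h2
  rw [h1]
  exact zpow_eq_one_of_dvd_orderOf hσ hu h2.symm

/-- **(G2)** for `Hsub'`. -/
theorem restrict_eq_one_of_mem_Hsub' (hζ : IsPrimitiveRoot ζ (q * q')) {σ' : L ≃ₐ[K] L}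
    {u' : (ZMod q')ˣ} {p : ℕ} (hσ : σ' ^ p = 1) (hu : p ∣ orderOf u') {γ : Ω ≃ₐ[K] Ω}
    (hγ : γ ∈ Hsub' hζ σ' u') (hfix : γ ζ = ζ) : AlgEquiv.restrictNormalHom L γ = 1 := by
  obtain ⟨k, h1, h2⟩ := (mem_Hsub' hζ).mp hγ
  rw [autToPow_snd_eq_one_of_fix hζ hfix] at h2
  rw [h1]
  exact zpow_eq_one_of_dvd_orderOf hσ hu h2.symm

/-- (G2), strong form: an element of `Hsub hζ σ u` fixing `ζ` is `1`. -/
theorem eq_one_of_mem_Hsub (hcop : q.Coprime q') (hζ : IsPrimitiveRoot ζ (q * q'))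
    (hm : Nat.Coprime (q * q') (discr L).natAbs) {σ : L ≃ₐ[K] L}
    {u : (ZMod q)ˣ} {p : ℕ} (hσ : σ ^ p = 1) (hu : p ∣ orderOf u) {γ : Ω ≃ₐ[K] Ω}
    (hγ : γ ∈ Hsub hζ σ u) (hfix : γ ζ = ζ) : γ = 1 :=
  eq_one_of_triple (K := K) (L := L) hcop hζ hm γ (restrict_eq_one_of_mem_Hsub hζ hσ hu hγ hfix)
    (autToPow_fst_eq_one_of_fix hζ hfix) (autToPow_snd_eq_one_of_fix hζ hfix)

/-- (G2), strong form for `Hsub'`. -/
theorem eq_one_of_mem_Hsub' (hcop : q.Coprime q') (hζ : IsPrimitiveRoot ζ (q * q'))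
    (hm : Nat.Coprime (q * q') (discr L).natAbs) {σ' : L ≃ₐ[K] L}
    {u' : (ZMod q')ˣ} {p : ℕ} (hσ : σ' ^ p = 1) (hu : p ∣ orderOf u') {γ : Ω ≃ₐ[K] Ω}
    (hγ : γ ∈ Hsub' hζ σ' u') (hfix : γ ζ = ζ) : γ = 1 :=
  eq_one_of_triple (K := K) (L := L) hcop hζ hm γ (restrict_eq_one_of_mem_Hsub' hζ hσ hu hγ hfix)
    (autToPow_fst_eq_one_of_fix hζ hfix) (autToPow_snd_eq_one_of_fix hζ hfix)

/-- **(G3)** If `Gal(L/K)` has prime order and `σ, σ' ≠ 1`, then every `τ ∈ Gal(L/K)` is the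
restriction of an element of `Hsub hζ σ u ⊓ Hsub' hζ σ' u'`. -/
theorem exists_mem_inf_restrict (hcop : q.Coprime q') (hζ : IsPrimitiveRoot ζ (q * q'))
    (hm : Nat.Coprime (q * q') (discr L).natAbs) {p : ℕ} (hp : p.Prime)
    (hcard : Nat.card (L ≃ₐ[K] L) = p) {σ σ' : L ≃ₐ[K] L} (hσ : σ ≠ 1) (hσ' : σ' ≠ 1)
    (u : (ZMod q)ˣ) (u' : (ZMod q')ˣ) (τ : L ≃ₐ[K] L) :
    ∃ γ ∈ Hsub (Ω := Ω) hζ σ u ⊓ Hsub' hζ σ' u', AlgEquiv.restrictNormalHom L γ = τ := by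
  have : Fact p.Prime := ⟨hp⟩
  obtain ⟨i, hi⟩ := Subgroup.mem_zpowers_iff.mp (mem_zpowers_of_prime_card hcard hσ (g' := τ))
  obtain ⟨i', hi'⟩ := Subgroup.mem_zpowers_iff.mp (mem_zpowers_of_prime_card hcard hσ' (g' := τ))
  obtain ⟨γ, h1, h2, h3⟩ := exists_triple (K := K) (L := L) (Ω := Ω) hcop hζ hm τ (u ^ i) (u' ^ i')
  refine ⟨γ, Subgroup.mem_inf.mpr ⟨(mem_Hsub hζ).mpr ⟨i, ?_, h2⟩,
    (mem_Hsub' hζ).mpr ⟨i', ?_, h3⟩⟩, h1⟩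
  · rw [h1, hi]
  · rw [h1, hi']

/-- (G3) for `Hsub` alone. -/
theorem exists_mem_Hsub_restrict (hcop : q.Coprime q') (hζ : IsPrimitiveRoot ζ (q * q'))
    (hm : Nat.Coprime (q * q') (discr L).natAbs) {p : ℕ} (hp : p.Prime)
    (hcard : Nat.card (L ≃ₐ[K] L) = p) {σ : L ≃ₐ[K] L} (hσ : σ ≠ 1)
    (u : (ZMod q)ˣ) (τ : L ≃ₐ[K] L) :
    ∃ γ ∈ Hsub (Ω := Ω) hζ σ u, AlgEquiv.restrictNormalHom L γ = τ := by
  obtain ⟨γ, hγ, h⟩ := exists_mem_inf_restrict (Ω := Ω) hcop hζ hm hp hcard hσ hσ u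
    (1 : (ZMod q')ˣ) τ
  exact ⟨γ, (Subgroup.mem_inf.mp hγ).1, h⟩

/-- (G3) for `Hsub'` alone. -/
theorem exists_mem_Hsub'_restrict (hcop : q.Coprime q') (hζ : IsPrimitiveRoot ζ (q * q'))
    (hm : Nat.Coprime (q * q') (discr L).natAbs) {p : ℕ} (hp : p.Prime)
    (hcard : Nat.card (L ≃ₐ[K] L) = p) {σ' : L ≃ₐ[K] L} (hσ' : σ' ≠ 1)
    (u' : (ZMod q')ˣ) (τ : L ≃ₐ[K] L) :
    ∃ γ ∈ Hsub' (Ω := Ω) hζ σ' u', AlgEquiv.restrictNormalHom L γ = τ := by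
  obtain ⟨γ, hγ, h⟩ := exists_mem_inf_restrict (Ω := Ω) hcop hζ hm hp hcard hσ' hσ'
    (1 : (ZMod q)ˣ) u' τ
  exact ⟨γ, (Subgroup.mem_inf.mp hγ).2, h⟩

section Artin

variable [IsGalois K Ω] [IsMulCommutative (L ≃ₐ[K] L)] [IsMulCommutative (Ω ≃ₐ[K] Ω)]

/-- **(G1)** The Artin symbol of `Ω/K` at `𝔞` lies in `Hsub hζ (artin K L 𝔞) (N𝔞 mod q)`. -/
theorem artin_mem_Hsub (hζ : IsPrimitiveRoot ζ (q * q')) {𝔞 : Ideal (𝓞 K)} [𝔞.IsPrime]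
    (h𝔞 : 𝔞 ≠ ⊥) (hm𝔞 : ((q * q' : ℕ) : 𝓞 K) ∉ 𝔞)
    (hunr : ∀ Q : Ideal (𝓞 L), Q.IsPrime → Q.under (𝓞 K) = 𝔞 → Q.inertia (L ≃ₐ[K] L) = ⊥)
    (u : (ZMod q)ˣ) (hu : (u : ZMod q) = (Ideal.absNorm 𝔞 : ZMod q)) :
    artin K Ω 𝔞 ∈ Hsub hζ (artin K L 𝔞) u := by
  refine (mem_Hsub hζ).mpr ⟨1, ?_, ?_⟩
  · rw [zpow_one]; exact restrictNormalHom_artin h𝔞 hunr
  · rw [zpow_one]
    apply Units.ext
    rw [hu]
    exact autToPow_fst_artin hζ h𝔞 hm𝔞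

/-- **(G1)** for `Hsub'`. -/
theorem artin_mem_Hsub' (hζ : IsPrimitiveRoot ζ (q * q')) {𝔞 : Ideal (𝓞 K)} [𝔞.IsPrime]
    (h𝔞 : 𝔞 ≠ ⊥) (hm𝔞 : ((q * q' : ℕ) : 𝓞 K) ∉ 𝔞)
    (hunr : ∀ Q : Ideal (𝓞 L), Q.IsPrime → Q.under (𝓞 K) = 𝔞 → Q.inertia (L ≃ₐ[K] L) = ⊥)
    (u' : (ZMod q')ˣ) (hu' : (u' : ZMod q') = (Ideal.absNorm 𝔞 : ZMod q')) :
    artin K Ω 𝔞 ∈ Hsub' hζ (artin K L 𝔞) u' := by
  refine (mem_Hsub' hζ).mpr ⟨1, ?_, ?_⟩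
  · rw [zpow_one]; exact restrictNormalHom_artin h𝔞 hunr
  · rw [zpow_one]
    apply Units.ext
    rw [hu']
    exact autToPow_snd_artin hζ h𝔞 hm𝔞

end Artin

section Fields

variable [IsGalois K Ω]

/-- **(G4)** `Gal(Ω / fixedField (Hsub …)) = Hsub …`. -/
theorem fixingSubgroup_fixedField_Hsub (hζ : IsPrimitiveRoot ζ (q * q')) (σ : L ≃ₐ[K] L)
    (u : (ZMod q)ˣ) :
    (IntermediateField.fixedField (Hsub (Ω := Ω) hζ σ u)).fixingSubgroup = Hsub hζ σ u :=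
  IntermediateField.fixingSubgroup_fixedField _

/-- **(G4)** for `Hsub'`. -/
theorem fixingSubgroup_fixedField_Hsub' (hζ : IsPrimitiveRoot ζ (q * q')) (σ' : L ≃ₐ[K] L)
    (u' : (ZMod q')ˣ) :
    (IntermediateField.fixedField (Hsub' (Ω := Ω) hζ σ' u')).fixingSubgroup = Hsub' hζ σ' u' :=
  IntermediateField.fixingSubgroup_fixedField _

/-- **(G4)** for the intersection. -/
theorem fixingSubgroup_fixedField_inf (hζ : IsPrimitiveRoot ζ (q * q')) (σ σ' : L ≃ₐ[K] L)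
    (u : (ZMod q)ˣ) (u' : (ZMod q')ˣ) :
    (IntermediateField.fixedField (Hsub (Ω := Ω) hζ σ u ⊓ Hsub' hζ σ' u')).fixingSubgroup =
      Hsub hζ σ u ⊓ Hsub' hζ σ' u' :=
  IntermediateField.fixingSubgroup_fixedField _

/-- `fixedField (H ⊓ H')` contains `fixedField H` and `fixedField H'`. -/
theorem fixedField_Hsub_le_inf (hζ : IsPrimitiveRoot ζ (q * q')) (σ σ' : L ≃ₐ[K] L)
    (u : (ZMod q)ˣ) (u' : (ZMod q')ˣ) :
    IntermediateField.fixedField (Hsub (Ω := Ω) hζ σ u) ≤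
      IntermediateField.fixedField (Hsub (Ω := Ω) hζ σ u ⊓ Hsub' hζ σ' u') :=
  IntermediateField.fixedField_antitone inf_le_left

theorem fixedField_Hsub'_le_inf (hζ : IsPrimitiveRoot ζ (q * q')) (σ σ' : L ≃ₐ[K] L)
    (u : (ZMod q)ˣ) (u' : (ZMod q')ˣ) :
    IntermediateField.fixedField (Hsub' (Ω := Ω) hζ σ' u') ≤
      IntermediateField.fixedField (Hsub (Ω := Ω) hζ σ u ⊓ Hsub' hζ σ' u') :=
  IntermediateField.fixedField_antitone inf_le_right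

/-- Field form of (G2): `Ω = Φ(ζ)` for `Φ = fixedField H`, `H ≤ Hsub hζ σ u`. -/
theorem fixedField_sup_adjoin_eq_top (hcop : q.Coprime q') (hζ : IsPrimitiveRoot ζ (q * q'))
    (hm : Nat.Coprime (q * q') (discr L).natAbs) {σ : L ≃ₐ[K] L}
    {u : (ZMod q)ˣ} {p : ℕ} (hσ : σ ^ p = 1) (hu : p ∣ orderOf u)
    {H : Subgroup (Ω ≃ₐ[K] Ω)} (hH : H ≤ Hsub hζ σ u) :
    IntermediateField.fixedField H ⊔ K⟮ζ⟯ = ⊤ := by
  apply CrossGroup.fixedField_sup_eq_top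
  rw [eq_bot_iff]
  intro γ hγ
  obtain ⟨h1, h2⟩ := Subgroup.mem_inf.mp hγ
  rw [Subgroup.mem_bot]
  refine eq_one_of_mem_Hsub (K := K) (L := L) hcop hζ hm hσ hu (hH h1) ?_
  exact (IntermediateField.mem_fixingSubgroup_iff _ _).mp h2 ζ (mem_adjoin_simple_self K ζ)

/-- Field form of (G2) for `H ≤ Hsub' hζ σ' u'`. -/
theorem fixedField_sup_adjoin_eq_top' (hcop : q.Coprime q') (hζ : IsPrimitiveRoot ζ (q * q'))
    (hm : Nat.Coprime (q * q') (discr L).natAbs) {σ' : L ≃ₐ[K] L}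
    {u' : (ZMod q')ˣ} {p : ℕ} (hσ : σ' ^ p = 1) (hu : p ∣ orderOf u')
    {H : Subgroup (Ω ≃ₐ[K] Ω)} (hH : H ≤ Hsub' hζ σ' u') :
    IntermediateField.fixedField H ⊔ K⟮ζ⟯ = ⊤ := by
  apply CrossGroup.fixedField_sup_eq_top
  rw [eq_bot_iff]
  intro γ hγ
  obtain ⟨h1, h2⟩ := Subgroup.mem_inf.mp hγ
  rw [Subgroup.mem_bot]
  refine eq_one_of_mem_Hsub' (K := K) (L := L) hcop hζ hm hσ hu (hH h1) ?_
  exact (IntermediateField.mem_fixingSubgroup_iff _ _).mp h2 ζ (mem_adjoin_simple_self K ζ)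

/-- Field form of (G3), general: if every `τ ∈ Gal(L/K)` is the restriction of an element of `H`,
then `L ∩ fixedField H = K` inside `Ω`. -/
theorem Lrange_inf_fixedField_eq_bot {H : Subgroup (Ω ≃ₐ[K] Ω)}
    (h : ∀ τ : L ≃ₐ[K] L, ∃ γ ∈ H, AlgEquiv.restrictNormalHom L γ = τ) :
    Lrange K L (Ω := Ω) ⊓ IntermediateField.fixedField H = ⊥ := by
  refine CrossGroup.inf_fixedField_eq_bot H _ fun g => ?_
  obtain ⟨γ, hγ, hγg⟩ := h (AlgEquiv.restrictNormalHom L g)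
  refine ⟨γ, hγ, fun x hx => ?_⟩
  obtain ⟨y, rfl⟩ := mem_Lrange.mp hx
  rw [(restrictNormalHom_eq_iff γ _).mp hγg y, (restrictNormalHom_eq_iff g _).mp rfl y]

/-- Field form of (G3): `L ∩ fixedField (H ⊓ H') = K`. -/
theorem Lrange_inf_fixedField_inf_eq_bot (hcop : q.Coprime q') (hζ : IsPrimitiveRoot ζ (q * q'))
    (hm : Nat.Coprime (q * q') (discr L).natAbs) {p : ℕ} (hp : p.Prime)
    (hcard : Nat.card (L ≃ₐ[K] L) = p) {σ σ' : L ≃ₐ[K] L} (hσ : σ ≠ 1) (hσ' : σ' ≠ 1)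
    (u : (ZMod q)ˣ) (u' : (ZMod q')ˣ) :
    Lrange K L (Ω := Ω) ⊓
      IntermediateField.fixedField (Hsub (Ω := Ω) hζ σ u ⊓ Hsub' hζ σ' u') = ⊥ :=
  Lrange_inf_fixedField_eq_bot
    (exists_mem_inf_restrict (Ω := Ω) hcop hζ hm hp hcard hσ hσ' u u')

/-- Field form of (G3): `L ∩ fixedField H = K`. -/
theorem Lrange_inf_fixedField_Hsub_eq_bot (hcop : q.Coprime q')
    (hζ : IsPrimitiveRoot ζ (q * q'))
    (hm : Nat.Coprime (q * q') (discr L).natAbs) {p : ℕ} (hp : p.Prime)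
    (hcard : Nat.card (L ≃ₐ[K] L) = p) {σ : L ≃ₐ[K] L} (hσ : σ ≠ 1) (u : (ZMod q)ˣ) :
    Lrange K L (Ω := Ω) ⊓ IntermediateField.fixedField (Hsub (Ω := Ω) hζ σ u) = ⊥ :=
  Lrange_inf_fixedField_eq_bot (exists_mem_Hsub_restrict (Ω := Ω) hcop hζ hm hp hcard hσ u)

/-- Field form of (G3): `L ∩ fixedField H' = K`. -/
theorem Lrange_inf_fixedField_Hsub'_eq_bot (hcop : q.Coprime q')
    (hζ : IsPrimitiveRoot ζ (q * q'))
    (hm : Nat.Coprime (q * q') (discr L).natAbs) {p : ℕ} (hp : p.Prime)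
    (hcard : Nat.card (L ≃ₐ[K] L) = p) {σ' : L ≃ₐ[K] L} (hσ' : σ' ≠ 1) (u' : (ZMod q')ˣ) :
    Lrange K L (Ω := Ω) ⊓ IntermediateField.fixedField (Hsub' (Ω := Ω) hζ σ' u') = ⊥ :=
  Lrange_inf_fixedField_eq_bot (exists_mem_Hsub'_restrict (Ω := Ω) hcop hζ hm hp hcard hσ' u')

end Fields

end Triple

end Fermat.Agent.CFT.CrossSubgroups
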