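/-
Program E (S14), E-C4 (B) (helper27): the decomposition group at an unramified prime is generated
by Frobenius.

Abstract part (Mathlib's `IsArithFrobAt` for a group `G` acting on an `R`-algebra `S`):
* `exists_pow_smul_sub_mem` : `σ` Frobenius at `Q` (finite residue field), `τ` in the
  decomposition group of `Q` ⇒ `τ ≡ σ ^ n` modulo `Q` for some `n`;
* `stabilizer_eq_zpowers`   : if moreover the inertia group of `Q` is trivial,
  `MulAction.stabilizer G Q = Subgroup.zpowers σ`.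

Number fields `K ⊆ Ω`, `Ω/K` Galois, `P ≠ ⊥` a prime of `𝓞 Ω` with `P.inertia Gal(Ω/K) = ⊥`,
`σ` with `IsArithFrobAt (𝓞 K) σ P`:
* (B1) `stabilizer_eq_zpowers_of_isArithFrobAt` : `stabilizer Gal(Ω/K) P = zpowers σ`;
* (B2) `stabilizer_le_of_mem` : `σ ∈ H → stabilizer P ≤ H`;
  `stabilizer_le_fixingSubgroup_fixedField` : `… ≤ (fixedField H).fixingSubgroup`;
  `relNorm_under_fixedField` : `relNorm (𝓞 K) (P ∩ 𝓞 (fixedField H)) = P ∩ 𝓞 K`
  (through helper2's `FrobFunct.relNorm_under_of_stabilizer_le`);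
  `relNorm_under_of_mem_fixingSubgroup` : the same for any intermediate field fixed by `σ`;
  `natCast_notMem_under` : `(m : 𝓞 Ω) ∉ P → (m : 𝓞 F) ∉ P ∩ 𝓞 F`;
* `card_stabilizer_eq_orderOf`, `inertiaDeg_eq_orderOf` : `f(P | K) = orderOf σ`;
* `relNorm_eq_under_pow_orderOf` : `relNorm (𝓞 K) P = (P ∩ 𝓞 K) ^ orderOf σ`;
* (S1) `relNorm_eq_under_of_isArithFrobAt_one` : trivial Frobenius ⇒ `relNorm (𝓞 K) P = P ∩ 𝓞 K`.
-/
import Mathlib
import Fermat.Agent.CFT.FrobFunct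

set_option autoImplicit false
set_option linter.style.haveILetI false
set_option linter.unusedSectionVars false

open NumberField
open scoped Pointwise

namespace Fermat.Agent.CFT.DecompGroup

section abstract

variable {R S G : Type*} [CommRing R] [CommRing S] [Algebra R S] [Group G]
  [MulSemiringAction G S] [SMulCommClass G R S]

attribute [local instance] Ideal.Quotient.field in
/-- If `σ` is an arithmetic Frobenius at the prime `Q` with finite residue field, every element of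
the decomposition group of `Q` agrees modulo `Q` with a power of `σ`. -/
theorem exists_pow_smul_sub_mem {Q : Ideal S} [Q.IsPrime] [Finite (S ⧸ Q)] {σ : G}
    (hσ : IsArithFrobAt R σ Q) {τ : G} (hτ : τ ∈ MulAction.stabilizer G Q) :
    ∃ n : ℕ, ∀ x : S, τ • x - σ ^ n • x ∈ Q := by
  set P : Ideal R := Q.under R with hP
  haveI : Q.LiesOver P := ⟨rfl⟩
  haveI : Q.IsMaximal := Ideal.Quotient.maximal_of_isField _ (Finite.isField_of_domain (S ⧸ Q))
  haveI : Finite (R ⧸ P) := .of_injective _ Ideal.algebraMap_quotient_injective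
  haveI : P.IsMaximal := Ideal.Quotient.maximal_of_isField _ (Finite.isField_of_domain (R ⧸ P))
  cases nonempty_fintype (R ⧸ P)
  have hσs : σ ∈ MulAction.stabilizer G Q := hσ.mem_stabilizer
  let φ := Ideal.Quotient.stabilizerHom Q P G ⟨τ, hτ⟩
  let F := FiniteField.frobeniusAlgEquivOfAlgebraic (R ⧸ P) (S ⧸ Q)
  have hF : Ideal.Quotient.stabilizerHom Q P G ⟨σ, hσs⟩ = F := by
    ext x
    obtain ⟨x, rfl⟩ := Ideal.Quotient.mk_surjective x
    rw [Ideal.Quotient.stabilizerHom_apply]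
    change Ideal.Quotient.mk Q (σ • x) = (Ideal.Quotient.mk Q x) ^ Fintype.card (R ⧸ P)
    rw [← Nat.card_eq_fintype_card]
    exact hσ.mk_apply x
  obtain ⟨n, hn⟩ := (FiniteField.bijective_frobeniusAlgEquivOfAlgebraic_pow (R ⧸ P) (S ⧸ Q)).2 φ
  refine ⟨n.1, fun x => ?_⟩
  have h1 : φ (Ideal.Quotient.mk Q x) = Ideal.Quotient.mk Q (τ • x) := rfl
  have h2 : (Ideal.Quotient.stabilizerHom Q P G (⟨σ, hσs⟩ ^ n.1)) (Ideal.Quotient.mk Q x)
      = Ideal.Quotient.mk Q (σ ^ n.1 • x) := rfl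
  rw [map_pow, hF] at h2
  have h3 : (F ^ n.1) (Ideal.Quotient.mk Q x) = φ (Ideal.Quotient.mk Q x) := by
    exact DFunLike.congr_fun hn _
  rw [← Ideal.Quotient.eq, ← h1, ← h3, h2]

/-- At an unramified prime with finite residue field the decomposition group is generated by any
arithmetic Frobenius. -/
theorem stabilizer_eq_zpowers {Q : Ideal S} [Q.IsPrime] [Finite (S ⧸ Q)] {σ : G}
    (hσ : IsArithFrobAt R σ Q) (hunr : Q.inertia G = ⊥) :
    MulAction.stabilizer G Q = Subgroup.zpowers σ := by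
  apply le_antisymm
  · intro τ hτ
    obtain ⟨n, hn⟩ := exists_pow_smul_sub_mem hσ hτ
    have hmem : τ * (σ ^ n)⁻¹ ∈ Q.inertia G := by
      intro x
      have := hn ((σ ^ n)⁻¹ • x)
      rwa [smul_smul, smul_smul, mul_inv_cancel, one_smul] at this
    rw [hunr, Subgroup.mem_bot, mul_inv_eq_one] at hmem
    rw [hmem]
    exact Subgroup.pow_mem _ (Subgroup.mem_zpowers σ) n
  · rw [Subgroup.zpowers_le]
    exact hσ.mem_stabilizer

end abstract

section numberField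

variable {K Ω : Type*} [Field K] [Field Ω] [NumberField K] [NumberField Ω]
  [Algebra K Ω] [IsGalois K Ω]

/-- (B1) The decomposition group at an unramified prime is generated by Frobenius. -/
theorem stabilizer_eq_zpowers_of_isArithFrobAt {P : Ideal (𝓞 Ω)} [P.IsPrime] (hP : P ≠ ⊥)
    (hunr : P.inertia (Ω ≃ₐ[K] Ω) = ⊥) {σ : Ω ≃ₐ[K] Ω} (hσ : IsArithFrobAt (𝓞 K) σ P) :
    MulAction.stabilizer (Ω ≃ₐ[K] Ω) P = Subgroup.zpowers σ := by
  haveI : Finite (𝓞 Ω ⧸ P) := Ideal.finiteQuotientOfFreeOfNeBot P hP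
  exact stabilizer_eq_zpowers hσ hunr

/-- (B2a) If a subgroup contains the Frobenius of an unramified prime, it contains the whole
decomposition group. -/
theorem stabilizer_le_of_mem {P : Ideal (𝓞 Ω)} [P.IsPrime] (hP : P ≠ ⊥)
    (hunr : P.inertia (Ω ≃ₐ[K] Ω) = ⊥) {σ : Ω ≃ₐ[K] Ω} (hσ : IsArithFrobAt (𝓞 K) σ P)
    (H : Subgroup (Ω ≃ₐ[K] Ω)) (hH : σ ∈ H) :
    MulAction.stabilizer (Ω ≃ₐ[K] Ω) P ≤ H := by
  rw [stabilizer_eq_zpowers_of_isArithFrobAt hP hunr hσ, Subgroup.zpowers_le]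
  exact hH

/-- (B2b) the same with `H` replaced by the fixing subgroup of its fixed field. -/
theorem stabilizer_le_fixingSubgroup_fixedField {P : Ideal (𝓞 Ω)} [P.IsPrime] (hP : P ≠ ⊥)
    (hunr : P.inertia (Ω ≃ₐ[K] Ω) = ⊥) {σ : Ω ≃ₐ[K] Ω} (hσ : IsArithFrobAt (𝓞 K) σ P)
    (H : Subgroup (Ω ≃ₐ[K] Ω)) (hH : σ ∈ H) :
    MulAction.stabilizer (Ω ≃ₐ[K] Ω) P ≤ (IntermediateField.fixedField H).fixingSubgroup := by
  rw [IntermediateField.fixingSubgroup_fixedField]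
  exact stabilizer_le_of_mem hP hunr hσ H hH

/-- (B2c) In the fixed field `F` of a subgroup `H` containing the Frobenius `σ` of the unramified
prime `P`, the prime `P ∩ 𝓞 F` has relative norm `P ∩ 𝓞 K` (it has degree one over `K`). -/
theorem relNorm_under_fixedField {P : Ideal (𝓞 Ω)} [P.IsPrime] (hP : P ≠ ⊥)
    (hunr : P.inertia (Ω ≃ₐ[K] Ω) = ⊥) {σ : Ω ≃ₐ[K] Ω} (hσ : IsArithFrobAt (𝓞 K) σ P)
    (H : Subgroup (Ω ≃ₐ[K] Ω)) (hH : σ ∈ H) :
    Ideal.relNorm (𝓞 K) (P.under (𝓞 (IntermediateField.fixedField H))) = P.under (𝓞 K) :=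
  Fermat.Agent.CFT.FrobFunct.relNorm_under_of_stabilizer_le (IntermediateField.fixedField H) P hP
    (stabilizer_le_fixingSubgroup_fixedField hP hunr hσ H hH)

/-- (B2c') the version for an arbitrary intermediate field `F` fixed by `σ`. -/
theorem relNorm_under_of_mem_fixingSubgroup {P : Ideal (𝓞 Ω)} [P.IsPrime] (hP : P ≠ ⊥)
    (hunr : P.inertia (Ω ≃ₐ[K] Ω) = ⊥) {σ : Ω ≃ₐ[K] Ω} (hσ : IsArithFrobAt (𝓞 K) σ P)
    (F : IntermediateField K Ω) (hF : σ ∈ F.fixingSubgroup) :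
    Ideal.relNorm (𝓞 K) (P.under (𝓞 F)) = P.under (𝓞 K) :=
  Fermat.Agent.CFT.FrobFunct.relNorm_under_of_stabilizer_le F P hP
    (stabilizer_le_of_mem hP hunr hσ _ hF)

/-- (B2d) integers outside `P` are outside `P ∩ 𝓞 F`. -/
theorem natCast_notMem_under (F : IntermediateField K Ω) {P : Ideal (𝓞 Ω)} {m : ℕ}
    (hm : (m : 𝓞 Ω) ∉ P) : (m : 𝓞 F) ∉ P.under (𝓞 F) := by
  intro h
  apply hm
  have := (Ideal.mem_comap (f := algebraMap (𝓞 F) (𝓞 Ω))).mp h
  simpa using this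

/-- The decomposition group of an unramified prime has order the order of Frobenius. -/
theorem card_stabilizer_eq_orderOf {P : Ideal (𝓞 Ω)} [P.IsPrime] (hP : P ≠ ⊥)
    (hunr : P.inertia (Ω ≃ₐ[K] Ω) = ⊥) {σ : Ω ≃ₐ[K] Ω} (hσ : IsArithFrobAt (𝓞 K) σ P) :
    Nat.card (MulAction.stabilizer (Ω ≃ₐ[K] Ω) P) = orderOf σ := by
  rw [stabilizer_eq_zpowers_of_isArithFrobAt hP hunr hσ, Nat.card_zpowers]

/-- The residue degree of an unramified prime is the order of its Frobenius. -/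
theorem inertiaDeg_eq_orderOf {P : Ideal (𝓞 Ω)} [P.IsPrime] (hP : P ≠ ⊥)
    (hunr : P.inertia (Ω ≃ₐ[K] Ω) = ⊥) {σ : Ω ≃ₐ[K] Ω} (hσ : IsArithFrobAt (𝓞 K) σ P) :
    P.inertiaDeg (𝓞 K) = orderOf σ := by
  have hK := Ideal.card_stabilizer_eq (G := Ω ≃ₐ[K] Ω) (P.under (𝓞 K)) P
  rw [Ideal.ramificationIdxIn_eq_ramificationIdx (P.under (𝓞 K)) P (Ω ≃ₐ[K] Ω),
    Ideal.inertiaDegIn_eq_inertiaDeg (P.under (𝓞 K)) P (Ω ≃ₐ[K] Ω),
    card_stabilizer_eq_orderOf hP hunr hσ] at hK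
  have he : P.ramificationIdx (𝓞 K) = 1 := by
    haveI : P.LiesOver (P.under (𝓞 K)) := ⟨rfl⟩
    have hq0 : P.under (𝓞 K) ≠ ⊥ := fun h => hP (Ideal.eq_bot_of_comap_eq_bot h)
    haveI : (P.under (𝓞 K)).IsMaximal := Ring.DimensionLEOne.maximalOfPrime hq0 inferInstance
    have h1 := Ideal.card_inertia_eq_ramificationIdxIn (G := Ω ≃ₐ[K] Ω) (P.under (𝓞 K)) P
    rw [Ideal.ramificationIdxIn_eq_ramificationIdx (P.under (𝓞 K)) P (Ω ≃ₐ[K] Ω), hunr] at h1
    rw [← h1]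
    simp
  rw [he, one_mul] at hK
  exact hK.symm

/-- The relative norm of an unramified prime is the prime below to the order of Frobenius. -/
theorem relNorm_eq_under_pow_orderOf {P : Ideal (𝓞 Ω)} [P.IsPrime] (hP : P ≠ ⊥)
    (hunr : P.inertia (Ω ≃ₐ[K] Ω) = ⊥) {σ : Ω ≃ₐ[K] Ω} (hσ : IsArithFrobAt (𝓞 K) σ P) :
    Ideal.relNorm (𝓞 K) P = P.under (𝓞 K) ^ orderOf σ := by
  haveI : P.IsMaximal := Ring.DimensionLEOne.maximalOfPrime hP inferInstance
  haveI : (P.under (𝓞 K)).IsMaximal := Ideal.isMaximal_comap_of_isIntegral_of_isMaximal P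
  haveI : P.LiesOver (P.under (𝓞 K)) := ⟨rfl⟩
  rw [Ideal.relNorm_eq_pow_of_isMaximal P (P.under (𝓞 K)), inertiaDeg_eq_orderOf hP hunr hσ]

/-- (S1) "split primes are norms": an unramified prime whose Frobenius is trivial has relative norm
the prime below it. -/
theorem relNorm_eq_under_of_isArithFrobAt_one {P : Ideal (𝓞 Ω)} [P.IsPrime] (hP : P ≠ ⊥)
    (hunr : P.inertia (Ω ≃ₐ[K] Ω) = ⊥) (h1 : IsArithFrobAt (𝓞 K) (1 : Ω ≃ₐ[K] Ω) P) :
    Ideal.relNorm (𝓞 K) P = P.under (𝓞 K) := by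
  rw [relNorm_eq_under_pow_orderOf hP hunr h1, orderOf_one, pow_one]

end numberField

end Fermat.Agent.CFT.DecompGroup
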