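/-
Program E (S14), piece C4 (PC2): the field `Ω = L(ζ_{l l'})` with all the instances needed by
`CrossSubgroups`, `FrobOmega`, `CycloKills`, … bundled.

`Ω := CyclotomicField (l * l') L`.  Mathlib provides `Field Ω`, `NumberField Ω`, `Algebra L Ω`,
`Algebra K Ω`, `IsScalarTower K L Ω`, `IsCyclotomicExtension {l * l'} L Ω`; this file adds
`IsGalois K Ω`, `IsMulCommutative Gal(Ω/K)`, the chosen primitive root, and an existential
packaging.
-/
import Mathlib
import Fermat.Agent.CFT.CrossSubgroups

set_option autoImplicit false
set_option linter.unusedSectionVars false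

namespace Fermat.Agent.CFT.OmegaBundle

open NumberField
open Fermat.Agent.CFT.CycloDisjoint Fermat.Agent.CFT.CycloTriple

variable (K L : Type) [Field K] [Field L] [NumberField K] [NumberField L] [Algebra K L]

section General

variable (m : ℕ) [NeZero m]

/-- `Ω = L(ζ_m)`. -/
abbrev Omega : Type := CyclotomicField m L

/-- The chosen primitive `m`-th root of unity of `Ω`. -/
noncomputable def zetaOmega : Omega L m := IsCyclotomicExtension.zeta m L (Omega L m)

theorem zetaOmega_spec : IsPrimitiveRoot (zetaOmega L m) m :=
  IsCyclotomicExtension.zeta_spec m L (Omega L m)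

example : NumberField (Omega L m) := inferInstance
noncomputable example : Algebra K (Omega L m) := inferInstance
example : IsScalarTower K L (Omega L m) := inferInstance
example : IsCyclotomicExtension {m} L (Omega L m) := inferInstance

/-- `Ω/K` is Galois when `L/K` is. -/
theorem isGalois_omega [IsGalois K L] : IsGalois K (Omega L m) :=
  isGalois_top (K := K) (L := L) (zetaOmega_spec L m)

end General

section Pair

variable (l l' : ℕ) [NeZero l] [NeZero l']

/-- `Gal(Ω/K)` is commutative when `Gal(L/K)` is. -/
theorem isMulCommutative_omega [IsGalois K L] [IsMulCommutative (L ≃ₐ[K] L)]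
    (hcop : l.Coprime l') (hm : Nat.Coprime (l * l') (discr L).natAbs) :
    IsMulCommutative (Omega L (l * l') ≃ₐ[K] Omega L (l * l')) :=
  isMulCommutative_gal (K := K) (L := L) hcop (zetaOmega_spec L (l * l')) hm

/-- **The Ω-bundle**, existential form: all the data and instances consumed by `CrossSubgroups`,
`FrobOmega`, `OmegaUnram`, `CycloKills`. -/
theorem exists_omega [IsGalois K L] [IsMulCommutative (L ≃ₐ[K] L)]
    (hcop : l.Coprime l') (hm : Nat.Coprime (l * l') (discr L).natAbs) :
    ∃ (Ω : Type) (_ : Field Ω) (_ : NumberField Ω) (_ : Algebra L Ω) (_ : Algebra K Ω)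
      (_ : IsScalarTower K L Ω) (_ : IsCyclotomicExtension {l * l'} L Ω) (_ : IsGalois K Ω)
      (_ : IsMulCommutative (Ω ≃ₐ[K] Ω)) (ζ : Ω), IsPrimitiveRoot ζ (l * l') :=
  ⟨Omega L (l * l'), inferInstance, inferInstance, inferInstance, inferInstance, inferInstance,
    inferInstance, isGalois_omega K L (l * l'), isMulCommutative_omega K L l l' hcop hm,
    zetaOmega L (l * l'), zetaOmega_spec L (l * l')⟩

end Pair

end Fermat.Agent.CFT.OmegaBundle
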