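/-
Program E (S14), piece C4h-6 (helper23): **the pair-crossing input** `ArtinRecipCore.PairInput K L`.

`K ⊆ L` number fields, `L/K` Galois of prime degree `p`, unramified everywhere, `K` totally complex.
For two nonzero primes `r, r'` of `K` with nontrivial Artin symbols, choose auxiliary rational primes
`l ≠ l'` (`AuxChoice`), put `Ω = L(ζ_{l l'})`, `H = Hsub hζ (artin r) (N r mod l)`,
`H' = Hsub' hζ (artin r') (N r' mod l')`; then `Y = normSub K (fixedField H) (l l')`,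
`Y' = normSub K (fixedField H') (l l')` are good (`CrossGood`), contain `r`, `r'` (decomposition
fields), and share an element `b₀` with nontrivial Artin symbol (norms from
`fixedField (H ⊓ H')`).
-/
import Mathlib
import Fermat.Agent.CFT.CrossGood
import Fermat.Agent.CFT.CrossSubgroups
import Fermat.Agent.CFT.OmegaBundle
import Fermat.Agent.CFT.DecompGroup
import Fermat.Agent.CFT.ArtinRecipCore

set_option autoImplicit false
set_option linter.unusedSectionVars false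

open NumberField IntermediateField

namespace Fermat.Agent.CFT.PairCross

open Fermat.Agent.CFT.ArtinMap Fermat.Agent.CFT.PerField Fermat.Agent.CFT.CrossAssembly
  Fermat.Agent.CFT.CrossSubgroups Fermat.Agent.CFT.NormClassGroup

/-! ### Monotonicity of `normSub` in the field -/

section Mono

variable {K Ω : Type} [Field K] [Field Ω] [NumberField K] [NumberField Ω] [Algebra K Ω]

/-- Norms from a bigger intermediate field are norms from a smaller one. -/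
theorem normSub_mono {Φ Φ' : IntermediateField K Ω} (h : Φ ≤ Φ') (m : ℕ) :
    normSub K Φ' m ≤ normSub K Φ m := by
  letI : Algebra Φ Φ' := (IntermediateField.inclusion h).toRingHom.toAlgebra
  haveI : IsScalarTower K Φ Φ' := IsScalarTower.of_algebraMap_eq fun _ => rfl
  exact normSub_le_of_tower (K := K) (F := Φ) Φ' m

end Mono

/-! ### A prime whose Frobenius in `Ω/K` lies in `H` is a norm from `fixedField H` -/

section Mem

variable {K L Ω : Type} [Field K] [Field L] [Field Ω] [NumberField K] [NumberField L]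
  [NumberField Ω] [Algebra K L] [Algebra L Ω] [Algebra K Ω] [IsScalarTower K L Ω]
  {m : ℕ} [NeZero m] [IsCyclotomicExtension {m} L Ω] {ζ : Ω}
  [IsGalois K L] [IsGalois K Ω] [IsMulCommutative (Ω ≃ₐ[K] Ω)]

theorem mem_normSub_of_artin_mem (hζ : IsPrimitiveRoot ζ m) {𝔞 : Ideal (𝓞 K)} [𝔞.IsPrime]
    (h𝔞 : 𝔞 ≠ ⊥) (hm𝔞 : (m : 𝓞 K) ∉ 𝔞)
    (hunr : ∀ Q : Ideal (𝓞 L), Q.IsPrime → Q.under (𝓞 K) = 𝔞 → Q.inertia (L ≃ₐ[K] L) = ⊥)
    (hc : Nat.Coprime (Ideal.absNorm 𝔞) m) (H : Subgroup (Ω ≃ₐ[K] Ω))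
    (hH : artin K Ω 𝔞 ∈ H) :
    𝔞 ∈ normSub K (IntermediateField.fixedField H) m := by
  set P := primeOver K Ω 𝔞 with hP
  have hP0 : P ≠ ⊥ := primeOver_ne_bot K Ω 𝔞 h𝔞
  have hunrΩ : P.inertia (Ω ≃ₐ[K] Ω) = ⊥ :=
    FrobOmega.inertia_eq_bot_of_under (L := L) hζ hm𝔞 hunr P
  have hfrob : IsArithFrobAt (𝓞 K) (artin K Ω 𝔞) P := isArithFrobAt_artin Ω 𝔞 h𝔞 P
  have hrel := DecompGroup.relNorm_under_fixedField hP0 hunrΩ hfrob H hH
  have hunder : P.under (𝓞 K) = 𝔞 := (Ideal.over_def P 𝔞).symm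
  rw [hunder] at hrel
  exact mem_normSub_of_relNorm_eq hrel h𝔞 hc

end Mem

/-! ### The choice of the auxiliary primes (interface; proved in `AuxPrimes`) -/

/-- The auxiliary-prime statement consumed below. -/
def AuxChoice : Prop :=
  ∀ {K : Type} [Field K] [NumberField K] (p : ℕ), p.Prime → ∀ (r r' : Ideal (𝓞 K)),
    r.IsPrime → r ≠ ⊥ → r'.IsPrime → r' ≠ ⊥ → ∀ N : ℕ, N ≠ 0 →
    ∃ l l' : ℕ, l.Prime ∧ l'.Prime ∧ l ≠ l' ∧ Nat.Coprime (l * l') N ∧
      Nat.Coprime (Ideal.absNorm r) (l * l') ∧ Nat.Coprime (Ideal.absNorm r') (l * l') ∧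
      ((l * l' : ℕ) : 𝓞 K) ∉ r ∧ ((l * l' : ℕ) : 𝓞 K) ∉ r' ∧
      (∃ u : (ZMod l)ˣ, (u : ZMod l) = (Ideal.absNorm r : ZMod l) ∧ p ∣ orderOf u) ∧
      (∃ u' : (ZMod l')ˣ, (u' : ZMod l') = (Ideal.absNorm r' : ZMod l') ∧ p ∣ orderOf u')

/-! ### The pair-crossing input -/

section Main

variable (K L : Type) [Field K] [Field L] [NumberField K] [NumberField L] [Algebra K L]
  [IsGalois K L] [IsMulCommutative (L ≃ₐ[K] L)] [IsTotallyComplex K]

theorem pairInput (haux : AuxChoice) {p : ℕ} (hp : p.Prime) (hfin : Module.finrank K L = p)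
    (hunr : ∀ P : Ideal (𝓞 L), P.IsPrime → P ≠ ⊥ → P.inertia (L ≃ₐ[K] L) = ⊥) :
    ArtinRecipCore.PairInput K L := by
  intro r r' hr hr0 hr' hr'0 hσ hσ'
  haveI := hr
  haveI := hr'
  have hcard : Nat.card (L ≃ₐ[K] L) = p := by rw [IsGalois.card_aut_eq_finrank, hfin]
  have hfinG : Finite (L ≃ₐ[K] L) := Nat.finite_of_card_ne_zero (by rw [hcard]; exact hp.ne_zero)
  have hpow : ∀ g : L ≃ₐ[K] L, g ^ p = 1 := fun g => by rw [← hcard]; exact pow_card_eq_one'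
  have hN : (discr L).natAbs ≠ 0 := Int.natAbs_ne_zero.mpr (discr_ne_zero L)
  obtain ⟨l, l', hl, hl', hne, hcopN, hcr, hcr', hlr, hlr', ⟨u, hu, hpu⟩, ⟨u', hu', hpu'⟩⟩ :=
    haux p hp r r' hr hr0 hr' hr'0 (discr L).natAbs hN
  haveI : NeZero l := ⟨hl.ne_zero⟩
  haveI : NeZero l' := ⟨hl'.ne_zero⟩
  have hcop : l.Coprime l' := (Nat.coprime_primes hl hl').mpr hne
  have hsq : Squarefree (l * l') :=
    (Nat.squarefree_mul_iff).mpr ⟨hcop, hl.prime.squarefree, hl'.prime.squarefree⟩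
  obtain ⟨Ω, _, _, _, _, _, _, _, _, ζ, hζ⟩ := OmegaBundle.exists_omega K L l l' hcop hcopN
  -- unramifiedness of `L/K` at `r`, `r'` in the shape of `FrobOmega`
  have hunr_at : ∀ 𝔞 : Ideal (𝓞 K), 𝔞 ≠ ⊥ → ∀ Q : Ideal (𝓞 L), Q.IsPrime →
      Q.under (𝓞 K) = 𝔞 → Q.inertia (L ≃ₐ[K] L) = ⊥ := by
    intro 𝔞 h𝔞 Q hQ hQ𝔞
    refine hunr Q hQ ?_
    rintro rfl
    apply h𝔞
    rw [← hQ𝔞]
    exact Ideal.under_bot (𝓞 K) (𝓞 L)
  set σ := artin K L r with hσdef
  set σ' := artin K L r' with hσ'def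
  set H : Subgroup (Ω ≃ₐ[K] Ω) := Hsub hζ σ u with hH
  set H' : Subgroup (Ω ≃ₐ[K] Ω) := Hsub' hζ σ' u' with hH'
  -- the three applications of `CrossGood`
  have hπmul : ∀ I J : Ideal (𝓞 K), I ≠ ⊥ → J ≠ ⊥ → pi K L (I * J) = pi K L I * pi K L J :=
    fun I J hI hJ => pi_mul L hI hJ
  have hπprinc : ∀ a : 𝓞 K, a ≠ 0 → pi K L (Ideal.span {a}) = 1 :=
    fun a _ => pi_span_singleton L a
  have hπnorm : ∀ A : Ideal (𝓞 L), A ≠ ⊥ → pi K L (Ideal.relNorm (𝓞 K) A) = 1 :=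
    fun A _ => pi_relNorm A
  obtain ⟨hgood, -⟩ := CrossGood.crossGood (K := K) (L := L) (Ω := Ω) hp hfin hunr hsq hζ H
    (exists_mem_Hsub_restrict (Ω := Ω) hcop hζ hcopN hp hcard hσ u)
    (fixedField_sup_adjoin_eq_top (K := K) (L := L) hcop hζ hcopN (hpow σ) hpu le_rfl)
    (pi K L) hπmul hπprinc hπnorm
  obtain ⟨hgood', -⟩ := CrossGood.crossGood (K := K) (L := L) (Ω := Ω) hp hfin hunr hsq hζ H'
    (exists_mem_Hsub'_restrict (Ω := Ω) hcop hζ hcopN hp hcard hσ' u')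
    (fixedField_sup_adjoin_eq_top' (K := K) (L := L) hcop hζ hcopN (hpow σ') hpu' le_rfl)
    (pi K L) hπmul hπprinc hπnorm
  obtain ⟨-, b₀, hb₀, hb₀ne⟩ := CrossGood.crossGood (K := K) (L := L) (Ω := Ω) hp hfin hunr hsq
    hζ (H ⊓ H')
    (exists_mem_inf_restrict (Ω := Ω) hcop hζ hcopN hp hcard hσ hσ' u u')
    (fixedField_sup_adjoin_eq_top (K := K) (L := L) hcop hζ hcopN (hpow σ) hpu inf_le_left)
    (pi K L) hπmul hπprinc hπnorm
  refine ⟨normSub K (IntermediateField.fixedField H) (l * l'),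
    normSub K (IntermediateField.fixedField H') (l * l'), hgood, hgood', ?_, ?_, b₀,
    normSub_mono (IntermediateField.fixedField_antitone inf_le_left) _ hb₀,
    normSub_mono (IntermediateField.fixedField_antitone inf_le_right) _ hb₀, hb₀ne⟩
  · exact mem_normSub_of_artin_mem (L := L) hζ hr0 hlr (hunr_at r hr0) hcr H
      (artin_mem_Hsub hζ hr0 hlr (hunr_at r hr0) u hu)
  · exact mem_normSub_of_artin_mem (L := L) hζ hr'0 hlr' (hunr_at r' hr'0) hcr' H'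
      (artin_mem_Hsub' hζ hr'0 hlr' (hunr_at r' hr'0) u' hu')

end Main

end Fermat.Agent.CFT.PairCross
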