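/-
Program E (S14), piece C4h-7 (helper23): the choice of the two auxiliary rational primes,
`PairCross.AuxChoice`, from helper14's `ArtinLemmaNT.exists_prime_orderOf_eq`.
-/
import Mathlib
import Fermat.Agent.CFT.ArtinLemmaNT
import Fermat.Agent.CFT.PairCross

set_option autoImplicit false
set_option linter.unusedSectionVars false

open NumberField

namespace Fermat.Agent.CFT.AuxChoiceProof

open Fermat.Agent.CFT.ArtinLemmaNT

/-- One auxiliary prime: `l > s`, `l ∤ a`, and `a mod l` is a unit of order divisible by `p`. -/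
theorem exists_aux_prime (p a s : ℕ) (hp : p.Prime) (ha : 2 ≤ a) :
    ∃ l : ℕ, l.Prime ∧ s < l ∧ ¬ l ∣ a ∧
      ∃ u : (ZMod l)ˣ, (u : ZMod l) = (a : ZMod l) ∧ p ∣ orderOf u := by
  obtain ⟨l, hl, -, ho⟩ := exists_prime_orderOf_eq a p (s + 1) hp ha (by omega)
  obtain ⟨hla, hlt⟩ := facts_of_orderOf (k := s + 1 + 1) hp hl (by omega) ho
  have hs : s < p ^ (s + 1 + 1) := by
    have h1 : s + 1 + 1 < p ^ (s + 1 + 1) := Nat.lt_pow_self hp.one_lt
    omega
  have hcop : Nat.Coprime a l := (Nat.Coprime.symm ((Nat.Prime.coprime_iff_not_dvd hl).mpr hla))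
  refine ⟨l, hl, lt_trans hs hlt, hla, ZMod.unitOfCoprime a hcop, ZMod.coe_unitOfCoprime a hcop, ?_⟩
  have h2 : orderOf (ZMod.unitOfCoprime a hcop) = orderOf ((a : ℕ) : ZMod l) := by
    rw [← orderOf_units, ZMod.coe_unitOfCoprime]
  rw [h2, ho]
  exact dvd_pow_self p (by omega)

/-- A natural number prime to `absNorm r` does not lie in the proper ideal `r`. -/
theorem natCast_notMem_of_coprime {K : Type*} [Field K] [NumberField K] {r : Ideal (𝓞 K)}
    (hr : r ≠ ⊤) {n : ℕ} (h : Nat.Coprime (Ideal.absNorm r) n) : (n : 𝓞 K) ∉ r := by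
  intro hn
  apply hr
  rw [Ideal.eq_top_iff_one]
  have h1 : ((Ideal.absNorm r : ℕ) : 𝓞 K) ∈ r := Ideal.absNorm_mem r
  have hc : IsCoprime ((Ideal.absNorm r : ℕ) : ℤ) (n : ℤ) := Nat.isCoprime_iff_coprime.mpr h
  obtain ⟨x, y, hxy⟩ := hc
  have h3 : ((x : 𝓞 K) * ((Ideal.absNorm r : ℕ) : 𝓞 K) + (y : 𝓞 K) * (n : 𝓞 K)) = 1 := by
    have := congrArg (Int.cast : ℤ → 𝓞 K) hxy
    push_cast at this
    exact this
  rw [← h3]
  exact Ideal.add_mem _ (Ideal.mul_mem_left _ _ h1) (Ideal.mul_mem_left _ _ hn)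

theorem two_le_absNorm {K : Type*} [Field K] [NumberField K] {r : Ideal (𝓞 K)}
    (hr : r.IsPrime) (hr0 : r ≠ ⊥) : 2 ≤ Ideal.absNorm r := by
  have h0 : Ideal.absNorm r ≠ 0 := by
    rw [Ne, Ideal.absNorm_eq_zero_iff]; exact hr0
  have h1 : Ideal.absNorm r ≠ 1 := by
    rw [Ne, Ideal.absNorm_eq_one_iff]; exact hr.ne_top
  omega

/-- A prime bigger than a positive number is coprime to it. -/
theorem coprime_of_lt {l n : ℕ} (hl : l.Prime) (hn : n ≠ 0) (h : n < l) : Nat.Coprime l n := by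
  rw [Nat.Prime.coprime_iff_not_dvd hl]
  intro hd
  exact absurd (Nat.le_of_dvd (Nat.pos_of_ne_zero hn) hd) (not_le.mpr h)

theorem auxChoice : PairCross.AuxChoice := by
  intro K _ _ p hp r r' hr hr0 hr' hr'0 N hN
  set a := Ideal.absNorm r with ha
  set a' := Ideal.absNorm r' with ha'
  have h2a : 2 ≤ a := two_le_absNorm hr hr0
  have h2a' : 2 ≤ a' := two_le_absNorm hr' hr'0
  obtain ⟨l, hl, hsl, -, u, hu, hpu⟩ := exists_aux_prime p a (N * a * a') hp h2a
  obtain ⟨l', hl', hsl', -, u', hu', hpu'⟩ := exists_aux_prime p a' (max (N * a * a') l) hp h2a'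
  have hll' : l < l' := lt_of_le_of_lt (le_max_right _ _) hsl'
  have hsl'' : N * a * a' < l' := lt_of_le_of_lt (le_max_left _ _) hsl'
  have hNpos : 0 < N := Nat.pos_of_ne_zero hN
  have hapos : 0 < a := by omega
  have ha'pos : 0 < a' := by omega
  have hN_le : N ≤ N * a * a' := by
    calc N = N * 1 * 1 := by ring
      _ ≤ N * a * a' := Nat.mul_le_mul (Nat.mul_le_mul le_rfl hapos) ha'pos
  have ha_le : a ≤ N * a * a' := by
    calc a = 1 * a * 1 := by ring
      _ ≤ N * a * a' := Nat.mul_le_mul (Nat.mul_le_mul hNpos le_rfl) ha'pos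
  have ha'_le : a' ≤ N * a * a' := by
    calc a' = 1 * 1 * a' := by ring
      _ ≤ N * a * a' := Nat.mul_le_mul (Nat.mul_le_mul hNpos hapos) le_rfl
  have c1 : Nat.Coprime l N := coprime_of_lt hl hN (lt_of_le_of_lt hN_le hsl)
  have c1' : Nat.Coprime l' N := coprime_of_lt hl' hN (lt_of_le_of_lt hN_le hsl'')
  have c2 : Nat.Coprime l a := coprime_of_lt hl (by omega) (lt_of_le_of_lt ha_le hsl)
  have c2' : Nat.Coprime l' a := coprime_of_lt hl' (by omega) (lt_of_le_of_lt ha_le hsl'')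
  have c3 : Nat.Coprime l a' := coprime_of_lt hl (by omega) (lt_of_le_of_lt ha'_le hsl)
  have c3' : Nat.Coprime l' a' := coprime_of_lt hl' (by omega) (lt_of_le_of_lt ha'_le hsl'')
  have hca : Nat.Coprime a (l * l') := Nat.Coprime.mul_right c2.symm c2'.symm
  have hca' : Nat.Coprime a' (l * l') := Nat.Coprime.mul_right c3.symm c3'.symm
  refine ⟨l, l', hl, hl', ne_of_lt hll', Nat.Coprime.mul_left c1 c1', hca, hca',
    natCast_notMem_of_coprime hr.ne_top hca, natCast_notMem_of_coprime hr'.ne_top hca',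
    ⟨u, hu, hpu⟩, ⟨u', hu', hpu'⟩⟩

end Fermat.Agent.CFT.AuxChoiceProof
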