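/-
Program E (S14), piece C4 (P1)/(P2) (helper26, statement by helper23): the auxiliary rational
primes of the pair crossing.

For a prime `p` and two nonzero primes `r`, `r'` of a number field `K` (and a bound `N`), there are
distinct rational primes `l`, `l'`, prime to `N`, to `absNorm r` and to `absNorm r'`, such that
`absNorm r` has order divisible by `p` in `(ZMod l)ˣ` and `absNorm r'` has order divisible by `p`
in `(ZMod l')ˣ`.
-/
import Mathlib
import Fermat.Agent.CFT.ArtinLemmaNT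

set_option autoImplicit false

open NumberField

namespace Fermat.Agent.CFT.AuxPrimes

/-- **(P1)** One auxiliary prime: `l > s`, `l ≠ p`, `l ∤ a`, and `a` is a unit mod `l` of order
divisible by `p`. -/
theorem exists_aux_prime (p a s : ℕ) (hp : p.Prime) (ha : 2 ≤ a) :
    ∃ l : ℕ, l.Prime ∧ s < l ∧ l ≠ p ∧ ¬ l ∣ a ∧
      ∃ u : (ZMod l)ˣ, (u : ZMod l) = (a : ZMod l) ∧ p ∣ orderOf u := by
  obtain ⟨l, hl, hlp, ho⟩ :=
    Fermat.Agent.CFT.ArtinLemmaNT.exists_prime_orderOf_eq a p (s + 1) hp ha (by omega)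
  obtain ⟨hna, hlt⟩ :=
    Fermat.Agent.CFT.ArtinLemmaNT.facts_of_orderOf hp hl (by omega : 1 ≤ s + 1 + 1) ho
  have hs : s < l := by
    calc s < 2 ^ s := Nat.lt_two_pow_self
      _ ≤ p ^ s := Nat.pow_le_pow_left hp.two_le s
      _ ≤ p ^ (s + 1 + 1) := Nat.pow_le_pow_right hp.pos (by omega)
      _ < l := hlt
  have hcop : Nat.Coprime a l := ((Nat.Prime.coprime_iff_not_dvd hl).mpr hna).symm
  refine ⟨l, hl, hs, hlp, hna, ZMod.unitOfCoprime a hcop, ZMod.coe_unitOfCoprime a hcop, ?_⟩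
  have h1 : orderOf (ZMod.unitOfCoprime a hcop) = orderOf ((a : ℕ) : ZMod l) := by
    rw [← orderOf_units, ZMod.coe_unitOfCoprime]
  rw [h1, ho]
  exact dvd_pow_self p (by omega)

/-- A natural number prime to the absolute norm of a proper ideal is not in the ideal. -/
theorem natCast_notMem_of_coprime {K : Type*} [Field K] [NumberField K] {r : Ideal (𝓞 K)}
    (hr : r ≠ ⊤) {n : ℕ} (h : Nat.Coprime (Ideal.absNorm r) n) : (n : 𝓞 K) ∉ r := by
  intro hn
  apply hr
  rw [Ideal.eq_top_iff_one]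
  have h1 : ((Ideal.absNorm r : ℕ) : 𝓞 K) ∈ r := Ideal.absNorm_mem r
  have hc : IsCoprime ((Ideal.absNorm r : ℕ) : ℤ) (n : ℤ) := Nat.isCoprime_iff_coprime.mpr h
  obtain ⟨u, v, huv⟩ := hc
  have h3 : ((u : 𝓞 K) * ((Ideal.absNorm r : ℕ) : 𝓞 K) + (v : 𝓞 K) * (n : 𝓞 K)) = 1 := by
    have := congrArg (Int.cast : ℤ → 𝓞 K) huv
    push_cast at this
    exact this
  rw [← h3]
  exact r.add_mem (r.mul_mem_left _ h1) (r.mul_mem_left _ hn)

/-- The absolute norm of a nonzero prime ideal is at least `2`. -/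
theorem two_le_absNorm {K : Type*} [Field K] [NumberField K] {r : Ideal (𝓞 K)} (hr : r.IsPrime)
    (hr0 : r ≠ ⊥) : 2 ≤ Ideal.absNorm r := by
  have h0 : Ideal.absNorm r ≠ 0 := by
    rw [Ne, Ideal.absNorm_eq_zero_iff]; exact hr0
  have h1 : Ideal.absNorm r ≠ 1 := by
    rw [Ne, Ideal.absNorm_eq_one_iff]; exact hr.ne_top
  omega

/-- **(P2)** The two auxiliary primes for a pair of primes of a number field. -/
theorem exists_aux_primes {K : Type} [Field K] [NumberField K] (p : ℕ) (hp : p.Prime)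
    (r r' : Ideal (𝓞 K)) (hr : r.IsPrime) (hr0 : r ≠ ⊥) (hr' : r'.IsPrime) (hr'0 : r' ≠ ⊥)
    (N : ℕ) (hN : N ≠ 0) :
    ∃ l l' : ℕ, l.Prime ∧ l'.Prime ∧ l ≠ l' ∧ Nat.Coprime (l * l') N ∧
      Nat.Coprime (Ideal.absNorm r) (l * l') ∧ Nat.Coprime (Ideal.absNorm r') (l * l') ∧
      ((l * l' : ℕ) : 𝓞 K) ∉ r ∧ ((l * l' : ℕ) : 𝓞 K) ∉ r' ∧
      (∃ u : (ZMod l)ˣ, (u : ZMod l) = (Ideal.absNorm r : ZMod l) ∧ p ∣ orderOf u) ∧
      (∃ u' : (ZMod l')ˣ, (u' : ZMod l') = (Ideal.absNorm r' : ZMod l') ∧ p ∣ orderOf u') := by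
  have ha : 2 ≤ Ideal.absNorm r := two_le_absNorm hr hr0
  have ha' : 2 ≤ Ideal.absNorm r' := two_le_absNorm hr' hr'0
  set a := Ideal.absNorm r with hadef
  set a' := Ideal.absNorm r' with ha'def
  have hNpos : 0 < N := Nat.pos_of_ne_zero hN
  obtain ⟨l, hl, hsl, -, -, u, hu, hpu⟩ := exists_aux_prime p a (N + a + a') hp ha
  obtain ⟨l', hl', hsl', -, -, u', hu', hpu'⟩ := exists_aux_prime p a' (N + a + a' + l) hp ha'
  have hll' : l ≠ l' := by omega
  -- a prime bigger than a positive number does not divide it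
  have key : ∀ {x n : ℕ}, x.Prime → 0 < n → n < x → Nat.Coprime x n := fun {x n} hx hn hlt =>
    (Nat.Prime.coprime_iff_not_dvd hx).mpr (Nat.not_dvd_of_pos_of_lt hn hlt)
  have hlN : Nat.Coprime l N := key hl hNpos (by omega)
  have hl'N : Nat.Coprime l' N := key hl' hNpos (by omega)
  have hla : Nat.Coprime l a := key hl (by omega) (by omega)
  have hl'a : Nat.Coprime l' a := key hl' (by omega) (by omega)
  have hla' : Nat.Coprime l a' := key hl (by omega) (by omega)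
  have hl'a' : Nat.Coprime l' a' := key hl' (by omega) (by omega)
  have hc : Nat.Coprime a (l * l') := Nat.Coprime.mul_right hla.symm hl'a.symm
  have hc' : Nat.Coprime a' (l * l') := Nat.Coprime.mul_right hla'.symm hl'a'.symm
  exact ⟨l, l', hl, hl', hll', Nat.Coprime.mul_left hlN hl'N, hc, hc',
    natCast_notMem_of_coprime hr.ne_top hc, natCast_notMem_of_coprime hr'.ne_top hc',
    ⟨u, hu, hpu⟩, ⟨u', hu', hpu'⟩⟩

end Fermat.Agent.CFT.AuxPrimes
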