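import Mathlib

/-!
# Shared definitions for the analytic first inequality (Program E, piece C1)

`K` a number field, `m` an ideal of `𝓞 K`.

* `coprimeIdeals K m` : the submonoid of nonzero integral ideals coprime to `m`.
* `RayHom K m G` : a monoid hom from `coprimeIdeals K m` to a commutative group `G`, killing the
  principal ideals `(α)` with `α ≡ 1 mod m`.
* `partialZeta`, `Lfun`, `idealZeta`.
-/

set_option autoImplicit false
set_option linter.unusedSectionVars false

open NumberField Ideal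

namespace Fermat.Agent.CFT.C1Defs

variable (K : Type*) [Field K] [NumberField K] (m : Ideal (𝓞 K))

/-- Nonzero integral ideals coprime to `m`. -/
def coprimeIdeals : Submonoid (Ideal (𝓞 K)) where
  carrier := {a | a ≠ ⊥ ∧ a ⊔ m = ⊤}
  one_mem' := by
    refine ⟨?_, ?_⟩
    · rw [Ideal.one_eq_top]; exact top_ne_bot
    · rw [Ideal.one_eq_top]; exact top_sup_eq _
  mul_mem' := by
    rintro a b ⟨ha0, ha⟩ ⟨hb0, hb⟩
    refine ⟨mul_ne_zero ha0 hb0, ?_⟩
    rw [← Ideal.isCoprime_iff_sup_eq] at ha hb ⊢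
    exact IsCoprime.mul_left ha hb

variable {K m}

theorem mem_coprimeIdeals {a : Ideal (𝓞 K)} : a ∈ coprimeIdeals K m ↔ a ≠ ⊥ ∧ a ⊔ m = ⊤ :=
  Iff.rfl

theorem ne_bot_of_mem {a : Ideal (𝓞 K)} (h : a ∈ coprimeIdeals K m) : a ≠ ⊥ := h.1

theorem sup_eq_top_of_mem {a : Ideal (𝓞 K)} (h : a ∈ coprimeIdeals K m) : a ⊔ m = ⊤ := h.2

theorem absNorm_pos_of_mem {a : Ideal (𝓞 K)} (h : a ∈ coprimeIdeals K m) : 0 < Ideal.absNorm a :=
  Nat.pos_of_ne_zero (Ideal.absNorm_eq_zero_iff.not.mpr h.1)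

variable (K m)

/-- A "ray class" homomorphism modulo `m`: a monoid hom on the nonzero integral ideals coprime to
`m` which kills the principal ideals `(α)` with `α ≡ 1 mod m`. -/
structure RayHom (G : Type*) [CommGroup G] where
  /-- the underlying monoid hom -/
  φ : coprimeIdeals K m →* G
  principal : ∀ (α : 𝓞 K), α - 1 ∈ m → ∀ h : Ideal.span {α} ∈ coprimeIdeals K m,
    φ ⟨Ideal.span {α}, h⟩ = 1

variable {K m}
variable {G : Type*} [CommGroup G]

/-- The partial zeta function of the fibre of `φ` over `g`. -/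
noncomputable def partialZeta (φ : coprimeIdeals K m →* G) (g : G) (s : ℝ) : ℝ :=
  ∑' a : {a : coprimeIdeals K m // φ a = g}, (Ideal.absNorm a.1.1 : ℝ) ^ (-s)

/-- The `L`-function of the character `χ ∘ φ`. -/
noncomputable def Lfun (φ : coprimeIdeals K m →* G) (χ : G →* ℂˣ) (s : ℝ) : ℂ :=
  ∑' a : coprimeIdeals K m, ((χ (φ a) : ℂˣ) : ℂ) * (((Ideal.absNorm a.1 : ℝ) ^ (-s) : ℝ) : ℂ)

variable (K)

/-- The Dedekind zeta function as a sum over nonzero ideals (real variable). -/
noncomputable def idealZeta (s : ℝ) : ℝ :=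
  ∑' a : {a : Ideal (𝓞 K) // a ≠ ⊥}, (Ideal.absNorm a.1 : ℝ) ^ (-s)

end Fermat.Agent.CFT.C1Defs
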