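import Fermat.Agent.CFT.ZetaRBounds

/-!
# (Z4): bounded `L(s, χ)` from the comparison of the class zeta functions (Z3)
-/

set_option linter.unusedSectionVars false

namespace Fermat.Agent.CFT.ClassLBound

open NumberField Ideal nonZeroDivisors
open Fermat.Agent.CFT.C1ClassDefs Fermat.Agent.CFT.ZetaRBounds

variable (K : Type*) [Field K] [NumberField K]

/-- The partial zeta function of an ideal class (real variable). -/
noncomputable def classZeta (C : ClassGroup (𝓞 K)) (s : ℝ) : ℝ :=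
  ∑' a : {a : (Ideal (𝓞 K))⁰ // ClassGroup.mk0 a = C}, (absNorm (a.1 : Ideal (𝓞 K)) : ℝ) ^ (-s)

theorem classZeta_nonneg (C : ClassGroup (𝓞 K)) (s : ℝ) : 0 ≤ classZeta K C s :=
  tsum_nonneg fun _ ↦ Real.rpow_nonneg (Nat.cast_nonneg _) _

theorem summable_classZeta (C : ClassGroup (𝓞 K)) {s : ℝ} (hs : 1 < s) :
    Summable (fun a : {a : (Ideal (𝓞 K))⁰ // ClassGroup.mk0 a = C} ↦
      (absNorm (a.1 : Ideal (𝓞 K)) : ℝ) ^ (-s)) :=
  (summable_zetaR K hs).subtype _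

variable {K}
variable {G : Type*} [CommGroup G] [Finite G]

/-- `L(s, χ ∘ ψ)` as a finite combination of the class zeta functions. -/
theorem classL_eq_sum_classZeta (ψ : ClassGroup (𝓞 K) →* G) (χ : G →* ℂˣ) {s : ℝ} (hs : 1 < s) :
    classL K (ψ.comp ClassGroup.mk0) χ s =
      ∑ C : ClassGroup (𝓞 K), ((χ (ψ C) : ℂˣ) : ℂ) * ((classZeta K C s : ℝ) : ℂ) := by
  have hsum := summable_classL (ψ.comp ClassGroup.mk0) χ hs
  set e := Equiv.sigmaFiberEquiv (fun a : (Ideal (𝓞 K))⁰ ↦ ClassGroup.mk0 a) with he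
  have h2 := e.summable_iff.mpr hsum
  rw [classL]
  refine (e.tsum_eq _).symm.trans (h2.tsum_sigma.trans ?_)
  rw [tsum_fintype]
  refine Finset.sum_congr rfl fun C _ ↦ ?_
  rw [classZeta, Complex.ofReal_tsum, ← tsum_mul_left]
  refine tsum_congr fun y ↦ ?_
  obtain ⟨a, ha⟩ := y
  simp only [he, Equiv.sigmaFiberEquiv, Equiv.coe_fn_mk, MonoidHom.coe_comp, Function.comp_apply,
    ha]

theorem sum_char_eq_zero {H : Type*} [CommGroup H] [Fintype H] (η : H →* ℂˣ) (hη : η ≠ 1) :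
    ∑ h : H, ((η h : ℂˣ) : ℂ) = 0 := by
  obtain ⟨h₀, hh₀⟩ : ∃ h₀, η h₀ ≠ 1 := by
    by_contra hcon
    push Not at hcon
    exact hη (MonoidHom.ext hcon)
  have h1 : ∑ h : H, ((η h : ℂˣ) : ℂ) = ((η h₀ : ℂˣ) : ℂ) * ∑ h : H, ((η h : ℂˣ) : ℂ) := by
    rw [Finset.mul_sum]
    refine (Fintype.sum_bijective _ (Group.mulLeft_bijective h₀) _ _ fun h ↦ ?_).symm
    simp [map_mul]
  have h2 : (1 - ((η h₀ : ℂˣ) : ℂ)) * ∑ h : H, ((η h : ℂˣ) : ℂ) = 0 := by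
    rw [sub_mul, one_mul, ← h1, sub_self]
  rcases mul_eq_zero.mp h2 with h | h
  · exfalso
    apply hh₀
    ext
    rw [Units.val_one]
    exact (sub_eq_zero.mp h).symm
  · exact h

/-- **(Z4)** from **(Z3)**: if the class zeta functions differ pairwise by `O(1)` on `(1, 2]`,
then `L(s, χ ∘ ψ)` is bounded on `(1, 2]` for `χ ∘ ψ ≠ 1`. -/
theorem classL_bounded_of_compare
    (hZ3 : ∃ B : ℝ, ∀ s ∈ Set.Ioc (1 : ℝ) 2, ∀ C C' : ClassGroup (𝓞 K),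
      |classZeta K C s - classZeta K C' s| ≤ B)
    (ψ : ClassGroup (𝓞 K) →* G) (χ : G →* ℂˣ) (hχ : χ.comp ψ ≠ 1) :
    ∃ B : ℝ, ∀ s ∈ Set.Ioc (1 : ℝ) 2, ‖classL K (ψ.comp ClassGroup.mk0) χ s‖ ≤ B := by
  obtain ⟨B, hB⟩ := hZ3
  refine ⟨Fintype.card (ClassGroup (𝓞 K)) * B, fun s hs ↦ ?_⟩
  have h0 : ∑ C : ClassGroup (𝓞 K), ((χ (ψ C) : ℂˣ) : ℂ) = 0 :=
    sum_char_eq_zero (χ.comp ψ) hχ
  have h1 : classL K (ψ.comp ClassGroup.mk0) χ s =
      ∑ C : ClassGroup (𝓞 K), ((χ (ψ C) : ℂˣ) : ℂ) *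
        (((classZeta K C s - classZeta K 1 s : ℝ)) : ℂ) := by
    rw [classL_eq_sum_classZeta ψ χ hs.1]
    have : ∀ C : ClassGroup (𝓞 K), ((χ (ψ C) : ℂˣ) : ℂ) *
        (((classZeta K C s - classZeta K 1 s : ℝ)) : ℂ) =
        ((χ (ψ C) : ℂˣ) : ℂ) * ((classZeta K C s : ℝ) : ℂ) -
          ((χ (ψ C) : ℂˣ) : ℂ) * ((classZeta K 1 s : ℝ) : ℂ) := fun C ↦ by
      push_cast; ring
    rw [Finset.sum_congr rfl fun C _ ↦ this C, Finset.sum_sub_distrib, ← Finset.sum_mul, h0,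
      zero_mul, sub_zero]
  rw [h1]
  refine (norm_sum_le _ _).trans ?_
  calc ∑ C : ClassGroup (𝓞 K), ‖((χ (ψ C) : ℂˣ) : ℂ) *
        (((classZeta K C s - classZeta K 1 s : ℝ)) : ℂ)‖
      ≤ ∑ _C : ClassGroup (𝓞 K), B := by
        refine Finset.sum_le_sum fun C _ ↦ ?_
        rw [norm_mul, norm_unit_apply, one_mul, Complex.norm_real, Real.norm_eq_abs]
        exact hB s hs C 1
    _ = Fintype.card (ClassGroup (𝓞 K)) * B := by
        rw [Finset.sum_const, Finset.card_univ, nsmul_eq_mul]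

end Fermat.Agent.CFT.ClassLBound
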