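/-
CoprimeRep (helper14): representatives of ideal classes prime to a modulus, in a generic
Dedekind domain.  Mathlib only.

* `exists_mul_eq_span` : for nonzero ideals `I`, `m` there is `a ∈ I`, `a ≠ 0`, with
  `span {a} = I * J` and `J` prime to `m`.
* (AP1) `exists_coprime_rep` : every nonzero ideal `I` is equivalent to a nonzero ideal `J`
  prime to `m` : `span {x} * I = span {y} * J`.
* (AP1') `exists_coprime_rep_classGroup` : class group form.
* (AP2) `exists_coprime_gens` : a relation `span {x} * B = span {y} * C` between ideals prime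
  to `m` can be rewritten with generators prime to `m` (and with the same quotient `x / y`).
-/
import Mathlib

namespace Fermat.Agent.CFT.CoprimeRep

open Ideal
open scoped nonZeroDivisors

variable {R : Type*} [CommRing R]

/-- If a product is prime to `m`, so is the left factor. -/
theorem sup_eq_top_of_mul {A B m : Ideal R} (h : A * B ⊔ m = ⊤) : A ⊔ m = ⊤ :=
  top_le_iff.mp (h ▸ sup_le_sup_right Ideal.mul_le_left m)

/-- If a product is prime to `m`, so is the right factor. -/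
theorem sup_eq_top_of_mul' {A B m : Ideal R} (h : A * B ⊔ m = ⊤) : B ⊔ m = ⊤ :=
  top_le_iff.mp (h ▸ sup_le_sup_right Ideal.mul_le_right m)

/-- A product of ideals prime to `m` is prime to `m`. -/
theorem mul_sup_eq_top {A B m : Ideal R} (hA : A ⊔ m = ⊤) (hB : B ⊔ m = ⊤) :
    A * B ⊔ m = ⊤ := by
  have h1 : IsCoprime A m := (Ideal.isCoprime_iff_sup_eq).mpr hA
  have h2 : IsCoprime B m := (Ideal.isCoprime_iff_sup_eq).mpr hB
  exact (Ideal.isCoprime_iff_sup_eq).mp (IsCoprime.mul_left h1 h2)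

/-- An element congruent to `1` modulo `m` is prime to `m`. -/
theorem span_sup_eq_top_of_sub_one_mem {m : Ideal R} {c : R} (hc : c - 1 ∈ m) :
    span {c} ⊔ m = ⊤ := by
  rw [Ideal.eq_top_iff_one]
  have h1 : (1 : R) = c + (-(c - 1)) := by ring
  rw [h1]
  exact Submodule.add_mem_sup (Ideal.mem_span_singleton_self c) (m.neg_mem hc)

/-- In an ideal `C` prime to `m` there is an element congruent to `1` modulo `m`. -/
theorem exists_mem_sub_one_mem {C m : Ideal R} (hC : C ⊔ m = ⊤) :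
    ∃ c ∈ C, c - 1 ∈ m := by
  have h1 : (1 : R) ∈ C ⊔ m := by rw [hC]; exact Submodule.mem_top
  obtain ⟨c, hc, μ, hμ, hcμ⟩ := Submodule.mem_sup.mp h1
  refine ⟨c, hc, ?_⟩
  have : c - 1 = -μ := by rw [← hcμ]; ring
  rw [this]
  exact m.neg_mem hμ

variable [IsDedekindDomain R]

/-- Key lemma: for nonzero ideals `I`, `m` of a Dedekind domain there is a nonzero `a ∈ I` with
`span {a} = I * J` and `J` prime to `m`. -/
theorem exists_mul_eq_span (I m : Ideal R) (hI : I ≠ ⊥) (hm : m ≠ ⊥) :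
    ∃ (a : R) (J : Ideal R), a ≠ 0 ∧ a ∈ I ∧ J ≠ ⊥ ∧ J ⊔ m = ⊤ ∧ span {a} = I * J := by
  by_cases hmt : m = ⊤
  · -- any nonzero element of `I` works
    obtain ⟨a, haI, ha0⟩ := Submodule.exists_mem_ne_zero_of_ne_bot hI
    have haI' : span {a} ≤ I := (Ideal.span_singleton_le_iff_mem I).mpr haI
    obtain ⟨J, hJ⟩ := Ideal.dvd_iff_le.mpr haI'
    refine ⟨a, J, ha0, haI, ?_, by rw [hmt]; exact sup_top_eq _, hJ⟩
    intro h
    rw [h, Ideal.mul_bot] at hJ
    exact ha0 (Ideal.span_singleton_eq_bot.mp hJ)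
  have hIm0 : I * m ≠ ⊥ := by
    have : I * m ≠ 0 := mul_ne_zero hI hm
    simpa using this
  obtain ⟨a, ha⟩ := IsDedekindDomain.exists_sup_span_eq
    (I := I * m) (J := I) Ideal.mul_le_left hIm0
  have haI' : span {a} ≤ I := by rw [← ha]; exact le_sup_right
  have haI : a ∈ I := (Ideal.span_singleton_le_iff_mem I).mp haI'
  obtain ⟨J, hJ⟩ := Ideal.dvd_iff_le.mpr haI'
  have hsup : m ⊔ J = ⊤ := by
    have h1 : I * (m ⊔ J) = I * ⊤ := by
      rw [Ideal.mul_sup, ← hJ, ha, Ideal.mul_top]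
    exact mul_left_cancel₀ hI h1
  have ha0 : a ≠ 0 := by
    intro h0
    apply hmt
    rw [h0, Ideal.span_singleton_eq_bot.mpr rfl] at hJ
    have hJ' : J = ⊥ := by
      rcases mul_eq_zero.mp hJ.symm with h | h
      · exact absurd h hI
      · exact h
    rw [hJ', sup_bot_eq] at hsup
    exact hsup
  have hJ0 : J ≠ ⊥ := by
    intro h
    rw [h, Ideal.mul_bot] at hJ
    exact ha0 (Ideal.span_singleton_eq_bot.mp hJ)
  exact ⟨a, J, ha0, haI, hJ0, by rw [sup_comm]; exact hsup, hJ⟩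

/-- (AP1) Every nonzero ideal `I` of a Dedekind domain is equivalent to a nonzero ideal `J` prime
to a given nonzero ideal `m`. -/
theorem exists_coprime_rep (I m : Ideal R) (hI : I ≠ ⊥) (hm : m ≠ ⊥) :
    ∃ (x y : R) (J : Ideal R), x ≠ 0 ∧ y ≠ 0 ∧ J ≠ ⊥ ∧ J ⊔ m = ⊤ ∧
      span {x} * I = span {y} * J := by
  -- `span {b} = I * I'` with `I'` in the inverse class
  obtain ⟨b, hbI, hb0⟩ := Submodule.exists_mem_ne_zero_of_ne_bot hI
  have hbI' : span {b} ≤ I := (Ideal.span_singleton_le_iff_mem I).mpr hbI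
  obtain ⟨I', hI'⟩ := Ideal.dvd_iff_le.mpr hbI'
  have hI'0 : I' ≠ ⊥ := by
    intro h
    rw [h, Ideal.mul_bot] at hI'
    exact hb0 (Ideal.span_singleton_eq_bot.mp hI')
  obtain ⟨a, J, ha0, -, hJ0, hJm, haJ⟩ := exists_mul_eq_span I' m hI'0 hm
  refine ⟨a, b, J, ha0, hb0, hJ0, hJm, ?_⟩
  rw [haJ, hI']
  ring

/-- (AP1') Class group form: every ideal class of a Dedekind domain contains an integral ideal
prime to a given nonzero ideal `m`. -/
theorem exists_coprime_rep_classGroup (m : Ideal R) (hm : m ≠ ⊥) (c : ClassGroup R) :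
    ∃ J : (Ideal R)⁰, (J : Ideal R) ⊔ m = ⊤ ∧ ClassGroup.mk0 J = c := by
  obtain ⟨I, rfl⟩ := ClassGroup.mk0_surjective c
  have hI0 : (I : Ideal R) ≠ ⊥ := mem_nonZeroDivisors_iff_ne_zero.mp I.2
  obtain ⟨x, y, J, hx, hy, hJ0, hJm, h⟩ := exists_coprime_rep (I : Ideal R) m hI0 hm
  refine ⟨⟨J, mem_nonZeroDivisors_iff_ne_zero.mpr hJ0⟩, hJm, ?_⟩
  symm
  rw [ClassGroup.mk0_eq_mk0_iff]
  exact ⟨x, y, hx, hy, h⟩

/-- (AP2) A relation `span {x} * B = span {y} * C` between ideals `B`, `C` prime to `m` can be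
rewritten with generators `x'`, `y'` prime to `m` (in fact `x' ≡ 1 mod m`), with the same
quotient `x' / y' = x / y`. -/
theorem exists_coprime_gens (m : Ideal R) {B C : Ideal R} (hB : B ⊔ m = ⊤) (hC : C ⊔ m = ⊤)
    {x y : R} (hx : x ≠ 0) (hy : y ≠ 0) (h : span {x} * B = span {y} * C) :
    ∃ x' y' : R, x' ≠ 0 ∧ y' ≠ 0 ∧ x' - 1 ∈ m ∧ span {x'} ⊔ m = ⊤ ∧ span {y'} ⊔ m = ⊤ ∧
      x' * y = y' * x ∧ span {x'} * B = span {y'} * C := by
  by_cases hmt : m = ⊤
  · refine ⟨x, y, hx, hy, by rw [hmt]; exact Submodule.mem_top, by rw [hmt]; exact sup_top_eq _,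
      by rw [hmt]; exact sup_top_eq _, mul_comm x y, h⟩
  obtain ⟨c, hcC, hcm⟩ := exists_mem_sub_one_mem hC
  have hc0 : c ≠ 0 := by
    intro h0
    apply hmt
    rw [Ideal.eq_top_iff_one]
    have : (1 : R) = -(c - 1) := by rw [h0]; ring
    rw [this]
    exact m.neg_mem hcm
  -- `y * c ∈ span {y} * C = span {x} * B`
  have hyc : y * c ∈ span {x} * B := by
    rw [h]
    exact Ideal.mul_mem_mul (Ideal.mem_span_singleton_self y) hcC
  obtain ⟨b, hbB, hb⟩ := Ideal.mem_span_singleton_mul.mp hyc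
  -- hb : x * b = y * c
  have hb0 : b ≠ 0 := by
    intro h0
    rw [h0, mul_zero] at hb
    exact mul_ne_zero hy hc0 hb.symm
  have hrel : c * y = b * x := by rw [mul_comm c y, mul_comm b x]; exact hb.symm
  have hy0 : span {y} ≠ 0 := by
    rw [Ne, Ideal.zero_eq_bot, Ideal.span_singleton_eq_bot]; exact hy
  have hideal : span {c} * B = span {b} * C := by
    apply mul_left_cancel₀ hy0
    calc span {y} * (span {c} * B) = span {c * y} * B := by
          rw [← mul_assoc, Ideal.span_singleton_mul_span_singleton, mul_comm y c]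
      _ = span {b * x} * B := by rw [hrel]
      _ = span {b} * (span {x} * B) := by
          rw [← mul_assoc, Ideal.span_singleton_mul_span_singleton]
      _ = span {b} * (span {y} * C) := by rw [h]
      _ = span {y} * (span {b} * C) := by ring
  have hcm' : span {c} ⊔ m = ⊤ := span_sup_eq_top_of_sub_one_mem hcm
  have hbm : span {b} ⊔ m = ⊤ := by
    have h1 : span {c} * B ⊔ m = ⊤ := mul_sup_eq_top hcm' hB
    rw [hideal] at h1
    exact sup_eq_top_of_mul h1
  exact ⟨c, b, hc0, hb0, hcm, hcm', hbm, hrel, hideal⟩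

end Fermat.Agent.CFT.CoprimeRep
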