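/-
Program E (S14), piece C4e-1b: pair version of the abstract end of Artin's crossing argument.
Only TWO auxiliary good sets at a time are needed (helper23's PAIR architecture).
-/
import Fermat.Agent.CFT.CrossAssembly

set_option autoImplicit false

namespace Fermat.Agent.CFT.CrossAssemblyPair

open UniqueFactorizationMonoid Fermat.Agent.CFT.CrossAssembly

variable {R : Type*} [CommRing R] [IsDedekindDomain R]
variable {G : Type*} [Group G] {Q : Type*} [CommGroup Q]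

variable (art : Ideal R → G) (hart1 : art 1 = 1)
  (hartmul : ∀ I J : Ideal R, I ≠ ⊥ → J ≠ ⊥ → art (I * J) = art I * art J)
  (π : Ideal R → Q) (hπ1 : π 1 = 1)
  (hπmul : ∀ I J : Ideal R, I ≠ ⊥ → J ≠ ⊥ → π (I * J) = π I * π J)
  (p : ℕ) (hp : p.Prime) (hG : Nat.card G = p)
  (hπp : ∀ I : Ideal R, I ≠ ⊥ → π I ^ p = 1)

/-- The pair hypothesis: two primes with nontrivial symbol lie in good sets having a common
good refinement on which `art` is not trivial. -/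
def PairHyp : Prop :=
  ∀ r r' : Ideal R, r.IsPrime → r ≠ ⊥ → r'.IsPrime → r' ≠ ⊥ → art r ≠ 1 → art r' ≠ 1 →
    ∃ Y Y' Y'' : Submonoid (Ideal R), IsGood art π Y ∧ IsGood art π Y' ∧ r ∈ Y ∧ r' ∈ Y' ∧
      Y'' ≤ Y ∧ Y'' ≤ Y' ∧ ∃ b₀ ∈ Y'', art b₀ ≠ 1

include hart1 hartmul hπ1 hπmul hp hG hπp in
/-- **PAIR relation.**  If `π r₀ ≠ 1` then for every nonzero prime `q` there is `j` with
`art q = art r₀ ^ j` and `π q = π r₀ ^ j`. -/
theorem exists_pow_prime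
    (Hsplit : ∀ q : Ideal R, q.IsPrime → q ≠ ⊥ → art q = 1 → π q = 1)
    (Hpair : PairHyp art π)
    {r₀ : Ideal R} (hr₀ : r₀.IsPrime) (hr₀0 : r₀ ≠ ⊥) (hπr₀ : π r₀ ≠ 1)
    (q : Ideal R) (hq : q.IsPrime) (hq0 : q ≠ ⊥) :
    ∃ j : ℕ, art q = art r₀ ^ j ∧ π q = π r₀ ^ j := by
  have har₀ : art r₀ ≠ 1 := fun h => hπr₀ (Hsplit r₀ hr₀ hr₀0 h)
  by_cases haq : art q = 1
  · exact ⟨0, by rw [haq, pow_zero], by rw [Hsplit q hq hq0 haq, pow_zero]⟩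
  obtain ⟨Y, Y', Y'', hY, hY', hrY, hqY', hle, hle', b₀, hb₀, hab₀⟩ :=
    Hpair r₀ q hr₀ hr₀0 hq hq0 har₀ haq
  obtain ⟨k₀, hk₀⟩ := exists_pow_eq_of_ne_one p hp hG hab₀ (art r₀)
  obtain ⟨k, hk⟩ := exists_pow_eq_of_ne_one p hp hG hab₀ (art q)
  have h1 : π r₀ = π b₀ ^ k₀ :=
    pi_eq_pow_of_art_eq_pow art hart1 hartmul π hπ1 hπmul p hp hG hπp hY (hle hb₀) hrY k₀ hk₀
  have h2 : π q = π b₀ ^ k :=
    pi_eq_pow_of_art_eq_pow art hart1 hartmul π hπ1 hπmul p hp hG hπp hY' (hle' hb₀) hqY' k hk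
  have hb₀0 : b₀ ≠ ⊥ := fun h => hY.1 (h ▸ hle hb₀)
  have hcp : π b₀ ^ p = 1 := hπp _ hb₀0
  have hgp : art b₀ ^ p = 1 := pow_prime_card_eq_one p hp hG _
  -- `p ∤ k₀`
  have hpk₀ : ¬ p ∣ k₀ := by
    rintro ⟨t, rfl⟩
    apply hπr₀
    rw [h1, pow_mul, hcp, one_pow]
  -- inverse of `k₀` mod `p`
  have hcop : Nat.Coprime k₀ p := (Nat.Coprime.symm ((Nat.Prime.coprime_iff_not_dvd hp).mpr hpk₀))
  obtain ⟨u, -, hu⟩ := Nat.exists_mul_mod_eq_one_of_coprime hcop hp.one_lt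
  -- k₀ * u = 1 + p * t
  have hdiv : k₀ * u = 1 + p * (k₀ * u / p) := by
    have := Nat.div_add_mod (k₀ * u) p
    rw [hu] at this
    omega
  have hg : art b₀ = art r₀ ^ u := by
    rw [hk₀, ← pow_mul, hdiv, pow_add, pow_one, pow_mul, hgp, one_pow, mul_one]
  have hc : π b₀ = π r₀ ^ u := by
    rw [h1, ← pow_mul, hdiv, pow_add, pow_one, pow_mul, hcp, one_pow, mul_one]
  exact ⟨u * k, by rw [hk, hg, pow_mul], by rw [h2, hc, pow_mul]⟩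

include hart1 hartmul hπ1 hπmul hp hG hπp in
/-- Ideal-level version of the PAIR relation. -/
theorem exists_pow_ideal
    (Hsplit : ∀ q : Ideal R, q.IsPrime → q ≠ ⊥ → art q = 1 → π q = 1)
    (Hpair : PairHyp art π)
    {r₀ : Ideal R} (hr₀ : r₀.IsPrime) (hr₀0 : r₀ ≠ ⊥) (hπr₀ : π r₀ ≠ 1)
    (Z : Ideal R) (hZ : Z ≠ ⊥) :
    ∃ j : ℕ, art Z = art r₀ ^ j ∧ π Z = π r₀ ^ j := by
  induction Z using UniqueFactorizationMonoid.induction_on_prime with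
  | h₁ => exact absurd rfl hZ
  | h₂ Z hZu =>
    have : Z = 1 := by simpa [Ideal.one_eq_top] using Ideal.isUnit_iff.mp hZu
    exact ⟨0, by rw [this, hart1, pow_zero], by rw [this, hπ1, pow_zero]⟩
  | h₃ Z q hZ0 hq ih =>
    have hq0 : q ≠ ⊥ := hq.ne_zero
    obtain ⟨k₁, h1, h1'⟩ := exists_pow_prime art hart1 hartmul π hπ1 hπmul p hp hG hπp
      Hsplit Hpair hr₀ hr₀0 hπr₀ q (Ideal.isPrime_of_prime hq) hq0
    obtain ⟨k₂, h2, h2'⟩ := ih hZ0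
    exact ⟨k₁ + k₂, by rw [hartmul _ _ hq0 hZ0, h1, h2, pow_add],
      by rw [hπmul _ _ hq0 hZ0, h1', h2', pow_add]⟩

include hart1 hartmul hπ1 hπmul hp hG hπp in
/-- `π X = 1 → art X = 1` for every nonzero ideal. -/
theorem art_eq_one_of_pi_eq_one
    (Hsplit : ∀ q : Ideal R, q.IsPrime → q ≠ ⊥ → art q = 1 → π q = 1)
    (Hpair : PairHyp art π)
    (H3 : ∃ r₀ : Ideal R, r₀.IsPrime ∧ r₀ ≠ ⊥ ∧ π r₀ ≠ 1)
    (X : Ideal R) (hX : X ≠ ⊥) (hπX : π X = 1) : art X = 1 := by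
  obtain ⟨r₀, hr₀, hr₀0, hπr₀⟩ := H3
  obtain ⟨j, hj, hj'⟩ := exists_pow_ideal art hart1 hartmul π hπ1 hπmul p hp hG hπp
    Hsplit Hpair hr₀ hr₀0 hπr₀ X hX
  have hcp : π r₀ ^ p = 1 := hπp _ hr₀0
  have hord : orderOf (π r₀) = p := by
    rcases (Nat.dvd_prime hp).mp (orderOf_dvd_of_pow_eq_one hcp) with h | h
    · exact absurd (orderOf_eq_one_iff.mp h) hπr₀
    · exact h
  rw [hπX] at hj'
  have hdvd : p ∣ j := by rw [← hord]; exact orderOf_dvd_of_pow_eq_one hj'.symm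
  obtain ⟨t, rfl⟩ := hdvd
  rw [hj, pow_mul, pow_prime_card_eq_one p hp hG, one_pow]

include hart1 hartmul hπ1 hπmul hp hG hπp in
/-- **End theorem (pair form)**: `art` kills principal ideals. -/
theorem art_span_singleton_eq_one
    (Hsplit : ∀ q : Ideal R, q.IsPrime → q ≠ ⊥ → art q = 1 → π q = 1)
    (Hpair : PairHyp art π)
    (H3 : ∃ r₀ : Ideal R, r₀.IsPrime ∧ r₀ ≠ ⊥ ∧ π r₀ ≠ 1)
    (H4 : ∀ a : R, a ≠ 0 → π (Ideal.span {a}) = 1)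
    (a : R) (ha : a ≠ 0) : art (Ideal.span {a}) = 1 :=
  art_eq_one_of_pi_eq_one art hart1 hartmul π hπ1 hπmul p hp hG hπp Hsplit Hpair H3 _
    (by simpa [Ideal.span_singleton_eq_bot] using ha) (H4 a ha)

end Fermat.Agent.CFT.CrossAssemblyPair
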