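/-
Program E (S14), piece C4b-types, part (e): the crossing fields see `Ω` as a cyclotomic extension.

If `Φ ⊔ K(ζ) = ⊤` inside `Ω` (e.g. `Φ = fixedField H` with `H ≤ Hsub …`, see
`CrossSubgroups.fixedField_sup_adjoin_eq_top`), then `Ω = Φ(ζ)`, i.e.
`IsCyclotomicExtension {m} Φ Ω`.
-/
import Mathlib
import Fermat.Agent.CFT.CrossSubgroups

set_option autoImplicit false
set_option linter.unusedSectionVars false

namespace Fermat.Agent.CFT.CrossFieldsExtra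

open IntermediateField

section general

variable {K Ω : Type*} [Field K] [Field Ω] [Algebra K Ω]

/-- `Φ(ζ) = Ω` as intermediate fields over `Φ`, from `Φ ⊔ K(ζ) = ⊤`. -/
theorem adjoin_eq_top_of_sup_eq_top {ζ : Ω} (Φ : IntermediateField K Ω)
    (h : Φ ⊔ K⟮ζ⟯ = ⊤) : IntermediateField.adjoin Φ {ζ} = ⊤ := by
  rw [← restrictScalars_eq_top_iff (K := K), restrictScalars_adjoin_eq_sup, h]

/-- **(e)** If `Φ ⊔ K(ζ_m) = ⊤` inside `Ω` then `Ω` is the `m`-th cyclotomic extension of `Φ`. -/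
theorem isCyclotomicExtension_of_sup_eq_top [Algebra.IsIntegral K Ω] {m : ℕ} [NeZero m] {ζ : Ω}
    (hζ : IsPrimitiveRoot ζ m) (Φ : IntermediateField K Ω) (h : Φ ⊔ K⟮ζ⟯ = ⊤) :
    IsCyclotomicExtension {m} Φ Ω := by
  have h1 : IsCyclotomicExtension {m} Φ (IntermediateField.adjoin Φ {ζ}) :=
    hζ.intermediateField_adjoin_isCyclotomicExtension Φ
  exact IsCyclotomicExtension.equiv (A := Φ) (B := IntermediateField.adjoin Φ {ζ}) {m}
    ((IntermediateField.equivOfEq (adjoin_eq_top_of_sup_eq_top Φ h)).trans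
      IntermediateField.topEquiv)

/-- `Φ ⊔ K(ζ) = ⊤` passes to larger `Φ`. -/
theorem sup_adjoin_eq_top_of_le {ζ : Ω} {Φ Φ' : IntermediateField K Ω} (hle : Φ ≤ Φ')
    (h : Φ ⊔ K⟮ζ⟯ = ⊤) : Φ' ⊔ K⟮ζ⟯ = ⊤ :=
  top_le_iff.1 (h ▸ sup_le_sup_right hle _)

end general

section cross

open NumberField Fermat.Agent.CFT.CrossSubgroups

variable {K L Ω : Type} [Field K] [Field L] [Field Ω] [NumberField K] [NumberField L]
  [NumberField Ω] [Algebra K L] [Algebra L Ω] [Algebra K Ω] [IsScalarTower K L Ω]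
  {q q' : ℕ} [NeZero q] [NeZero q'] [IsCyclotomicExtension {q * q'} L Ω] {ζ : Ω}
  [IsGalois K L] [IsGalois K Ω]

/-- For `Φ ⊇ fixedField H`, `H ≤ Hsub hζ σ u`: `Ω = Φ(ζ_{qq'})` is cyclotomic over `Φ`. -/
theorem isCyclotomicExtension_of_le_Hsub (hcop : q.Coprime q') (hζ : IsPrimitiveRoot ζ (q * q'))
    (hm : Nat.Coprime (q * q') (discr L).natAbs) {σ : L ≃ₐ[K] L}
    {u : (ZMod q)ˣ} {p : ℕ} (hσ : σ ^ p = 1) (hu : p ∣ orderOf u)
    {H : Subgroup (Ω ≃ₐ[K] Ω)} (hH : H ≤ Hsub hζ σ u) (Φ : IntermediateField K Ω)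
    (hΦ : IntermediateField.fixedField H ≤ Φ) :
    IsCyclotomicExtension {q * q'} Φ Ω :=
  isCyclotomicExtension_of_sup_eq_top hζ Φ
    (sup_adjoin_eq_top_of_le hΦ (fixedField_sup_adjoin_eq_top (K := K) (L := L) hcop hζ hm hσ hu hH))

/-- For `Φ ⊇ fixedField H`, `H ≤ Hsub' hζ σ' u'`: `Ω = Φ(ζ_{qq'})` is cyclotomic over `Φ`. -/
theorem isCyclotomicExtension_of_le_Hsub' (hcop : q.Coprime q')
    (hζ : IsPrimitiveRoot ζ (q * q'))
    (hm : Nat.Coprime (q * q') (discr L).natAbs) {σ' : L ≃ₐ[K] L}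
    {u' : (ZMod q')ˣ} {p : ℕ} (hσ : σ' ^ p = 1) (hu : p ∣ orderOf u')
    {H : Subgroup (Ω ≃ₐ[K] Ω)} (hH : H ≤ Hsub' hζ σ' u') (Φ : IntermediateField K Ω)
    (hΦ : IntermediateField.fixedField H ≤ Φ) :
    IsCyclotomicExtension {q * q'} Φ Ω :=
  isCyclotomicExtension_of_sup_eq_top hζ Φ
    (sup_adjoin_eq_top_of_le hΦ
      (fixedField_sup_adjoin_eq_top' (K := K) (L := L) hcop hζ hm hσ hu hH))

end cross

end Fermat.Agent.CFT.CrossFieldsExtra
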