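/-
Program E (S14), piece PC3 of PairCross: a prime `r` of `K`, not containing `m` and unramified in
`L`, whose Artin symbol in `Ω = L(ζ_m)` lies in a subgroup `H ≤ Gal(Ω/K)`, is the relative norm of
a prime of the fixed field of `H`; hence `r ∈ Y_Φ = normSub K (fixedField H) m`.
-/
import Mathlib
import Fermat.Agent.CFT.FrobOmega
import Fermat.Agent.CFT.DecompGroup
import Fermat.Agent.CFT.PerField

set_option autoImplicit false
set_option linter.style.haveILetI false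

open NumberField
open scoped IsMulCommutative

namespace Fermat.Agent.CFT.CrossMem

open Fermat.Agent.CFT.ArtinMap Fermat.Agent.CFT.PerField

/-- If the rational integer `m` is not in the nonzero prime `r`, the absolute norm of `r` is prime
to `m`. -/
theorem coprime_absNorm_of_natCast_notMem {K : Type*} [Field K] [NumberField K] {m : ℕ}
    {r : Ideal (𝓞 K)} [hr : r.IsPrime] (hr0 : r ≠ ⊥)
    (hm : (m : 𝓞 K) ∉ r) : Nat.Coprime (Ideal.absNorm r) m := by
  rw [Nat.coprime_iff_gcd_eq_one]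
  by_contra hne
  obtain ⟨l, hl, hld⟩ := Nat.exists_prime_and_dvd hne
  have hl1 : l ∣ Ideal.absNorm r := dvd_trans hld (Nat.gcd_dvd_left _ _)
  have hl2 : l ∣ m := dvd_trans hld (Nat.gcd_dvd_right _ _)
  have hmem : (l : 𝓞 K) ∈ r := by
    have hfin : Finite (𝓞 K ⧸ r) := Ideal.finiteQuotientOfFreeOfNeBot r hr0
    have hcard : Nat.card (𝓞 K ⧸ r) = Ideal.absNorm r := by
      rw [Ideal.absNorm_apply]; rfl
    haveI : Fact l.Prime := ⟨hl⟩
    obtain ⟨x, hx⟩ := exists_prime_addOrderOf_dvd_card' (G := 𝓞 K ⧸ r) l (by rw [hcard]; exact hl1)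
    have hx0 : x ≠ 0 := by
      rintro rfl
      rw [addOrderOf_zero] at hx
      exact hl.one_lt.ne hx
    have h1 : (l : 𝓞 K ⧸ r) * x = 0 := by
      rw [← nsmul_eq_mul, ← hx]
      exact addOrderOf_nsmul_eq_zero x
    have h2 : (l : 𝓞 K ⧸ r) = 0 := by
      rcases mul_eq_zero.mp h1 with h | h
      · exact h
      · exact absurd h hx0
    rw [← Ideal.Quotient.eq_zero_iff_mem, map_natCast]
    exact h2
  apply hm
  obtain ⟨k, rfl⟩ := hl2
  rw [Nat.cast_mul]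
  exact r.mul_mem_right _ hmem

variable {K L Ω : Type} [Field K] [Field L] [Field Ω] [NumberField K] [NumberField L]
  [NumberField Ω] [Algebra K L] [Algebra L Ω] [Algebra K Ω] [IsScalarTower K L Ω]
  {m : ℕ} [NeZero m] [IsCyclotomicExtension {m} L Ω] {ζ : Ω}
  [IsGalois K L] [IsGalois K Ω] [IsMulCommutative (Ω ≃ₐ[K] Ω)]

/-- **(PC3)** A prime `r` of `K` with `m ∉ r`, unramified in `L`, whose Artin symbol in `Ω/K` lies
in `H`, is the relative norm of a prime of `fixedField H` not containing `m`. -/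
theorem exists_prime_relNorm_eq (hζ : IsPrimitiveRoot ζ m) {r : Ideal (𝓞 K)} [r.IsPrime]
    (hr0 : r ≠ ⊥) (hmr : (m : 𝓞 K) ∉ r)
    (hunr : ∀ Q : Ideal (𝓞 L), Q.IsPrime → Q.under (𝓞 K) = r → Q.inertia (L ≃ₐ[K] L) = ⊥)
    (H : Subgroup (Ω ≃ₐ[K] Ω)) (hH : artin K Ω r ∈ H) :
    ∃ R : Ideal (𝓞 (IntermediateField.fixedField H)), R.IsPrime ∧ R ≠ ⊥ ∧
      Ideal.relNorm (𝓞 K) R = r ∧ (m : 𝓞 (IntermediateField.fixedField H)) ∉ R := by
  obtain ⟨⟨P, hPp, hPo⟩⟩ := (inferInstance : Nonempty (r.primesOver (𝓞 Ω)))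
  haveI := hPp
  haveI := hPo
  have hP0 : P ≠ ⊥ := Ideal.ne_bot_of_liesOver_of_ne_bot hr0 P
  have hinert : P.inertia (Ω ≃ₐ[K] Ω) = ⊥ :=
    FrobOmega.inertia_eq_bot_of_under (L := L) hζ hmr hunr P
  have hfrob : IsArithFrobAt (𝓞 K) (artin K Ω r) P := isArithFrobAt_artin Ω r hr0 P
  have hrel := DecompGroup.relNorm_under_fixedField hP0 hinert hfrob H hH
  have hPr : P.under (𝓞 K) = r := (Ideal.over_def P r).symm
  refine ⟨P.under (𝓞 (IntermediateField.fixedField H)), Ideal.IsPrime.under _ P, ?_, ?_, ?_⟩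
  · intro h
    rw [h, Ideal.relNorm_bot] at hrel
    exact hr0 (by rw [← hPr, ← hrel])
  · rw [hrel, hPr]
  · exact DecompGroup.natCast_notMem_under _ (FrobOmega.natCast_notMem_of_under P hmr)

/-- **(PC3), `normSub` form**: `r ∈ Y_Φ` for `Φ = fixedField H`. -/
theorem mem_normSub_fixedField (hζ : IsPrimitiveRoot ζ m) {r : Ideal (𝓞 K)} [r.IsPrime]
    (hr0 : r ≠ ⊥) (hmr : (m : 𝓞 K) ∉ r)
    (hunr : ∀ Q : Ideal (𝓞 L), Q.IsPrime → Q.under (𝓞 K) = r → Q.inertia (L ≃ₐ[K] L) = ⊥)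
    (H : Subgroup (Ω ≃ₐ[K] Ω)) (hH : artin K Ω r ∈ H) :
    r ∈ normSub K (IntermediateField.fixedField H) m := by
  obtain ⟨R, -, -, hR, -⟩ := exists_prime_relNorm_eq (L := L) hζ hr0 hmr hunr H hH
  exact mem_normSub_of_relNorm_eq hR hr0 (coprime_absNorm_of_natCast_notMem hr0 hmr)

end Fermat.Agent.CFT.CrossMem
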