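/-
Program E (S14), piece C4 (membership slice of PairCross, complement to helper4's `CrossMem`):
* tower inclusions `Y'' ≤ Y`, `Y'' ≤ Y'` for `normSub` of fixed fields of subgroups;
* the membership `r ∈ Y_Φ` specialised to the subgroups `Hsub`, `Hsub'` of `CrossSubgroups`.
-/
import Mathlib
import Fermat.Agent.CFT.CrossSubgroups
import Fermat.Agent.CFT.CrossMem

set_option autoImplicit false
set_option linter.unusedSectionVars false

namespace Fermat.Agent.CFT.CrossMemTower

open NumberField IntermediateField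
open scoped Pointwise
open Fermat.Agent.CFT.CycloDisjoint Fermat.Agent.CFT.CycloTriple Fermat.Agent.CFT.ArtinMap
  Fermat.Agent.CFT.FrobOmega Fermat.Agent.CFT.CrossSubgroups Fermat.Agent.CFT.PerField

section Tower

variable {K Ω : Type*} [Field K] [Field Ω] [NumberField K] [NumberField Ω] [Algebra K Ω]

/-- Norms from a bigger intermediate field are norms from a smaller one. -/
theorem normSub_le_of_le {E E' : IntermediateField K Ω} (h : E ≤ E') (m : ℕ) :
    normSub K E' m ≤ normSub K E m := by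
  let _ : Algebra E E' := (IntermediateField.inclusion h).toRingHom.toAlgebra
  have : IsScalarTower K E E' := IsScalarTower.of_algebraMap_eq fun x => rfl
  exact normSub_le_of_tower (K := K) (F := E) E' m

/-- The same for fixed fields of subgroups. -/
theorem normSub_fixedField_le_of_le {H H' : Subgroup (Ω ≃ₐ[K] Ω)} (h : H' ≤ H) (m : ℕ) :
    normSub K (IntermediateField.fixedField H') m ≤
      normSub K (IntermediateField.fixedField H) m :=
  normSub_le_of_le (IntermediateField.fixedField_antitone h) m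

/-- `Y'' ≤ Y`. -/
theorem normSub_fixedField_inf_le_left (H H' : Subgroup (Ω ≃ₐ[K] Ω)) (m : ℕ) :
    normSub K (IntermediateField.fixedField (H ⊓ H')) m ≤
      normSub K (IntermediateField.fixedField H) m :=
  normSub_fixedField_le_of_le inf_le_left m

/-- `Y'' ≤ Y'`. -/
theorem normSub_fixedField_inf_le_right (H H' : Subgroup (Ω ≃ₐ[K] Ω)) (m : ℕ) :
    normSub K (IntermediateField.fixedField (H ⊓ H')) m ≤
      normSub K (IntermediateField.fixedField H') m :=
  normSub_fixedField_le_of_le inf_le_right m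

end Tower

section Triple

variable {K L Ω : Type} [Field K] [Field L] [Field Ω] [NumberField K] [NumberField L]
  [NumberField Ω] [Algebra K L] [Algebra L Ω] [Algebra K Ω] [IsScalarTower K L Ω]
  {q q' : ℕ} [NeZero q] [NeZero q'] [IsCyclotomicExtension {q * q'} L Ω] {ζ : Ω}
  [IsGalois K L] [IsGalois K Ω] [IsMulCommutative (L ≃ₐ[K] L)] [IsMulCommutative (Ω ≃ₐ[K] Ω)]

/-- `r ∈ Y_Φ` for `Φ = fixedField (Hsub hζ (artin K L r) (N r mod q))`. -/
theorem mem_normSub_Hsub (hζ : IsPrimitiveRoot ζ (q * q')) {r : Ideal (𝓞 K)} [r.IsPrime]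
    (hr : r ≠ ⊥) (hmr : ((q * q' : ℕ) : 𝓞 K) ∉ r)
    (hunr : ∀ Q : Ideal (𝓞 L), Q.IsPrime → Q.under (𝓞 K) = r → Q.inertia (L ≃ₐ[K] L) = ⊥)
    (u : (ZMod q)ˣ) (hu : (u : ZMod q) = (Ideal.absNorm r : ZMod q)) :
    r ∈ normSub K (IntermediateField.fixedField (Hsub (Ω := Ω) hζ (artin K L r) u)) (q * q') :=
  CrossMem.mem_normSub_fixedField (L := L) hζ hr hmr hunr _ (artin_mem_Hsub hζ hr hmr hunr u hu)

/-- `r' ∈ Y_Φ'` for `Φ' = fixedField (Hsub' hζ (artin K L r') (N r' mod q'))`. -/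
theorem mem_normSub_Hsub' (hζ : IsPrimitiveRoot ζ (q * q')) {r' : Ideal (𝓞 K)} [r'.IsPrime]
    (hr : r' ≠ ⊥) (hmr : ((q * q' : ℕ) : 𝓞 K) ∉ r')
    (hunr : ∀ Q : Ideal (𝓞 L), Q.IsPrime → Q.under (𝓞 K) = r' → Q.inertia (L ≃ₐ[K] L) = ⊥)
    (u' : (ZMod q')ˣ) (hu' : (u' : ZMod q') = (Ideal.absNorm r' : ZMod q')) :
    r' ∈ normSub K (IntermediateField.fixedField (Hsub' (Ω := Ω) hζ (artin K L r') u'))
      (q * q') :=
  CrossMem.mem_normSub_fixedField (L := L) hζ hr hmr hunr _
    (artin_mem_Hsub' hζ hr hmr hunr u' hu')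

end Triple

end Fermat.Agent.CFT.CrossMemTower
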