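import Mathlib

/-!
# Cyclotomic reciprocity, explicit part (Program E, piece C3, helper9)

For a number field `F` and `m ≥ 1`:

* `norm_modEq_one` : `α ≡ 1 mod m 𝓞 F` implies `N_{F/ℚ}(α) ≡ 1 mod m`;
* `norm_pos` : the norm of a nonzero element of a totally complex field is positive;
* `absNorm_span_singleton_cast` : for `F` totally complex and `α ≡ 1 mod m`, the absolute norm of the
  principal ideal `(α)` is `≡ 1 mod m`;
* `apply_root_of_isArithFrobAt` : a Frobenius at `Q` raises `m`-th roots of unity to the power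
  `absNorm (Q.under _)` (restatement of Mathlib's `AlgHom.IsArithFrobAt.apply_of_pow_eq_one`);
* `consumer forms` : any multiplicative map `Φ` on ideals (coprime to `m`) with values in a group
  `G` with an injective character `χ : G →* (ZMod m)ˣ` such that `χ (Φ q) = absNorm q` on primes
  satisfies `χ (Φ a) = absNorm a` for all `a`, and `Φ (α) = 1` for `α ≡ 1 mod m`.
-/

set_option autoImplicit false

open NumberField

namespace Fermat.Agent.CFT.CycloRecip

section Norm

variable {F : Type*} [Field F] [NumberField F]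

/-- If `α ≡ 1` modulo `m 𝓞 F` then `N(α) ≡ 1` modulo `m`. -/
theorem norm_cast_eq_one (m : ℕ) (α : 𝓞 F) (h : α - 1 ∈ Ideal.span {(m : 𝓞 F)}) :
    ((Algebra.norm ℤ α : ℤ) : ZMod m) = 1 := by
  classical
  obtain ⟨β, hβ⟩ := Ideal.mem_span_singleton'.mp h
  have hα : α = 1 + (m : ℤ) • β := by
    have : α = 1 + β * (m : 𝓞 F) := by rw [hβ]; ring
    rw [this, zsmul_eq_mul, mul_comm]
    push_cast
    rfl
  let b := RingOfIntegers.basis F
  rw [Algebra.norm_eq_matrix_det b α, hα, map_add, map_one, map_zsmul]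
  change (Int.castRingHom (ZMod m)) _ = 1
  rw [RingHom.map_det]
  have : (Int.castRingHom (ZMod m)).mapMatrix (1 + (m : ℤ) • Algebra.leftMulMatrix b β) = 1 := by
    rw [map_add, map_one, map_zsmul]
    have h0 : ((m : ℤ) • (Int.castRingHom (ZMod m)).mapMatrix (Algebra.leftMulMatrix b β)) = 0 := by
      ext i j
      rw [Matrix.smul_apply, zsmul_eq_mul, Int.cast_natCast, ZMod.natCast_self, zero_mul]
      rfl
    rw [h0, add_zero]
  rw [this, Matrix.det_one]

theorem norm_modEq_one (m : ℕ) (α : 𝓞 F) (h : α - 1 ∈ Ideal.span {(m : 𝓞 F)}) :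
    Algebra.norm ℤ α ≡ 1 [ZMOD m] := by
  have := norm_cast_eq_one m α h
  rw [← Int.cast_one, ZMod.intCast_eq_intCast_iff] at this
  exact this

open scoped Classical in
/-- The fibre of `InfinitePlace.mk` over a complex place. -/
theorem filter_mk_eq (w : InfinitePlace F) :
    (Finset.univ.filter fun φ : F →+* ℂ => InfinitePlace.mk φ = w) =
      {w.embedding, ComplexEmbedding.conjugate w.embedding} := by
  ext φ
  simp only [Finset.mem_filter, Finset.mem_univ, true_and, Finset.mem_insert,
    Finset.mem_singleton]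
  constructor
  · intro h
    rw [← InfinitePlace.mk_embedding w, InfinitePlace.mk_eq_iff] at h
    rcases h with h | h
    · left; exact h
    · right
      rw [← h]
      exact (ComplexEmbedding.involutive_conjugate F φ).symm
  · rintro (h | h)
    · rw [h, InfinitePlace.mk_embedding]
    · rw [h, InfinitePlace.mk_conjugate_eq, InfinitePlace.mk_embedding]

/-- The norm of a nonzero element of a totally complex number field is positive. -/
theorem norm_pos_of_isTotallyComplex [IsTotallyComplex F] {x : F} (hx : x ≠ 0) :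
    0 < Algebra.norm ℚ x := by
  classical
  have h1 := Algebra.norm_eq_prod_embeddings ℚ ℂ x
  rw [← Fintype.prod_equiv (RingHom.equivRatAlgHom F ℂ) (fun f => f x)
      (fun φ => φ x) fun _ => by simp [RingHom.equivRatAlgHom_apply]] at h1
  rw [← Finset.prod_fiberwise Finset.univ InfinitePlace.mk (fun φ : F →+* ℂ => φ x)] at h1
  have h2 : ∀ w : InfinitePlace F,
      ∏ φ ∈ Finset.univ.filter (fun φ : F →+* ℂ => InfinitePlace.mk φ = w), φ x =
        ((Complex.normSq (w.embedding x) : ℝ) : ℂ) := by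
    intro w
    have hw : w.IsComplex := IsTotallyComplex.isComplex w
    rw [filter_mk_eq w, Finset.prod_pair, ComplexEmbedding.conjugate_coe_eq,
      Complex.mul_conj]
    intro h
    have : ComplexEmbedding.IsReal w.embedding := ComplexEmbedding.isReal_iff.mpr h.symm
    exact (InfinitePlace.not_isReal_iff_isComplex.mpr hw)
      (InfinitePlace.isReal_iff.mpr this)
  rw [Finset.prod_congr rfl (fun w _ => h2 w), ← Complex.ofReal_prod] at h1
  have h3 : ((Algebra.norm ℚ x : ℚ) : ℝ) = ∏ w : InfinitePlace F, Complex.normSq (w.embedding x) := by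
    have : ((algebraMap ℚ ℂ) (Algebra.norm ℚ x)) = (((Algebra.norm ℚ x : ℚ) : ℝ) : ℂ) := by
      simp
    rw [this] at h1
    exact_mod_cast h1
  have h4 : (0 : ℝ) < ∏ w : InfinitePlace F, Complex.normSq (w.embedding x) := by
    apply Finset.prod_pos
    intro w _
    exact Complex.normSq_pos.mpr ((map_ne_zero _).mpr hx)
  rw [← h3] at h4
  exact_mod_cast h4

/-- Integral version. -/
theorem norm_int_pos_of_isTotallyComplex [IsTotallyComplex F] {α : 𝓞 F} (hα : α ≠ 0) :
    0 < Algebra.norm ℤ α := by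
  have h := norm_pos_of_isTotallyComplex (x := (α : F))
    ((RingOfIntegers.coe_ne_zero_iff).mpr hα)
  rw [← Algebra.coe_norm_int] at h
  exact_mod_cast h

/-- For `F` totally complex and `α ≡ 1 mod m`, `absNorm (α) ≡ 1 mod m`. -/
theorem absNorm_span_singleton_cast [IsTotallyComplex F] (m : ℕ) (α : 𝓞 F) (hα : α ≠ 0)
    (h : α - 1 ∈ Ideal.span {(m : 𝓞 F)}) :
    ((Ideal.absNorm (Ideal.span {α}) : ℕ) : ZMod m) = 1 := by
  rw [Ideal.absNorm_span_singleton]
  have hpos := norm_int_pos_of_isTotallyComplex hα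
  have : ((Algebra.norm ℤ α).natAbs : ℤ) = Algebra.norm ℤ α := Int.natAbs_of_nonneg hpos.le
  rw [← norm_cast_eq_one m α h]
  conv_rhs => rw [← this]
  rw [Int.cast_natCast]

end Norm

section Frobenius

/-- A Frobenius at `Q` raises roots of unity of order prime to `Q` to the power `#(R / Q ∩ R)`
(Mathlib's `AlgHom.IsArithFrobAt.apply_of_pow_eq_one`, restated for automorphisms). -/
theorem apply_root_of_isArithFrobAt {R S : Type*} [CommRing R] [CommRing S] [Algebra R S]
    [IsDomain S] {σ : S ≃ₐ[R] S} {Q : Ideal S} (H : (σ : S →ₐ[R] S).IsArithFrobAt Q) {ζ : S}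
    {m : ℕ} (hζ : ζ ^ m = 1) (hm : (m : S) ∉ Q) : σ ζ = ζ ^ Nat.card (R ⧸ Q.under R) :=
  H.apply_of_pow_eq_one hζ hm

variable {F : Type*} [Field F] [NumberField F]

theorem absNorm_eq_natCard (q : Ideal (𝓞 F)) : Ideal.absNorm q = Nat.card (𝓞 F ⧸ q) := by
  rw [Ideal.absNorm_apply, Submodule.cardQuot_apply]

/-- If `σ ζ = ζ ^ N` for a primitive `m`-th root of unity `ζ`, the cyclotomic character of `σ`
is `N mod m`. -/
theorem autToPow_eq_of_apply_eq {R S : Type*} [CommRing R] [CommRing S] [IsDomain S]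
    [Algebra R S] {m : ℕ} [NeZero m] {ζ : S} (hζ : IsPrimitiveRoot ζ m) (σ : S ≃ₐ[R] S) (N : ℕ)
    (h : σ ζ = ζ ^ N) : ((hζ.autToPow R σ : (ZMod m)ˣ) : ZMod m) = (N : ZMod m) := by
  have h1 := hζ.autToPow_spec R σ
  rw [h] at h1
  have hu : IsUnit ζ := hζ.isUnit (NeZero.ne m)
  have h2 : hu.unit ^ (hζ.autToPow R σ : ZMod m).val = hu.unit ^ N := by
    apply Units.ext
    simpa using h1
  rw [pow_eq_pow_iff_modEq] at h2
  have ho : orderOf hu.unit = m := by
    rw [← orderOf_units, IsUnit.unit_spec]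
    exact hζ.eq_orderOf.symm
  rw [ho] at h2
  have h3 := (ZMod.natCast_eq_natCast_iff _ _ _).mpr h2
  rw [ZMod.natCast_val, ZMod.cast_id', id_eq] at h3
  exact h3

/-- **Frobenius and the cyclotomic character**: if `σ` is a Frobenius at a prime `Q` not containing
`m`, then the cyclotomic character of `σ` is `#(R / Q ∩ R) mod m`. -/
theorem autToPow_of_isArithFrobAt {R S : Type*} [CommRing R] [CommRing S] [IsDomain S]
    [Algebra R S] {m : ℕ} [NeZero m] {ζ : S} (hζ : IsPrimitiveRoot ζ m) (σ : S ≃ₐ[R] S)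
    {Q : Ideal S} (H : (σ : S →ₐ[R] S).IsArithFrobAt Q) (hm : (m : S) ∉ Q) :
    ((hζ.autToPow R σ : (ZMod m)ˣ) : ZMod m) = (Nat.card (R ⧸ Q.under R) : ZMod m) :=
  autToPow_eq_of_apply_eq hζ σ _ (apply_root_of_isArithFrobAt H hζ.pow_eq_one hm)

end Frobenius

section Consumer

variable {F : Type*} [Field F] [NumberField F] (m : ℕ) {G : Type*} [Group G]

/-- The ideal `m 𝓞 F`. -/
abbrev modulus : Ideal (𝓞 F) := Ideal.span {(m : 𝓞 F)}

/-- An "Artin-like" map: multiplicative on ideals coprime to `m`, and compatible on primes with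
a character `χ` to `(ZMod m)ˣ` through the absolute norm. -/
structure IsArtinLike (Φ : Ideal (𝓞 F) → G) (χ : G →* (ZMod m)ˣ) : Prop where
  map_top : Φ ⊤ = 1
  map_mul : ∀ a b : Ideal (𝓞 F), IsCoprime a (modulus (F := F) m) →
    IsCoprime b (modulus (F := F) m) → Φ (a * b) = Φ a * Φ b
  map_prime : ∀ q : Ideal (𝓞 F), q.IsPrime → q ≠ ⊥ → IsCoprime q (modulus (F := F) m) →
    ((χ (Φ q) : (ZMod m)ˣ) : ZMod m) = ((Ideal.absNorm q : ℕ) : ZMod m)

variable {m} {Φ : Ideal (𝓞 F) → G} {χ : G →* (ZMod m)ˣ}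

/-- An Artin-like map is computed by the absolute norm on all ideals coprime to `m`. -/
theorem IsArtinLike.apply_eq_absNorm (h : IsArtinLike m Φ χ) (a : Ideal (𝓞 F)) (ha : a ≠ ⊥)
    (hc : IsCoprime a (modulus (F := F) m)) :
    ((χ (Φ a) : (ZMod m)ˣ) : ZMod m) = ((Ideal.absNorm a : ℕ) : ZMod m) := by
  induction a using UniqueFactorizationMonoid.induction_on_prime with
  | h₁ => exact absurd rfl ha
  | h₂ x hx =>
    have : x = ⊤ := by rwa [Ideal.isUnit_iff] at hx
    rw [this, h.map_top, map_one, Ideal.absNorm_top]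
    simp
  | h₃ a p ha0 hp ih =>
    have hp' : p.IsPrime := Ideal.isPrime_of_prime hp
    have hp0 : p ≠ ⊥ := hp.ne_zero
    have hcp : IsCoprime p (modulus (F := F) m) := IsCoprime.of_mul_left_left hc
    have hca : IsCoprime a (modulus (F := F) m) := IsCoprime.of_mul_left_right hc
    rw [h.map_mul p a hcp hca, MonoidHom.map_mul, Units.val_mul, h.map_prime p hp' hp0 hcp,
      ih ha0 hca, _root_.map_mul, Nat.cast_mul]

/-- **Cyclotomic reciprocity, abstract form**: an Artin-like map with injective character kills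
the principal ideals `(α)` with `α ≡ 1 mod m` (`F` totally complex). -/
theorem IsArtinLike.apply_span_singleton_eq_one [IsTotallyComplex F] (h : IsArtinLike m Φ χ)
    (hχ : Function.Injective χ) (α : 𝓞 F) (hα : α ≠ 0)
    (hm : α - 1 ∈ modulus (F := F) m) : Φ (Ideal.span {α}) = 1 := by
  have hc : IsCoprime (Ideal.span {α}) (modulus (F := F) m) := by
    rw [Ideal.isCoprime_iff_sup_eq, Ideal.eq_top_iff_one]
    have h1 : (1 : 𝓞 F) = α + (-(α - 1)) := by ring
    rw [h1]
    exact Ideal.add_mem _ (Ideal.mem_sup_left (Ideal.mem_span_singleton_self α))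
      (Ideal.mem_sup_right (neg_mem hm))
  have h0 : Ideal.span {α} ≠ ⊥ := by
    rwa [Ne, Ideal.span_singleton_eq_bot]
  have h2 := h.apply_eq_absNorm _ h0 hc
  rw [absNorm_span_singleton_cast m α hα hm] at h2
  apply hχ
  rw [map_one]
  exact Units.ext h2

end Consumer

end Fermat.Agent.CFT.CycloRecip
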