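/-
Program E (S14), (E-C3) instantiation (helper9): a Frobenius-valued multiplicative map on the
ideals of `𝓞 F` with values in `Gal(M/F)`, `M ∋ ζ_m`, is "Artin-like" in the sense of
`CycloRecip.IsArtinLike` with `χ` = the cyclotomic character `IsPrimitiveRoot.autToPow`.
Hence for `M = F(ζ_m)` and `F` totally complex it kills `(α)`, `α ≡ 1 mod m`.

Descent (`section Descent`): the same conclusion for a Galois subextension `F ⊆ M ⊆ Ω = F(ζ_m)`
(`M` need not contain `ζ_m`), for a multiplicative `Φ : Ideal (𝓞 F) → Gal(M/F)` whose value at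
each prime `q ∤ m` is the UNIQUE Frobenius at the primes over `q`; includes the prime-level
"restriction of a Frobenius to a subextension is a Frobenius".

Intended instantiation: `Φ := ArtinMap.artin F M` (`artin_one`, `artin_mul`,
`eq_artin_of_isArithFrobAt`).  `IsTotallyComplex F` comes from Mathlib's
`NumberField.isTotallyComplex_of_algebra` and `IsCyclotomicExtension.Rat.isTotallyComplex`.
-/
import Mathlib
import Fermat.Agent.CFT.CycloRecip

set_option autoImplicit false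

namespace Fermat.Agent.CFT.CycloArtin

open NumberField Fermat.Agent.CFT.CycloRecip

section Modulus

variable {F : Type*} [Field F] [NumberField F]

/-- For `m ≠ 1` the ideal `m 𝓞 F` is proper. -/
theorem modulus_ne_top {m : ℕ} (hm : m ≠ 1) : modulus (F := F) m ≠ ⊤ := by
  intro h
  rw [modulus, Ideal.span_singleton_eq_top] at h
  have h1 := (NumberField.isUnit_iff_norm (K := F)).mp h
  have h2 : (RingOfIntegers.norm ℚ (m : 𝓞 F) : ℚ) = (m : ℚ) ^ Module.finrank ℚ F := by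
    rw [RingOfIntegers.coe_norm]
    have : ((m : 𝓞 F) : F) = algebraMap ℚ F (m : ℚ) := by simp
    rw [this, Algebra.norm_algebraMap]
  rw [h2, abs_pow, pow_eq_one_iff_of_nonneg (abs_nonneg _) Module.finrank_pos.ne'] at h1
  apply hm
  have : |(m : ℚ)| = (m : ℚ) := abs_of_nonneg (Nat.cast_nonneg m)
  rw [this] at h1
  exact_mod_cast h1

/-- An ideal coprime to `m 𝓞 F`, `m ≠ 1`, is nonzero. -/
theorem ne_bot_of_isCoprime {m : ℕ} (hm : m ≠ 1) {a : Ideal (𝓞 F)}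
    (ha : IsCoprime a (modulus (F := F) m)) : a ≠ ⊥ := by
  rintro rfl
  rw [Ideal.isCoprime_iff_sup_eq, bot_sup_eq] at ha
  exact modulus_ne_top hm ha

end Modulus

variable {F M : Type*} [Field F] [Field M] [NumberField F] [NumberField M] [Algebra F M]
  [IsGalois F M]

omit [NumberField F] [NumberField M] [IsGalois F M] in
/-- If `q` is coprime to `m` and `Q` lies over `q` then `m ∉ Q`. -/
theorem natCast_notMem_of_isCoprime {m : ℕ} {q : Ideal (𝓞 F)} [q.IsPrime]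
    (hq : IsCoprime q (modulus (F := F) m)) (Q : Ideal (𝓞 M)) [Q.LiesOver q] :
    (m : 𝓞 M) ∉ Q := by
  intro hmem
  have h1 : (m : 𝓞 F) ∈ q := by
    rw [Q.over_def q, Ideal.under_def, Ideal.mem_comap, map_natCast]
    exact hmem
  have h2 : modulus (F := F) m ≤ q := by
    rw [modulus, Ideal.span_singleton_le_iff_mem]
    exact h1
  rw [Ideal.isCoprime_iff_sup_eq, sup_eq_left.mpr h2] at hq
  exact (Ideal.IsPrime.ne_top ‹_›) hq

/-- The value of a Frobenius on a root of unity of `M` of order prime to `Q`. -/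
theorem apply_root_of_isArithFrobAt' {σ : Gal(M/F)} {Q : Ideal (𝓞 M)}
    (H : IsArithFrobAt (𝓞 F) σ Q) {ζ : M} {m : ℕ} [NeZero m] (hζ : ζ ^ m = 1)
    (hm : (m : 𝓞 M) ∉ Q) : σ ζ = ζ ^ Nat.card (𝓞 F ⧸ Q.under (𝓞 F)) := by
  have hint : IsIntegral ℤ ζ := by
    refine ⟨Polynomial.X ^ m - 1, Polynomial.monic_X_pow_sub_C 1 (NeZero.ne m), ?_⟩
    simp [hζ]
  have h1 : (⟨ζ, hint⟩ : 𝓞 M) ^ m = 1 := by
    apply RingOfIntegers.ext
    exact hζ
  have h2 := AlgHom.IsArithFrobAt.apply_of_pow_eq_one H h1 hm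
  exact congrArg (fun x : 𝓞 M => (x : M)) h2

/-- **Frobenius and the cyclotomic character** for `Gal(M/F)`: a Frobenius at `Q` (over `q`
coprime to `m`) has cyclotomic character `absNorm q mod m`. -/
theorem autToPow_of_isArithFrobAt' {m : ℕ} [NeZero m] {ζ : M} (hζ : IsPrimitiveRoot ζ m)
    {σ : Gal(M/F)} {q : Ideal (𝓞 F)} [q.IsPrime] (hc : IsCoprime q (modulus (F := F) m))
    {Q : Ideal (𝓞 M)} [Q.LiesOver q] (H : IsArithFrobAt (𝓞 F) σ Q) :
    ((hζ.autToPow F σ : (ZMod m)ˣ) : ZMod m) = ((Ideal.absNorm q : ℕ) : ZMod m) := by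
  have hm : (m : 𝓞 M) ∉ Q := natCast_notMem_of_isCoprime hc Q
  have h2 := apply_root_of_isArithFrobAt' H hζ.pow_eq_one hm
  rw [← Q.over_def q] at h2
  rw [autToPow_eq_of_apply_eq hζ σ _ h2, absNorm_eq_natCard]

/-- **Instantiation**: a map `Φ` on ideals of `𝓞 F` with values in `Gal(M/F)` which is
multiplicative on nonzero ideals and Frobenius-valued at the primes not dividing `m` is
Artin-like for the cyclotomic character of any primitive `m`-th root of unity of `M`. -/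
theorem isArtinLike_of_isArithFrobAt {m : ℕ} [NeZero m] (hm1 : m ≠ 1) {ζ : M}
    (hζ : IsPrimitiveRoot ζ m)
    (Φ : Ideal (𝓞 F) → Gal(M/F)) (h1 : Φ ⊤ = 1)
    (hmul : ∀ I J : Ideal (𝓞 F), I ≠ ⊥ → J ≠ ⊥ → Φ (I * J) = Φ I * Φ J)
    (hfrob : ∀ q : Ideal (𝓞 F), q.IsPrime → q ≠ ⊥ → IsCoprime q (modulus (F := F) m) →
      ∃ Q : Ideal (𝓞 M), Q.IsPrime ∧ Q.LiesOver q ∧ IsArithFrobAt (𝓞 F) (Φ q) Q) :
    IsArtinLike m Φ (hζ.autToPow F) where
  map_top := h1
  map_mul a b ha hb := hmul a b (ne_bot_of_isCoprime hm1 ha) (ne_bot_of_isCoprime hm1 hb)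
  map_prime q hq hq0 hc := by
    obtain ⟨Q, hQ, hQq, hF⟩ := hfrob q hq hq0 hc
    exact autToPow_of_isArithFrobAt' hζ hc hF

/-- **Cyclotomic reciprocity**: for `M = F(ζ_m)`, `F` totally complex, a Frobenius-valued
multiplicative map kills the principal ideals `(α)`, `α ≡ 1 mod m`. -/
theorem apply_span_singleton_eq_one [IsTotallyComplex F] {m : ℕ} [NeZero m] (hm1 : m ≠ 1)
    [IsCyclotomicExtension {m} F M]
    (Φ : Ideal (𝓞 F) → Gal(M/F)) (h1 : Φ ⊤ = 1)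
    (hmul : ∀ I J : Ideal (𝓞 F), I ≠ ⊥ → J ≠ ⊥ → Φ (I * J) = Φ I * Φ J)
    (hfrob : ∀ q : Ideal (𝓞 F), q.IsPrime → q ≠ ⊥ → IsCoprime q (modulus (F := F) m) →
      ∃ Q : Ideal (𝓞 M), Q.IsPrime ∧ Q.LiesOver q ∧ IsArithFrobAt (𝓞 F) (Φ q) Q)
    (α : 𝓞 F) (hα : α ≠ 0) (hm : α - 1 ∈ modulus (F := F) m) : Φ (Ideal.span {α}) = 1 := by
  have hζ := IsCyclotomicExtension.zeta_spec m F M
  exact (isArtinLike_of_isArithFrobAt hm1 hζ Φ h1 hmul hfrob).apply_span_singleton_eq_one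
    (hζ.autToPow_injective F) α hα hm


section Descent

variable {F M Ω : Type*} [Field F] [Field M] [Field Ω] [NumberField F] [NumberField M]
  [NumberField Ω] [Algebra F M] [Algebra F Ω] [Algebra M Ω] [IsScalarTower F M Ω]
  [IsGalois F M] [IsGalois F Ω]

omit [NumberField F] [NumberField M] [NumberField Ω] [IsGalois F Ω] in
/-- The canonical actions on rings of integers are compatible with restriction of
automorphisms to a normal subextension. -/
theorem algebraMap_restrictNormal_smul (σ : Gal(Ω/F)) (x : 𝓞 M) :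
    algebraMap (𝓞 M) (𝓞 Ω) ((AlgEquiv.restrictNormalHom M σ) • x) =
      σ • algebraMap (𝓞 M) (𝓞 Ω) x := by
  apply RingOfIntegers.ext
  exact AlgEquiv.restrictNormal_commutes σ M (x : M)

/-- **Restriction of a Frobenius is a Frobenius** (tower `F ⊆ M ⊆ Ω`, prime level). -/
theorem isArithFrobAt_restrictNormal {σ : Gal(Ω/F)} {Q' : Ideal (𝓞 Ω)}
    (H : IsArithFrobAt (𝓞 F) σ Q') :
    IsArithFrobAt (𝓞 F) (AlgEquiv.restrictNormalHom M σ) (Q'.under (𝓞 M)) := by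
  intro x
  show (AlgEquiv.restrictNormalHom M σ) • x -
    x ^ Nat.card (𝓞 F ⧸ (Q'.under (𝓞 M)).under (𝓞 F)) ∈ Q'.under (𝓞 M)
  rw [Ideal.under_under, Ideal.under_def, Ideal.mem_comap, map_sub, map_pow,
    algebraMap_restrictNormal_smul]
  exact H (algebraMap (𝓞 M) (𝓞 Ω) x)

/-- Existence of a Frobenius in `Gal(Ω/F)` over a nonzero prime `q` of `𝓞 F`. -/
theorem exists_isArithFrobAt_over (q : Ideal (𝓞 F)) [q.IsPrime] (hq : q ≠ ⊥) :
    ∃ (Q' : Ideal (𝓞 Ω)) (σ : Gal(Ω/F)), Q'.IsPrime ∧ Q'.LiesOver q ∧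
      IsArithFrobAt (𝓞 F) σ Q' := by
  obtain ⟨Q', -, hQ', hQ'q⟩ := Ideal.exists_ideal_over_prime_of_isIntegral q (⊥ : Ideal (𝓞 Ω))
    (by simp [Ideal.comap_bot_of_injective _ (FaithfulSMul.algebraMap_injective (𝓞 F) (𝓞 Ω))])
  have hover : Q'.LiesOver q := ⟨hQ'q.symm⟩
  have hQ0 : Q' ≠ ⊥ := by
    rintro rfl
    rw [Ideal.comap_bot_of_injective _ (FaithfulSMul.algebraMap_injective (𝓞 F) (𝓞 Ω))] at hQ'q
    exact hq hQ'q.symm
  have : Finite (𝓞 Ω ⧸ Q') := Ideal.finiteQuotientOfFreeOfNeBot Q' hQ0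
  obtain ⟨σ, hσ⟩ := IsArithFrobAt.exists_of_isInvariant (𝓞 F) Gal(Ω/F) Q'
  exact ⟨Q', σ, hQ', hover, hσ⟩


/-- **Lifting to the cyclotomic field**: if `M ⊆ Ω ∋ ζ_m` and `Φ` is the (unique-Frobenius-valued,
multiplicative) Artin map of `M/F`, then for every ideal `a` coprime to `m` the value `Φ a` is the
restriction of some `σ ∈ Gal(Ω/F)` whose cyclotomic character is `absNorm a mod m`. -/
theorem exists_lift_of_isCoprime {m : ℕ} [NeZero m] {ζ : Ω}
    (hζ : IsPrimitiveRoot ζ m)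
    (Φ : Ideal (𝓞 F) → Gal(M/F)) (h1 : Φ ⊤ = 1)
    (hmul : ∀ I J : Ideal (𝓞 F), I ≠ ⊥ → J ≠ ⊥ → Φ (I * J) = Φ I * Φ J)
    (huniq : ∀ q : Ideal (𝓞 F), q.IsPrime → q ≠ ⊥ → IsCoprime q (modulus (F := F) m) →
      ∀ Q : Ideal (𝓞 M), Q.IsPrime → Q.LiesOver q → ∀ σ : Gal(M/F),
        IsArithFrobAt (𝓞 F) σ Q → σ = Φ q)
    (a : Ideal (𝓞 F)) (ha : a ≠ ⊥) (hc : IsCoprime a (modulus (F := F) m)) :
    ∃ σ : Gal(Ω/F), AlgEquiv.restrictNormalHom M σ = Φ a ∧
      ((hζ.autToPow F σ : (ZMod m)ˣ) : ZMod m) = ((Ideal.absNorm a : ℕ) : ZMod m) := by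
  induction a using UniqueFactorizationMonoid.induction_on_prime with
  | h₁ => exact absurd rfl ha
  | h₂ x hx =>
    have : x = ⊤ := by rwa [Ideal.isUnit_iff] at hx
    refine ⟨1, ?_, ?_⟩
    · rw [this, h1, map_one]
    · rw [this, map_one, Ideal.absNorm_top]
      simp
  | h₃ a p ha0 hp ih =>
    have hp' : p.IsPrime := Ideal.isPrime_of_prime hp
    have hp0 : p ≠ ⊥ := hp.ne_zero
    have hcp : IsCoprime p (modulus (F := F) m) := IsCoprime.of_mul_left_left hc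
    have hca : IsCoprime a (modulus (F := F) m) := IsCoprime.of_mul_left_right hc
    obtain ⟨σa, hσa1, hσa2⟩ := ih ha0 hca
    obtain ⟨Q', σ, hQ', hQ'p, hσ⟩ := exists_isArithFrobAt_over (Ω := Ω) p hp0
    have hQ : (Q'.under (𝓞 M)).IsPrime := Ideal.IsPrime.under (𝓞 M) Q'
    have hQp : (Q'.under (𝓞 M)).LiesOver p := ⟨by rw [Ideal.under_under]; exact hQ'p.over⟩
    have h2 := huniq p hp' hp0 hcp _ hQ hQp _ (isArithFrobAt_restrictNormal (M := M) hσ)
    refine ⟨σ * σa, ?_, ?_⟩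
    · rw [map_mul, h2, hσa1, hmul p a hp0 ha0]
    · rw [map_mul, Units.val_mul, hσa2, autToPow_of_isArithFrobAt' hζ hcp hσ, map_mul,
        Nat.cast_mul]

/-- **Cyclotomic reciprocity for subextensions of `F(ζ_m)`**: `F` totally complex,
`F ⊆ M ⊆ Ω = F(ζ_m)`, `M/F` Galois with a multiplicative map `Φ` on ideals whose value at each
prime `q ∤ m` is the unique Frobenius at the primes over `q`. Then `Φ (α) = 1` for all
`α ≡ 1 mod m`. -/
theorem apply_span_singleton_eq_one_of_le [IsTotallyComplex F] {m : ℕ} [NeZero m]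
    [IsCyclotomicExtension {m} F Ω]
    (Φ : Ideal (𝓞 F) → Gal(M/F)) (h1 : Φ ⊤ = 1)
    (hmul : ∀ I J : Ideal (𝓞 F), I ≠ ⊥ → J ≠ ⊥ → Φ (I * J) = Φ I * Φ J)
    (huniq : ∀ q : Ideal (𝓞 F), q.IsPrime → q ≠ ⊥ → IsCoprime q (modulus (F := F) m) →
      ∀ Q : Ideal (𝓞 M), Q.IsPrime → Q.LiesOver q → ∀ σ : Gal(M/F),
        IsArithFrobAt (𝓞 F) σ Q → σ = Φ q)
    (α : 𝓞 F) (hα : α ≠ 0) (hm : α - 1 ∈ modulus (F := F) m) : Φ (Ideal.span {α}) = 1 := by
  have hζ := IsCyclotomicExtension.zeta_spec m F Ω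
  have hc : IsCoprime (Ideal.span {α}) (modulus (F := F) m) := by
    rw [Ideal.isCoprime_iff_sup_eq, Ideal.eq_top_iff_one]
    have h1 : (1 : 𝓞 F) = α + (-(α - 1)) := by ring
    rw [h1]
    exact Ideal.add_mem _ (Ideal.mem_sup_left (Ideal.mem_span_singleton_self α))
      (Ideal.mem_sup_right (neg_mem hm))
  have h0 : Ideal.span {α} ≠ ⊥ := by
    rwa [Ne, Ideal.span_singleton_eq_bot]
  obtain ⟨σ, hσ1, hσ2⟩ := exists_lift_of_isCoprime (Ω := Ω) hζ Φ h1 hmul huniq _ h0 hc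
  rw [absNorm_span_singleton_cast m α hα hm] at hσ2
  have hσ : σ = 1 := by
    apply hζ.autToPow_injective F
    rw [map_one]
    exact Units.ext hσ2
  rw [← hσ1, hσ, map_one]

end Descent

end Fermat.Agent.CFT.CycloArtin
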