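/-
Program E (S14), analytic end lemma (helper10).

`finrank_eq_one_of_forall_split`: if `L/K` is an extension of number fields such that every prime
of `K` of degree one over `ℚ` (outside a finite set) has at least `[L:K]` primes of `L` of the same
absolute norm above it, then `[L:K] = 1`.

Only the residue of the Dedekind zeta function (Mathlib) and unique factorisation of ideals are
used: no L-functions.
-/
import Mathlib

set_option autoImplicit false

open IsDedekindDomain Ideal Filter Topology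

namespace Fermat.Agent.CFT.DensitySplit

section EulerFinite

attribute [local instance] Classical.propDecidable

variable {R : Type*} [CommRing R] [IsDedekindDomain R]

/-- The nonzero ideals all of whose prime factors lie in `P`. -/
def smooth (P : Finset (HeightOneSpectrum R)) : Set (Ideal R) :=
  {I | I ≠ ⊥ ∧ ∀ v : HeightOneSpectrum R, I ≤ v.asIdeal → v ∈ P}

theorem smooth_empty : smooth (∅ : Finset (HeightOneSpectrum R)) = {⊤} := by
  ext I
  simp only [smooth, Finset.notMem_empty, imp_false, Set.mem_ofPred_eq, Set.mem_singleton_iff]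
  constructor
  · rintro ⟨h0, h⟩
    by_contra hI
    obtain ⟨M, hM, hIM⟩ := Ideal.exists_le_maximal I hI
    have hM0 : M ≠ ⊥ := fun h' => h0 (le_bot_iff.mp (h' ▸ hIM))
    exact h ⟨M, hM.isPrime, hM0⟩ hIM
  · rintro rfl
    refine ⟨top_ne_bot, fun v hv => ?_⟩
    exact v.isPrime.ne_top (top_le_iff.mp hv)

theorem not_le_of_mem_smooth {P : Finset (HeightOneSpectrum R)} {v₀ : HeightOneSpectrum R}
    (hv₀ : v₀ ∉ P) {J : Ideal R} (hJ : J ∈ smooth P) : ¬ J ≤ v₀.asIdeal :=
  fun h => hv₀ (hJ.2 v₀ h)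

theorem pow_mul_mem_smooth_insert {P : Finset (HeightOneSpectrum R)} (v₀ : HeightOneSpectrum R)
    (e : ℕ) {J : Ideal R} (hJ : J ∈ smooth P) : v₀.asIdeal ^ e * J ∈ smooth (insert v₀ P) := by
  refine ⟨mul_ne_zero (pow_ne_zero _ v₀.ne_bot) hJ.1, fun v hv => ?_⟩
  rcases (v.isPrime.mul_le).mp hv with h | h
  · have h1 : v₀.asIdeal ≤ v.asIdeal := v.isPrime.le_of_pow_le h
    have : v₀.asIdeal = v.asIdeal :=
      (v₀.isMaximal.eq_of_le v.isPrime.ne_top h1)
    rw [Finset.mem_insert]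
    exact Or.inl (HeightOneSpectrum.ext this.symm)
  · exact Finset.mem_insert_of_mem (hJ.2 v h)

theorem exists_eq_pow_mul_of_mem_smooth_insert {P : Finset (HeightOneSpectrum R)}
    {v₀ : HeightOneSpectrum R} {I : Ideal R} (hI : I ∈ smooth (insert v₀ P)) :
    ∃ (e : ℕ) (J : Ideal R), J ∈ smooth P ∧ ¬ J ≤ v₀.asIdeal ∧ I = v₀.asIdeal ^ e * J := by
  have hu : ¬ IsUnit v₀.asIdeal := by
    rw [Ideal.isUnit_iff]; exact v₀.isPrime.ne_top
  have hfin : FiniteMultiplicity v₀.asIdeal I := FiniteMultiplicity.of_not_isUnit hu hI.1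
  obtain ⟨J, hJ, hnd⟩ := hfin.exists_eq_pow_mul_and_not_dvd
  have hnle : ¬ J ≤ v₀.asIdeal := fun h => hnd (Ideal.dvd_iff_le.mpr h)
  refine ⟨_, J, ⟨?_, fun v hv => ?_⟩, hnle, hJ⟩
  · rintro rfl
    exact hI.1 (by rw [hJ]; simp)
  · have hIv : I ≤ v.asIdeal := by
      rw [hJ]; exact le_trans Ideal.mul_le_right hv
    have := hI.2 v hIv
    rcases Finset.mem_insert.mp this with rfl | h
    · exact absurd hv hnle
    · exact h

theorem pow_mul_injOn {v₀ : HeightOneSpectrum R} {e e' : ℕ} {J J' : Ideal R}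
    (hJ : ¬ J ≤ v₀.asIdeal) (hJ' : ¬ J' ≤ v₀.asIdeal)
    (h : v₀.asIdeal ^ e * J = v₀.asIdeal ^ e' * J') : e = e' ∧ J = J' := by
  have hv0 : v₀.asIdeal ≠ 0 := v₀.ne_bot
  have key : ∀ {a b : ℕ} {A B : Ideal R}, ¬ A ≤ v₀.asIdeal → a ≤ b →
      v₀.asIdeal ^ a * A = v₀.asIdeal ^ b * B → a = b := by
    intro a b A B hA hab hh
    by_contra hne
    have hlt : a < b := lt_of_le_of_ne hab hne
    obtain ⟨k, rfl⟩ := Nat.exists_eq_add_of_lt hlt
    rw [show a + k + 1 = a + (k + 1) by ring, pow_add, mul_assoc] at hh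
    have := mul_left_cancel₀ (pow_ne_zero a hv0) hh
    apply hA
    rw [this, pow_succ, mul_assoc]
    exact le_trans Ideal.mul_le_right Ideal.mul_le_left
  have hee : e = e' := by
    rcases le_total e e' with hle | hle
    · exact key hJ hle h
    · exact (key hJ' hle h.symm).symm
  subst hee
  exact ⟨rfl, mul_left_cancel₀ (pow_ne_zero e hv0) h⟩

variable (w : Ideal R → ℝ) (hmul : ∀ I J, w (I * J) = w I * w J) (hone : w ⊤ = 1)
  (hnn : ∀ I, 0 ≤ w I) (hlt : ∀ v : HeightOneSpectrum R, w v.asIdeal < 1)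

include hmul hone in
theorem w_pow (I : Ideal R) (n : ℕ) : w (I ^ n) = w I ^ n := by
  induction n with
  | zero => simpa using hone
  | succ n ihn => rw [pow_succ, hmul, ihn, pow_succ]

include hmul hone hnn hlt in
/-- Finite Euler product: the sum of a multiplicative weight over the ideals with prime factors in
a finite set `P` is the product of the geometric series. -/
theorem hasSum_smooth (P : Finset (HeightOneSpectrum R)) :
    HasSum (fun I : Ideal R => (smooth P).indicator w I) (∏ v ∈ P, (1 - w v.asIdeal)⁻¹) := by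
  classical
  induction P using Finset.induction_on with
  | empty =>
    rw [smooth_empty, Finset.prod_empty]
    have : (fun I : Ideal R => ({⊤} : Set (Ideal R)).indicator w I) =
        fun I => if I = ⊤ then (1 : ℝ) else 0 := by
      funext I
      by_cases h : I = ⊤
      · simp [h, hone]
      · simp [h]
    rw [this]
    exact hasSum_ite_eq ⊤ (1 : ℝ)
  | insert v₀ P hv₀ ih =>
    rw [Finset.prod_insert hv₀]
    have hgeo : HasSum (fun e : ℕ => w v₀.asIdeal ^ e) (1 - w v₀.asIdeal)⁻¹ :=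
      hasSum_geometric_of_lt_one (hnn _) (hlt v₀)
    have hsm : Summable fun x : ℕ × Ideal R =>
        w v₀.asIdeal ^ x.1 * (smooth P).indicator w x.2 :=
      hgeo.summable.mul_of_nonneg ih.summable (fun e => pow_nonneg (hnn _) e)
        (fun I => Set.indicator_nonneg (fun I _ => hnn I) I)
    have hprod := hgeo.mul ih hsm
    refine (hasSum_iff_hasSum_of_ne_zero_bij
      (f := fun I : Ideal R => (smooth (insert v₀ P)).indicator w I)
      (g := fun x : ℕ × Ideal R => w v₀.asIdeal ^ x.1 * (smooth P).indicator w x.2)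
      (fun x => v₀.asIdeal ^ x.1.1 * x.1.2) ?_ ?_ ?_).mpr hprod
    · -- injective
      rintro ⟨⟨e, J⟩, hx⟩ ⟨⟨e', J'⟩, hx'⟩ h
      simp only [Function.mem_support, ne_eq, mul_eq_zero, not_or] at hx hx'
      have hJ : J ∈ smooth P := by
        by_contra hJ; exact hx.2 (Set.indicator_of_notMem hJ w)
      have hJ' : J' ∈ smooth P := by
        by_contra hJ'; exact hx'.2 (Set.indicator_of_notMem hJ' w)
      obtain ⟨h1, h2⟩ := pow_mul_injOn (not_le_of_mem_smooth hv₀ hJ)
        (not_le_of_mem_smooth hv₀ hJ') h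
      subst h1; subst h2; rfl
    · -- support ⊆ range
      intro I hI
      simp only [Function.mem_support, ne_eq] at hI
      have hIm : I ∈ smooth (insert v₀ P) := by
        by_contra h; exact hI (Set.indicator_of_notMem h w)
      obtain ⟨e, J, hJ, -, rfl⟩ := exists_eq_pow_mul_of_mem_smooth_insert hIm
      rw [Set.indicator_of_mem hIm, hmul] at hI
      refine ⟨⟨(e, J), ?_⟩, rfl⟩
      simp only [Function.mem_support, ne_eq]
      rw [Set.indicator_of_mem hJ]
      rwa [w_pow w hmul hone] at hI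
    · -- values agree
      rintro ⟨⟨e, J⟩, hx⟩
      simp only [Function.mem_support, ne_eq, mul_eq_zero, not_or] at hx
      have hJ : J ∈ smooth P := by
        by_contra hJ; exact hx.2 (Set.indicator_of_notMem hJ w)
      simp only
      rw [Set.indicator_of_mem (pow_mul_mem_smooth_insert v₀ e hJ), Set.indicator_of_mem hJ, hmul,
        w_pow w hmul hone]

include hmul hone hnn hlt in
/-- Lower bound: a finite Euler product is at most the full sum. -/
theorem prod_le_tsum (hsum : Summable w) (P : Finset (HeightOneSpectrum R)) :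
    ∏ v ∈ P, (1 - w v.asIdeal)⁻¹ ≤ ∑' I, w I := by
  refine hasSum_le (fun I => ?_) (hasSum_smooth w hmul hone hnn hlt P) hsum.hasSum
  exact Set.indicator_le_self' (fun _ _ => hnn I) I

include hmul hone hnn hlt in
/-- Upper bound: a finite sum over ideals is at most a finite Euler product. -/
theorem sum_le_prod (hbot : w ⊥ = 0) (𝓘 : Finset (Ideal R)) :
    ∃ P : Finset (HeightOneSpectrum R), ∑ I ∈ 𝓘, w I ≤ ∏ v ∈ P, (1 - w v.asIdeal)⁻¹ := by
  classical
  have hfin : {v : HeightOneSpectrum R | ∃ I ∈ 𝓘, I ≠ ⊥ ∧ I ≤ v.asIdeal}.Finite := by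
    have : {v : HeightOneSpectrum R | ∃ I ∈ 𝓘, I ≠ ⊥ ∧ I ≤ v.asIdeal} =
        ⋃ I ∈ (𝓘 : Set (Ideal R)), {v : HeightOneSpectrum R | I ≠ ⊥ ∧ I ≤ v.asIdeal} := by
      ext v
      simp only [ne_eq, Set.mem_ofPred_eq, Finset.mem_coe, Set.mem_iUnion, exists_prop]
    rw [this]
    refine Set.Finite.biUnion 𝓘.finite_toSet fun I _ => ?_
    by_cases hI : I = ⊥
    · simp [hI]
    · refine (Ideal.finite_factors hI).subset fun v hv => ?_
      exact Ideal.dvd_iff_le.mpr hv.2
  refine ⟨hfin.toFinset, ?_⟩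
  have h1 : ∑ I ∈ 𝓘, w I ≤ ∑ I ∈ 𝓘, (smooth hfin.toFinset).indicator w I := by
    refine Finset.sum_le_sum fun I hI => ?_
    by_cases h0 : I = ⊥
    · rw [h0, hbot]
      exact Set.indicator_nonneg (fun J _ => hnn J) _
    · have : I ∈ smooth hfin.toFinset := by
        refine ⟨h0, fun v hv => ?_⟩
        rw [Set.Finite.mem_toFinset]
        exact ⟨I, hI, h0, hv⟩
      rw [Set.indicator_of_mem this]
  refine h1.trans ?_
  exact sum_le_hasSum 𝓘 (fun I _ => Set.indicator_nonneg (fun J _ => hnn J) I)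
    (hasSum_smooth w hmul hone hnn hlt _)

end EulerFinite

section Zeta

open NumberField

variable (K : Type*) [Field K] [NumberField K]

/-- Number of integral ideals of norm `n`. -/
noncomputable def aK (n : ℕ) : ℕ := Nat.card {I : Ideal (𝓞 K) // absNorm I = n}

theorem tendsto_aK :
    Tendsto (fun n : ℕ ↦ (∑ k ∈ Finset.Icc 1 n, (aK K k : ℝ)) / (n : ℝ)) atTop
      (𝓝 (dedekindZeta_residue K)) := by
  refine ((Ideal.tendsto_norm_le_div_atTop₀ K).comp tendsto_natCast_atTop_atTop).congr fun n ↦ ?_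
  simp only [Function.comp_apply, Nat.cast_le, ← Nat.cast_sum, aK]
  congr
  rw [← add_left_inj 1, ← card_norm_le_eq_card_norm_le_add_one,
    show Finset.Icc 1 n = Finset.Ioc 0 n from Finset.Icc_succ_left_eq_Ioc _ _,
    show 1 = Nat.card {I : Ideal (𝓞 K) // absNorm I = 0} by simp [Ideal.absNorm_eq_zero_iff],
    Finset.sum_Ioc_add_eq_sum_Icc (n.zero_le),
    ← Finset.card_preimage_eq_sum_card_image_eq (fun k _ ↦ finite_setOfPred_absNorm_eq k)]
  simp [Set.coe_eq_subtype]

theorem lsummable_aK {s : ℝ} (hs : 1 < s) : LSeriesSummable (fun n ↦ (aK K n : ℂ)) s := by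
  have := LSeriesSummable_of_sum_norm_bigO_and_nonneg (f := fun n ↦ (aK K n : ℝ)) (r := 1)
    (s := (s : ℂ))
    (Asymptotics.isBigO_atTop_natCast_rpow_of_tendsto_div_rpow (a := dedekindZeta_residue K)
      (by simpa using tendsto_aK K))
    (fun n ↦ Nat.cast_nonneg _) zero_le_one (by simpa using hs)
  simpa using this

/-- The weight `N(I)^(-s)`. -/
noncomputable def wt (s : ℝ) (I : Ideal (𝓞 K)) : ℝ := (absNorm I : ℝ) ^ (-s)

theorem wt_nonneg (s : ℝ) (I : Ideal (𝓞 K)) : 0 ≤ wt K s I := by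
  unfold wt; positivity

theorem wt_mul (s : ℝ) (I J : Ideal (𝓞 K)) : wt K s (I * J) = wt K s I * wt K s J := by
  unfold wt
  rw [map_mul, Nat.cast_mul, Real.mul_rpow (Nat.cast_nonneg _) (Nat.cast_nonneg _)]

theorem wt_top (s : ℝ) : wt K s ⊤ = 1 := by
  unfold wt; simp

theorem wt_bot {s : ℝ} (hs : s ≠ 0) : wt K s ⊥ = 0 := by
  unfold wt; simp [Real.zero_rpow (neg_ne_zero.mpr hs)]

theorem two_le_absNorm (v : HeightOneSpectrum (𝓞 K)) : 2 ≤ absNorm v.asIdeal := by
  have h0 : absNorm v.asIdeal ≠ 0 := by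
    rw [Ne, Ideal.absNorm_eq_zero_iff]; exact v.ne_bot
  have h1 : absNorm v.asIdeal ≠ 1 := by
    rw [Ne, Ideal.absNorm_eq_one_iff]; exact v.isPrime.ne_top
  omega

theorem wt_le_half {s : ℝ} (hs : 1 ≤ s) (v : HeightOneSpectrum (𝓞 K)) :
    wt K s v.asIdeal ≤ 1 / 2 := by
  unfold wt
  have h2 : (2 : ℝ) ≤ (absNorm v.asIdeal : ℝ) := by exact_mod_cast two_le_absNorm K v
  calc (absNorm v.asIdeal : ℝ) ^ (-s) ≤ (2 : ℝ) ^ (-s) :=
        Real.rpow_le_rpow_of_nonpos (by norm_num) h2 (by linarith)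
    _ ≤ (2 : ℝ) ^ (-1 : ℝ) := Real.rpow_le_rpow_of_exponent_le (by norm_num) (by linarith)
    _ = 1 / 2 := by rw [Real.rpow_neg_one]; norm_num

theorem wt_lt_one {s : ℝ} (hs : 1 ≤ s) (v : HeightOneSpectrum (𝓞 K)) :
    wt K s v.asIdeal < 1 := lt_of_le_of_lt (wt_le_half K hs v) (by norm_num)

/-- `wt` is antitone in `s` (for `0 < s`). -/
theorem wt_anti {s t : ℝ} (hs : 0 < s) (hst : s ≤ t) (I : Ideal (𝓞 K)) :
    wt K t I ≤ wt K s I := by
  by_cases hI : I = ⊥
  · rw [hI, wt_bot K (by linarith : t ≠ 0), wt_bot K hs.ne']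
  · unfold wt
    have h1 : (1 : ℝ) ≤ (absNorm I : ℝ) := by
      have : absNorm I ≠ 0 := by rwa [Ne, Ideal.absNorm_eq_zero_iff]
      exact_mod_cast Nat.one_le_iff_ne_zero.mpr this
    exact Real.rpow_le_rpow_of_exponent_le h1 (by linarith)

theorem wt_sq_le {s : ℝ} (hs : 1 ≤ s) (I : Ideal (𝓞 K)) : wt K s I ^ 2 ≤ wt K 2 I := by
  have : wt K s I ^ 2 = wt K (2 * s) I := by
    unfold wt
    rw [← Real.rpow_natCast, ← Real.rpow_mul (Nat.cast_nonneg _)]
    congr 1; push_cast; ring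
  rw [this]
  exact wt_anti K (by norm_num) (by linarith) I

theorem term_eq {s : ℝ} (hs : s ≠ 0) (n : ℕ) :
    LSeries.term (fun n ↦ (aK K n : ℂ)) s n = (((aK K n : ℝ) * (n : ℝ) ^ (-s) : ℝ) : ℂ) := by
  rcases eq_or_ne n 0 with rfl | hn
  · simp [LSeries.term_zero, Real.zero_rpow (neg_ne_zero.mpr hs)]
  · rw [LSeries.term_of_ne_zero hn]
    push_cast
    rw [Real.rpow_neg (Nat.cast_nonneg n), Complex.ofReal_inv, div_eq_mul_inv,
      Complex.ofReal_cpow (Nat.cast_nonneg n)]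
    simp

theorem summable_g {s : ℝ} (hs : 1 < s) :
    Summable fun n : ℕ ↦ (aK K n : ℝ) * (n : ℝ) ^ (-s) := by
  have h := lsummable_aK K hs
  unfold LSeriesSummable at h
  have h2 : Summable fun n : ℕ ↦ (((aK K n : ℝ) * (n : ℝ) ^ (-s) : ℝ) : ℂ) := by
    refine h.congr fun n ↦ ?_
    exact term_eq K (by linarith) n
  exact Complex.summable_ofReal.mp h2

theorem fiber_tsum {s : ℝ} (n : ℕ) :
    ∑' I : {I : Ideal (𝓞 K) // absNorm I = n}, wt K s I.1 = (aK K n : ℝ) * (n : ℝ) ^ (-s) := by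
  have : (fun I : {I : Ideal (𝓞 K) // absNorm I = n} ↦ wt K s I.1) = fun _ ↦ (n : ℝ) ^ (-s) := by
    funext I
    simp [wt, I.2]
  rw [this, tsum_const, aK, nsmul_eq_mul]

theorem summable_wt {s : ℝ} (hs : 1 < s) : Summable (wt K s) := by
  rw [← (Equiv.sigmaFiberEquiv (absNorm : Ideal (𝓞 K) → ℕ)).summable_iff]
  refine (summable_sigma_of_nonneg
    (f := wt K s ∘ (Equiv.sigmaFiberEquiv (absNorm : Ideal (𝓞 K) → ℕ)))
    (fun x ↦ wt_nonneg K s _)).mpr ⟨?_, ?_⟩
  · intro n
    have : Finite {I : Ideal (𝓞 K) // absNorm I = n} := by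
      rcases eq_or_ne n 0 with rfl | hn
      · have h0 : {I : Ideal (𝓞 K) | absNorm I = 0} = {⊥} := by
          ext I; simp [Ideal.absNorm_eq_zero_iff]
        have hf : {I : Ideal (𝓞 K) | absNorm I = 0}.Finite := by
          rw [h0]; exact Set.finite_singleton _
        exact Set.finite_coe_iff.mpr hf
      · exact Set.finite_coe_iff.mpr (finite_setOfPred_absNorm_eq n)
    exact Summable.of_finite
  · refine (summable_g K hs).congr fun n ↦ ?_
    simp only [Function.comp_apply, Equiv.sigmaFiberEquiv_apply]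
    exact (fiber_tsum K n).symm

theorem tsum_wt {s : ℝ} (hs : 1 < s) :
    ∑' I, wt K s I = ∑' n : ℕ, (aK K n : ℝ) * (n : ℝ) ^ (-s) := by
  have hsum := (Equiv.sigmaFiberEquiv (absNorm : Ideal (𝓞 K) → ℕ)).summable_iff.mpr
    (summable_wt K hs)
  rw [← (Equiv.sigmaFiberEquiv (absNorm : Ideal (𝓞 K) → ℕ)).tsum_eq]
  have := Summable.tsum_sigma'
    (f := wt K s ∘ (Equiv.sigmaFiberEquiv (absNorm : Ideal (𝓞 K) → ℕ)))
    (fun n ↦ hsum.sigma_factor n) hsum
  simp only [Function.comp_apply] at this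
  rw [this]
  refine tsum_congr fun n ↦ ?_
  simp only [Equiv.sigmaFiberEquiv_apply]
  exact fiber_tsum K n

/-- The Dedekind zeta function at real `s > 1`, as a real number. -/
noncomputable def zetaR (s : ℝ) : ℝ := ∑' I : Ideal (𝓞 K), wt K s I

theorem dedekindZeta_eq {s : ℝ} (hs : 1 < s) :
    dedekindZeta K s = ((zetaR K s : ℝ) : ℂ) := by
  unfold zetaR
  rw [tsum_wt K hs, Complex.ofReal_tsum]
  unfold dedekindZeta LSeries
  exact tsum_congr fun n ↦ term_eq K (by linarith) n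

theorem tendsto_zetaR :
    Tendsto (fun s : ℝ ↦ (s - 1) * zetaR K s) (𝓝[>] 1) (𝓝 (dedekindZeta_residue K)) := by
  have h := tendsto_sub_one_mul_dedekindZeta_nhdsGT K
  have h2 : Tendsto (fun s : ℝ ↦ (((s - 1) * zetaR K s : ℝ) : ℂ)) (𝓝[>] 1)
      (𝓝 ((dedekindZeta_residue K : ℝ) : ℂ)) := by
    refine h.congr' ?_
    filter_upwards [self_mem_nhdsWithin] with s hs
    rw [dedekindZeta_eq K hs]
    push_cast; ring
  exact (Complex.continuous_re.tendsto _).comp h2 |>.congr (fun s => by simp)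

theorem one_le_zetaR {s : ℝ} (hs : 1 < s) : 1 ≤ zetaR K s := by
  have := (summable_wt K hs).sum_le_tsum {⊤} (fun I _ => wt_nonneg K s I)
  unfold zetaR
  simpa [wt_top] using this

end Zeta

section Bounds

open NumberField

variable (K : Type*) [Field K] [NumberField K]

theorem inv_one_sub_le_exp {x : ℝ} (h0 : 0 ≤ x) (h1 : x ≤ 1 / 2) :
    (1 - x)⁻¹ ≤ Real.exp (x + 2 * x ^ 2) := by
  have hpos : 0 < 1 - x := by linarith
  have h2 : (1 - x)⁻¹ ≤ 1 + x + 2 * x ^ 2 := by
    rw [inv_le_iff_one_le_mul₀ hpos]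
    nlinarith [mul_nonneg h0 h0, mul_nonneg (mul_nonneg h0 h0) (by linarith : 0 ≤ 1 - 2 * x)]
  have h3 := Real.add_one_le_exp (x + 2 * x ^ 2)
  linarith

theorem exp_le_inv_one_sub {x : ℝ} (h1 : x < 1) : Real.exp x ≤ (1 - x)⁻¹ := by
  have hpos : 0 < 1 - x := by linarith
  have h2 : 1 - x ≤ Real.exp (-x) := by
    have := Real.add_one_le_exp (-x); linarith
  rw [Real.exp_neg] at h2
  have hx : 0 < Real.exp x := Real.exp_pos x
  rw [le_inv_comm₀ hx hpos]
  exact h2

/-- `K`-side: a finite sum over ideals is at most the exponential of a finite sum over primes. -/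
theorem sum_le_exp {s : ℝ} (hs : 1 < s) (𝓘 : Finset (Ideal (𝓞 K))) :
    ∃ P : Finset (HeightOneSpectrum (𝓞 K)),
      ∑ I ∈ 𝓘, wt K s I ≤
        Real.exp (∑ v ∈ P, (wt K s v.asIdeal + 2 * wt K s v.asIdeal ^ 2)) := by
  obtain ⟨P, hP⟩ := sum_le_prod (wt K s) (wt_mul K s) (wt_top K s) (wt_nonneg K s)
    (wt_lt_one K hs.le) (wt_bot K (by linarith)) 𝓘
  refine ⟨P, hP.trans ?_⟩
  rw [Real.exp_sum]
  refine Finset.prod_le_prod (fun v _ => ?_) (fun v _ => ?_)
  · exact inv_nonneg.mpr (by linarith [wt_lt_one K hs.le v])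
  · exact inv_one_sub_le_exp (wt_nonneg K s _) (wt_le_half K hs.le v)

theorem zetaR_pos {s : ℝ} (hs : 1 < s) : 0 < zetaR K s :=
  lt_of_lt_of_le zero_lt_one (one_le_zetaR K hs)

/-- `L`-side: a finite sum over primes is at most `log ζ`. -/
theorem sum_primes_le_log {s : ℝ} (hs : 1 < s) (T : Finset (HeightOneSpectrum (𝓞 K))) :
    ∑ v ∈ T, wt K s v.asIdeal ≤ Real.log (zetaR K s) := by
  rw [Real.le_log_iff_exp_le (zetaR_pos K hs), Real.exp_sum]
  have h1 : ∏ v ∈ T, Real.exp (wt K s v.asIdeal) ≤ ∏ v ∈ T, (1 - wt K s v.asIdeal)⁻¹ :=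
    Finset.prod_le_prod (fun v _ => (Real.exp_pos _).le)
      (fun v _ => exp_le_inv_one_sub (wt_lt_one K hs.le v))
  exact h1.trans (prod_le_tsum (wt K s) (wt_mul K s) (wt_top K s) (wt_nonneg K s)
    (wt_lt_one K hs.le) (summable_wt K hs) T)

theorem asIdeal_injective :
    Function.Injective (fun v : HeightOneSpectrum (𝓞 K) => v.asIdeal) :=
  fun _ _ h => HeightOneSpectrum.ext h

/-- Squares of prime weights are uniformly summable. -/
theorem sum_sq_le {s : ℝ} (hs : 1 ≤ s) (P : Finset (HeightOneSpectrum (𝓞 K))) :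
    ∑ v ∈ P, wt K s v.asIdeal ^ 2 ≤ zetaR K 2 := by
  classical
  calc ∑ v ∈ P, wt K s v.asIdeal ^ 2 ≤ ∑ v ∈ P, wt K 2 v.asIdeal :=
        Finset.sum_le_sum fun v _ => wt_sq_le K hs _
    _ = ∑ I ∈ P.image (fun v => v.asIdeal), wt K 2 I := by
        rw [Finset.sum_image (fun a _ b _ h => asIdeal_injective K h)]
    _ ≤ zetaR K 2 :=
        (summable_wt K (by norm_num)).sum_le_tsum _ (fun I _ => wt_nonneg K 2 I)

/-- The rational prime below a prime of `K`. -/
noncomputable def below (v : HeightOneSpectrum (𝓞 K)) : ℕ :=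
  absNorm (Ideal.under ℤ v.asIdeal)

theorem below_prime (v : HeightOneSpectrum (𝓞 K)) : (below K v).Prime := by
  haveI : v.asIdeal.IsPrime := v.isPrime
  haveI : NeZero v.asIdeal := ⟨v.ne_bot⟩
  exact Nat.absNorm_under_prime v.asIdeal

theorem absNorm_eq_below_pow (v : HeightOneSpectrum (𝓞 K)) :
    ∃ f : ℕ, absNorm v.asIdeal = below K v ^ f := by
  haveI : v.asIdeal.LiesOver (span {(below K v : ℤ)}) := Int.liesOver_span_absNorm v.asIdeal
  exact ⟨_, Ideal.absNorm_eq_pow_inertiaDeg' v.asIdeal (below_prime K v)⟩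

theorem below_sq_le {v : HeightOneSpectrum (𝓞 K)} (hv : ¬ (absNorm v.asIdeal).Prime) :
    below K v ^ 2 ≤ absNorm v.asIdeal := by
  obtain ⟨f, hf⟩ := absNorm_eq_below_pow K v
  have h2 := two_le_absNorm K v
  have hl := (below_prime K v).two_le
  have hf2 : 2 ≤ f := by
    by_contra hlt
    have : f = 0 ∨ f = 1 := by omega
    rcases this with rfl | rfl
    · rw [pow_zero] at hf; omega
    · rw [pow_one] at hf; exact hv (hf ▸ below_prime K v)
  rw [hf]
  exact Nat.pow_le_pow_right (by omega) hf2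

set_option linter.deprecated false in
theorem card_fiber_below_le (P : Finset (HeightOneSpectrum (𝓞 K))) (l : ℕ) :
    (P.filter (fun v => below K v = l)).card ≤ Module.finrank ℚ K := by
  classical
  by_cases hl : l.Prime
  · haveI : Fact l.Prime := ⟨hl⟩
    haveI : (span {(l : ℤ)}).IsMaximal := Int.ideal_span_isMaximal_of_prime l
    have hl0 : span {(l : ℤ)} ≠ ⊥ := by
      rw [Ne, Ideal.span_singleton_eq_bot]; exact_mod_cast hl.ne_zero
    refine le_trans ?_ (Ideal.card_primesOverFinset_le_finrank (𝓞 K) ℚ K hl0)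
    refine Finset.card_le_card_of_injOn (fun v => v.asIdeal) ?_ ?_
    · intro v hv
      rw [Finset.mem_coe, Finset.mem_filter] at hv
      rw [Finset.mem_coe, IsDedekindDomain.mem_primesOverFinset_iff hl0]
      refine ⟨v.isPrime, ?_⟩
      rw [← hv.2]
      exact Int.liesOver_span_absNorm v.asIdeal
    · intro a _ b _ h
      exact asIdeal_injective K h
  · have : P.filter (fun v => below K v = l) = ∅ := by
      rw [Finset.filter_eq_empty_iff]
      intro v _ h
      exact hl (h ▸ below_prime K v)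
    rw [this]; simp

/-- The constant `∑ 1/n²`. -/
noncomputable def zeta2 : ℝ := ∑' n : ℕ, ((n : ℝ) ^ 2)⁻¹

theorem summable_zeta2 : Summable fun n : ℕ => ((n : ℝ) ^ 2)⁻¹ := by
  exact Real.summable_nat_pow_inv.mpr (by norm_num : 1 < 2)

/-- Primes of degree `≥ 2` contribute a bounded amount. -/
theorem sum_nonprime_le {s : ℝ} (hs : 1 ≤ s) (P : Finset (HeightOneSpectrum (𝓞 K)))
    (hP : ∀ v ∈ P, ¬ (absNorm v.asIdeal).Prime) :
    ∑ v ∈ P, wt K s v.asIdeal ≤ Module.finrank ℚ K * zeta2 := by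
  classical
  have h1 : ∀ v ∈ P, wt K s v.asIdeal ≤ (((below K v : ℕ) : ℝ) ^ 2)⁻¹ := by
    intro v hv
    have hb := below_sq_le K (hP v hv)
    have hbpos : (0 : ℝ) < ((below K v : ℕ) : ℝ) ^ 2 := by
      have := (below_prime K v).pos
      positivity
    have h2 : ((below K v : ℕ) : ℝ) ^ 2 ≤ (absNorm v.asIdeal : ℝ) := by exact_mod_cast hb
    calc wt K s v.asIdeal ≤ wt K 1 v.asIdeal := wt_anti K one_pos hs _
      _ = ((absNorm v.asIdeal : ℝ))⁻¹ := by unfold wt; rw [Real.rpow_neg_one]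
      _ ≤ (((below K v : ℕ) : ℝ) ^ 2)⁻¹ := inv_anti₀ hbpos h2
  calc ∑ v ∈ P, wt K s v.asIdeal ≤ ∑ v ∈ P, (((below K v : ℕ) : ℝ) ^ 2)⁻¹ :=
        Finset.sum_le_sum h1
    _ = ∑ l ∈ P.image (below K), (P.filter (fun v => below K v = l)).card • (((l : ℕ) : ℝ) ^ 2)⁻¹ :=
        Finset.sum_comp (fun l : ℕ => (((l : ℕ) : ℝ) ^ 2)⁻¹) (below K)
    _ ≤ ∑ l ∈ P.image (below K), (Module.finrank ℚ K : ℝ) * (((l : ℕ) : ℝ) ^ 2)⁻¹ := by
        refine Finset.sum_le_sum fun l _ => ?_
        rw [nsmul_eq_mul]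
        have := card_fiber_below_le K P l
        have hnn : (0 : ℝ) ≤ (((l : ℕ) : ℝ) ^ 2)⁻¹ := by positivity
        exact mul_le_mul_of_nonneg_right (by exact_mod_cast this) hnn
    _ = (Module.finrank ℚ K : ℝ) * ∑ l ∈ P.image (below K), (((l : ℕ) : ℝ) ^ 2)⁻¹ := by
        rw [Finset.mul_sum]
    _ ≤ Module.finrank ℚ K * zeta2 := by
        refine mul_le_mul_of_nonneg_left ?_ (Nat.cast_nonneg _)
        exact summable_zeta2.sum_le_tsum _ (fun n _ => by positivity)

end Bounds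

end Fermat.Agent.CFT.DensitySplit
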