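/-
Density argument, main part: if every prime of `K` of prime absolute norm (outside a finite set)
has at least `[L:K]` primes of `L` of the same absolute norm above it, then `[L:K] = 1`.
Continuation of `Fermat/Agent/CFT/DensitySplit.lean`.
-/
import Mathlib
import Fermat.Agent.CFT.DensitySplit

set_option linter.style.longLine false

open IsDedekindDomain Ideal Filter Topology

namespace Fermat.Agent.CFT.DensitySplitMain

open Fermat.Agent.CFT.DensitySplit

section Main

open NumberField

variable (K L : Type*) [Field K] [NumberField K] [Field L] [NumberField L] [Algebra K L]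

/-- The primes of `L` over `q` with the same absolute norm as `q`. -/
def sameNormOver (q : Ideal (𝓞 K)) : Set (HeightOneSpectrum (𝓞 L)) :=
  {P | P.asIdeal.LiesOver q ∧ absNorm P.asIdeal = absNorm q}

theorem finite_sameNormOver (q : Ideal (𝓞 K)) : (sameNormOver K L q).Finite := by
  have hfin : {I : Ideal (𝓞 L) | absNorm I = absNorm q ∧ I ≠ ⊥}.Finite := by
    by_cases h0 : absNorm q = 0
    · refine Set.Finite.subset (Set.finite_empty) ?_
      rintro I ⟨hI, hI0⟩
      rw [h0, Ideal.absNorm_eq_zero_iff] at hI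
      exact absurd hI hI0
    · exact (finite_setOfPred_absNorm_eq (absNorm q)).subset fun I hI => hI.1
  refine Set.Finite.of_finite_image (f := fun P : HeightOneSpectrum (𝓞 L) => P.asIdeal)
    (hfin.subset ?_) (asIdeal_injective L).injOn
  rintro _ ⟨P, hP, rfl⟩
  exact ⟨hP.2, P.ne_bot⟩

variable {K L}

/-- Counting step: `n` primes of the same norm over each `v ∈ Q` give `n * ∑ ≤ log ζ_L`. -/
theorem mul_sum_le_log {s : ℝ} (hs : 1 < s) (n : ℕ) (Q : Finset (HeightOneSpectrum (𝓞 K)))
    (hQ : ∀ v ∈ Q, n ≤ (sameNormOver K L v.asIdeal).ncard) :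
    (n : ℝ) * ∑ v ∈ Q, wt K s v.asIdeal ≤ Real.log (zetaR L s) := by
  classical
  let B : HeightOneSpectrum (𝓞 K) → Finset (HeightOneSpectrum (𝓞 L)) :=
    fun v => (finite_sameNormOver K L v.asIdeal).toFinset
  have hdisj : (Q : Set (HeightOneSpectrum (𝓞 K))).PairwiseDisjoint B := by
    intro v _ v' _ hne
    rw [Function.onFun, Finset.disjoint_left]
    intro P hP hP'
    rw [Set.Finite.mem_toFinset] at hP hP'
    apply hne
    apply HeightOneSpectrum.ext
    have h1 := hP.1.over
    have h2 := hP'.1.over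
    rw [h1, h2]
  have hB : ∀ v ∈ Q, (n : ℝ) * wt K s v.asIdeal ≤ ∑ P ∈ B v, wt L s P.asIdeal := by
    intro v hv
    have hconst : ∀ P ∈ B v, wt L s P.asIdeal = wt K s v.asIdeal := by
      intro P hP
      rw [Set.Finite.mem_toFinset] at hP
      unfold wt
      rw [hP.2]
    rw [Finset.sum_congr rfl hconst, Finset.sum_const, nsmul_eq_mul]
    refine mul_le_mul_of_nonneg_right ?_ (wt_nonneg K s _)
    have := hQ v hv
    rw [Set.ncard_eq_toFinset_card _ (finite_sameNormOver K L v.asIdeal)] at this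
    exact_mod_cast this
  calc (n : ℝ) * ∑ v ∈ Q, wt K s v.asIdeal = ∑ v ∈ Q, (n : ℝ) * wt K s v.asIdeal := by
        rw [Finset.mul_sum]
    _ ≤ ∑ v ∈ Q, ∑ P ∈ B v, wt L s P.asIdeal := Finset.sum_le_sum hB
    _ = ∑ P ∈ Q.biUnion B, wt L s P.asIdeal := (Finset.sum_biUnion hdisj).symm
    _ ≤ Real.log (zetaR L s) := sum_primes_le_log L hs _

/-- The constant in the main inequality. -/
noncomputable def bigC (K : Type*) [Field K] [NumberField K] (S : Set (Ideal (𝓞 K))) : ℝ :=
  S.ncard + Module.finrank ℚ K * zeta2 + 2 * zetaR K 2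

/-- Main inequality: `ζ_K(s) ≤ exp (log ζ_L(s) / n + C)`. -/
theorem zetaR_le {s : ℝ} (hs : 1 < s) (S : Set (Ideal (𝓞 K))) (hS : S.Finite) (n : ℕ)
    (hn : 0 < n)
    (h : ∀ v : HeightOneSpectrum (𝓞 K), (absNorm v.asIdeal).Prime → v.asIdeal ∉ S →
      n ≤ (sameNormOver K L v.asIdeal).ncard) :
    zetaR K s ≤ Real.exp (Real.log (zetaR L s) / n + bigC K S) := by
  classical
  refine Real.tsum_le_of_sum_le (fun I => wt_nonneg K s I) fun 𝓘 => ?_
  obtain ⟨P, hP⟩ := sum_le_exp K hs 𝓘
  refine hP.trans (Real.exp_le_exp.mpr ?_)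
  rw [Finset.sum_add_distrib, ← Finset.mul_sum]
  have hsq := sum_sq_le K hs.le P
  -- split `P` into three parts
  let P1 := P.filter (fun v => (absNorm v.asIdeal).Prime ∧ v.asIdeal ∉ S)
  let P2 := P.filter (fun v => ¬ (absNorm v.asIdeal).Prime)
  let P3 := P.filter (fun v => v.asIdeal ∈ S)
  have hunion : ∀ (A B : Finset (HeightOneSpectrum (𝓞 K))),
      ∑ v ∈ A ∪ B, wt K s v.asIdeal ≤ ∑ v ∈ A, wt K s v.asIdeal + ∑ v ∈ B, wt K s v.asIdeal := by
    intro A B
    rw [← Finset.sum_union_inter]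
    exact le_add_of_nonneg_right (Finset.sum_nonneg fun v _ => wt_nonneg K s _)
  have hcover : ∑ v ∈ P, wt K s v.asIdeal ≤
      ∑ v ∈ P1, wt K s v.asIdeal + ∑ v ∈ P2, wt K s v.asIdeal + ∑ v ∈ P3, wt K s v.asIdeal := by
    have hsub : P ⊆ (P1 ∪ P2) ∪ P3 := by
      intro v hv
      simp only [P1, P2, P3, Finset.mem_union, Finset.mem_filter]
      by_cases h1 : (absNorm v.asIdeal).Prime
      · by_cases h2 : v.asIdeal ∈ S
        · exact Or.inr ⟨hv, h2⟩
        · exact Or.inl (Or.inl ⟨hv, h1, h2⟩)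
      · exact Or.inl (Or.inr ⟨hv, h1⟩)
    calc ∑ v ∈ P, wt K s v.asIdeal ≤ ∑ v ∈ (P1 ∪ P2) ∪ P3, wt K s v.asIdeal :=
          Finset.sum_le_sum_of_subset_of_nonneg hsub (fun v _ _ => wt_nonneg K s _)
      _ ≤ ∑ v ∈ P1 ∪ P2, wt K s v.asIdeal + ∑ v ∈ P3, wt K s v.asIdeal := hunion _ _
      _ ≤ _ := by
          have := hunion P1 P2
          linarith
  have h1 : ∑ v ∈ P1, wt K s v.asIdeal ≤ Real.log (zetaR L s) / n := by
    rw [le_div_iff₀' (by exact_mod_cast hn)]
    refine mul_sum_le_log hs n P1 fun v hv => ?_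
    simp only [P1, Finset.mem_filter] at hv
    exact h v hv.2.1 hv.2.2
  have h2 : ∑ v ∈ P2, wt K s v.asIdeal ≤ Module.finrank ℚ K * zeta2 :=
    sum_nonprime_le K hs.le P2 fun v hv => by
      simp only [P2, Finset.mem_filter] at hv; exact hv.2
  have h3 : ∑ v ∈ P3, wt K s v.asIdeal ≤ S.ncard := by
    calc ∑ v ∈ P3, wt K s v.asIdeal ≤ ∑ v ∈ P3, (1 : ℝ) :=
          Finset.sum_le_sum fun v _ => (wt_lt_one K hs.le v).le
      _ = (P3.card : ℝ) := by simp
      _ ≤ S.ncard := by
          have : P3.card ≤ S.ncard := by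
            rw [Set.ncard_eq_toFinset_card S hS]
            refine Finset.card_le_card_of_injOn (fun v => v.asIdeal) ?_
              (asIdeal_injective K).injOn
            intro v hv
            simp only [P3, Finset.coe_filter, Set.mem_ofPred_eq] at hv
            simpa using hv.2
          exact_mod_cast this
  unfold bigC
  linarith

/-- **Main theorem.** If every prime of `K` of prime absolute norm outside a finite set `S` has at
least `[L:K]` primes of `L` of the same absolute norm above it, then `[L:K] = 1`. -/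
theorem finrank_eq_one_of_forall_split (S : Set (Ideal (𝓞 K))) (hS : S.Finite)
    (h : ∀ v : HeightOneSpectrum (𝓞 K), (absNorm v.asIdeal).Prime → v.asIdeal ∉ S →
      Module.finrank K L ≤ (sameNormOver K L v.asIdeal).ncard) :
    Module.finrank K L = 1 := by
  set n := Module.finrank K L with hn_def
  have hnpos : 0 < n := Module.finrank_pos
  by_contra hne
  have hn2 : 2 ≤ n := by omega
  -- the inequality `((s-1) ζ_K)^n ≤ e^{nC} (s-1)^{n-1} ((s-1) ζ_L)` on `(1, ∞)`
  have hineq : ∀ s : ℝ, 1 < s → ((s - 1) * zetaR K s) ^ n ≤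
      Real.exp (n * bigC K S) * (s - 1) ^ (n - 1) * ((s - 1) * zetaR L s) := by
    intro s hs
    have hz := zetaR_le (L := L) hs S hS n hnpos h
    have hLpos := zetaR_pos L hs
    have hKpos := zetaR_pos K hs
    have hpow : zetaR K s ^ n ≤ Real.exp (n * bigC K S) * zetaR L s := by
      calc zetaR K s ^ n ≤ Real.exp (Real.log (zetaR L s) / n + bigC K S) ^ n :=
            pow_le_pow_left₀ hKpos.le hz n
        _ = Real.exp (n * (Real.log (zetaR L s) / n + bigC K S)) := by
            rw [← Real.exp_nat_mul]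
        _ = Real.exp (Real.log (zetaR L s) + n * bigC K S) := by
            congr 1
            have : (n : ℝ) ≠ 0 := by exact_mod_cast hnpos.ne'
            field_simp
        _ = Real.exp (n * bigC K S) * zetaR L s := by
            rw [Real.exp_add, Real.exp_log hLpos, mul_comm]
    have hs1 : 0 < s - 1 := by linarith
    calc ((s - 1) * zetaR K s) ^ n = (s - 1) ^ n * zetaR K s ^ n := mul_pow _ _ _
      _ ≤ (s - 1) ^ n * (Real.exp (n * bigC K S) * zetaR L s) :=
          mul_le_mul_of_nonneg_left hpow (pow_nonneg hs1.le n)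
      _ = Real.exp (n * bigC K S) * (s - 1) ^ (n - 1) * ((s - 1) * zetaR L s) := by
          have : (s - 1) ^ n = (s - 1) ^ (n - 1) * (s - 1) := by
            rw [← pow_succ]; congr 1; omega
          rw [this]; ring
  -- limits
  have hlimK : Tendsto (fun s : ℝ => ((s - 1) * zetaR K s) ^ n) (𝓝[>] 1)
      (𝓝 (dedekindZeta_residue K ^ n)) := (tendsto_zetaR K).pow n
  have hsub : Tendsto (fun s : ℝ => (s - 1) ^ (n - 1)) (𝓝[>] 1) (𝓝 0) := by
    have hc : Continuous fun s : ℝ => (s - 1) ^ (n - 1) := by fun_prop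
    have h0 : ((1 : ℝ) - 1) ^ (n - 1) = 0 := by
      rw [sub_self]
      exact zero_pow (by omega)
    have := hc.tendsto 1
    simp only [h0] at this
    exact tendsto_nhdsWithin_of_tendsto_nhds this
  have hlimR : Tendsto (fun s : ℝ => Real.exp (n * bigC K S) * (s - 1) ^ (n - 1) *
      ((s - 1) * zetaR L s)) (𝓝[>] 1) (𝓝 (Real.exp (n * bigC K S) * 0 *
        dedekindZeta_residue L)) :=
    (hsub.const_mul _).mul (tendsto_zetaR L)
  have hle : dedekindZeta_residue K ^ n ≤ Real.exp (n * bigC K S) * 0 *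
      dedekindZeta_residue L := by
    refine le_of_tendsto_of_tendsto hlimK hlimR ?_
    filter_upwards [self_mem_nhdsWithin] with s hs
    exact hineq s hs
  have hpos : 0 < dedekindZeta_residue K ^ n := pow_pos (dedekindZeta_residue_pos K) n
  rw [mul_zero, zero_mul] at hle
  linarith

end Main

end Fermat.Agent.CFT.DensitySplitMain
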