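import Mathlib
import Fermat.Agent.CFT.C1ClassDefs

/-!
# The first inequality: assembly core (conditional on the analytic inputs)

* `card_mul_le_one_of` : if the prime zeta sum over `ker φ` is at least `c * log (1/(s-1)) - A`
  on `(1,2]`, then `card G * c ≤ 1`.
* `norm_index_le_of` : the first inequality `card G ≤ [L:K]`.
* `exists_prime_ne_one_of` : (FACT G) a degree one prime outside `T ∪ S` not killed by `φ`.
-/

set_option autoImplicit false
set_option linter.unusedSectionVars false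

open NumberField Ideal IsDedekindDomain nonZeroDivisors Filter Topology
open Fermat.Agent.CFT.C1ClassDefs

namespace Fermat.Agent.CFT.FirstIneqCore

/-- Pure real analysis: if `h / n * log (1/(s-1)) ≤ log (1/(s-1)) + A` near `1⁺` then `h ≤ n`. -/
theorem le_of_log_bound {h n : ℝ} (hn : 0 < n) {A : ℝ}
    (hb : ∀ s ∈ Set.Ioc (1:ℝ) 2, h / n * Real.log (1 / (s - 1)) ≤ Real.log (1 / (s - 1)) + A) :
    h ≤ n := by
  by_contra hlt
  push Not at hlt
  have hpos : 0 < h / n - 1 := by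
    rw [sub_pos, lt_div_iff₀ hn]; linarith
  set T := max (A / (h / n - 1) + 1) 1 with hT
  have hT1 : 1 ≤ T := le_max_right _ _
  have hTA : A / (h / n - 1) < T := lt_of_lt_of_le (lt_add_one _) (le_max_left _ _)
  set s := 1 + Real.exp (-T) with hs
  have hexp_pos : 0 < Real.exp (-T) := Real.exp_pos _
  have hexp_le : Real.exp (-T) ≤ 1 := by
    rw [Real.exp_le_one_iff]; linarith
  have hsmem : s ∈ Set.Ioc (1:ℝ) 2 := by
    constructor
    · linarith
    · rw [hs]; linarith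
  have hlog : Real.log (1 / (s - 1)) = T := by
    have : s - 1 = Real.exp (-T) := by rw [hs]; ring
    rw [this, one_div, ← Real.exp_neg, neg_neg, Real.log_exp]
  have := hb s hsmem
  rw [hlog] at this
  have h2 : (h / n - 1) * T ≤ A := by nlinarith
  have h3 : T ≤ A / (h / n - 1) := by
    rw [le_div_iff₀ hpos]; linarith
  linarith

section Sums

variable {K : Type*} [Field K] [NumberField K]

/-- The general term of the prime zeta sum. -/
noncomputable def term (s : ℝ) (p : HeightOneSpectrum (𝓞 K)) : ℝ :=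
  (Ideal.absNorm p.asIdeal : ℝ) ^ (-s)

theorem term_nonneg (s : ℝ) (p : HeightOneSpectrum (𝓞 K)) : 0 ≤ term s p := by
  unfold term; positivity

theorem term_le_one {s : ℝ} (hs : 0 ≤ s) (p : HeightOneSpectrum (𝓞 K)) : term s p ≤ 1 := by
  have h1 : (1:ℝ) ≤ (Ideal.absNorm p.asIdeal : ℝ) := by
    have : Ideal.absNorm p.asIdeal ≠ 0 := by
      rw [Ne, Ideal.absNorm_eq_zero_iff]; exact p.ne_bot
    exact_mod_cast Nat.one_le_iff_ne_zero.mpr this
  exact Real.rpow_le_one_of_one_le_of_nonpos h1 (by linarith)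

theorem primeIdealZetaSum_eq_tsum_indicator (A : Set (HeightOneSpectrum (𝓞 K))) (s : ℝ) :
    A.primeIdealZetaSum s = ∑' p, A.indicator (term s) p := by
  rw [NumberField.Set.primeIdealZetaSum_def]
  exact tsum_subtype A (term s)

theorem primeIdealZetaSum_finset_le (S : Finset (HeightOneSpectrum (𝓞 K))) {s : ℝ}
    (hs : 0 ≤ s) : (S : Set (HeightOneSpectrum (𝓞 K))).primeIdealZetaSum s ≤ S.card := by
  rw [NumberField.Set.primeIdealZetaSum_def]
  have := Finset.tsum_subtype' S (term s)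
  unfold term at this
  rw [this]
  calc ∑ p ∈ S, (Ideal.absNorm p.asIdeal : ℝ) ^ (-s) ≤ ∑ _p ∈ S, (1:ℝ) :=
        Finset.sum_le_sum fun p _ => term_le_one hs p
    _ = S.card := by simp

/-- Subadditivity of the prime zeta sum: `A ⊆ B ∪ C ∪ D` gives `Σ_A ≤ Σ_B + Σ_C + Σ_D`. -/
theorem primeIdealZetaSum_le_of_subset {A B C D : Set (HeightOneSpectrum (𝓞 K))} {s : ℝ}
    (hsum : Summable (term (K := K) s)) (h : A ⊆ B ∪ C ∪ D) :
    A.primeIdealZetaSum s ≤
      B.primeIdealZetaSum s + C.primeIdealZetaSum s + D.primeIdealZetaSum s := by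
  simp only [primeIdealZetaSum_eq_tsum_indicator]
  have hsumm : ∀ X : Set (HeightOneSpectrum (𝓞 K)), Summable (X.indicator (term s)) :=
    fun X => hsum.indicator X
  have hnn : ∀ (X : Set (HeightOneSpectrum (𝓞 K))) p, 0 ≤ X.indicator (term s) p :=
    fun X p => Set.indicator_nonneg (fun p _ => term_nonneg s p) p
  rw [← Summable.tsum_add (hsumm _) (hsumm _),
    ← Summable.tsum_add ((hsumm _).add (hsumm _)) (hsumm _)]
  refine Summable.tsum_le_tsum (fun p => ?_) (hsumm _) (((hsumm _).add (hsumm _)).add (hsumm _))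
  by_cases hp : p ∈ A
  · rw [Set.indicator_of_mem hp]
    have hB := hnn B p
    have hC := hnn C p
    have hD := hnn D p
    rcases h hp with (h1 | h1) | h1
    · rw [Set.indicator_of_mem h1]; linarith
    · rw [Set.indicator_of_mem h1]; linarith
    · rw [Set.indicator_of_mem h1]; linarith
  · rw [Set.indicator_of_notMem hp]
    have hB := hnn B p
    have hC := hnn C p
    have hD := hnn D p
    linarith

end Sums

variable (K : Type*) [Field K] [NumberField K]
variable {G : Type*} [CommGroup G] [Fintype (G →* ℂˣ)]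

/-- Core: a lower bound `c * log (1/(s-1)) - A` for the prime zeta sum over `ker φ` forces
`card G * c ≤ 1`. -/
theorem card_mul_le_one_of
    (φ : (Ideal (𝓞 K))⁰ →* G)
    (I1 : ∀ s : ℝ, 1 < s →
      Real.exp (Nat.card G * (kerPrimes φ).primeIdealZetaSum s) ≤
        ‖∏ χ : G →* ℂˣ, classL K φ χ s‖)
    (I2 : ∀ χ : G →* ℂˣ, χ ≠ 1 → ∃ B, ∀ s ∈ Set.Ioc (1:ℝ) 2, ‖classL K φ χ s‖ ≤ B)
    (I3 : ∃ C, ∀ s ∈ Set.Ioc (1:ℝ) 2, ‖classL K φ (1 : G →* ℂˣ) s‖ ≤ C / (s - 1))
    (c : ℝ)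
    (hlow : ∃ A, ∀ s ∈ Set.Ioc (1:ℝ) 2,
      c * Real.log (1 / (s - 1)) - A ≤ (kerPrimes φ).primeIdealZetaSum s) :
    Nat.card G * c ≤ 1 := by
  classical
  obtain ⟨C, hC⟩ := I3
  obtain ⟨A, hA⟩ := hlow
  choose! Bχ hBχ using I2
  set B : ℝ := 1 + ∑ χ : G →* ℂˣ, |Bχ χ| with hBdef
  have hB1 : 1 ≤ B := by
    rw [hBdef]; have : 0 ≤ ∑ χ : G →* ℂˣ, |Bχ χ| := Finset.sum_nonneg fun _ _ => abs_nonneg _
    linarith
  have hBχ' : ∀ χ : G →* ℂˣ, χ ≠ 1 → ∀ s ∈ Set.Ioc (1:ℝ) 2, ‖classL K φ χ s‖ ≤ B := by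
    intro χ hχ s hs
    refine (hBχ χ hχ s hs).trans ?_
    have h1 : Bχ χ ≤ |Bχ χ| := le_abs_self _
    have h2 : |Bχ χ| ≤ ∑ χ : G →* ℂˣ, |Bχ χ| :=
      Finset.single_le_sum (f := fun χ => |Bχ χ|) (fun _ _ => abs_nonneg _) (Finset.mem_univ χ)
    rw [hBdef]; linarith
  set C' : ℝ := max C 1 with hC'
  have hC'1 : 1 ≤ C' := le_max_right _ _
  set hG : ℝ := (Nat.card G : ℝ) with hhG
  set N : ℕ := Fintype.card (G →* ℂˣ) with hN
  have hG0 : 0 ≤ hG := by rw [hhG]; positivity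
  have key : ∀ s ∈ Set.Ioc (1:ℝ) 2,
      (hG * c) / 1 * Real.log (1 / (s - 1)) ≤ Real.log (1 / (s - 1)) +
        (Real.log C' + N * Real.log B + hG * A) := by
    intro s hs
    have hs1 : 1 < s := hs.1
    have hs0 : 0 < s - 1 := by linarith
    have hprod : ‖∏ χ : G →* ℂˣ, classL K φ χ s‖ ≤ C' / (s - 1) * B ^ N := by
      rw [norm_prod]
      have h1 : ∀ χ : G →* ℂˣ, ‖classL K φ χ s‖ ≤
          (if χ = 1 then C' / (s - 1) else 1) * B := by
        intro χ
        by_cases hχ : χ = 1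
        · subst hχ
          rw [if_pos rfl]
          have : ‖classL K φ (1 : G →* ℂˣ) s‖ ≤ C' / (s - 1) :=
            (hC s hs).trans (div_le_div_of_nonneg_right (le_max_left _ _) hs0.le)
          have h0 : 0 ≤ C' / (s - 1) := div_nonneg (by linarith) hs0.le
          nlinarith
        · rw [if_neg hχ, one_mul]; exact hBχ' χ hχ s hs
      calc ∏ χ : G →* ℂˣ, ‖classL K φ χ s‖
          ≤ ∏ χ : G →* ℂˣ, ((if χ = 1 then C' / (s - 1) else 1) * B) :=
            Finset.prod_le_prod (fun _ _ => norm_nonneg _) (fun χ _ => h1 χ)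
        _ = C' / (s - 1) * B ^ N := by
            rw [Finset.prod_mul_distrib, Finset.prod_ite_eq' Finset.univ (1 : G →* ℂˣ)]
            simp [hN]
    have hexp := (I1 s hs1).trans hprod
    have hlog : hG * (kerPrimes φ).primeIdealZetaSum s ≤
        Real.log (C' / (s - 1) * B ^ N) := by
      rw [← Real.log_exp (hG * _)]
      exact Real.log_le_log (Real.exp_pos _) hexp
    have hlog2 : Real.log (C' / (s - 1) * B ^ N) =
        Real.log C' + Real.log (1 / (s - 1)) + N * Real.log B := by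
      rw [Real.log_mul (div_pos (by linarith) hs0).ne' (pow_pos (by linarith) _).ne',
        div_eq_mul_one_div, Real.log_mul (by linarith) (one_div_pos.mpr hs0).ne', Real.log_pow]
    have h5 : hG * (c * Real.log (1 / (s - 1)) - A) ≤
        Real.log C' + Real.log (1 / (s - 1)) + N * Real.log B :=
      (mul_le_mul_of_nonneg_left (hA s hs) hG0).trans (hlog.trans hlog2.le)
    rw [div_one]
    nlinarith
  exact le_of_log_bound one_pos key

variable (L : Type*) [Field L] [NumberField L] [Algebra K L]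

/-- The first inequality (class group version), from the analytic inputs. -/
theorem norm_index_le_of
    (φ : (Ideal (𝓞 K))⁰ →* G)
    (S : Finset (HeightOneSpectrum (𝓞 K)))
    (hsplit : ∀ p ∈ degOnePrimes K L, p ∉ S → φ (primeToIdeal0 p) = 1)
    (hsum : ∀ s : ℝ, 1 < s →
      Summable (fun p : HeightOneSpectrum (𝓞 K) => (Ideal.absNorm p.asIdeal : ℝ) ^ (-s)))
    (I1 : ∀ s : ℝ, 1 < s →
      Real.exp (Nat.card G * (kerPrimes φ).primeIdealZetaSum s) ≤
        ‖∏ χ : G →* ℂˣ, classL K φ χ s‖)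
    (I2 : ∀ χ : G →* ℂˣ, χ ≠ 1 → ∃ B, ∀ s ∈ Set.Ioc (1:ℝ) 2, ‖classL K φ χ s‖ ≤ B)
    (I3 : ∃ C, ∀ s ∈ Set.Ioc (1:ℝ) 2, ‖classL K φ (1 : G →* ℂˣ) s‖ ≤ C / (s - 1))
    (I4 : ∃ B, ∀ s ∈ Set.Ioc (1:ℝ) 2, Real.log (1 / (s - 1)) - B ≤
      Module.finrank K L * (degOnePrimes K L).primeIdealZetaSum s)
    (hn : 0 < Module.finrank K L) :
    Nat.card G ≤ Module.finrank K L := by
  obtain ⟨B4, hB4⟩ := I4
  set n : ℝ := (Module.finrank K L : ℝ) with hndef
  have hnpos : 0 < n := by rw [hndef]; exact_mod_cast hn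
  have hsub : degOnePrimes K L ⊆
      kerPrimes φ ∪ (S : Set (HeightOneSpectrum (𝓞 K))) ∪ ∅ := by
    intro p hp
    by_cases hpS : p ∈ S
    · exact Or.inl (Or.inr hpS)
    · exact Or.inl (Or.inl (hsplit p hp hpS))
  have hlow : ∃ A, ∀ s ∈ Set.Ioc (1:ℝ) 2,
      (1 / n) * Real.log (1 / (s - 1)) - A ≤ (kerPrimes φ).primeIdealZetaSum s := by
    refine ⟨B4 / n + S.card, fun s hs => ?_⟩
    have hs1 : 1 < s := hs.1
    have h1 := primeIdealZetaSum_le_of_subset (hsum s hs1) hsub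
    have h2 := primeIdealZetaSum_finset_le S (s := s) (by linarith)
    have h3 : (∅ : Set (HeightOneSpectrum (𝓞 K))).primeIdealZetaSum s = 0 := by
      simp [NumberField.Set.primeIdealZetaSum_def]
    have h4 := hB4 s hs
    have h5 : (Real.log (1 / (s - 1)) - B4) / n ≤ (degOnePrimes K L).primeIdealZetaSum s := by
      rw [div_le_iff₀ hnpos]; linarith
    have h6 : (1 / n) * Real.log (1 / (s - 1)) - (B4 / n + S.card) =
        (Real.log (1 / (s - 1)) - B4) / n - S.card := by ring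
    rw [h6]; linarith
  have := card_mul_le_one_of K φ I1 I2 I3 (1 / n) hlow
  rw [mul_one_div, div_le_one hnpos, hndef] at this
  exact_mod_cast this

/-- Primes of absolute degree one. -/
def absDegOne : Set (HeightOneSpectrum (𝓞 K)) := {q | (Ideal.absNorm q.asIdeal).Prime}

/-- (FACT G) If the primes in `T` have density at most `1/n'` and `card G * (n' - 1) > n'`,
there is a prime of absolute degree one outside `T ∪ S` which is not killed by `φ`. -/
theorem exists_prime_ne_one_of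
    (φ : (Ideal (𝓞 K))⁰ →* G)
    (S : Finset (HeightOneSpectrum (𝓞 K))) (T : Set (HeightOneSpectrum (𝓞 K))) (n' : ℕ)
    (hsum : ∀ s : ℝ, 1 < s →
      Summable (fun p : HeightOneSpectrum (𝓞 K) => (Ideal.absNorm p.asIdeal : ℝ) ^ (-s)))
    (I1 : ∀ s : ℝ, 1 < s →
      Real.exp (Nat.card G * (kerPrimes φ).primeIdealZetaSum s) ≤
        ‖∏ χ : G →* ℂˣ, classL K φ χ s‖)
    (I2 : ∀ χ : G →* ℂˣ, χ ≠ 1 → ∃ B, ∀ s ∈ Set.Ioc (1:ℝ) 2, ‖classL K φ χ s‖ ≤ B)
    (I3 : ∃ C, ∀ s ∈ Set.Ioc (1:ℝ) 2, ‖classL K φ (1 : G →* ℂˣ) s‖ ≤ C / (s - 1))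
    (IT : ∃ B, ∀ s ∈ Set.Ioc (1:ℝ) 2,
      n' * T.primeIdealZetaSum s ≤ Real.log (1 / (s - 1)) + B)
    (ID : ∃ B, ∀ s ∈ Set.Ioc (1:ℝ) 2,
      Real.log (1 / (s - 1)) - B ≤ (absDegOne K).primeIdealZetaSum s)
    (hn' : 0 < n')
    (hbig : n' < Nat.card G * (n' - 1)) :
    ∃ q ∈ absDegOne K, q ∉ S ∧ q ∉ T ∧ φ (primeToIdeal0 q) ≠ 1 := by
  by_contra hcon
  push Not at hcon
  obtain ⟨BT, hBT⟩ := IT
  obtain ⟨BD, hBD⟩ := ID
  set n : ℝ := (n' : ℝ) with hndef
  have hnpos : 0 < n := by rw [hndef]; exact_mod_cast hn'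
  have hsub : absDegOne K ⊆ kerPrimes φ ∪ (S : Set (HeightOneSpectrum (𝓞 K))) ∪ T := by
    intro q hq
    by_cases hqS : q ∈ S
    · exact Or.inl (Or.inr hqS)
    by_cases hqT : q ∈ T
    · exact Or.inr hqT
    · exact Or.inl (Or.inl (hcon q hq hqS hqT))
  have hlow : ∃ A, ∀ s ∈ Set.Ioc (1:ℝ) 2,
      (1 - 1 / n) * Real.log (1 / (s - 1)) - A ≤ (kerPrimes φ).primeIdealZetaSum s := by
    refine ⟨BD + S.card + BT / n, fun s hs => ?_⟩
    have hs1 : 1 < s := hs.1
    have h1 := primeIdealZetaSum_le_of_subset (hsum s hs1) hsub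
    have h2 := primeIdealZetaSum_finset_le S (s := s) (by linarith)
    have h3 := hBD s hs
    have h4 : T.primeIdealZetaSum s ≤ (Real.log (1 / (s - 1)) + BT) / n := by
      rw [le_div_iff₀ hnpos]; have := hBT s hs; linarith
    have h6 : (1 - 1 / n) * Real.log (1 / (s - 1)) - (BD + S.card + BT / n) =
        (Real.log (1 / (s - 1)) - BD) - S.card - (Real.log (1 / (s - 1)) + BT) / n := by
      field_simp; ring
    rw [h6]; linarith
  have := card_mul_le_one_of K φ I1 I2 I3 (1 - 1 / n) hlow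
  have h7 : (Nat.card G : ℝ) * (1 - 1 / n) = (Nat.card G * (n - 1)) / n := by
    field_simp
  rw [h7, div_le_one hnpos] at this
  have hbig' : (n' : ℝ) < (Nat.card G : ℝ) * ((n' : ℝ) - 1) := by
    have h8 : ((n' : ℕ) : ℝ) - 1 = ((n' - 1 : ℕ) : ℝ) := by
      rw [Nat.cast_sub hn']; simp
    rw [h8]; exact_mod_cast hbig
  rw [hndef] at this
  linarith

end Fermat.Agent.CFT.FirstIneqCore
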