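/-
Abstract Herbrand quotient machinery (helper17, Program E / C2-H).

An abelian group `A` with two endomorphisms `f g` such that `f ∘ g = 0 = g ∘ f`
("Herbrand pair").  `P.H = ker f / im g`; `P.swap.H = ker g / im f`.
For a short exact sequence of pairs we construct the connecting homomorphisms and prove the six
exactness statements of the hexagon.
-/
import Mathlib

set_option autoImplicit false

namespace Fermat.Agent.CFT.Herbrand

universe u v w

/-- A Herbrand pair: two endomorphisms of an abelian group composing to zero both ways. -/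
structure Pair (A : Type u) [AddCommGroup A] where
  f : A →+ A
  g : A →+ A
  fg : ∀ a, f (g a) = 0
  gf : ∀ a, g (f a) = 0

namespace Pair

variable {A : Type u} [AddCommGroup A] (P : Pair A)

/-- The pair with the two endomorphisms exchanged. -/
def swap : Pair A := ⟨P.g, P.f, P.gf, P.fg⟩

@[simp] lemma swap_f : P.swap.f = P.g := rfl
@[simp] lemma swap_g : P.swap.g = P.f := rfl
lemma swap_swap : P.swap.swap = P := rfl

/-- The boundaries `im g` as a subgroup of the cycles `ker f`. -/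
def bdry : AddSubgroup P.f.ker := P.g.range.addSubgroupOf P.f.ker

/-- The (co)homology group `ker f / im g`. -/
abbrev H : Type u := P.f.ker ⧸ P.bdry

/-- The class map `ker f → H`. -/
def cls : P.f.ker →+ P.H := QuotientAddGroup.mk' P.bdry

lemma cls_surjective : Function.Surjective P.cls := QuotientAddGroup.mk'_surjective _

lemma mem_bdry_iff (x : P.f.ker) : x ∈ P.bdry ↔ (x : A) ∈ P.g.range := by
  simp [bdry, AddSubgroup.mem_addSubgroupOf]

lemma cls_eq_zero_iff (x : P.f.ker) : P.cls x = 0 ↔ (x : A) ∈ P.g.range := by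
  rw [cls, QuotientAddGroup.mk'_apply, QuotientAddGroup.eq_zero_iff, mem_bdry_iff]

lemma cls_eq_zero_iff' (x : P.f.ker) : P.cls x = 0 ↔ ∃ a, P.g a = (x : A) := by
  rw [cls_eq_zero_iff]; rfl

lemma cls_eq_cls_iff (x y : P.f.ker) : P.cls x = P.cls y ↔ ∃ a, (x : A) = y + P.g a := by
  rw [← sub_eq_zero, ← map_sub, cls_eq_zero_iff']
  constructor
  · rintro ⟨a, ha⟩
    refine ⟨a, ?_⟩
    rw [ha]; simp
  · rintro ⟨a, ha⟩
    refine ⟨a, ?_⟩
    simp [ha]

/-- Cycles: build an element of `ker f`. -/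
def cyc (a : A) (ha : P.f a = 0) : P.f.ker := ⟨a, ha⟩

@[simp] lemma coe_cyc (a : A) (ha : P.f a = 0) : ((P.cyc a ha : P.f.ker) : A) = a := rfl

/-- `g a` is a cycle. -/
lemma g_mem_ker (a : A) : P.g a ∈ P.f.ker := P.fg a

lemma induction_H {motive : P.H → Prop} (h : ∀ x : P.f.ker, motive (P.cls x)) (y : P.H) :
    motive y := by
  obtain ⟨x, rfl⟩ := P.cls_surjective y
  exact h x

end Pair

variable {A : Type u} {B : Type v} {C : Type w}
  [AddCommGroup A] [AddCommGroup B] [AddCommGroup C]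

/-- A morphism of Herbrand pairs. -/
structure Hom (P : Pair A) (Q : Pair B) where
  φ : A →+ B
  comm_f : ∀ a, φ (P.f a) = Q.f (φ a)
  comm_g : ∀ a, φ (P.g a) = Q.g (φ a)

namespace Hom

variable {P : Pair A} {Q : Pair B} {R : Pair C}

/-- The same morphism between the swapped pairs. -/
def swap (h : Hom P Q) : Hom P.swap Q.swap := ⟨h.φ, h.comm_g, h.comm_f⟩

@[simp] lemma swap_φ (h : Hom P Q) : h.swap.φ = h.φ := rfl

/-- Restriction of a morphism to cycles. -/
def onKer (h : Hom P Q) : P.f.ker →+ Q.f.ker :=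
  (h.φ.comp P.f.ker.subtype).codRestrict Q.f.ker (fun x => by
    have hx : P.f (x : A) = 0 := x.2
    show Q.f (h.φ (x : A)) = 0
    rw [← h.comm_f, hx, map_zero])

@[simp] lemma coe_onKer (h : Hom P Q) (x : P.f.ker) : ((h.onKer x : Q.f.ker) : B) = h.φ x := rfl

/-- The induced map on `H`. -/
def mapH (h : Hom P Q) : P.H →+ Q.H :=
  QuotientAddGroup.map P.bdry Q.bdry h.onKer (by
    intro x hx
    rw [Pair.mem_bdry_iff] at hx
    rw [AddSubgroup.mem_comap, Pair.mem_bdry_iff]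
    obtain ⟨a, ha⟩ := hx
    exact ⟨h.φ a, by rw [coe_onKer, ← ha, h.comm_g]⟩)

@[simp] lemma mapH_mk (h : Hom P Q) (x : P.f.ker) : h.mapH (P.cls x) = Q.cls (h.onKer x) := rfl

/-- Composition of morphisms. -/
def comp (k : Hom Q R) (h : Hom P Q) : Hom P R :=
  ⟨k.φ.comp h.φ, fun a => by simp [h.comm_f, k.comm_f], fun a => by simp [h.comm_g, k.comm_g]⟩

lemma mapH_comp (k : Hom Q R) (h : Hom P Q) (x : P.H) :
    (k.comp h).mapH x = k.mapH (h.mapH x) := by
  obtain ⟨x, rfl⟩ := P.cls_surjective x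
  rfl

end Hom

/-- A short exact sequence of Herbrand pairs `0 → P → Q → R → 0`. -/
structure ShortExact (P : Pair A) (Q : Pair B) (R : Pair C) where
  ι : Hom P Q
  π : Hom Q R
  inj : Function.Injective ι.φ
  surj : Function.Surjective π.φ
  exact : ∀ b, π.φ b = 0 ↔ ∃ a, ι.φ a = b

namespace ShortExact

variable {P : Pair A} {Q : Pair B} {R : Pair C} (S : ShortExact P Q R)

/-- The swapped short exact sequence. -/
def swap : ShortExact P.swap Q.swap R.swap :=
  ⟨S.ι.swap, S.π.swap, S.inj, S.surj, S.exact⟩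

lemma π_ι (a : A) : S.π.φ (S.ι.φ a) = 0 := (S.exact _).2 ⟨a, rfl⟩

/-! ### Exactness at the middle term -/

theorem exact_mid (y : Q.H) : S.π.mapH y = 0 ↔ ∃ x : P.H, S.ι.mapH x = y := by
  constructor
  · obtain ⟨b, rfl⟩ := Q.cls_surjective y
    intro hb
    rw [Hom.mapH_mk, Pair.cls_eq_zero_iff'] at hb
    obtain ⟨c, hc⟩ := hb
    obtain ⟨b₀, rfl⟩ := S.surj c
    -- `b - g b₀` maps to zero, hence comes from `A`
    have h0 : S.π.φ ((b : B) - Q.g b₀) = 0 := by
      rw [map_sub, S.π.comm_g, hc]; simp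
    obtain ⟨a, ha⟩ := (S.exact _).1 h0
    have haf : P.f a = 0 := by
      apply S.inj
      rw [S.ι.comm_f, ha, map_sub, Q.fg, map_zero, sub_zero]
      exact b.2
    refine ⟨P.cls ⟨a, haf⟩, ?_⟩
    rw [Hom.mapH_mk, Pair.cls_eq_cls_iff]
    refine ⟨-b₀, ?_⟩
    simp only [Hom.coe_onKer, map_neg]
    rw [ha]; abel
  · rintro ⟨x, rfl⟩
    obtain ⟨a, rfl⟩ := P.cls_surjective x
    rw [Hom.mapH_mk, Hom.mapH_mk, Pair.cls_eq_zero_iff']
    exact ⟨0, by simp [S.π_ι]⟩

/-! ### The connecting homomorphism -/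

/-- The subgroup of `B` of elements whose image in `C` is a cycle. -/
def liftSub : AddSubgroup B := R.f.ker.comap S.π.φ

lemma mem_liftSub (b : B) : b ∈ S.liftSub ↔ R.f (S.π.φ b) = 0 := Iff.rfl

lemma f_mem_range (b : S.liftSub) : Q.f (b : B) ∈ S.ι.φ.range := by
  have : S.π.φ (Q.f (b : B)) = 0 := by rw [S.π.comm_f]; exact b.2
  obtain ⟨a, ha⟩ := (S.exact _).1 this
  exact ⟨a, ha⟩

/-- The auxiliary map `liftSub → A`, `b ↦ ι⁻¹ (f b)`. -/
noncomputable def aux : S.liftSub →+ A :=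
  ((AddMonoidHom.ofInjective S.inj).symm : S.ι.φ.range →+ A).comp
    ((Q.f.comp S.liftSub.subtype).codRestrict S.ι.φ.range (fun b => S.f_mem_range b))

lemma ι_aux (b : S.liftSub) : S.ι.φ (S.aux b) = Q.f (b : B) := by
  have := (AddMonoidHom.ofInjective S.inj).apply_symm_apply
    ⟨Q.f (b : B), S.f_mem_range b⟩
  exact congrArg (Subtype.val) this

lemma g_aux (b : S.liftSub) : P.g (S.aux b) = 0 := by
  apply S.inj
  rw [S.ι.comm_g, ι_aux, Q.gf, map_zero]

/-- `aux` as a map into the cycles of the swapped pair. -/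
noncomputable def auxKer : S.liftSub →+ P.swap.f.ker :=
  S.aux.codRestrict P.swap.f.ker (fun b => S.g_aux b)

/-- `aux` followed by the class map. -/
noncomputable def auxH : S.liftSub →+ P.swap.H := P.swap.cls.comp S.auxKer

/-- The projection `liftSub → H(R)`. -/
def projH : S.liftSub →+ R.H :=
  R.cls.comp ((S.π.φ.comp S.liftSub.subtype).codRestrict R.f.ker (fun b => b.2))

lemma projH_surjective : Function.Surjective S.projH := by
  intro y
  obtain ⟨c, rfl⟩ := R.cls_surjective y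
  obtain ⟨b, hb⟩ := S.surj c
  refine ⟨⟨b, ?_⟩, ?_⟩
  · rw [mem_liftSub, hb]; exact c.2
  · show R.cls _ = R.cls c
    congr 1
    exact Subtype.ext hb

lemma auxH_eq_zero_of_projH_eq_zero (b : S.liftSub) (hb : S.projH b = 0) : S.auxH b = 0 := by
  have hb' : ∃ c, R.g c = S.π.φ (b : B) := by
    exact (R.cls_eq_zero_iff' _).1 hb
  obtain ⟨c, hc⟩ := hb'
  obtain ⟨b₀, rfl⟩ := S.surj c
  have h0 : S.π.φ ((b : B) - Q.g b₀) = 0 := by
    rw [map_sub, S.π.comm_g, hc]; simp
  obtain ⟨a₀, ha₀⟩ := (S.exact _).1 h0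
  -- `aux b = f a₀`
  have hfa : S.aux b = P.f a₀ := by
    apply S.inj
    rw [ι_aux, S.ι.comm_f, ha₀, map_sub, Q.fg, sub_zero]
  show P.swap.cls (S.auxKer b) = 0
  rw [Pair.cls_eq_zero_iff']
  exact ⟨a₀, hfa.symm⟩

/-- The connecting homomorphism `H(R) → H(P.swap)`. -/
noncomputable def δ : R.H →+ P.swap.H :=
  AddMonoidHom.liftOfSurjective S.projH S.projH_surjective
    ⟨S.auxH, fun b hb => S.auxH_eq_zero_of_projH_eq_zero b hb⟩

lemma δ_projH (b : S.liftSub) : S.δ (S.projH b) = S.auxH b := by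
  unfold δ
  exact AddMonoidHom.liftOfRightInverse_comp_apply _ _ _ _ b

/-- Description of `δ` on an explicit lift: if `b : B` has `R.f (π b) = 0` and `ι a = Q.f b`,
then `δ [π b] = [a]`. -/
lemma δ_cls (c : R.f.ker) (b : B) (hb : S.π.φ b = c) (a : A) (ha : S.ι.φ a = Q.f b) :
    ∃ hga : P.g a = 0, S.δ (R.cls c) = P.swap.cls ⟨a, hga⟩ := by
  have hbl : b ∈ S.liftSub := by rw [mem_liftSub, hb]; exact c.2
  have haux : S.aux ⟨b, hbl⟩ = a := by
    apply S.inj
    rw [ι_aux, ha]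
  have hga : P.g a = 0 := by rw [← haux]; exact S.g_aux _
  refine ⟨hga, ?_⟩
  have hproj : S.projH ⟨b, hbl⟩ = R.cls c := by
    show R.cls _ = R.cls c
    congr 1
    exact Subtype.ext hb
  rw [← hproj, δ_projH]
  show P.swap.cls (S.auxKer ⟨b, hbl⟩) = _
  congr 1
  exact Subtype.ext haux

/-! ### Exactness at `H(R)` -/

theorem exact_right (z : R.H) : S.δ z = 0 ↔ ∃ y : Q.H, S.π.mapH y = z := by
  constructor
  · obtain ⟨b, rfl⟩ := S.projH_surjective z
    intro hz
    rw [δ_projH] at hz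
    have hz' : ∃ a₀, P.f a₀ = S.aux b := (P.swap.cls_eq_zero_iff' _).1 hz
    obtain ⟨a₀, ha₀⟩ := hz'
    have hb' : Q.f ((b : B) - S.ι.φ a₀) = 0 := by
      rw [map_sub, ← S.ι.comm_f, ha₀, ι_aux, sub_self]
    refine ⟨Q.cls ⟨(b : B) - S.ι.φ a₀, hb'⟩, ?_⟩
    rw [Hom.mapH_mk]
    show R.cls _ = R.cls _
    congr 1
    apply Subtype.ext
    show S.π.φ ((b : B) - S.ι.φ a₀) = S.π.φ (b : B)
    rw [map_sub, S.π_ι, sub_zero]
  · rintro ⟨y, rfl⟩
    obtain ⟨b, rfl⟩ := Q.cls_surjective y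
    rw [Hom.mapH_mk]
    obtain ⟨hga, hδ⟩ := S.δ_cls (S.π.onKer b) (b : B) rfl 0 (by
      rw [map_zero]; exact b.2.symm)
    rw [hδ]
    rw [Pair.cls_eq_zero_iff']
    exact ⟨0, by simp⟩

/-! ### Exactness at `H(P.swap)` -/

theorem exact_left (x : P.swap.H) : S.ι.swap.mapH x = 0 ↔ ∃ z : R.H, S.δ z = x := by
  constructor
  · obtain ⟨a, rfl⟩ := P.swap.cls_surjective x
    intro hx
    rw [Hom.mapH_mk] at hx
    have hx' : ∃ b, Q.f b = S.ι.φ (a : A) := (Q.swap.cls_eq_zero_iff' _).1 hx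
    obtain ⟨b, hb⟩ := hx'
    have hc : R.f (S.π.φ b) = 0 := by
      rw [← S.π.comm_f, hb, S.π_ι]
    obtain ⟨hga, hδ⟩ := S.δ_cls ⟨S.π.φ b, hc⟩ b rfl (a : A) hb.symm
    exact ⟨R.cls ⟨S.π.φ b, hc⟩, hδ⟩
  · rintro ⟨z, rfl⟩
    obtain ⟨b, rfl⟩ := S.projH_surjective z
    rw [δ_projH]
    show S.ι.swap.mapH (P.swap.cls (S.auxKer b)) = 0
    rw [Hom.mapH_mk, Pair.cls_eq_zero_iff']
    refine ⟨(b : B), ?_⟩
    show Q.f (b : B) = S.ι.φ (S.aux b)
    rw [ι_aux]

/-! ### The second half of the hexagon: apply everything to the swapped sequence -/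

/-- The second connecting homomorphism `H(R.swap) → H(P)`. -/
noncomputable def δ' : R.swap.H →+ P.H := S.swap.δ

theorem exact_mid' (y : Q.swap.H) :
    S.π.swap.mapH y = 0 ↔ ∃ x : P.swap.H, S.ι.swap.mapH x = y :=
  S.swap.exact_mid y

theorem exact_right' (z : R.swap.H) : S.δ' z = 0 ↔ ∃ y : Q.swap.H, S.π.swap.mapH y = z :=
  S.swap.exact_right z

theorem exact_left' (x : P.H) : S.ι.mapH x = 0 ↔ ∃ z : R.swap.H, S.δ' z = x :=
  S.swap.exact_left x

end ShortExact

end Fermat.Agent.CFT.Herbrand
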