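/-
Program E (S14), piece C4-0 (helper23): the monoid of nonzero ideals of a Dedekind domain is the
free commutative monoid on the nonzero prime ideals.

* `idealHom f : (Ideal R)⁰ →* A` : the monoid hom with prescribed values `f P` at the primes.
* `idealHom_prime`, `idealHom_ext`, `induction_on_primes`.
-/
import Mathlib

set_option autoImplicit false

namespace Fermat.Agent.CFT.IdealHom

open UniqueFactorizationMonoid

variable {R : Type*} [CommRing R] [IsDedekindDomain R]
variable {A : Type*} [CommMonoid A]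

theorem mem_nonZeroDivisors_of_ne_bot {I : Ideal R} (hI : I ≠ ⊥) :
    I ∈ nonZeroDivisors (Ideal R) :=
  mem_nonZeroDivisors_iff_ne_zero.mpr hI

theorem ne_bot_of_mem_nonZeroDivisors {I : Ideal R} (hI : I ∈ nonZeroDivisors (Ideal R)) :
    I ≠ ⊥ :=
  mem_nonZeroDivisors_iff_ne_zero.mp hI

/-- The monoid hom on nonzero ideals with values `f P` at the prime ideals `P`. -/
noncomputable def idealHom (f : Ideal R → A) : nonZeroDivisors (Ideal R) →* A where
  toFun I := ((normalizedFactors (I : Ideal R)).map f).prod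
  map_one' := by
    show ((normalizedFactors (1 : Ideal R)).map f).prod = 1
    rw [normalizedFactors_one, Multiset.map_zero, Multiset.prod_zero]
  map_mul' I J := by
    show ((normalizedFactors ((I : Ideal R) * (J : Ideal R))).map f).prod = _
    rw [normalizedFactors_mul (ne_bot_of_mem_nonZeroDivisors I.2)
      (ne_bot_of_mem_nonZeroDivisors J.2), Multiset.map_add, Multiset.prod_add]

theorem idealHom_apply (f : Ideal R → A) (I : nonZeroDivisors (Ideal R)) :
    idealHom f I = ((normalizedFactors (I : Ideal R)).map f).prod := rfl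

/-- Value at a prime. -/
theorem idealHom_prime (f : Ideal R → A) {P : Ideal R} (hP : P.IsPrime) (hP0 : P ≠ ⊥) :
    idealHom f ⟨P, mem_nonZeroDivisors_of_ne_bot hP0⟩ = f P := by
  have hprime : Prime P := Ideal.prime_of_isPrime hP0 hP
  rw [idealHom_apply]
  show ((normalizedFactors P).map f).prod = f P
  rw [normalizedFactors_irreducible hprime.irreducible, normalize_eq, Multiset.map_singleton,
    Multiset.prod_singleton]

/-- Induction over nonzero ideals: `⊤`, and `P * I` for `P` prime. -/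
theorem induction_on_primes {motive : Ideal R → Prop} (I : Ideal R) (hI : I ≠ ⊥)
    (htop : motive ⊤)
    (hmul : ∀ (P I : Ideal R), P.IsPrime → P ≠ ⊥ → I ≠ ⊥ → motive I → motive (P * I)) :
    motive I := by
  revert hI
  refine UniqueFactorizationMonoid.induction_on_prime
    (P := fun I : Ideal R => I ≠ ⊥ → motive I) I ?_ ?_ ?_
  · intro h; exact absurd rfl h
  · intro x hx _
    have : x = ⊤ := by
      rwa [Ideal.isUnit_iff] at hx
    rw [this]; exact htop
  · intro a P ha hP ih _
    exact hmul P a (Ideal.isPrime_of_prime hP) hP.ne_zero ha (ih ha)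

/-- Two monoid homs on nonzero ideals agreeing on the primes are equal. -/
theorem idealHom_ext {φ ψ : nonZeroDivisors (Ideal R) →* A}
    (h : ∀ (P : Ideal R) (_ : P.IsPrime) (hP0 : P ≠ ⊥),
      φ ⟨P, mem_nonZeroDivisors_of_ne_bot hP0⟩ = ψ ⟨P, mem_nonZeroDivisors_of_ne_bot hP0⟩) :
    φ = ψ := by
  ext ⟨I, hI⟩
  have hI0 := ne_bot_of_mem_nonZeroDivisors hI
  suffices H : ∀ (J : Ideal R) (hJ : J ≠ ⊥),
      φ ⟨J, mem_nonZeroDivisors_of_ne_bot hJ⟩ = ψ ⟨J, mem_nonZeroDivisors_of_ne_bot hJ⟩ from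
    H I hI0
  intro J hJ
  refine induction_on_primes (motive := fun J => ∀ hJ : J ≠ ⊥,
      φ ⟨J, mem_nonZeroDivisors_of_ne_bot hJ⟩ = ψ ⟨J, mem_nonZeroDivisors_of_ne_bot hJ⟩)
    J hJ ?_ ?_ hJ
  · intro h1
    have : (⟨⊤, mem_nonZeroDivisors_of_ne_bot h1⟩ : nonZeroDivisors (Ideal R)) = 1 :=
      Subtype.ext Ideal.one_eq_top.symm
    rw [this, map_one, map_one]
  · intro P I hP hP0 hI ih hPI
    have : (⟨P * I, mem_nonZeroDivisors_of_ne_bot hPI⟩ : nonZeroDivisors (Ideal R))
        = ⟨P, mem_nonZeroDivisors_of_ne_bot hP0⟩ * ⟨I, mem_nonZeroDivisors_of_ne_bot hI⟩ := rfl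
    rw [this, map_mul, map_mul, h P hP hP0, ih hI]

/-- `idealHom f` is the unique monoid hom with the prescribed values at primes. -/
theorem eq_idealHom (f : Ideal R → A) {φ : nonZeroDivisors (Ideal R) →* A}
    (h : ∀ (P : Ideal R) (_ : P.IsPrime) (hP0 : P ≠ ⊥),
      φ ⟨P, mem_nonZeroDivisors_of_ne_bot hP0⟩ = f P) : φ = idealHom f :=
  idealHom_ext fun P hP hP0 => by rw [h P hP hP0, idealHom_prime f hP hP0]

end Fermat.Agent.CFT.IdealHom
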