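import Fermat.Agent.CFT.LatticeCompare

/-!
# Ideal lattices in the mixed space: index and coset comparison (Program E, piece C1-B')

`K` a number field. For a nonzero ideal `J` of `𝓞 K`, Mathlib's
`mixedEmbedding.idealLattice K (FractionalIdeal.mk0 K J)` is the image of `J` in the mixed space.

* `idealLatticeEquiv`, `tsum_idealLattice`, `summable_idealLattice_iff` : sums over the lattice are
  sums over the elements of the ideal.
* `idealLattice_mono`, `relIndex_idealLattice_mul` : for `I ≤ J` the index of the lattice of `I` in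
  the lattice of `J` times `N(J)` is `N(I)`.
* `ideal_compare` : `N(J) * ∑_{a ∈ J} W a` and `N(I) * ∑_{a ∈ I} W a` differ by at most `B * C`.
-/

open NumberField NumberField.mixedEmbedding nonZeroDivisors
open scoped Classical

namespace Fermat.Agent.CFT.IdealLatticeIndex

variable (K : Type*) [Field K] [NumberField K]

/-- The additive embedding of the ring of integers into the mixed space. -/
noncomputable def toMixedInt : 𝓞 K →+ mixedSpace K :=
  (mixedEmbedding K).toAddMonoidHom.comp (algebraMap (𝓞 K) K).toAddMonoidHom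

omit [NumberField K] in
@[simp] theorem toMixedInt_apply (x : 𝓞 K) : toMixedInt K x = mixedEmbedding K (x : K) := rfl

theorem toMixedInt_injective : Function.Injective (toMixedInt K) := by
  intro x y h
  have := mixedEmbedding_injective K h
  exact RingOfIntegers.ext this

theorem mem_idealLattice_mk0 (J : (Ideal (𝓞 K))⁰) (x : mixedSpace K) :
    x ∈ idealLattice K (FractionalIdeal.mk0 K J) ↔ ∃ a ∈ (J : Ideal (𝓞 K)), toMixedInt K a = x := by
  rw [mem_idealLattice]
  constructor
  · rintro ⟨y, hy, rfl⟩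
    simp only [FractionalIdeal.coe_mk0, SetLike.mem_coe] at hy
    rw [FractionalIdeal.mem_coeIdeal] at hy
    obtain ⟨a, ha, rfl⟩ := hy
    exact ⟨a, ha, rfl⟩
  · rintro ⟨a, ha, rfl⟩
    refine ⟨(a : K), ?_, rfl⟩
    simp only [FractionalIdeal.coe_mk0, SetLike.mem_coe]
    exact FractionalIdeal.mem_coeIdeal_of_mem _ ha

theorem idealLattice_toAddSubgroup (J : (Ideal (𝓞 K))⁰) :
    (idealLattice K (FractionalIdeal.mk0 K J)).toAddSubgroup =
      (Submodule.toAddSubgroup (J : Ideal (𝓞 K))).map (toMixedInt K) := by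
  ext x
  rw [Submodule.mem_toAddSubgroup, mem_idealLattice_mk0, AddSubgroup.mem_map]
  rfl


theorem idealLattice_mono {I J : (Ideal (𝓞 K))⁰} (h : (I : Ideal (𝓞 K)) ≤ J) :
    idealLattice K (FractionalIdeal.mk0 K I) ≤ idealLattice K (FractionalIdeal.mk0 K J) := by
  intro x hx
  rw [mem_idealLattice_mk0] at hx ⊢
  obtain ⟨a, ha, rfl⟩ := hx
  exact ⟨a, h ha, rfl⟩

/-- The index of the lattice of `I` in the lattice of `J ⊇ I` is `N(I) / N(J)`. -/
theorem relIndex_idealLattice_mul {I J : (Ideal (𝓞 K))⁰} (h : (I : Ideal (𝓞 K)) ≤ J) :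
    (idealLattice K (FractionalIdeal.mk0 K I)).toAddSubgroup.relIndex
        (idealLattice K (FractionalIdeal.mk0 K J)).toAddSubgroup *
      Ideal.absNorm (J : Ideal (𝓞 K)) = Ideal.absNorm (I : Ideal (𝓞 K)) := by
  rw [idealLattice_toAddSubgroup, idealLattice_toAddSubgroup,
    AddSubgroup.relIndex_map_map_of_injective _ _ (toMixedInt_injective K)]
  have h' : Submodule.toAddSubgroup (I : Ideal (𝓞 K)) ≤ Submodule.toAddSubgroup (J : Ideal (𝓞 K)) :=
    fun x hx => h hx
  have := AddSubgroup.relIndex_mul_index h'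
  rw [Ideal.absNorm_apply, Ideal.absNorm_apply, Submodule.cardQuot_apply, Submodule.cardQuot_apply]
  exact this

/-- Points of the ideal lattice are the images of the elements of the ideal. -/
noncomputable def idealLatticeEquiv (J : (Ideal (𝓞 K))⁰) :
    (J : Ideal (𝓞 K)) ≃ idealLattice K (FractionalIdeal.mk0 K J) :=
  Equiv.ofBijective
    (fun a => ⟨toMixedInt K a, (mem_idealLattice_mk0 K J _).mpr ⟨a, a.2, rfl⟩⟩)
    ⟨fun a b hab => Subtype.ext (toMixedInt_injective K (congrArg Subtype.val hab)),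
      fun x => by
        obtain ⟨a, ha, hax⟩ := (mem_idealLattice_mk0 K J _).mp x.2
        exact ⟨⟨a, ha⟩, Subtype.ext hax⟩⟩

@[simp] theorem coe_idealLatticeEquiv (J : (Ideal (𝓞 K))⁰) (a : (J : Ideal (𝓞 K))) :
    ((idealLatticeEquiv K J a : idealLattice K (FractionalIdeal.mk0 K J)) : mixedSpace K) =
      mixedEmbedding K ((a : 𝓞 K) : K) := rfl

theorem tsum_idealLattice {M : Type*} [AddCommMonoid M] [TopologicalSpace M]
    (J : (Ideal (𝓞 K))⁰) (W : mixedSpace K → M) :
    ∑' l : idealLattice K (FractionalIdeal.mk0 K J), W (l : mixedSpace K) =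
      ∑' a : (J : Ideal (𝓞 K)), W (mixedEmbedding K ((a : 𝓞 K) : K)) :=
  ((idealLatticeEquiv K J).tsum_eq (fun l => W (l : mixedSpace K))).symm

theorem summable_idealLattice_iff {M : Type*} [AddCommMonoid M] [TopologicalSpace M]
    (J : (Ideal (𝓞 K))⁰) (W : mixedSpace K → M) :
    Summable (fun l : idealLattice K (FractionalIdeal.mk0 K J) => W (l : mixedSpace K)) ↔
      Summable (fun a : (J : Ideal (𝓞 K)) => W (mixedEmbedding K ((a : 𝓞 K) : K))) :=
  (Equiv.summable_iff (idealLatticeEquiv K J)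
    (f := fun l : idealLattice K (FractionalIdeal.mk0 K J) => W (l : mixedSpace K))).symm


/-- **Coset comparison for ideals** (consumer form of `LatticeCompare.sublattice`): for nonzero
ideals `I ≤ J` of `𝓞 K`, `N(J) * ∑_{a ∈ J} W a = N(I) * ∑_{a ∈ I} W a` up to `B * C`, for every
weight `W` on the mixed space with the Lipschitz-decay property at scale `d`. (The norm of the
mixed space is the one obtained with classical decidability, as in Mathlib.) -/
theorem ideal_compare {I J : (Ideal (𝓞 K))⁰} (h : (I : Ideal (𝓞 K)) ≤ J) :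
    ∃ d : ℝ, 0 < d ∧ ∃ B : ℝ, ∀ (C : ℝ) (W : mixedSpace K → ℝ),
      (∀ x y : mixedSpace K, ‖x - y‖ ≤ d →
        |W x - W y| ≤ C * ((1 + ‖x‖) ^ (Module.finrank ℚ K + 1))⁻¹) →
      Summable (fun a : (I : Ideal (𝓞 K)) => W (mixedEmbedding K ((a : 𝓞 K) : K))) →
      (Summable (fun a : (J : Ideal (𝓞 K)) => W (mixedEmbedding K ((a : 𝓞 K) : K))) ∧
        |(Ideal.absNorm (J : Ideal (𝓞 K)) : ℝ) *
              ∑' a : (J : Ideal (𝓞 K)), W (mixedEmbedding K ((a : 𝓞 K) : K)) -
            (Ideal.absNorm (I : Ideal (𝓞 K)) : ℝ) *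
              ∑' a : (I : Ideal (𝓞 K)), W (mixedEmbedding K ((a : 𝓞 K) : K))| ≤ B * C) := by
  obtain ⟨d, hd, B, hB⟩ := LatticeCompare.sublattice
    (idealLattice K (FractionalIdeal.mk0 K I)) (idealLattice K (FractionalIdeal.mk0 K J))
    (idealLattice_mono K h)
  refine ⟨d, hd, (Ideal.absNorm (J : Ideal (𝓞 K)) : ℝ) * B, fun C W hW hsI => ?_⟩
  have hW' : ∀ x y : mixedSpace K, ‖x - y‖ ≤ d →
      |W x - W y| ≤ C * (1 + ‖x‖) ^ (-(Module.finrank ℝ (mixedSpace K) + 1 : ℝ)) := by
    intro x y hxy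
    have := hW x y hxy
    rwa [mixedEmbedding.finrank, Real.rpow_neg (by positivity), ← Nat.cast_add_one,
      Real.rpow_natCast]
  have hsI' := (summable_idealLattice_iff K I W).mpr hsI
  obtain ⟨h1, h2⟩ := hB C W hW' hsI' 0
  simp only [zero_add] at h1 h2
  rw [summable_idealLattice_iff] at h1
  rw [tsum_idealLattice, tsum_idealLattice] at h2
  refine ⟨h1, ?_⟩
  have hk := relIndex_idealLattice_mul K h
  have hk' : ((idealLattice K (FractionalIdeal.mk0 K I)).toAddSubgroup.relIndex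
        (idealLattice K (FractionalIdeal.mk0 K J)).toAddSubgroup : ℝ) *
      (Ideal.absNorm (J : Ideal (𝓞 K)) : ℝ) = (Ideal.absNorm (I : Ideal (𝓞 K)) : ℝ) := by
    exact_mod_cast hk
  set k : ℝ := ((idealLattice K (FractionalIdeal.mk0 K I)).toAddSubgroup.relIndex
        (idealLattice K (FractionalIdeal.mk0 K J)).toAddSubgroup : ℝ) with hkdef
  set SJ := ∑' a : (J : Ideal (𝓞 K)), W (mixedEmbedding K ((a : 𝓞 K) : K))
  set SI := ∑' a : (I : Ideal (𝓞 K)), W (mixedEmbedding K ((a : 𝓞 K) : K))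
  have hNJ : (0 : ℝ) ≤ (Ideal.absNorm (J : Ideal (𝓞 K)) : ℝ) := by positivity
  calc |(Ideal.absNorm (J : Ideal (𝓞 K)) : ℝ) * SJ - (Ideal.absNorm (I : Ideal (𝓞 K)) : ℝ) * SI|
      = |(Ideal.absNorm (J : Ideal (𝓞 K)) : ℝ) * (SJ - k * SI)| := by
        rw [← hk']; ring_nf
    _ = (Ideal.absNorm (J : Ideal (𝓞 K)) : ℝ) * |SJ - k * SI| := by
        rw [abs_mul, abs_of_nonneg hNJ]
    _ ≤ (Ideal.absNorm (J : Ideal (𝓞 K)) : ℝ) * (B * C) := by gcongr
    _ = (Ideal.absNorm (J : Ideal (𝓞 K)) : ℝ) * B * C := by ring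

end Fermat.Agent.CFT.IdealLatticeIndex
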