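/-
Program E (S14), piece (C4-D) (helper14): instantiation of `PerField.KernelForm F M m` for an
everywhere unramified Galois extension `M/F` of prime degree `p` from the landed pieces:

* `ClassNormQuot.kernel_form'` (helper26), the abstract kernel theorem;
* (ii) `ArtinBridge.artin_relNorm_of_unramified` (helper21): the Artin map kills norms;
* (iv) `FirstIneq.norm_index_le` (helper12) via `ClassNormQuotBridge.index_normClasses_le`;
* (i) as a hypothesis, in the final shape (A3) of `CycloKills`;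
* (iii) as a hypothesis, in the `NotAllSplitShape` form.
-/
import Mathlib
import Fermat.Agent.CFT.PerField
import Fermat.Agent.CFT.ClassNormQuotBridge
import Fermat.Agent.CFT.FirstIneq
import Fermat.Agent.CFT.ArtinBridge

set_option autoImplicit false
set_option linter.unusedSectionVars false

open NumberField
open scoped IsMulCommutative

namespace Fermat.Agent.CFT.KernelFormInst

open Fermat.Agent.CFT.ArtinMap Fermat.Agent.CFT.PerField Fermat.Agent.CFT.ClassNormQuot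

variable {F M : Type} [Field F] [Field M] [NumberField F] [NumberField M] [Algebra F M]
  [IsGalois F M] [IsMulCommutative (M ≃ₐ[F] M)]

/-- `(m : 𝓞 F)` generates a nonzero ideal for `m ≠ 0`. -/
theorem span_natCast_ne_bot {m : ℕ} (hm : m ≠ 0) :
    (Ideal.span {(m : 𝓞 F)} : Ideal (𝓞 F)) ≠ ⊥ := by
  rw [Ne, Ideal.span_singleton_eq_bot]
  exact_mod_cast hm

/-- Comaximality with `(m)` in terms of primes. -/
theorem notMem_of_sup_span_eq_top {m : ℕ} {g : 𝓞 F}
    (h : Ideal.span {g} ⊔ Ideal.span {(m : 𝓞 F)} = ⊤) (P : Ideal (𝓞 F)) (hP : P.IsPrime)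
    (hmP : (m : 𝓞 F) ∈ P) : g ∉ P := by
  intro hg
  have : Ideal.span {g} ⊔ Ideal.span {(m : 𝓞 F)} ≤ P :=
    sup_le ((Ideal.span_singleton_le_iff_mem _).mpr hg) ((Ideal.span_singleton_le_iff_mem _).mpr hmP)
  rw [h] at this
  exact hP.ne_top (top_le_iff.mp this)

/-- Hypothesis (iv): the first inequality gives `(normClasses F M).index ≤ [M : F]`. -/
theorem index_normClasses_le_finrank : (normClasses F M).index ≤ Module.finrank F M := by
  refine ClassNormQuotBridge.index_normClasses_le F M ?_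
  intro G _ _ ψ hsurj hsplit
  exact FirstIneq.norm_index_le F M ψ hsurj ∅ (fun p hp _ => hsplit p hp)

/-- Hypothesis (iii) from the `NotAllSplit` shape. -/
theorem exists_artin_ne_one (m : ℕ)
    (hunr : ∀ P : Ideal (𝓞 M), P.IsPrime → P ≠ ⊥ → P.inertia (M ≃ₐ[F] M) = ⊥)
    (hNS : ∃ (q : Ideal (𝓞 F)) (P : Ideal (𝓞 M)) (σ : M ≃ₐ[F] M),
      q.IsPrime ∧ (Ideal.absNorm q).Prime ∧ ¬ (Ideal.absNorm q ∣ m) ∧ P.IsPrime ∧
        P.under (𝓞 F) = q ∧ IsArithFrobAt (𝓞 F) σ P ∧ σ ≠ 1) :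
    ∃ q : Ideal (𝓞 F), q ≠ ⊥ ∧ q ⊔ Ideal.span {(m : 𝓞 F)} = ⊤ ∧ artin F M q ≠ 1 := by
  obtain ⟨q, P, σ, hq, hqn, hqm, hP, hPq, hσ, hσ1⟩ := hNS
  have hq0 : q ≠ ⊥ := by
    rintro rfl
    rw [Ideal.absNorm_bot] at hqn
    exact Nat.not_prime_zero hqn
  have hP0 : P ≠ ⊥ := by
    rintro rfl
    apply hq0
    rw [← hPq]
    exact Ideal.under_bot (𝓞 F) (𝓞 M)
  have := hq
  have := hP
  have : P.LiesOver q := ⟨hPq.symm⟩
  have hart : σ = artin F M q := eq_artin_of_isArithFrobAt M q hq0 P (hunr P hP hP0) hσ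
  refine ⟨q, hq0, sup_span_eq_top_of_coprime ((Nat.Prime.coprime_iff_not_dvd hqn).mpr hqm), ?_⟩
  rw [← hart]
  exact hσ1

/-- **The kernel form for an unramified extension of prime degree**, from the first inequality,
(i) = `CycloKills` (A3) and (iii) = `NotAllSplit`. -/
theorem kernelForm_of {p : ℕ} (hp : p.Prime) (hdeg : Module.finrank F M = p)
    (hunr : ∀ P : Ideal (𝓞 M), P.IsPrime → P ≠ ⊥ → P.inertia (M ≃ₐ[F] M) = ⊥)
    (m : ℕ) (hm : m ≠ 0)
    (hi : ∀ γ : 𝓞 F, γ ≠ 0 → (∀ P : Ideal (𝓞 F), P.IsPrime → (m : 𝓞 F) ∈ P → γ ∉ P) →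
      artin F M (Ideal.span {γ}) = 1)
    (hNS : ∃ (q : Ideal (𝓞 F)) (P : Ideal (𝓞 M)) (σ : M ≃ₐ[F] M),
      q.IsPrime ∧ (Ideal.absNorm q).Prime ∧ ¬ (Ideal.absNorm q ∣ m) ∧ P.IsPrime ∧
        P.under (𝓞 F) = q ∧ IsArithFrobAt (𝓞 F) σ P ∧ σ ≠ 1) :
    KernelForm F M m := by
  intro B hB hc hart
  have hG : Nat.card (M ≃ₐ[F] M) = p := by
    rw [IsGalois.card_aut_eq_finrank F M, hdeg]
  have hiv : (normClasses F M).index ≤ p := hdeg ▸ index_normClasses_le_finrank
  obtain ⟨x, y, A, A', hx, hy, hA, hA', h⟩ :=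
    kernel_form' (F := F) (M := M) hp hG (artin F M)
      (fun a b ha hb => artin_mul M ha hb)
      (Ideal.span {(m : 𝓞 F)}) (span_natCast_ne_bot hm)
      (fun g hg hgm => hi g hg (notMem_of_sup_span_eq_top hgm))
      (fun A hA => ArtinBridge.artin_relNorm_of_unramified hunr hA)
      (exists_artin_ne_one m hunr hNS) hiv B hB (sup_span_eq_top_of_coprime hc) hart
  exact ⟨x, y, hx, hy, A, A', hA, hA', h⟩

end Fermat.Agent.CFT.KernelFormInst
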