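import Mathlib

/-!
# Lattice sum comparison (Program E, piece C1-B)

`E` a finite dimensional real normed space, `n = finrank ℝ E`, `Λ` a full `ℤ`-lattice of `E`.

* `compare` : there are `d > 0` and `B`, depending only on `Λ`, such that for every weight
  `W : E → ℝ` with `|W x - W y| ≤ C * (1 + ‖x‖) ^ (-(n + 1))` whenever `‖x - y‖ ≤ d`, the
  `W`-sums over two cosets `a + Λ` and `a' + Λ` differ by at most `B * C` (and one is summable as
  soon as the other is).
* `sublattice` : if `Λ' ≤ Λ` are two full lattices, the `W`-sum over any coset `a + Λ` is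
  `[Λ : Λ']` times the `W`-sum over `Λ'`, up to `B * C`.
* auxiliary: `exists_covering_radius`, `summable_one_add_norm_rpow`, `exists_uniform_bound`,
  `summable_of_decay`, `hasSum_of_cosets`, `relIndex_ne_zero`.
-/

namespace Fermat.Agent.CFT.LatticeCompare

open Module

section Cosets

/-- Coset decomposition of an unconditional sum over an additive group along a subgroup of
finite index. -/
theorem hasSum_of_cosets {G : Type*} [AddCommGroup G] {H : AddSubgroup G} [Fintype (G ⧸ H)]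
    (f : G → ℝ) (S : G ⧸ H → ℝ)
    (hS : ∀ q : G ⧸ H, HasSum (fun x : H => f (Quotient.out q + (x : G))) (S q)) :
    HasSum f (∑ q, S q) := by
  classical
  have key : ∀ q : G ⧸ H,
      HasSum (fun g : G => if (QuotientAddGroup.mk g : G ⧸ H) = q then f g else 0) (S q) := by
    intro q
    let j : H → G := fun x => Quotient.out q + (x : G)
    have hj : Function.Injective j := fun x y hxy => Subtype.ext (add_left_cancel hxy)
    have hmk : ∀ x : H, (QuotientAddGroup.mk (j x) : G ⧸ H) = q := by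
      intro x
      have h1 : (QuotientAddGroup.mk (Quotient.out q) : G ⧸ H) = q := QuotientAddGroup.out_eq' q
      have h2 : (QuotientAddGroup.mk (x : G) : G ⧸ H) = 0 :=
        (QuotientAddGroup.eq_zero_iff _).mpr x.2
      simp only [j, QuotientAddGroup.mk_add, h1, h2, add_zero]
    rw [← hj.hasSum_iff]
    · refine (hS q).congr_fun ?_  -- placeholder
      intro x
      simp [Function.comp, hmk x, j]
    · intro g hg
      by_cases hq : (QuotientAddGroup.mk g : G ⧸ H) = q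
      · exfalso
        apply hg
        have hmem : -Quotient.out q + g ∈ H := by
          rw [← QuotientAddGroup.eq]
          rw [QuotientAddGroup.out_eq' q, hq]
        exact ⟨⟨_, hmem⟩, by simp [j]⟩
      · simp [hq]
  have := hasSum_sum (s := Finset.univ) (fun q _ => key q)
  refine this.congr_fun ?_
  intro g
  simp

end Cosets

section Lattice

variable {E : Type*} [NormedAddCommGroup E] [NormedSpace ℝ E] [FiniteDimensional ℝ E]

section One

variable (Λ : Submodule ℤ E) [DiscreteTopology Λ] [IsZLattice ℝ Λ]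

/-- Every vector is within bounded distance of the lattice. -/
theorem exists_covering_radius :
    ∃ D : ℝ, 0 < D ∧ ∀ v : E, ∃ μ : Λ, ‖v - μ‖ ≤ D := by
  classical
  let b := Module.Free.chooseBasis ℤ Λ
  let b' : Basis _ ℝ E := b.ofZLatticeBasis ℝ Λ
  refine ⟨(∑ i, ‖b' i‖) + 1, by positivity, fun v => ?_⟩
  have hle : Submodule.span ℤ (Set.range b') ≤ Λ := (b.ofZLatticeBasis_span ℝ).le
  have hmem : ((ZSpan.floor b' v : Submodule.span ℤ (Set.range b')) : E) ∈ Λ :=
    hle (ZSpan.floor b' v).2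
  refine ⟨⟨_, hmem⟩, ?_⟩
  have := ZSpan.norm_fract_le b' v
  rw [ZSpan.fract_apply] at this
  simp only
  linarith

/-- `∑_{λ ∈ Λ} (1 + ‖λ‖) ^ r` converges for `r < - rank Λ`. -/
theorem summable_one_add_norm_rpow (r : ℝ) (hr : r < -(finrank ℝ E : ℝ)) :
    Summable (fun l : Λ => (1 + ‖(l : E)‖) ^ r) := by
  classical
  have hr' : r < -(finrank ℤ Λ : ℝ) := by rwa [ZLattice.rank ℝ Λ]
  have hr0 : r ≤ 0 := hr.le.trans (by simp)
  have h1 := ZLattice.summable_norm_rpow Λ r hr'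
  have h2 : Summable (fun l : Λ => if l = 0 then (1 : ℝ) else 0) :=
    summable_of_ne_finset_zero (s := {0}) (fun l hl => by simp at hl; simp [hl])
  refine Summable.of_nonneg_of_le (fun l => by positivity) (fun l => ?_) (h1.add h2)
  by_cases hl : l = 0
  · subst hl
    have : (0 : ℝ) ≤ ‖((0 : Λ))‖ ^ r := by positivity
    simpa using this
  · have hpos : 0 < ‖l‖ := norm_pos_iff.mpr hl
    have : (1 + ‖(l : E)‖) ^ r ≤ ‖l‖ ^ r :=
      Real.rpow_le_rpow_of_nonpos hpos (by simp) hr0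
    simpa [hl] using this

/-- Uniform bound for `∑_{λ ∈ Λ} (1 + ‖a + λ‖) ^ r` over all translates. -/
theorem exists_uniform_bound (r : ℝ) (hr : r < -(finrank ℝ E : ℝ)) :
    ∃ M : ℝ, 0 ≤ M ∧ ∀ a : E, Summable (fun l : Λ => (1 + ‖a + (l : E)‖) ^ r) ∧
      ∑' l : Λ, (1 + ‖a + (l : E)‖) ^ r ≤ M := by
  obtain ⟨D, hD, hcov⟩ := exists_covering_radius Λ
  have hS := summable_one_add_norm_rpow Λ r hr
  have hr0 : r ≤ 0 := hr.le.trans (by simp)
  refine ⟨(1 + D) ^ (-r) * ∑' l : Λ, (1 + ‖(l : E)‖) ^ r,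
    mul_nonneg (by positivity) (tsum_nonneg fun l => by positivity), fun a => ?_⟩
  obtain ⟨μ, hμ⟩ := hcov a
  set a₀ : E := a - μ with ha₀
  -- termwise bound for the reduced translate
  have hterm : ∀ l : Λ, (1 + ‖a₀ + (l : E)‖) ^ r ≤ (1 + D) ^ (-r) * (1 + ‖(l : E)‖) ^ r := by
    intro l
    have h1 : ‖(l : E)‖ ≤ ‖a₀ + (l : E)‖ + D := by
      have : (l : E) = (a₀ + l) - a₀ := by abel
      calc ‖(l : E)‖ = ‖(a₀ + l) - a₀‖ := by rw [← this]
        _ ≤ ‖a₀ + (l : E)‖ + ‖a₀‖ := norm_sub_le _ _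
        _ ≤ _ := by gcongr
    have h2 : 1 + ‖(l : E)‖ ≤ (1 + D) * (1 + ‖a₀ + (l : E)‖) := by
      have := norm_nonneg (a₀ + (l : E))
      nlinarith
    have h3 : ((1 + D) * (1 + ‖a₀ + (l : E)‖)) ^ r ≤ (1 + ‖(l : E)‖) ^ r :=
      Real.rpow_le_rpow_of_nonpos (by positivity) h2 hr0
    rw [Real.mul_rpow (by positivity) (by positivity)] at h3
    have h4 : (1 + D) ^ (-r) * (1 + D) ^ r = 1 := by
      rw [← Real.rpow_add (by positivity)]; simp
    calc (1 + ‖a₀ + (l : E)‖) ^ r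
        = (1 + D) ^ (-r) * ((1 + D) ^ r * (1 + ‖a₀ + (l : E)‖) ^ r) := by
          rw [← mul_assoc, h4, one_mul]
      _ ≤ _ := by gcongr
  have hsum₀ : Summable (fun l : Λ => (1 + ‖a₀ + (l : E)‖) ^ r) :=
    Summable.of_nonneg_of_le (fun l => by positivity) hterm (hS.mul_left _)
  have hle₀ : ∑' l : Λ, (1 + ‖a₀ + (l : E)‖) ^ r ≤
      (1 + D) ^ (-r) * ∑' l : Λ, (1 + ‖(l : E)‖) ^ r := by
    rw [← tsum_mul_left]
    exact hsum₀.tsum_le_tsum hterm (hS.mul_left _)
  -- reindex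
  have hre : (fun l : Λ => (1 + ‖a + (l : E)‖) ^ r) =
      (fun l : Λ => (1 + ‖a₀ + (l : E)‖) ^ r) ∘ (Equiv.addLeft μ) := by
    funext l
    simp only [Function.comp_apply, Equiv.coe_addLeft, Submodule.coe_add, ha₀]
    congr 3
    abel
  refine ⟨?_, ?_⟩
  · rw [hre]; exact (Equiv.summable_iff _).mpr hsum₀
  · have : ∑' l : Λ, (1 + ‖a + (l : E)‖) ^ r = ∑' l : Λ, (1 + ‖a₀ + (l : E)‖) ^ r := by
      rw [hre]; exact (Equiv.addLeft μ).tsum_eq (fun l : Λ => (1 + ‖a₀ + (l : E)‖) ^ r)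
    rw [this]
    exact hle₀

/-- A weight with decay `C * (1 + ‖x‖) ^ r`, `r < -n`, is summable over every coset of `Λ`. -/
theorem summable_of_decay (r : ℝ) (hr : r < -(finrank ℝ E : ℝ)) (C : ℝ) (W : E → ℝ)
    (hW : ∀ x : E, |W x| ≤ C * (1 + ‖x‖) ^ r) (a : E) :
    Summable (fun l : Λ => W (a + (l : E))) := by
  obtain ⟨M, -, hM⟩ := exists_uniform_bound Λ r hr
  exact Summable.of_norm_bounded ((hM a).1.mul_left C) fun l => by
    simpa [Real.norm_eq_abs] using hW (a + (l : E))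

/-- **Lattice sum comparison.** Two cosets of one lattice have the same weighted sum up to
`B * C`, where `B` and the Lipschitz scale `d` depend only on the lattice. -/
theorem compare :
    ∃ d : ℝ, 0 < d ∧ ∃ B : ℝ, ∀ (C : ℝ) (W : E → ℝ),
      (∀ x y : E, ‖x - y‖ ≤ d → |W x - W y| ≤ C * (1 + ‖x‖) ^ (-(finrank ℝ E + 1 : ℝ))) →
      ∀ a a' : E, Summable (fun l : Λ => W (a + (l : E))) →
        (Summable (fun l : Λ => W (a' + (l : E))) ∧
          |∑' l : Λ, W (a + (l : E)) - ∑' l : Λ, W (a' + (l : E))| ≤ B * C) := by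
  obtain ⟨D, hD, hcov⟩ := exists_covering_radius Λ
  have hr : (-(finrank ℝ E + 1 : ℝ)) < -(finrank ℝ E : ℝ) := by linarith
  obtain ⟨M, hM, hMb⟩ := exists_uniform_bound Λ _ hr
  refine ⟨D, hD, M, fun C W hW a a' hsa => ?_⟩
  set r : ℝ := -(finrank ℝ E + 1 : ℝ) with hrdef
  have hC : 0 ≤ C := by
    have := hW 0 0 (by simpa using hD.le)
    simpa using this
  obtain ⟨μ, hμ⟩ := hcov (a' - a)
  set v₀ : E := a' - a - μ with hv₀
  -- the difference function
  set g : Λ → ℝ := fun l => W (a + (l : E)) - W (a + v₀ + (l : E)) with hg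
  have hgb : ∀ l : Λ, ‖g l‖ ≤ C * (1 + ‖a + (l : E)‖) ^ r := by
    intro l
    rw [Real.norm_eq_abs]
    refine hW _ _ ?_
    have : a + (l : E) - (a + v₀ + (l : E)) = -v₀ := by abel
    rw [this, norm_neg]; exact hμ
  obtain ⟨hsM, hleM⟩ := hMb a
  have hgs : Summable g := Summable.of_norm_bounded (hsM.mul_left C) hgb
  have hgn : Summable (fun l => ‖g l‖) := Summable.of_nonneg_of_le (fun _ => norm_nonneg _) hgb
    (hsM.mul_left C)
  have hs₀ : Summable (fun l : Λ => W (a + v₀ + (l : E))) := by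
    have := hsa.sub hgs
    refine this.congr fun l => ?_
    simp [hg]
  have hre : (fun l : Λ => W (a' + (l : E))) =
      (fun l : Λ => W (a + v₀ + (l : E))) ∘ (Equiv.addLeft μ) := by
    funext l
    simp only [Function.comp_apply, Equiv.coe_addLeft, Submodule.coe_add, hv₀]
    congr 1
    abel
  refine ⟨?_, ?_⟩
  · rw [hre]; exact (Equiv.summable_iff _).mpr hs₀
  · have : ∑' l : Λ, W (a' + (l : E)) = ∑' l : Λ, W (a + v₀ + (l : E)) := by
      rw [hre]; exact (Equiv.addLeft μ).tsum_eq (fun l : Λ => W (a + v₀ + (l : E)))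
    rw [this, ← hsa.tsum_sub hs₀]
    calc |∑' l : Λ, (W (a + (l : E)) - W (a + v₀ + (l : E)))|
        = ‖∑' l : Λ, g l‖ := by rw [Real.norm_eq_abs]
      _ ≤ ∑' l : Λ, ‖g l‖ := norm_tsum_le_tsum_norm hgn
      _ ≤ ∑' l : Λ, C * (1 + ‖a + (l : E)‖) ^ r := hgn.tsum_le_tsum hgb (hsM.mul_left C)
      _ = C * ∑' l : Λ, (1 + ‖a + (l : E)‖) ^ r := tsum_mul_left
      _ ≤ C * M := by gcongr
      _ = M * C := mul_comm _ _

end One

/-- Alias of `compare` under a name that does not clash with `Ord.compare` when the namespace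
is opened. -/
theorem coset_compare (Λ : Submodule ℤ E) [DiscreteTopology Λ] [IsZLattice ℝ Λ] :
    ∃ d : ℝ, 0 < d ∧ ∃ B : ℝ, ∀ (C : ℝ) (W : E → ℝ),
      (∀ x y : E, ‖x - y‖ ≤ d → |W x - W y| ≤ C * (1 + ‖x‖) ^ (-(finrank ℝ E + 1 : ℝ))) →
      ∀ a a' : E, Summable (fun l : Λ => W (a + (l : E))) →
        (Summable (fun l : Λ => W (a' + (l : E))) ∧
          |∑' l : Λ, W (a + (l : E)) - ∑' l : Λ, W (a' + (l : E))| ≤ B * C) :=
  compare Λ

/-- A full sublattice of a lattice has finite index. -/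
theorem relIndex_ne_zero (Λ' Λ : Submodule ℤ E) [DiscreteTopology Λ] [IsZLattice ℝ Λ]
    [DiscreteTopology Λ'] [IsZLattice ℝ Λ'] (h : Λ' ≤ Λ) :
    Λ'.toAddSubgroup.relIndex Λ.toAddSubgroup ≠ 0 := by
  let N : Submodule ℤ Λ := Λ'.comap Λ.subtype
  have hrank : finrank ℤ N = finrank ℤ Λ := by
    rw [(Submodule.comapSubtypeEquivOfLe h).finrank_eq, ZLattice.rank ℝ Λ', ZLattice.rank ℝ Λ]
  have hfin : Finite (Λ ⧸ N) := Submodule.finiteQuotientOfFreeOfRankEq N hrank
  have hfin' : Finite (Λ ⧸ N.toAddSubgroup) := hfin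
  have hN : N.toAddSubgroup = Λ'.toAddSubgroup.addSubgroupOf Λ.toAddSubgroup := by
    ext x
    rw [AddSubgroup.mem_addSubgroupOf]
    simp [N]
  rw [AddSubgroup.relIndex, ← hN]
  exact AddSubgroup.index_ne_zero_of_finite

/-- **Sublattice corollary.** If `Λ' ≤ Λ` are two full lattices, then the `W`-sum over any coset
`a + Λ` is `[Λ : Λ']` times the `W`-sum over `Λ'`, up to `B * C`. -/
theorem sublattice (Λ' Λ : Submodule ℤ E) [DiscreteTopology Λ] [IsZLattice ℝ Λ]
    [DiscreteTopology Λ'] [IsZLattice ℝ Λ'] (h : Λ' ≤ Λ) :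
    ∃ d : ℝ, 0 < d ∧ ∃ B : ℝ, ∀ (C : ℝ) (W : E → ℝ),
      (∀ x y : E, ‖x - y‖ ≤ d → |W x - W y| ≤ C * (1 + ‖x‖) ^ (-(finrank ℝ E + 1 : ℝ))) →
      Summable (fun l : Λ' => W (l : E)) →
      ∀ a : E, (Summable (fun l : Λ => W (a + (l : E))) ∧
        |∑' l : Λ, W (a + (l : E)) -
          (Λ'.toAddSubgroup.relIndex Λ.toAddSubgroup : ℝ) * ∑' l : Λ', W (l : E)| ≤ B * C) := by
  classical
  obtain ⟨d, hd, B', hB'⟩ := compare Λ'
  let H : AddSubgroup Λ := Λ'.toAddSubgroup.addSubgroupOf Λ.toAddSubgroup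
  have hk : H.index ≠ 0 := relIndex_ne_zero Λ' Λ h
  have : H.FiniteIndex := ⟨hk⟩
  have hfin : Finite (Λ ⧸ H) := AddSubgroup.finite_quotient_of_finiteIndex
  let _ : Fintype (Λ ⧸ H) := Fintype.ofFinite _
  have hcard' : Λ'.toAddSubgroup.relIndex Λ.toAddSubgroup = Fintype.card (Λ ⧸ H) := by
    rw [← Nat.card_eq_fintype_card]; rfl
  have hcard : (Λ'.toAddSubgroup.relIndex Λ.toAddSubgroup : ℝ) = Fintype.card (Λ ⧸ H) := by
    rw [hcard']
  refine ⟨d, hd, Fintype.card (Λ ⧸ H) * B', fun C W hW hs0 a => ?_⟩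
  have hs0' : Summable (fun l : Λ' => W (0 + (l : E))) := by simpa using hs0
  -- the equivalence between `Λ'` and the subgroup `H` of `Λ`
  let e : Λ' ≃ H :=
    { toFun := fun l => ⟨⟨l, h l.2⟩, AddSubgroup.mem_addSubgroupOf.mpr l.2⟩
      invFun := fun x => ⟨x.1.1, AddSubgroup.mem_addSubgroupOf.mp x.2⟩
      left_inv := fun l => rfl
      right_inv := fun x => rfl }
  -- per-coset sums
  have hq : ∀ q : Λ ⧸ H,
      Summable (fun l : Λ' => W (a + ((Quotient.out q : Λ) : E) + (l : E))) ∧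
      |∑' l : Λ', W (0 + (l : E)) - ∑' l : Λ', W (a + ((Quotient.out q : Λ) : E) + (l : E))|
        ≤ B' * C := fun q => hB' C W hW 0 _ hs0'
  set S : Λ ⧸ H → ℝ := fun q => ∑' l : Λ', W (a + ((Quotient.out q : Λ) : E) + (l : E)) with hS
  have hsum : HasSum (fun l : Λ => W (a + (l : E))) (∑ q, S q) := by
    refine hasSum_of_cosets (H := H) (fun l : Λ => W (a + (l : E))) S fun q => ?_
    have h1 : HasSum (fun l : Λ' => W (a + ((Quotient.out q : Λ) : E) + (l : E))) (S q) :=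
      (hq q).1.hasSum
    rw [← e.hasSum_iff]
    refine h1.congr_fun ?_
    intro l
    simp [e, add_assoc]
  refine ⟨hsum.summable, ?_⟩
  rw [hsum.tsum_eq, hcard]
  have : (∑ q, S q) - (Fintype.card (Λ ⧸ H) : ℝ) * ∑' l : Λ', W (l : E) =
      ∑ q : Λ ⧸ H, (S q - ∑' l : Λ', W (l : E)) := by
    rw [Finset.sum_sub_distrib, Finset.sum_const, Finset.card_univ, nsmul_eq_mul]
  rw [this]
  calc |∑ q : Λ ⧸ H, (S q - ∑' l : Λ', W (l : E))|
      ≤ ∑ q : Λ ⧸ H, |S q - ∑' l : Λ', W (l : E)| := Finset.abs_sum_le_sum_abs _ _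
    _ ≤ ∑ _q : Λ ⧸ H, B' * C := by
        refine Finset.sum_le_sum fun q _ => ?_
        have := (hq q).2
        rw [abs_sub_comm] at this
        simpa using this
    _ = Fintype.card (Λ ⧸ H) * B' * C := by
        rw [Finset.sum_const, Finset.card_univ, nsmul_eq_mul, mul_assoc]

end Lattice

end Fermat.Agent.CFT.LatticeCompare
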