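/-
Program E (S14), (NS) end theorem (helper10): in a nontrivial Galois extension of number fields
`L/K`, for every `m ≠ 0` there is a prime `q` of `K` of prime absolute norm not dividing `m`, a
prime `P` of `L` over `q` and a nontrivial arithmetic Frobenius at `P`.
Proof: otherwise every such `q` has `[L:K]` primes of the same norm above it, contradicting
`DensitySplitMain.finrank_eq_one_of_forall_split` (comparison of the poles of `ζ_K`, `ζ_L`).
-/
import Mathlib
import Fermat.Agent.CFT.DensitySplitMain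
import Fermat.Agent.S14.ArtinGlue

set_option linter.style.longLine false

open IsDedekindDomain Ideal NumberField
open scoped Pointwise

namespace Fermat.Agent.CFT.NotAllSplit10

open Fermat.Agent.CFT.DensitySplit Fermat.Agent.CFT.DensitySplitMain

section Local

variable {K L : Type*} [Field K] [Field L] [NumberField K] [NumberField L] [Algebra K L]
  [IsGalois K L]

/-- In a finite field where every element satisfies `y ^ ℓ = y` (`1 < ℓ`) there are at most `ℓ`
elements. -/
theorem card_le_of_forall_pow_eq {F : Type*} [Field F] [Finite F] {ℓ : ℕ}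
    (hℓ : 1 < ℓ) (h : ∀ y : F, y ^ ℓ = y) : Nat.card F ≤ ℓ := by
  classical
  cases nonempty_fintype F
  have hne : (Polynomial.X ^ ℓ - Polynomial.X : Polynomial F) ≠ 0 :=
    FiniteField.X_pow_card_sub_X_ne_zero F hℓ
  have hdeg : (Polynomial.X ^ ℓ - Polynomial.X : Polynomial F).natDegree = ℓ :=
    FiniteField.X_pow_card_sub_X_natDegree_eq F hℓ
  have hroots : (Finset.univ : Finset F) ⊆
      (Polynomial.X ^ ℓ - Polynomial.X : Polynomial F).roots.toFinset := by
    intro y _
    rw [Multiset.mem_toFinset, Polynomial.mem_roots hne]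
    simp [h y]
  calc Nat.card F = (Finset.univ : Finset F).card := by
        rw [Nat.card_eq_fintype_card, Finset.card_univ]
    _ ≤ (Polynomial.X ^ ℓ - Polynomial.X : Polynomial F).roots.toFinset.card :=
        Finset.card_le_card hroots
    _ ≤ Multiset.card (Polynomial.X ^ ℓ - Polynomial.X : Polynomial F).roots :=
        Multiset.toFinset_card_le _
    _ ≤ (Polynomial.X ^ ℓ - Polynomial.X : Polynomial F).natDegree := Polynomial.card_roots' _
    _ = ℓ := hdeg

/-- If the identity is an arithmetic Frobenius at the nonzero prime `P`, the residue field of `P`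
has the same cardinality as the residue field of the prime below. -/
theorem card_quot_eq_of_isArithFrobAt_one (P : Ideal (𝓞 L)) [P.IsPrime] (hP : P ≠ ⊥)
    (h : IsArithFrobAt (𝓞 K) (1 : L ≃ₐ[K] L) P) :
    Nat.card (𝓞 L ⧸ P) = Nat.card (𝓞 K ⧸ P.under (𝓞 K)) := by
  have hmax : P.IsMaximal := Ideal.IsPrime.isMaximal ‹_› hP
  let _ : Field (𝓞 L ⧸ P) := Ideal.Quotient.field P
  have hfinL : Finite (𝓞 L ⧸ P) := Ideal.finiteQuotientOfFreeOfNeBot P hP
  have hfinK : Finite (𝓞 K ⧸ P.under (𝓞 K)) := h.finite_quotient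
  have hℓ : 1 < Nat.card (𝓞 K ⧸ P.under (𝓞 K)) := Finite.one_lt_card
  apply le_antisymm
  · apply card_le_of_forall_pow_eq hℓ
    intro y
    obtain ⟨x, rfl⟩ := Ideal.Quotient.mk_surjective y
    have := h.mk_apply x
    simpa using this.symm
  · exact Nat.card_le_card_of_injective _ Ideal.algebraMap_quotient_injective

/-- `absNorm` as the cardinality of the quotient. -/
theorem absNorm_eq_card {F : Type*} [Field F] [NumberField F] (I : Ideal (𝓞 F)) :
    absNorm I = Nat.card (𝓞 F ⧸ I) := by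
  rw [Ideal.absNorm_apply, Submodule.cardQuot_apply]

/-- If the only arithmetic Frobenius at the primes over `q` is the identity, every prime over `q`
has the same absolute norm as `q`. -/
theorem absNorm_eq_of_frob_trivial (q : Ideal (𝓞 K)) (hq : q ≠ ⊥)
    (hfrob : ∀ (P : Ideal (𝓞 L)) (σ : L ≃ₐ[K] L), P.IsPrime → P.under (𝓞 K) = q →
      IsArithFrobAt (𝓞 K) σ P → σ = 1)
    (P : Ideal (𝓞 L)) [P.IsPrime] [hPq : P.LiesOver q] :
    absNorm P = absNorm q := by
  have hP : P ≠ ⊥ := Ideal.ne_bot_of_liesOver_of_ne_bot hq P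
  have hfinL : Finite (𝓞 L ⧸ P) := Ideal.finiteQuotientOfFreeOfNeBot P hP
  have hσ := IsArithFrobAt.arithFrobAt (𝓞 K) (L ≃ₐ[K] L) P
  have hσ1 := hfrob P _ ‹_› hPq.over.symm hσ
  rw [hσ1] at hσ
  rw [absNorm_eq_card, absNorm_eq_card, card_quot_eq_of_isArithFrobAt_one P hP hσ,
    ← hPq.over]

/-- If the only arithmetic Frobenius at the primes over `q` is the identity, there are exactly
`[L:K]` primes over `q`. -/
theorem ncard_primesOver_of_frob_trivial (q : Ideal (𝓞 K)) [q.IsPrime] (hq : q ≠ ⊥)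
    (hfrob : ∀ (P : Ideal (𝓞 L)) (σ : L ≃ₐ[K] L), P.IsPrime → P.under (𝓞 K) = q →
      IsArithFrobAt (𝓞 K) σ P → σ = 1) :
    (q.primesOver (𝓞 L)).ncard = Module.finrank K L := by
  obtain ⟨⟨P, hPprime, hPq⟩⟩ := (inferInstance : Nonempty (q.primesOver (𝓞 L)))
  have hP : P ≠ ⊥ := Ideal.ne_bot_of_liesOver_of_ne_bot hq P
  have hfinL : Finite (𝓞 L ⧸ P) := Ideal.finiteQuotientOfFreeOfNeBot P hP
  have hfinK : Finite (𝓞 K ⧸ q) := Ideal.finiteQuotientOfFreeOfNeBot q hq
  have hσ := IsArithFrobAt.arithFrobAt (𝓞 K) (L ≃ₐ[K] L) P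
  have hσ1 := hfrob P _ ‹_› hPq.over.symm hσ
  rw [hσ1] at hσ
  -- inertia is trivial
  have hin : P.inertia (L ≃ₐ[K] L) = ⊥ := by
    rw [eq_bot_iff]
    intro τ hτ
    rw [Subgroup.mem_bot]
    refine hfrob P τ ‹_› hPq.over.symm fun x => ?_
    have h1 := hτ x
    have h2 := hσ x
    have : (MulSemiringAction.toAlgHom (𝓞 K) (𝓞 L) τ) x -
        x ^ Nat.card (𝓞 K ⧸ P.under (𝓞 K)) = (τ • x - x) +
        ((MulSemiringAction.toAlgHom (𝓞 K) (𝓞 L) (1 : L ≃ₐ[K] L)) x -
          x ^ Nat.card (𝓞 K ⧸ P.under (𝓞 K))) := by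
      simp
    rw [this]
    exact P.add_mem h1 h2
  -- inertia degree is one
  have hqmax : q.IsMaximal := Ideal.IsPrime.isMaximal ‹_› hq
  have hPmax : P.IsMaximal := Ideal.IsPrime.isMaximal ‹_› hP
  have hdeg : P.inertiaDeg (𝓞 K) = 1 := by
    rw [Ideal.inertiaDeg_eq_of_isMaximal q P]
    let _ : Field (𝓞 K ⧸ q) := Ideal.Quotient.field q
    let _ : Field (𝓞 L ⧸ P) := Ideal.Quotient.field P
    have hcard : Nat.card (𝓞 L ⧸ P) = Nat.card (𝓞 K ⧸ q) := by
      rw [card_quot_eq_of_isArithFrobAt_one P hP hσ, ← hPq.over]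
    have hpow := Module.natCard_eq_pow_finrank (K := 𝓞 K ⧸ q) (V := 𝓞 L ⧸ P)
    rw [hcard] at hpow
    have h1 : 1 < Nat.card (𝓞 K ⧸ q) := Finite.one_lt_card
    have h2 : Nat.card (𝓞 K ⧸ q) ^ Module.finrank (𝓞 K ⧸ q) (𝓞 L ⧸ P) =
        Nat.card (𝓞 K ⧸ q) ^ 1 := by
      rw [pow_one]; exact hpow.symm
    exact Nat.pow_right_injective h1 h2
  have hperf : PerfectField q.ResidueField := by
    infer_instance
  have key := Ideal.ncard_primesOver_mul_card_inertia_mul_finrank (G := L ≃ₐ[K] L) q P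
  rw [hin, hdeg, Subgroup.card_bot, mul_one, mul_one, IsGalois.card_aut_eq_finrank] at key
  exact key

/-- If the only arithmetic Frobenius at the primes over `q` is the identity, there are exactly
`[L:K]` primes over `q` of the same absolute norm as `q`. -/
theorem ncard_sameNormOver_of_frob_trivial (q : Ideal (𝓞 K)) [q.IsPrime] (hq : q ≠ ⊥)
    (hfrob : ∀ (P : Ideal (𝓞 L)) (σ : L ≃ₐ[K] L), P.IsPrime → P.under (𝓞 K) = q →
      IsArithFrobAt (𝓞 K) σ P → σ = 1) :
    (sameNormOver K L q).ncard = Module.finrank K L := by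
  rw [← ncard_primesOver_of_frob_trivial q hq hfrob]
  have himg : (fun P : HeightOneSpectrum (𝓞 L) => P.asIdeal) '' (sameNormOver K L q) =
      q.primesOver (𝓞 L) := by
    ext P
    constructor
    · rintro ⟨P', hP', rfl⟩
      exact ⟨P'.isPrime, hP'.1⟩
    · rintro ⟨hPprime, hPq⟩
      have hP : P ≠ ⊥ := Ideal.ne_bot_of_liesOver_of_ne_bot hq P
      exact ⟨⟨P, hPprime, hP⟩, ⟨hPq, absNorm_eq_of_frob_trivial q hq hfrob P⟩, rfl⟩
  rw [← himg, Set.ncard_image_of_injective _ (asIdeal_injective L)]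

end Local

section Final

open Fermat.Agent.S14

variable (K L : Type) [Field K] [Field L] [NumberField K] [NumberField L] [Algebra K L]
  [IsGalois K L]

/-- **(NS)** In a nontrivial Galois extension of number fields, for every `m ≠ 0` some prime of
`K` of prime absolute norm not dividing `m` has a nontrivial Frobenius. -/
theorem notAllSplitShape (hn : Module.finrank K L ≠ 1) : ArtinGlue.NotAllSplitShape K L := by
  intro m hm
  by_contra hcon
  push Not at hcon
  apply hn
  have hS : {q : Ideal (𝓞 K) | absNorm q ∣ m}.Finite := by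
    refine (Ideal.finite_setOfPred_absNorm_le (S := 𝓞 K) m).subset fun q hq => ?_
    exact Nat.le_of_dvd (Nat.pos_of_ne_zero hm) hq
  refine finrank_eq_one_of_forall_split _ hS fun v hv hvS => ?_
  have hvS' : ¬ absNorm v.asIdeal ∣ m := hvS
  have hfrob : ∀ (P : Ideal (𝓞 L)) (σ : L ≃ₐ[K] L), P.IsPrime → P.under (𝓞 K) = v.asIdeal →
      IsArithFrobAt (𝓞 K) σ P → σ = 1 := by
    intro P σ hP hPv hσ
    exact hcon v.asIdeal P σ v.isPrime hv hvS' hP hPv hσ
  have := v.isPrime
  exact (ncard_sameNormOver_of_frob_trivial v.asIdeal v.ne_bot hfrob).ge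

/-- **(NS)** in the exact shape consumed by `ArtinGlue.noOmegaInvExt_of`. -/
theorem nsHyp : ArtinGlue.NSHyp := fun K L _ _ _ _ _ _ hn => notAllSplitShape K L hn

end Final

end Fermat.Agent.CFT.NotAllSplit10
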