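/-
Program E (S14), piece (PC2) (helper17): the `Ω`-bundle for the crossing argument.

* `Omega K L m := CyclotomicField m L` as a plain definition carrying GLOBAL instances
  `Field`, `NumberField`, `Algebra L`, `Algebra K` (through `L`), `IsScalarTower K L Ω`,
  `IsCyclotomicExtension {m} L Ω`, `IsGalois K Ω` (from `IsGalois K L`); `zeta`, `zeta_spec`.
* `isMulCommutative_gal_omega`, and the existence form `exists_omega` (all instances as
  anonymous-constructor components, for `obtain`).
* For an intermediate field `Φ` of `Ω/K` (any `Ω`): `isMulCommutative_intermediate`,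
  `isTotallyComplex_intermediate`, `isCyclotomicExtension_of_sup_adjoin_eq_top`
  (`Φ ⊔ K(ζ) = ⊤ → IsCyclotomicExtension {m} Φ Ω`), i.e. the instance hypotheses of
  `CycloKills.artin_span_singleton_eq_one_of_coprime` for `F := Φ`, `N := Ncomp L Φ`.
-/
import Mathlib
import Fermat.Agent.CFT.CycloDisjoint
import Fermat.Agent.CFT.CycloTriple

set_option autoImplicit false
set_option linter.unusedSectionVars false

namespace Fermat.Agent.CFT.OmegaBundle17

open NumberField IntermediateField

section Def

/-- `Ω = L(ζ_m)`, as a plain definition (so that the instances below do not leak to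
`CyclotomicField`).  The base field `K` is a phantom argument: it keys the `K`-algebra structure. -/
@[nolint unusedArguments]
def Omega (_K : Type*) (L : Type*) [Field L] (m : ℕ) : Type _ := CyclotomicField m L

variable (K L : Type*) [Field K] [Field L] [NumberField K] [NumberField L] [Algebra K L]
  (m : ℕ) [NeZero m]

noncomputable instance instFieldOmega : Field (Omega K L m) :=
  inferInstanceAs (Field (CyclotomicField m L))

noncomputable instance instAlgebraLOmega : Algebra L (Omega K L m) :=
  inferInstanceAs (Algebra L (CyclotomicField m L))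

instance instIsCyclotomicExtensionOmega : IsCyclotomicExtension {m} L (Omega K L m) :=
  inferInstanceAs (IsCyclotomicExtension {m} L (CyclotomicField m L))

instance instCharZeroOmega : CharZero (Omega K L m) :=
  charZero_of_injective_algebraMap (algebraMap L (Omega K L m)).injective

instance instNumberFieldOmega : NumberField (Omega K L m) :=
  IsCyclotomicExtension.numberField {m} L (Omega K L m)

noncomputable instance instAlgebraKOmega : Algebra K (Omega K L m) :=
  ((algebraMap L (Omega K L m)).comp (algebraMap K L)).toAlgebra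

instance instIsScalarTowerOmega : IsScalarTower K L (Omega K L m) :=
  IsScalarTower.of_algebraMap_eq (fun _ => rfl)

/-- The chosen primitive `m`-th root of unity of `Ω`. -/
noncomputable def zeta : Omega K L m := IsCyclotomicExtension.zeta m L (Omega K L m)

theorem zeta_spec : IsPrimitiveRoot (zeta K L m) m :=
  IsCyclotomicExtension.zeta_spec m L (Omega K L m)

instance instIsGaloisOmega [IsGalois K L] : IsGalois K (Omega K L m) :=
  CycloDisjoint.isGalois_top (K := K) (L := L) (zeta_spec K L m)

end Def

section Pair

universe u v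

variable (K : Type u) (L : Type v) [Field K] [Field L] [NumberField K] [NumberField L] [Algebra K L]
  [IsGalois K L] (q q' : ℕ) [NeZero q] [NeZero q']

/-- `Gal(L(ζ_{qq'})/K)` is commutative when `Gal(L/K)` is (`q, q'` coprime, `qq'` prime to the
discriminant of `L`). -/
theorem isMulCommutative_gal_omega (hcop : q.Coprime q')
    (hm : Nat.Coprime (q * q') (discr L).natAbs) [IsMulCommutative (L ≃ₐ[K] L)] :
    IsMulCommutative (Omega K L (q * q') ≃ₐ[K] Omega K L (q * q')) :=
  CycloTriple.isMulCommutative_gal (K := K) (L := L) hcop (zeta_spec K L (q * q')) hm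

/-- **The `Ω`-bundle, existence form.**  All the instances needed by `CrossSubgroups`,
`FrobOmega`, `CrossFields`, `CycloKills` for `Ω = L(ζ_{qq'})`. -/
theorem exists_omega (hcop : q.Coprime q') (hm : Nat.Coprime (q * q') (discr L).natAbs)
    [IsMulCommutative (L ≃ₐ[K] L)] :
    ∃ (Ω : Type v) (_ : Field Ω) (_ : NumberField Ω) (_ : Algebra K Ω) (_ : Algebra L Ω)
      (_ : IsScalarTower K L Ω) (_ : IsCyclotomicExtension {q * q'} L Ω) (_ : IsGalois K Ω)
      (_ : IsMulCommutative (Ω ≃ₐ[K] Ω)), ∃ ζ : Ω, IsPrimitiveRoot ζ (q * q') :=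
  ⟨Omega K L (q * q'), inferInstance, inferInstance, inferInstance, inferInstance, inferInstance,
    inferInstance, inferInstance, isMulCommutative_gal_omega K L q q' hcop hm,
    zeta K L (q * q'), zeta_spec K L (q * q')⟩

end Pair

section Phi

variable {K Ω : Type*} [Field K] [Field Ω] [Algebra K Ω]

/-- `Gal(Ω/Φ)` is commutative when `Gal(Ω/K)` is. -/
theorem isMulCommutative_intermediate (Φ : IntermediateField K Ω)
    [IsMulCommutative (Ω ≃ₐ[K] Ω)] : IsMulCommutative (Ω ≃ₐ[Φ] Ω) := by
  refine IsMulCommutative.of_comm fun σ τ => ?_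
  apply AlgEquiv.restrictScalarsHom_injective K
  rw [map_mul, map_mul]
  exact mul_comm' _ _

/-- An intermediate field of an extension of a totally complex field is totally complex. -/
theorem isTotallyComplex_intermediate [NumberField K] [NumberField Ω] [IsTotallyComplex K]
    (Φ : IntermediateField K Ω) : IsTotallyComplex Φ :=
  NumberField.isTotallyComplex_of_algebra (F := K) Φ

/-- If `Ω = Φ(ζ)` (in the form `Φ ⊔ K(ζ) = ⊤`) for a primitive `m`-th root of unity `ζ`, then
`Ω/Φ` is an `m`-th cyclotomic extension. -/
theorem isCyclotomicExtension_of_sup_adjoin_eq_top {m : ℕ} [NeZero m]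
    (Φ : IntermediateField K Ω) {ζ : Ω} (hζ : IsPrimitiveRoot ζ m) (h : Φ ⊔ K⟮ζ⟯ = ⊤) :
    IsCyclotomicExtension {m} Φ Ω := by
  have htop : IntermediateField.adjoin Φ {ζ} = ⊤ := by
    apply IntermediateField.restrictScalars_injective K
    rw [IntermediateField.restrictScalars_adjoin_eq_sup, h, IntermediateField.restrictScalars_top]
  have hint : IsIntegral Φ ζ := (hζ.isIntegral (NeZero.pos m)).tower_top
  rw [IsCyclotomicExtension.iff_singleton]
  refine ⟨⟨ζ, hζ⟩, fun x => ?_⟩
  have hx : x ∈ (IntermediateField.adjoin Φ {ζ}).toSubalgebra := by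
    rw [htop]; trivial
  rw [IntermediateField.adjoin_simple_toSubalgebra_of_isAlgebraic hint.isAlgebraic] at hx
  refine Algebra.adjoin_mono ?_ hx
  intro b hb
  rw [Set.mem_singleton_iff] at hb
  rw [hb]
  exact hζ.pow_eq_one

end Phi

end Fermat.Agent.CFT.OmegaBundle17
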