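/-
Program E (S14), piece C4-C (addendum): `IsGood` for `Y_F = normSub K F m` with the single
hypothesis on `π` requested by helper23 (#1408): `π b = 1` as soon as `b` is, up to principal
ideals, a norm from `L`.
-/
import Mathlib
import Fermat.Agent.CFT.PerField
import Fermat.Agent.CFT.ArtinNorm
import Fermat.Agent.CFT.ClassNormQuotBridge
import Fermat.Agent.CFT.FirstIneq

set_option autoImplicit false

open NumberField
open scoped IsMulCommutative

namespace Fermat.Agent.CFT.PerFieldExtra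

open Fermat.Agent.CFT.ArtinMap Fermat.Agent.CFT.FrobFunct Fermat.Agent.CFT.CrossAssembly
  Fermat.Agent.CFT.PerField

variable {K L F M : Type*} [Field K] [Field L] [Field F] [Field M]
  [NumberField K] [NumberField L] [NumberField F] [NumberField M]
  [Algebra K L] [Algebra K F] [Algebra L M] [Algebra F M] [Algebra K M]
  [IsScalarTower K L M] [IsScalarTower K F M] [IsGalois K L] [IsGalois F M]
  [IsMulCommutative (L ≃ₐ[K] L)] [IsMulCommutative (M ≃ₐ[F] M)]

/-- `IsGood` for `Y_F` with a single hypothesis on `π` (any type of values). -/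
theorem isGood_normSub_of_kernel (m : ℕ) {Q : Type*} [CommGroup Q] (π : Ideal (𝓞 K) → Q)
    (hπ : ∀ b : Ideal (𝓞 K),
      (∃ (x y : 𝓞 K) (A A' : Ideal (𝓞 L)), x ≠ 0 ∧ y ≠ 0 ∧ A ≠ ⊥ ∧ A' ≠ ⊥ ∧
        Ideal.span {x} * b * Ideal.relNorm (𝓞 K) A = Ideal.span {y} * Ideal.relNorm (𝓞 K) A') →
      π b = 1)
    (hfun : Functorial K L F M)
    (hinj : Function.Injective (resHom K L : (M ≃ₐ[F] M) →* (L ≃ₐ[K] L)))
    (hker : KernelForm F M m) :
    IsGood (artin K L) π (normSub K F m) := by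
  refine ⟨bot_notMem_normSub m, ?_⟩
  rintro b ⟨B, ⟨hB, hc⟩, rfl⟩ hart
  change π (Ideal.relNorm (𝓞 K) B) = 1
  change artin K L (Ideal.relNorm (𝓞 K) B) = 1 at hart
  obtain ⟨x, y, hx, hy, A, A', hA, hA', heq⟩ :=
    kernel_form_down m hfun hinj hker B hB hc hart
  exact hπ _ ⟨x, y, A, A', hx, hy, hA, hA', heq⟩

/-- The kernel form in the shape of helper26's `ClassNormQuot.kernel_form` (comaximality with the
ideal `(m)` instead of coprimality of the absolute norm) implies `KernelForm`. -/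
theorem kernelForm_of_sup (m : ℕ)
    (h : ∀ B : Ideal (𝓞 F), B ≠ ⊥ → B ⊔ Ideal.span {(m : 𝓞 F)} = ⊤ → artin F M B = 1 →
      ∃ x y : 𝓞 F, x ≠ 0 ∧ y ≠ 0 ∧ ∃ A A' : Ideal (𝓞 M), A ≠ ⊥ ∧ A' ≠ ⊥ ∧
        Ideal.span {x} * B * Ideal.relNorm (𝓞 F) A = Ideal.span {y} * Ideal.relNorm (𝓞 F) A') :
    KernelForm F M m :=
  fun B hB hc hart => h B hB (sup_span_eq_top_of_coprime hc) hart


/-! ### Instantiation with the landed inputs (ArtinNorm, ClassNormQuot, FirstIneq) -/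

section Inst

variable {K L F M : Type} [Field K] [Field L] [Field F] [Field M]
  [NumberField K] [NumberField L] [NumberField F] [NumberField M]
  [Algebra K L] [Algebra K F] [Algebra L M] [Algebra F M] [Algebra K M]
  [IsScalarTower K L M] [IsScalarTower K F M] [IsGalois K L] [IsGalois F M]
  [IsMulCommutative (L ≃ₐ[K] L)] [IsMulCommutative (M ≃ₐ[F] M)]

/-- Functoriality (helper17's `ArtinNorm.artin_relNorm_of_unramified`) in the `Functorial` shape. -/
theorem functorial_of_unramified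
    (hunrL : ∀ P : Ideal (𝓞 L), P.IsPrime → P ≠ ⊥ → P.inertia (L ≃ₐ[K] L) = ⊥) :
    Functorial K L F M := by
  intro B hB
  rw [ArtinNorm.artin_relNorm_of_unramified (M := M) hunrL B hB]
  rfl

/-- The first inequality for `M/F` in the form (iv) of the kernel theorem. -/
theorem index_normClasses_le_finrank (F M : Type) [Field F] [Field M] [NumberField F]
    [NumberField M] [Algebra F M] :
    (ClassNormQuot.normClasses F M).index ≤ Module.finrank F M :=
  ClassNormQuotBridge.index_normClasses_le F M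
    (fun ψ hs hsplit => FirstIneq.norm_index_le F M ψ hs ∅ (fun p hp _ => hsplit p hp))

/-- Bridge for hypothesis (i): the "no prime over `m` contains `γ`" form (helper22's CycloKills)
implies the comaximality form used by `ClassNormQuot.kernel_form`. -/
theorem hi_of_prime_form (m : ℕ)
    (h : ∀ γ : 𝓞 F, γ ≠ 0 → (∀ P : Ideal (𝓞 F), P.IsPrime → (m : 𝓞 F) ∈ P → γ ∉ P) →
      artin F M (Ideal.span {γ}) = 1) :
    ∀ g : 𝓞 F, g ≠ 0 → Ideal.span {g} ⊔ Ideal.span {(m : 𝓞 F)} = ⊤ →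
      artin F M (Ideal.span {g}) = 1 := by
  intro g hg hsup
  refine h g hg (fun P hP hmP hgP => hP.ne_top ?_)
  rw [eq_top_iff, ← hsup]
  exact sup_le ((Ideal.span_singleton_le_iff_mem _).mpr hgP)
    ((Ideal.span_singleton_le_iff_mem _).mpr hmP)

/-- **Kernel form for `M/F`**, from: `M/F` Galois of prime degree `p`, everywhere unramified;
(i) `artin F M` kills the principal ideals prime to `m`; (NS) some prime of prime absolute norm
not dividing `m` has a nontrivial Frobenius. -/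
theorem kernelForm_of_inputs {p : ℕ} (hp : p.Prime) (hdeg : Module.finrank F M = p)
    (m : ℕ) (hm : m ≠ 0)
    (hunrM : ∀ P : Ideal (𝓞 M), P.IsPrime → P ≠ ⊥ → P.inertia (M ≃ₐ[F] M) = ⊥)
    (hi : ∀ g : 𝓞 F, g ≠ 0 → Ideal.span {g} ⊔ Ideal.span {(m : 𝓞 F)} = ⊤ →
      artin F M (Ideal.span {g}) = 1)
    (hNS : ∃ (q : Ideal (𝓞 F)) (P : Ideal (𝓞 M)) (σ : M ≃ₐ[F] M),
      q.IsPrime ∧ (Ideal.absNorm q).Prime ∧ ¬ (Ideal.absNorm q ∣ m) ∧ P.IsPrime ∧
        P.under (𝓞 F) = q ∧ IsArithFrobAt (𝓞 F) σ P ∧ σ ≠ 1) :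
    KernelForm F M m := by
  have hcard : Nat.card (M ≃ₐ[F] M) = p := by
    rw [IsGalois.card_aut_eq_finrank, hdeg]
  have hm0 : Ideal.span {(m : 𝓞 F)} ≠ ⊥ := by
    rw [Ne, Ideal.span_singleton_eq_bot]
    exact_mod_cast hm
  have hiii : ∃ q : Ideal (𝓞 F), q ≠ ⊥ ∧ q ⊔ Ideal.span {(m : 𝓞 F)} = ⊤ ∧ artin F M q ≠ 1 := by
    obtain ⟨q, P, σ, hq, hqn, hqm, hP, hPq, hσ, hσ1⟩ := hNS
    have hq0 : q ≠ ⊥ := by
      rintro rfl
      rw [Ideal.absNorm_bot] at hqn
      exact Nat.not_prime_zero hqn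
    have hP0 : P ≠ ⊥ := by
      rintro rfl
      apply hq0
      rw [← hPq]
      exact Ideal.under_bot (𝓞 F) (𝓞 M)
    have := hq
    have := hP
    have : P.LiesOver q := ⟨hPq.symm⟩
    have hart : σ = artin F M q := eq_artin_of_isArithFrobAt M q hq0 P (hunrM P hP hP0) hσ
    refine ⟨q, hq0, sup_span_eq_top_of_coprime ((Nat.Prime.coprime_iff_not_dvd hqn).mpr hqm), ?_⟩
    rw [← hart]
    exact hσ1
  have hiv : (ClassNormQuot.normClasses F M).index ≤ p := by
    rw [← hdeg]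
    exact index_normClasses_le_finrank F M
  apply kernelForm_of_sup m
  intro B hB hBm hart
  obtain ⟨x, y, A, A', hx, hy, hA, hA', h⟩ :=
    ClassNormQuot.kernel_form' (M := M) hp hcard (artin F M)
      (fun a b ha hb => artin_mul M ha hb) (Ideal.span {(m : 𝓞 F)}) hm0 hi
      (fun A hA => ArtinNorm.artin_relNorm_eq_one_of_unramified hunrM A hA) hiii hiv B hB hBm hart
  exact ⟨x, y, hx, hy, A, A', hA, hA', h⟩

/-- **Per-field theorem, fully instantiated**: `Y_F = normSub K F m` is good for `(artin K L, π)`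
as soon as: `L/K` and `M/F` are everywhere unramified, `[M:F] = p` prime, restriction
`Gal(M/F) → Gal(L/K)` is injective, `artin F M` kills principal ideals prime to `m`, and (NS) holds
for `M/F` and `m`. -/
theorem isGood_normSub_of_inputs {p : ℕ} (hp : p.Prime) (hdeg : Module.finrank F M = p)
    (m : ℕ) (hm : m ≠ 0) {Q : Type*} [CommGroup Q] (π : Ideal (𝓞 K) → Q)
    (hπ : ∀ b : Ideal (𝓞 K),
      (∃ (x y : 𝓞 K) (A A' : Ideal (𝓞 L)), x ≠ 0 ∧ y ≠ 0 ∧ A ≠ ⊥ ∧ A' ≠ ⊥ ∧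
        Ideal.span {x} * b * Ideal.relNorm (𝓞 K) A = Ideal.span {y} * Ideal.relNorm (𝓞 K) A') →
      π b = 1)
    (hunrL : ∀ P : Ideal (𝓞 L), P.IsPrime → P ≠ ⊥ → P.inertia (L ≃ₐ[K] L) = ⊥)
    (hunrM : ∀ P : Ideal (𝓞 M), P.IsPrime → P ≠ ⊥ → P.inertia (M ≃ₐ[F] M) = ⊥)
    (hinj : Function.Injective (resHom K L : (M ≃ₐ[F] M) →* (L ≃ₐ[K] L)))
    (hi : ∀ g : 𝓞 F, g ≠ 0 → Ideal.span {g} ⊔ Ideal.span {(m : 𝓞 F)} = ⊤ →
      artin F M (Ideal.span {g}) = 1)
    (hNS : ∃ (q : Ideal (𝓞 F)) (P : Ideal (𝓞 M)) (σ : M ≃ₐ[F] M),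
      q.IsPrime ∧ (Ideal.absNorm q).Prime ∧ ¬ (Ideal.absNorm q ∣ m) ∧ P.IsPrime ∧
        P.under (𝓞 F) = q ∧ IsArithFrobAt (𝓞 F) σ P ∧ σ ≠ 1) :
    IsGood (artin K L) π (normSub K F m) ∧ ∃ b₀ ∈ normSub K F m, artin K L b₀ ≠ 1 :=
  ⟨isGood_normSub_of_kernel m π hπ (functorial_of_unramified hunrL) hinj
      (kernelForm_of_inputs hp hdeg m hm hunrM hi hNS),
    exists_mem_normSub_artin_ne_one m (functorial_of_unramified hunrL) hinj hunrM hNS⟩

end Inst

end Fermat.Agent.CFT.PerFieldExtra
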