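import Fermat.Agent.CFT.ClassLEuler

/-!
# The prime zeta sum of a number field: `∑_P N(P)^(-s) = log (1/(s-1)) + O(1)` on `(1, 2]`
-/

set_option linter.unusedSectionVars false

namespace Fermat.Agent.CFT.PrimeZetaLog

open NumberField Ideal IsDedekindDomain Filter Topology nonZeroDivisors
open Fermat.Agent.CFT.C1ClassDefs Fermat.Agent.CFT.IdealZetaSum Fermat.Agent.CFT.ZetaRBounds
open Fermat.Agent.CFT.IdealEuler Fermat.Agent.CFT.ClassLEuler

variable (K : Type*) [Field K] [NumberField K]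

/-- `𝔞 ↦ N(𝔞)^(-s)` as a real valued completely multiplicative function (`s ≠ 0`). -/
noncomputable def normPow {s : ℝ} (hs : s ≠ 0) : Ideal (𝓞 K) →*₀ ℝ where
  toFun a := (absNorm a : ℝ) ^ (-s)
  map_zero' := by simp [Real.zero_rpow (neg_ne_zero.mpr hs)]
  map_one' := by simp
  map_mul' a b := by
    rw [map_mul, Nat.cast_mul, Real.mul_rpow (Nat.cast_nonneg _) (Nat.cast_nonneg _)]

theorem normPow_apply {s : ℝ} (hs : s ≠ 0) (a : Ideal (𝓞 K)) :
    normPow K hs a = (absNorm a : ℝ) ^ (-s) := rfl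

/-- The Euler product of the Dedekind zeta function (real variable). -/
theorem hasProd_zetaR {s : ℝ} (hs : 1 < s) :
    HasProd (fun P : HeightOneSpectrum (𝓞 K) ↦ (1 - (absNorm P.asIdeal : ℝ) ^ (-s))⁻¹)
      (zetaR K s) := by
  have hs0 : s ≠ 0 := by linarith
  have hsum : Summable (fun a : Ideal (𝓞 K) ↦ ‖normPow K hs0 a‖) := by
    refine (summable_absNorm_rpow K hs).congr fun a ↦ ?_
    rw [normPow_apply, Real.norm_of_nonneg (Real.rpow_nonneg (Nat.cast_nonneg _) _)]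
  have h := hasProd_inv_one_sub (normPow K hs0) hsum
  rw [zetaR_eq_tsum K hs]
  exact h

variable {K}

theorem absNorm_prime_two_le (P : HeightOneSpectrum (𝓞 K)) : (2 : ℝ) ≤ absNorm P.asIdeal := by
  have h0 : absNorm P.asIdeal ≠ 0 := by
    rw [Ne, Ideal.absNorm_eq_zero_iff]
    exact P.ne_bot
  have h1 : absNorm P.asIdeal ≠ 1 := by
    rw [Ne, Ideal.absNorm_eq_one_iff]
    exact P.isPrime.ne_top
  have : 2 ≤ absNorm P.asIdeal := by omega
  exact_mod_cast this

theorem prime_rpow_le_half (P : HeightOneSpectrum (𝓞 K)) {s : ℝ} (hs : 1 ≤ s) :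
    (absNorm P.asIdeal : ℝ) ^ (-s) ≤ 1 / 2 := by
  have h2 := absNorm_prime_two_le P
  have hpos : (0 : ℝ) < absNorm P.asIdeal := by linarith
  calc (absNorm P.asIdeal : ℝ) ^ (-s) ≤ (absNorm P.asIdeal : ℝ) ^ (-(1 : ℝ)) :=
        Real.rpow_le_rpow_of_exponent_le (by linarith) (by linarith)
    _ = ((absNorm P.asIdeal : ℝ))⁻¹ := by rw [Real.rpow_neg_one]
    _ ≤ 1 / 2 := by
        rw [one_div]
        exact inv_anti₀ (by norm_num) h2

/-- Elementary bounds for `-log (1 - x)`, `0 ≤ x ≤ 1/2`. -/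
theorem neg_log_one_sub_bounds {x : ℝ} (hx0 : 0 ≤ x) (hx : x ≤ 1 / 2) :
    x ≤ -Real.log (1 - x) ∧ -Real.log (1 - x) ≤ x + 2 * x ^ 2 := by
  constructor
  · have := Real.log_le_sub_one_of_pos (show (0 : ℝ) < 1 - x by linarith)
    linarith
  · have habs : |x| < 1 := by rw [abs_of_nonneg hx0]; linarith
    have h := Real.abs_log_sub_add_sum_range_le habs 1
    simp only [Finset.range_one, Finset.sum_singleton, zero_add, pow_one, Nat.cast_zero,
      div_one] at h
    rw [abs_of_nonneg hx0] at h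
    have h1 : x ^ (1 + 1) / (1 - x) ≤ 2 * x ^ 2 := by
      rw [div_le_iff₀ (by linarith)]
      have h3 : 0 ≤ x ^ 2 * (1 - 2 * x) := mul_nonneg (sq_nonneg x) (by linarith)
      have h4 : x ^ (1 + 1) = x ^ 2 := by norm_num
      rw [h4]
      nlinarith
    have h2 := (abs_le.mp (h.trans h1)).1
    linarith

theorem summable_prime_sq {s : ℝ} (hs : 1 < s) :
    Summable (fun P : HeightOneSpectrum (𝓞 K) ↦ ((absNorm P.asIdeal : ℝ) ^ (-s)) ^ 2) := by
  refine Summable.of_nonneg_of_le (fun _ ↦ sq_nonneg _) (fun P ↦ ?_) (summable_prime_rpow hs)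
  have h0 : 0 ≤ (absNorm P.asIdeal : ℝ) ^ (-s) := Real.rpow_nonneg (Nat.cast_nonneg _) _
  have h1 := prime_rpow_le_half P hs.le
  nlinarith

theorem summable_neg_log {s : ℝ} (hs : 1 < s) :
    Summable (fun P : HeightOneSpectrum (𝓞 K) ↦
      -Real.log (1 - (absNorm P.asIdeal : ℝ) ^ (-s))) := by
  refine Summable.of_nonneg_of_le (fun P ↦ ?_) (fun P ↦ ?_)
    ((summable_prime_rpow (K := K) hs).add ((summable_prime_sq (K := K) hs).mul_left 2))
  · have h0 : 0 ≤ (absNorm P.asIdeal : ℝ) ^ (-s) := Real.rpow_nonneg (Nat.cast_nonneg _) _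
    exact h0.trans (neg_log_one_sub_bounds h0 (prime_rpow_le_half P hs.le)).1
  · have h0 : 0 ≤ (absNorm P.asIdeal : ℝ) ^ (-s) := Real.rpow_nonneg (Nat.cast_nonneg _) _
    exact (neg_log_one_sub_bounds h0 (prime_rpow_le_half P hs.le)).2

variable (K)

/-- `log ζ_K(s) = ∑_P -log (1 - N(P)^(-s))`. -/
theorem log_zetaR_eq {s : ℝ} (hs : 1 < s) :
    Real.log (zetaR K s) =
      ∑' P : HeightOneSpectrum (𝓞 K), -Real.log (1 - (absNorm P.asIdeal : ℝ) ^ (-s)) := by
  have hpos : ∀ P : HeightOneSpectrum (𝓞 K), 0 < (1 - (absNorm P.asIdeal : ℝ) ^ (-s))⁻¹ :=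
    fun P ↦ by
      have := prime_rpow_le_half P hs.le
      exact inv_pos.mpr (by linarith)
  have hlog : ∀ P : HeightOneSpectrum (𝓞 K),
      Real.log ((1 - (absNorm P.asIdeal : ℝ) ^ (-s))⁻¹) =
        -Real.log (1 - (absNorm P.asIdeal : ℝ) ^ (-s)) := fun P ↦ Real.log_inv _
  have hsum : HasSum (fun P : HeightOneSpectrum (𝓞 K) ↦
      Real.log ((1 - (absNorm P.asIdeal : ℝ) ^ (-s))⁻¹))
      (∑' P : HeightOneSpectrum (𝓞 K), -Real.log (1 - (absNorm P.asIdeal : ℝ) ^ (-s))) := by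
    simp_rw [hlog]
    exact (summable_neg_log hs).hasSum
  have h1 := Real.hasProd_of_hasSum_log hpos hsum
  have h2 := hasProd_zetaR K hs
  rw [h2.unique h1, Real.log_exp]

/-- The prime zeta sum is at most `log ζ_K(s)`. -/
theorem tsum_prime_le_log_zetaR {s : ℝ} (hs : 1 < s) :
    ∑' P : HeightOneSpectrum (𝓞 K), (absNorm P.asIdeal : ℝ) ^ (-s) ≤ Real.log (zetaR K s) := by
  rw [log_zetaR_eq K hs]
  refine (summable_prime_rpow hs).tsum_le_tsum (fun P ↦ ?_) (summable_neg_log hs)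
  have h0 : 0 ≤ (absNorm P.asIdeal : ℝ) ^ (-s) := Real.rpow_nonneg (Nat.cast_nonneg _) _
  exact (neg_log_one_sub_bounds h0 (prime_rpow_le_half P hs.le)).1

/-- The constant `2 ∑_P N(P)^(-2)`. -/
noncomputable def primeSqConst : ℝ :=
  2 * ∑' P : HeightOneSpectrum (𝓞 K), (absNorm P.asIdeal : ℝ) ^ (-(2 : ℝ))

theorem primeSqConst_nonneg : 0 ≤ primeSqConst K :=
  mul_nonneg (by norm_num) (tsum_nonneg fun _ ↦ Real.rpow_nonneg (Nat.cast_nonneg _) _)

/-- **(D5)** `log ζ_K(s) ≤ ∑_P N(P)^(-s) + C_K` for `s > 1`. -/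
theorem log_zetaR_le {s : ℝ} (hs : 1 < s) :
    Real.log (zetaR K s) ≤
      ∑' P : HeightOneSpectrum (𝓞 K), (absNorm P.asIdeal : ℝ) ^ (-s) + primeSqConst K := by
  rw [log_zetaR_eq K hs, primeSqConst, ← tsum_mul_left,
    ← (summable_prime_rpow hs).tsum_add
      ((summable_prime_rpow (K := K) (by norm_num : (1 : ℝ) < 2)).mul_left 2)]
  refine (summable_neg_log hs).tsum_le_tsum (fun P ↦ ?_)
    ((summable_prime_rpow hs).add
      ((summable_prime_rpow (K := K) (by norm_num : (1 : ℝ) < 2)).mul_left 2))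
  have h0 : 0 ≤ (absNorm P.asIdeal : ℝ) ^ (-s) := Real.rpow_nonneg (Nat.cast_nonneg _) _
  have hb := (neg_log_one_sub_bounds h0 (prime_rpow_le_half P hs.le)).2
  have h2 := absNorm_prime_two_le P
  have hsq : ((absNorm P.asIdeal : ℝ) ^ (-s)) ^ 2 ≤ (absNorm P.asIdeal : ℝ) ^ (-(2 : ℝ)) := by
    rw [← Real.rpow_natCast, ← Real.rpow_mul (by linarith)]
    exact Real.rpow_le_rpow_of_exponent_le (by linarith) (by push_cast; linarith)
  linarith

/-- **(PZ)** `∑_P N(P)^(-s) = log (1/(s-1)) + O(1)` on `(1, 2]`. -/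
theorem exists_abs_tsum_prime_sub_log_le :
    ∃ B : ℝ, ∀ s ∈ Set.Ioc (1 : ℝ) 2,
      |∑' P : HeightOneSpectrum (𝓞 K), (absNorm P.asIdeal : ℝ) ^ (-s)
        - Real.log (1 / (s - 1))| ≤ B := by
  obtain ⟨C, hC0, hC⟩ := exists_zetaR_le K
  obtain ⟨c, hc0, hc⟩ := exists_le_zetaR K
  refine ⟨max (|Real.log C|) (|Real.log c| + primeSqConst K), fun s hs ↦ ?_⟩
  have hs1 : 1 < s := hs.1
  have hs0 : 0 < s - 1 := by linarith
  have hz : 0 < zetaR K s := lt_of_lt_of_le one_pos (one_le_zetaR K hs1)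
  have hup : Real.log (zetaR K s) ≤ Real.log C + Real.log (1 / (s - 1)) := by
    rw [← Real.log_mul hC0.ne' (one_div_pos.mpr hs0).ne', mul_one_div]
    exact Real.log_le_log hz (hC s hs)
  have hlow : Real.log c + Real.log (1 / (s - 1)) ≤ Real.log (zetaR K s) := by
    rw [← Real.log_mul hc0.ne' (one_div_pos.mpr hs0).ne', mul_one_div]
    exact Real.log_le_log (div_pos hc0 hs0) (hc s hs)
  have h1 := tsum_prime_le_log_zetaR K hs1
  have h2 := log_zetaR_le K hs1
  rw [abs_le]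
  constructor
  · have : -(|Real.log c| + primeSqConst K) ≤
        ∑' P : HeightOneSpectrum (𝓞 K), (absNorm P.asIdeal : ℝ) ^ (-s)
          - Real.log (1 / (s - 1)) := by
      have := neg_abs_le (Real.log c)
      linarith
    exact (neg_le_neg (le_max_right _ _)).trans this
  · have : ∑' P : HeightOneSpectrum (𝓞 K), (absNorm P.asIdeal : ℝ) ^ (-s)
          - Real.log (1 / (s - 1)) ≤ |Real.log C| := by
      have := le_abs_self (Real.log C)
      linarith
    exact this.trans (le_max_left _ _)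

/-- The sum over all primes is Mathlib's `primeIdealZetaSum` of `Set.univ`. -/
theorem primeIdealZetaSum_univ (s : ℝ) :
    (Set.univ : Set (HeightOneSpectrum (𝓞 K))).primeIdealZetaSum s =
      ∑' P : HeightOneSpectrum (𝓞 K), (absNorm P.asIdeal : ℝ) ^ (-s) := by
  rw [NumberField.Set.primeIdealZetaSum_def,
    tsum_univ fun P : HeightOneSpectrum (𝓞 K) ↦ (absNorm P.asIdeal : ℝ) ^ (-s)]

/-- Any set of primes has prime zeta sum at most the full one. -/
theorem primeIdealZetaSum_le_tsum (S : Set (HeightOneSpectrum (𝓞 K))) {s : ℝ} (hs : 1 < s) :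
    S.primeIdealZetaSum s ≤
      ∑' P : HeightOneSpectrum (𝓞 K), (absNorm P.asIdeal : ℝ) ^ (-s) := by
  rw [NumberField.Set.primeIdealZetaSum_def]
  exact (summable_prime_rpow hs).tsum_subtype_le _ S
    (fun _ ↦ Real.rpow_nonneg (Nat.cast_nonneg _) _)

end Fermat.Agent.CFT.PrimeZetaLog
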