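/-
E-C0-3 (helper14): the finite commutative group `X(m) = I(m) / (P_m · Nm)` built from
INTEGRAL ideals coprime to `m`, generic in a "norm" submonoid `Nm ≤ coprimeIdeals K m`.

* `quotCon S`            : generic congruence `x ~ y :⇔ ∃ s t ∈ S, x s = y t` on a commutative monoid
* `rayPrincipal m`       : the submonoid of principal ideals `(a)`, `a ≡ 1 mod m`
* `X m Nm`, `mk m Nm`    : the quotient `coprimeIdeals K m / (rayPrincipal m ⊔ Nm)` and its projection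
* `CommGroup (X m Nm)`, `Finite (X m Nm)` (for `m ≠ ⊥`)
* `mk_eq_mk_iff`, `mk_eq_mk_iff'` : explicit descriptions of the congruence
* `rayHom m Nm`          : `mk` as a `C1Defs.RayHom`
* `lift`, `lift_mk`      : universal property
* `normSubmonoid K L m`  : the norms `relNorm 𝔄` (coprime to `m`) of ideals of `𝓞 L`
-/
import Mathlib
import Fermat.Agent.CFT.C1Defs

set_option autoImplicit false
set_option linter.unusedSectionVars false

namespace Fermat.Agent.CFT.RayNormGroup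

open NumberField Ideal Fermat.Agent.CFT.C1Defs

/-! ### Generic: quotient of a commutative monoid by a submonoid -/

section Generic

variable {M : Type*} [CommMonoid M]

/-- `x ~ y :⇔ ∃ s t ∈ S, x * s = y * t`. -/
def quotCon (S : Submonoid M) : Con M where
  r x y := ∃ s ∈ S, ∃ t ∈ S, x * s = y * t
  iseqv :=
    { refl := fun x => ⟨1, S.one_mem, 1, S.one_mem, rfl⟩
      symm := by
        rintro x y ⟨s, hs, t, ht, h⟩
        exact ⟨t, ht, s, hs, h.symm⟩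
      trans := by
        rintro x y z ⟨s, hs, t, ht, h⟩ ⟨s', hs', t', ht', h'⟩
        refine ⟨s * s', S.mul_mem hs hs', t' * t, S.mul_mem ht' ht, ?_⟩
        calc x * (s * s') = (x * s) * s' := (mul_assoc _ _ _).symm
          _ = (y * t) * s' := by rw [h]
          _ = (y * s') * t := by rw [mul_assoc, mul_comm t s', ← mul_assoc]
          _ = (z * t') * t := by rw [h']
          _ = z * (t' * t) := mul_assoc _ _ _ }
  mul' := by
    rintro x y x' y' ⟨s, hs, t, ht, h⟩ ⟨s', hs', t', ht', h'⟩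
    refine ⟨s * s', S.mul_mem hs hs', t * t', S.mul_mem ht ht', ?_⟩
    calc x * x' * (s * s') = (x * s) * (x' * s') := mul_mul_mul_comm _ _ _ _
      _ = (y * t) * (y' * t') := by rw [h, h']
      _ = y * y' * (t * t') := mul_mul_mul_comm _ _ _ _

theorem quotCon_def (S : Submonoid M) (x y : M) :
    quotCon S x y ↔ ∃ s ∈ S, ∃ t ∈ S, x * s = y * t := Iff.rfl

theorem quotCon_one_of_mem (S : Submonoid M) {x : M} (hx : x ∈ S) : quotCon S x 1 :=
  ⟨1, S.one_mem, x, hx, by rw [mul_one, one_mul]⟩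

theorem isUnit_mk_of_pow_mem (S : Submonoid M) (x : M) {n : ℕ} (hn : n ≠ 0) (h : x ^ n ∈ S) :
    IsUnit ((quotCon S).mk' x) := by
  obtain ⟨k, rfl⟩ := Nat.exists_eq_succ_of_ne_zero hn
  refine IsUnit.of_mul_eq_one ((quotCon S).mk' (x ^ k)) ?_
  rw [← map_mul, ← pow_succ', ← map_one (quotCon S).mk']
  exact (quotCon S).eq.mpr (quotCon_one_of_mem S h)

theorem quotCon_le_ker {P : Type*} [Monoid P] (S : Submonoid M) (f : M →* P)
    (hf : ∀ s ∈ S, f s = 1) : quotCon S ≤ Con.ker f := by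
  rintro x y ⟨s, hs, t, ht, h⟩
  rw [Con.ker_rel]
  have := congrArg f h
  rw [map_mul, map_mul, hf s hs, hf t ht, mul_one, mul_one] at this
  exact this

end Generic

/-! ### The ray-norm class group -/

section Ray

variable {K : Type*} [Field K] [NumberField K] (m : Ideal (𝓞 K))

theorem span_singleton_mem_coprimeIdeals {a : 𝓞 K} (ha : a - 1 ∈ m) (ha0 : a ≠ 0) :
    Ideal.span {a} ∈ coprimeIdeals K m := by
  refine ⟨?_, ?_⟩
  · rwa [Ne, Ideal.span_singleton_eq_bot]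
  · rw [Ideal.eq_top_iff_one]
    have : (1 : 𝓞 K) = a + (-(a - 1)) := by ring
    rw [this]
    exact Ideal.add_mem _ (Ideal.mem_sup_left (Ideal.mem_span_singleton_self a))
      (Ideal.mem_sup_right (neg_mem ha))

/-- Principal ideals with a generator `≡ 1 mod m`. -/
def rayPrincipal : Submonoid (coprimeIdeals K m) where
  carrier := {I | ∃ a : 𝓞 K, a - 1 ∈ m ∧ (I : Ideal (𝓞 K)) = Ideal.span {a}}
  one_mem' := ⟨1, by simp, by simp [Ideal.one_eq_top]⟩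
  mul_mem' := by
    rintro I J ⟨a, ha, hI⟩ ⟨b, hb, hJ⟩
    refine ⟨a * b, ?_, ?_⟩
    · have : a * b - 1 = a * (b - 1) + (a - 1) := by ring
      rw [this]
      exact Ideal.add_mem _ (Ideal.mul_mem_left _ _ hb) ha
    · rw [Submonoid.coe_mul, hI, hJ, Ideal.span_singleton_mul_span_singleton]

theorem mem_rayPrincipal {I : coprimeIdeals K m} :
    I ∈ rayPrincipal m ↔ ∃ a : 𝓞 K, a - 1 ∈ m ∧ (I : Ideal (𝓞 K)) = Ideal.span {a} := Iff.rfl

variable (Nm : Submonoid (coprimeIdeals K m))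

/-- The congruence `I ~ J :⇔ ∃ s t ∈ P_m · Nm, I s = J t`. -/
def rayCon : Con (coprimeIdeals K m) := quotCon (rayPrincipal m ⊔ Nm)

/-- The group `X(m) = I(m) / (P_m · Nm)`. -/
def X : Type _ := (rayCon m Nm).Quotient

instance instCommMonoidX : CommMonoid (X m Nm) :=
  inferInstanceAs (CommMonoid (rayCon m Nm).Quotient)

/-- The projection `I(m) → X(m)`. -/
def mk : coprimeIdeals K m →* X m Nm := (rayCon m Nm).mk'

theorem mk_surjective : Function.Surjective (mk m Nm) := Con.mk'_surjective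

theorem mk_eq_mk_iff_con {I J : coprimeIdeals K m} :
    mk m Nm I = mk m Nm J ↔ ∃ s ∈ rayPrincipal m ⊔ Nm, ∃ t ∈ rayPrincipal m ⊔ Nm, I * s = J * t :=
  (rayCon m Nm).eq

theorem mk_eq_one_of_mem {I : coprimeIdeals K m} (h : I ∈ rayPrincipal m ⊔ Nm) :
    mk m Nm I = 1 := by
  rw [← map_one (mk m Nm)]
  exact (rayCon m Nm).eq.mpr (quotCon_one_of_mem _ h)

theorem mk_eq_one_of_mem_norm {I : coprimeIdeals K m} (h : I ∈ Nm) : mk m Nm I = 1 :=
  mk_eq_one_of_mem m Nm (Submonoid.mem_sup_right h)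

theorem mk_span_singleton (a : 𝓞 K) (ha : a - 1 ∈ m)
    (h : Ideal.span {a} ∈ coprimeIdeals K m) : mk m Nm ⟨Ideal.span {a}, h⟩ = 1 :=
  mk_eq_one_of_mem m Nm (Submonoid.mem_sup_left ⟨a, ha, rfl⟩)

/-- Explicit description of the congruence. -/
theorem mk_eq_mk_iff {I J : coprimeIdeals K m} :
    mk m Nm I = mk m Nm J ↔ ∃ a b : 𝓞 K, a ≠ 0 ∧ b ≠ 0 ∧ a - 1 ∈ m ∧ b - 1 ∈ m ∧
      ∃ n₁ ∈ Nm, ∃ n₂ ∈ Nm,
        Ideal.span {a} * (I : Ideal (𝓞 K)) * (n₁ : Ideal (𝓞 K)) =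
          Ideal.span {b} * (J : Ideal (𝓞 K)) * (n₂ : Ideal (𝓞 K)) := by
  rw [mk_eq_mk_iff_con]
  constructor
  · rintro ⟨s, hs, t, ht, h⟩
    obtain ⟨p₁, ⟨a, ha, hp₁⟩, n₁, hn₁, rfl⟩ := Submonoid.mem_sup.mp hs
    obtain ⟨p₂, ⟨b, hb, hp₂⟩, n₂, hn₂, rfl⟩ := Submonoid.mem_sup.mp ht
    have ha0 : a ≠ 0 := by
      intro h0
      have := p₁.2.1
      rw [hp₁, h0] at this
      exact this (Ideal.span_singleton_eq_bot.mpr rfl)
    have hb0 : b ≠ 0 := by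
      intro h0
      have := p₂.2.1
      rw [hp₂, h0] at this
      exact this (Ideal.span_singleton_eq_bot.mpr rfl)
    refine ⟨a, b, ha0, hb0, ha, hb, n₁, hn₁, n₂, hn₂, ?_⟩
    have h' := congrArg (Subtype.val) h
    simp only [Submonoid.coe_mul] at h'
    rw [hp₁, hp₂] at h'
    calc Ideal.span {a} * (I : Ideal (𝓞 K)) * (n₁ : Ideal (𝓞 K))
        = (I : Ideal (𝓞 K)) * (Ideal.span {a} * (n₁ : Ideal (𝓞 K))) := by
          rw [mul_comm (Ideal.span {a}) (I : Ideal (𝓞 K)), mul_assoc]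
      _ = (J : Ideal (𝓞 K)) * (Ideal.span {b} * (n₂ : Ideal (𝓞 K))) := h'
      _ = Ideal.span {b} * (J : Ideal (𝓞 K)) * (n₂ : Ideal (𝓞 K)) := by
          rw [mul_comm (Ideal.span {b}) (J : Ideal (𝓞 K)), mul_assoc]
  · rintro ⟨a, b, ha0, hb0, ha, hb, n₁, hn₁, n₂, hn₂, h⟩
    have ha' := span_singleton_mem_coprimeIdeals m ha ha0
    have hb' := span_singleton_mem_coprimeIdeals m hb hb0
    refine ⟨⟨Ideal.span {a}, ha'⟩ * n₁, Submonoid.mem_sup.mpr ⟨_, ⟨a, ha, rfl⟩, n₁, hn₁, rfl⟩,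
      ⟨Ideal.span {b}, hb'⟩ * n₂, Submonoid.mem_sup.mpr ⟨_, ⟨b, hb, rfl⟩, n₂, hn₂, rfl⟩, ?_⟩
    apply Subtype.ext
    simp only [Submonoid.coe_mul]
    calc (I : Ideal (𝓞 K)) * (Ideal.span {a} * (n₁ : Ideal (𝓞 K)))
        = Ideal.span {a} * (I : Ideal (𝓞 K)) * (n₁ : Ideal (𝓞 K)) := by
          rw [mul_comm (Ideal.span {a}) (I : Ideal (𝓞 K)), mul_assoc]
      _ = Ideal.span {b} * (J : Ideal (𝓞 K)) * (n₂ : Ideal (𝓞 K)) := h
      _ = (J : Ideal (𝓞 K)) * (Ideal.span {b} * (n₂ : Ideal (𝓞 K))) := by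
          rw [mul_comm (Ideal.span {b}) (J : Ideal (𝓞 K)), mul_assoc]

/-- An element coprime to `m` has an inverse mod `m` (which can be taken nonzero). -/
theorem exists_inverse_mod {a : 𝓞 K} (h : Ideal.span {a} ⊔ m = ⊤) :
    ∃ c : 𝓞 K, c ≠ 0 ∧ a * c - 1 ∈ m := by
  have h1 : (1 : 𝓞 K) ∈ Ideal.span {a} ⊔ m := by rw [h]; exact Submodule.mem_top
  obtain ⟨x, hx, y, hy, hxy⟩ := Submodule.mem_sup.mp h1
  obtain ⟨c, rfl⟩ := Ideal.mem_span_singleton'.mp hx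
  by_cases hc : c = 0
  · subst hc
    rw [zero_mul, zero_add] at hxy
    subst hxy
    refine ⟨1, one_ne_zero, ?_⟩
    have : m = ⊤ := (Ideal.eq_top_iff_one _).mpr hy
    rw [this]; exact Submodule.mem_top
  · refine ⟨c, hc, ?_⟩
    have : a * c - 1 = -y := by rw [← hxy]; ring
    rw [this]; exact neg_mem hy

/-- `mk (a)` only depends on `a mod m`. -/
theorem mk_span_singleton_congr {a b : 𝓞 K} (hab : a - b ∈ m)
    (ha : Ideal.span {a} ∈ coprimeIdeals K m) (hb : Ideal.span {b} ∈ coprimeIdeals K m) :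
    mk m Nm ⟨Ideal.span {a}, ha⟩ = mk m Nm ⟨Ideal.span {b}, hb⟩ := by
  obtain ⟨c, hc0, hc⟩ := exists_inverse_mod m ha.2
  have hbc : b * c - 1 ∈ m := by
    have : b * c - 1 = (a * c - 1) - (a - b) * c := by ring
    rw [this]
    exact sub_mem hc (Ideal.mul_mem_right _ _ hab)
  have ha0 : a ≠ 0 := fun h => ha.1 (by rw [h]; exact Ideal.span_singleton_eq_bot.mpr rfl)
  have hb0 : b ≠ 0 := fun h => hb.1 (by rw [h]; exact Ideal.span_singleton_eq_bot.mpr rfl)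
  rw [mk_eq_mk_iff]
  refine ⟨b * c, a * c, mul_ne_zero hb0 hc0, mul_ne_zero ha0 hc0, hbc, hc, 1, Nm.one_mem, 1,
    Nm.one_mem, ?_⟩
  simp only [Submonoid.coe_one, mul_one, Ideal.span_singleton_mul_span_singleton]
  congr 1
  ring_nf

/-- helper21's form of the congruence (`a ≡ b mod m`, `a` coprime to `m`). -/
theorem mk_eq_mk_iff' {I J : coprimeIdeals K m} :
    mk m Nm I = mk m Nm J ↔ ∃ a b : 𝓞 K, a ≠ 0 ∧ b ≠ 0 ∧ a - b ∈ m ∧ Ideal.span {a} ⊔ m = ⊤ ∧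
      ∃ n₁ ∈ Nm, ∃ n₂ ∈ Nm,
        Ideal.span {a} * (I : Ideal (𝓞 K)) * (n₁ : Ideal (𝓞 K)) =
          Ideal.span {b} * (J : Ideal (𝓞 K)) * (n₂ : Ideal (𝓞 K)) := by
  constructor
  · intro h
    obtain ⟨a, b, ha0, hb0, ha, hb, n₁, hn₁, n₂, hn₂, h'⟩ := (mk_eq_mk_iff m Nm).mp h
    refine ⟨a, b, ha0, hb0, ?_, (span_singleton_mem_coprimeIdeals m ha ha0).2, n₁, hn₁, n₂, hn₂, h'⟩
    have : a - b = (a - 1) - (b - 1) := by ring
    rw [this]; exact sub_mem ha hb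
  · rintro ⟨a, b, ha0, hb0, hab, hcop, n₁, hn₁, n₂, hn₂, h⟩
    obtain ⟨c, hc0, hc⟩ := exists_inverse_mod m hcop
    have hbc : b * c - 1 ∈ m := by
      have : b * c - 1 = (a * c - 1) - (a - b) * c := by ring
      rw [this]
      exact sub_mem hc (Ideal.mul_mem_right _ _ hab)
    rw [mk_eq_mk_iff]
    refine ⟨a * c, b * c, mul_ne_zero ha0 hc0, mul_ne_zero hb0 hc0, hc, hbc, n₁, hn₁, n₂, hn₂, ?_⟩
    have e1 : Ideal.span {a * c} = Ideal.span {c} * Ideal.span {a} := by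
      rw [Ideal.span_singleton_mul_span_singleton, mul_comm]
    have e2 : Ideal.span {b * c} = Ideal.span {c} * Ideal.span {b} := by
      rw [Ideal.span_singleton_mul_span_singleton, mul_comm]
    calc Ideal.span {a * c} * (I : Ideal (𝓞 K)) * (n₁ : Ideal (𝓞 K))
        = Ideal.span {c} * (Ideal.span {a} * (I : Ideal (𝓞 K)) * (n₁ : Ideal (𝓞 K))) := by
          rw [e1]; simp only [mul_assoc]
      _ = Ideal.span {c} * (Ideal.span {b} * (J : Ideal (𝓞 K)) * (n₂ : Ideal (𝓞 K))) := by rw [h]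
      _ = Ideal.span {b * c} * (J : Ideal (𝓞 K)) * (n₂ : Ideal (𝓞 K)) := by
          rw [e2]; simp only [mul_assoc]

/-! #### Group structure -/

/-- Some positive power of an ideal coprime to `m` is principal with generator `≡ 1 mod m`. -/
theorem exists_pow_mem_rayPrincipal (I : coprimeIdeals K m) :
    ∃ n : ℕ, n ≠ 0 ∧ I ^ n ∈ rayPrincipal m := by
  by_cases hm : m = ⊥
  · subst hm
    refine ⟨1, one_ne_zero, ?_⟩
    have hI : (I : Ideal (𝓞 K)) = ⊤ := by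
      have := I.2.2
      rwa [sup_bot_eq] at this
    rw [pow_one]
    exact ⟨1, by simp, by rw [hI]; simp⟩
  have hfin : Finite (𝓞 K ⧸ m) := Ideal.finiteQuotientOfFreeOfNeBot m hm
  set h := Fintype.card (ClassGroup (𝓞 K)) with hh
  have hI0 : (I : Ideal (𝓞 K)) ∈ nonZeroDivisors (Ideal (𝓞 K)) :=
    mem_nonZeroDivisors_iff_ne_zero.mpr I.2.1
  have hpow : ClassGroup.mk0 (⟨(I : Ideal (𝓞 K)) ^ h, pow_mem hI0 h⟩ : nonZeroDivisors (Ideal (𝓞 K)))
      = 1 := by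
    have e : (⟨(I : Ideal (𝓞 K)) ^ h, pow_mem hI0 h⟩ : nonZeroDivisors (Ideal (𝓞 K))) =
        ⟨(I : Ideal (𝓞 K)), hI0⟩ ^ h := Subtype.ext (by simp)
    rw [e, map_pow, hh]; exact pow_card_eq_one
  have hprinc : ((I : Ideal (𝓞 K)) ^ h).IsPrincipal :=
    (ClassGroup.mk0_eq_one_iff (I := (I : Ideal (𝓞 K)) ^ h) (pow_mem hI0 h)).mp hpow
  obtain ⟨α, hα⟩ := hprinc.principal
  have hα' : (I : Ideal (𝓞 K)) ^ h = Ideal.span {α} := hα
  have hIh : ((I ^ h : coprimeIdeals K m) : Ideal (𝓞 K)) = Ideal.span {α} := by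
    rw [SubmonoidClass.coe_pow, hα']
  have hcop : Ideal.span {α} ⊔ m = ⊤ := by rw [← hIh]; exact (I ^ h).2.2
  have hα0 : α ≠ 0 := by
    intro h0
    have := (I ^ h).2.1
    rw [hIh, h0] at this
    exact this (Ideal.span_singleton_eq_bot.mpr rfl)
  obtain ⟨c, _, hc⟩ := exists_inverse_mod m hcop
  -- α is a unit mod m
  have hunit : IsUnit (Ideal.Quotient.mk m α) := by
    refine IsUnit.of_mul_eq_one (Ideal.Quotient.mk m c) ?_
    rw [← map_mul, ← map_one (Ideal.Quotient.mk m)]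
    exact Ideal.Quotient.eq.mpr hc
  set k := Nat.card (𝓞 K ⧸ m)ˣ with hk
  have hk0 : k ≠ 0 := Nat.card_pos.ne'
  have hαk : α ^ k - 1 ∈ m := by
    have h1 : hunit.unit ^ k = 1 := pow_card_eq_one'
    have h2 : (Ideal.Quotient.mk m α) ^ k = 1 := by
      have := congrArg (fun u : (𝓞 K ⧸ m)ˣ => (u : 𝓞 K ⧸ m)) h1
      simpa using this
    rw [← map_pow, ← map_one (Ideal.Quotient.mk m)] at h2
    exact Ideal.Quotient.eq.mp h2
  refine ⟨h * k, mul_ne_zero Fintype.card_ne_zero hk0, α ^ k, hαk, ?_⟩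
  rw [pow_mul, SubmonoidClass.coe_pow, hIh, Ideal.span_singleton_pow]

theorem isUnit_X (x : X m Nm) : IsUnit x := by
  obtain ⟨I, rfl⟩ := mk_surjective m Nm x
  obtain ⟨n, hn, hIn⟩ := exists_pow_mem_rayPrincipal m I
  exact isUnit_mk_of_pow_mem (rayPrincipal m ⊔ Nm) I hn (Submonoid.mem_sup_left hIn)

noncomputable instance instCommGroupX : CommGroup (X m Nm) :=
  commGroupOfIsUnit (isUnit_X m Nm)

/-- `mk` as a `RayHom` (input of the first inequality). -/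
noncomputable def rayHom : RayHom K m (X m Nm) where
  φ := mk m Nm
  principal a ha h := mk_span_singleton m Nm a ha h

@[simp] theorem rayHom_φ : (rayHom m Nm).φ = mk m Nm := rfl

/-! #### Universal property -/

/-- Universal property of `X m Nm`. -/
def lift {H : Type*} [Monoid H] (f : coprimeIdeals K m →* H)
    (hP : ∀ (a : 𝓞 K), a - 1 ∈ m → ∀ h : Ideal.span {a} ∈ coprimeIdeals K m,
      f ⟨Ideal.span {a}, h⟩ = 1)
    (hN : ∀ n ∈ Nm, f n = 1) : X m Nm →* H :=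
  Con.lift (rayCon m Nm) f (quotCon_le_ker _ f (by
    intro s hs
    obtain ⟨p, ⟨a, ha, hp⟩, n, hn, rfl⟩ := Submonoid.mem_sup.mp hs
    have hpa : p = ⟨Ideal.span {a}, hp ▸ p.2⟩ := Subtype.ext hp
    rw [map_mul, hN n hn, mul_one, hpa]
    exact hP a ha _))

@[simp] theorem lift_mk {H : Type*} [Monoid H] (f : coprimeIdeals K m →* H)
    (hP : ∀ (a : 𝓞 K), a - 1 ∈ m → ∀ h : Ideal.span {a} ∈ coprimeIdeals K m,
      f ⟨Ideal.span {a}, h⟩ = 1)
    (hN : ∀ n ∈ Nm, f n = 1) (I : coprimeIdeals K m) :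
    lift m Nm f hP hN (mk m Nm I) = f I := rfl

theorem lift_surjective {H : Type*} [Monoid H] (f : coprimeIdeals K m →* H)
    (hP : ∀ (a : 𝓞 K), a - 1 ∈ m → ∀ h : Ideal.span {a} ∈ coprimeIdeals K m,
      f ⟨Ideal.span {a}, h⟩ = 1)
    (hN : ∀ n ∈ Nm, f n = 1) (hf : Function.Surjective f) :
    Function.Surjective (lift m Nm f hP hN) := by
  intro y
  obtain ⟨I, rfl⟩ := hf y
  exact ⟨mk m Nm I, rfl⟩

/-! #### Finiteness -/

/-- Every ideal class contains an integral ideal coprime to `m`. -/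
theorem exists_coprime_rep (hm : m ≠ ⊥) (C : ClassGroup (𝓞 K)) :
    ∃ I : coprimeIdeals K m,
      ClassGroup.mk0 ⟨(I : Ideal (𝓞 K)), mem_nonZeroDivisors_iff_ne_zero.mpr I.2.1⟩ = C := by
  by_cases hmt : m = ⊤
  · obtain ⟨J, rfl⟩ := ClassGroup.mk0_surjective C
    have hJ0 : (J : Ideal (𝓞 K)) ≠ ⊥ := mem_nonZeroDivisors_iff_ne_zero.mp J.2
    exact ⟨⟨J, hJ0, by rw [hmt]; exact sup_top_eq _⟩, rfl⟩
  obtain ⟨J, hJ⟩ := ClassGroup.mk0_surjective C⁻¹
  have hJ0 : (J : Ideal (𝓞 K)) ≠ ⊥ := mem_nonZeroDivisors_iff_ne_zero.mp J.2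
  have hJm0 : (J : Ideal (𝓞 K)) * m ≠ 0 := mul_ne_zero hJ0 hm
  obtain ⟨a, ha⟩ := IsDedekindDomain.exists_sup_span_eq
    (I := (J : Ideal (𝓞 K)) * m) (J := (J : Ideal (𝓞 K))) Ideal.mul_le_left hJm0
  have haJ : Ideal.span {a} ≤ (J : Ideal (𝓞 K)) := by rw [← ha]; exact le_sup_right
  obtain ⟨I₀, hI₀⟩ := Ideal.dvd_iff_le.mpr haJ
  have hsup : m ⊔ I₀ = ⊤ := by
    have h1 : (J : Ideal (𝓞 K)) * (m ⊔ I₀) = (J : Ideal (𝓞 K)) * ⊤ := by
      rw [Ideal.mul_sup, ← hI₀, ha, Ideal.mul_top]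
    exact mul_left_cancel₀ hJ0 h1
  have ha0 : a ≠ 0 := by
    intro h0
    apply hmt
    rw [h0, Ideal.span_singleton_eq_bot.mpr rfl] at hI₀
    have hI₀' : I₀ = ⊥ := by
      rcases mul_eq_zero.mp hI₀.symm with h | h
      · exact absurd h hJ0
      · exact h
    rw [hI₀', sup_bot_eq] at hsup
    exact hsup
  have hI₀0 : I₀ ≠ ⊥ := by
    intro h
    rw [h, Ideal.mul_bot] at hI₀
    exact ha0 (Ideal.span_singleton_eq_bot.mp hI₀)
  refine ⟨⟨I₀, hI₀0, by rw [sup_comm]; exact hsup⟩, ?_⟩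
  have hI₀nz : I₀ ∈ nonZeroDivisors (Ideal (𝓞 K)) := mem_nonZeroDivisors_iff_ne_zero.mpr hI₀0
  have hprod : ClassGroup.mk0 (J * ⟨I₀, hI₀nz⟩) = 1 := by
    have hmem : Ideal.span {a} ∈ nonZeroDivisors (Ideal (𝓞 K)) :=
      mem_nonZeroDivisors_iff_ne_zero.mpr (by rwa [Ne, Ideal.zero_eq_bot,
        Ideal.span_singleton_eq_bot])
    have e : J * ⟨I₀, hI₀nz⟩ = ⟨Ideal.span {a}, hmem⟩ := Subtype.ext (by
      rw [Submonoid.coe_mul]; exact hI₀.symm)
    rw [e, ClassGroup.mk0_eq_one_iff]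
    exact ⟨⟨a, rfl⟩⟩
  rw [map_mul, hJ] at hprod
  exact (inv_mul_eq_one.mp hprod).symm

theorem finite_X (hm : m ≠ ⊥) : Finite (X m Nm) := by
  classical
  have hfin : Finite (𝓞 K ⧸ m) := Ideal.finiteQuotientOfFreeOfNeBot m hm
  -- class representatives
  choose rep hrep using fun C : ClassGroup (𝓞 K) => exists_coprime_rep m hm C⁻¹
  let P : ClassGroup (𝓞 K) × (𝓞 K ⧸ m)ˣ → coprimeIdeals K m → Prop := fun Cu I =>
    ClassGroup.mk0 ⟨(I : Ideal (𝓞 K)), mem_nonZeroDivisors_iff_ne_zero.mpr I.2.1⟩ = Cu.1 ∧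
      ∃ α : 𝓞 K, ((I * rep Cu.1 : coprimeIdeals K m) : Ideal (𝓞 K)) = Ideal.span {α} ∧
        Ideal.Quotient.mk m α = (Cu.2 : 𝓞 K ⧸ m)
  let g : ClassGroup (𝓞 K) × (𝓞 K ⧸ m)ˣ → X m Nm := fun Cu =>
    if h : ∃ I, P Cu I then mk m Nm h.choose else 1
  refine Finite.of_surjective g ?_
  intro x
  obtain ⟨I, rfl⟩ := mk_surjective m Nm x
  set C := ClassGroup.mk0 ⟨(I : Ideal (𝓞 K)), mem_nonZeroDivisors_iff_ne_zero.mpr I.2.1⟩ with hC
  -- I * rep C is principal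
  have hnz : ((I * rep C : coprimeIdeals K m) : Ideal (𝓞 K)) ∈ nonZeroDivisors (Ideal (𝓞 K)) :=
    mem_nonZeroDivisors_iff_ne_zero.mpr (I * rep C).2.1
  have hcl : ClassGroup.mk0 ⟨((I * rep C : coprimeIdeals K m) : Ideal (𝓞 K)), hnz⟩ = 1 := by
    have e : (⟨((I * rep C : coprimeIdeals K m) : Ideal (𝓞 K)), hnz⟩ :
        nonZeroDivisors (Ideal (𝓞 K))) =
        ⟨(I : Ideal (𝓞 K)), mem_nonZeroDivisors_iff_ne_zero.mpr I.2.1⟩ *
          ⟨(rep C : Ideal (𝓞 K)), mem_nonZeroDivisors_iff_ne_zero.mpr (rep C).2.1⟩ :=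
      Subtype.ext (by simp)
    rw [e, map_mul, hrep C, ← hC, mul_inv_cancel]
  obtain ⟨α, hα⟩ := ((ClassGroup.mk0_eq_one_iff hnz).mp hcl).principal
  have hα' : ((I * rep C : coprimeIdeals K m) : Ideal (𝓞 K)) = Ideal.span {α} := hα
  have hαmem : Ideal.span {α} ∈ coprimeIdeals K m := by rw [← hα']; exact (I * rep C).2
  obtain ⟨c, _, hc⟩ := exists_inverse_mod m hαmem.2
  have hunit : IsUnit (Ideal.Quotient.mk m α) := by
    refine IsUnit.of_mul_eq_one (Ideal.Quotient.mk m c) ?_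
    rw [← map_mul, ← map_one (Ideal.Quotient.mk m)]
    exact Ideal.Quotient.eq.mpr hc
  refine ⟨(C, hunit.unit), ?_⟩
  have hex : ∃ I', P (C, hunit.unit) I' := ⟨I, hC.symm, α, hα', rfl⟩
  show (if h : ∃ I', P (C, hunit.unit) I' then mk m Nm h.choose else 1) = mk m Nm I
  rw [dif_pos hex]
  obtain ⟨hI'C, α', hα'', hαα'⟩ := hex.choose_spec
  set I' := hex.choose with hI'
  have hα'mem : Ideal.span {α'} ∈ coprimeIdeals K m := by rw [← hα'']; exact (I' * rep C).2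
  have hsub : α' - α ∈ m := by
    apply Ideal.Quotient.eq.mp
    rw [hαα']
    rfl
  have h1 : mk m Nm (I' * rep C) = mk m Nm (I * rep C) := by
    have e1 : I' * rep C = ⟨Ideal.span {α'}, hα'mem⟩ := Subtype.ext hα''
    have e2 : I * rep C = ⟨Ideal.span {α}, hαmem⟩ := Subtype.ext hα'
    rw [e1, e2]
    exact mk_span_singleton_congr m Nm hsub hα'mem hαmem
  rw [map_mul, map_mul] at h1
  exact mul_right_cancel h1

/-- If a surjective hom `f : I(m) → H` kills `P_m` and `Nm`, and `|X| ≤ |H|`, then the induced map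
`X → H` is injective: `f I = f J ↔ mk I = mk J`. -/
theorem lift_injective_of_card_le (hm : m ≠ ⊥) {H : Type*} [Monoid H]
    (f : coprimeIdeals K m →* H)
    (hP : ∀ (a : 𝓞 K), a - 1 ∈ m → ∀ h : Ideal.span {a} ∈ coprimeIdeals K m,
      f ⟨Ideal.span {a}, h⟩ = 1)
    (hN : ∀ n ∈ Nm, f n = 1) (hf : Function.Surjective f)
    (hcard : Nat.card (X m Nm) ≤ Nat.card H) :
    Function.Injective (lift m Nm f hP hN) := by
  have := finite_X m Nm hm
  exact ((lift_surjective m Nm f hP hN hf).bijective_of_nat_card_le hcard).1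

theorem apply_eq_iff_mk_eq (hm : m ≠ ⊥) {H : Type*} [Monoid H]
    (f : coprimeIdeals K m →* H)
    (hP : ∀ (a : 𝓞 K), a - 1 ∈ m → ∀ h : Ideal.span {a} ∈ coprimeIdeals K m,
      f ⟨Ideal.span {a}, h⟩ = 1)
    (hN : ∀ n ∈ Nm, f n = 1) (hf : Function.Surjective f)
    (hcard : Nat.card (X m Nm) ≤ Nat.card H) {I J : coprimeIdeals K m} :
    f I = f J ↔ mk m Nm I = mk m Nm J := by
  constructor
  · intro h
    apply lift_injective_of_card_le m Nm hm f hP hN hf hcard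
    rw [lift_mk, lift_mk, h]
  · intro h
    rw [← lift_mk m Nm f hP hN I, ← lift_mk m Nm f hP hN J, h]

end Ray

/-! ### The norm submonoid of an extension -/

section Norm

variable (K : Type*) [Field K] [NumberField K] (L : Type*) [Field L] [NumberField L] [Algebra K L]
variable (m : Ideal (𝓞 K))

/-- The ideals coprime to `m` which are relative norms of ideals of `𝓞 L`. -/
def normSubmonoid : Submonoid (coprimeIdeals K m) where
  carrier := {I | ∃ 𝔄 : Ideal (𝓞 L), (I : Ideal (𝓞 K)) = Ideal.relNorm (𝓞 K) 𝔄}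
  one_mem' := ⟨⊤, by rw [Ideal.relNorm_top, Submonoid.coe_one, Ideal.one_eq_top]⟩
  mul_mem' := by
    rintro I J ⟨𝔄, h𝔄⟩ ⟨𝔅, h𝔅⟩
    exact ⟨𝔄 * 𝔅, by rw [Submonoid.coe_mul, h𝔄, h𝔅, map_mul]⟩

theorem mem_normSubmonoid {I : coprimeIdeals K m} :
    I ∈ normSubmonoid K L m ↔ ∃ 𝔄 : Ideal (𝓞 L), (I : Ideal (𝓞 K)) = Ideal.relNorm (𝓞 K) 𝔄 :=
  Iff.rfl

/-- `mk` kills relative norms. -/
theorem mk_relNorm (𝔄 : Ideal (𝓞 L)) (h : Ideal.relNorm (𝓞 K) 𝔄 ∈ coprimeIdeals K m) :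
    mk m (normSubmonoid K L m) ⟨Ideal.relNorm (𝓞 K) 𝔄, h⟩ = 1 :=
  mk_eq_one_of_mem_norm m _ ⟨𝔄, rfl⟩

/-- If `relNorm 𝔄` is coprime to `m`, then every prime `P ⊇ 𝔄` lies over a prime coprime to `m`. -/
theorem under_sup_eq_top_of_relNorm {𝔄 : Ideal (𝓞 L)}
    (h : Ideal.relNorm (𝓞 K) 𝔄 ⊔ m = ⊤) {P : Ideal (𝓞 L)} (hP : 𝔄 ≤ P) :
    P.under (𝓞 K) ⊔ m = ⊤ := by
  rw [eq_top_iff, ← h]
  refine sup_le_sup_right ?_ m
  exact (Ideal.relNorm_le_comap (R := 𝓞 K) 𝔄).trans (Ideal.comap_mono hP)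

/-- If `relNorm 𝔄` is coprime to `m`, then `𝔄` is coprime to `m 𝓞_L`. -/
theorem sup_map_eq_top_of_relNorm {𝔄 : Ideal (𝓞 L)}
    (h : Ideal.relNorm (𝓞 K) 𝔄 ⊔ m = ⊤) :
    𝔄 ⊔ m.map (algebraMap (𝓞 K) (𝓞 L)) = ⊤ := by
  by_contra hne
  obtain ⟨P, hPmax, hP⟩ := Ideal.exists_le_maximal _ hne
  have h1 := under_sup_eq_top_of_relNorm K L m h (le_sup_left.trans hP)
  have h2 : m ≤ P.under (𝓞 K) := by
    rw [Ideal.under_def, ← Ideal.map_le_iff_le_comap]
    exact le_sup_right.trans hP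
  rw [sup_eq_left.mpr h2] at h1
  have : P = ⊤ := by
    rw [Ideal.eq_top_iff_one]
    have h3 : (1 : 𝓞 K) ∈ P.under (𝓞 K) := by rw [h1]; exact Submodule.mem_top
    rw [Ideal.under_def, Ideal.mem_comap, map_one] at h3
    exact h3
  exact hPmax.ne_top this

end Norm

end Fermat.Agent.CFT.RayNormGroup
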