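/-
Program E (S14), piece C2 (d) (helper18): the weak second inequality for an unramified cyclic
extension `L/K` of prime degree `p` of a totally complex number field:

  there is a nonzero ideal of `𝓞 K` which is NOT of the form `(x/y) · N_{L/K}(A)`.

Assembly of `CFT/HerbrandAbstract` (abstract Herbrand quotient, helper18), `CFT/UnitHerbrand`
(unit Herbrand quotient `|H¹(E_L)| = p |E_K / N E_L|`, helper28) and `CFT/Hilbert94`
(Hilbert 94 + Chevalley count, helper13).  Also: prime form, two-sided form and the `(H3)` form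
consumed by the crossing assembly.
-/
import Mathlib
import Fermat.Agent.CFT.UnitHerbrand
import Fermat.Agent.CFT.Hilbert94

set_option autoImplicit false

open NumberField Module

namespace Fermat.Agent.CFT.SecondIneq

section defs

variable (K L : Type*) [Field K] [Field L] [NumberField K] [NumberField L] [Algebra K L]

/-- `a` lies in `P_K · N(I_L)`: up to principal ideals it is a relative norm. -/
def IsPrincipalTimesNorm (a : Ideal (𝓞 K)) : Prop :=
  ∃ (x y : 𝓞 K) (A : Ideal (𝓞 L)), x ≠ 0 ∧ y ≠ 0 ∧ A ≠ ⊥ ∧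
    Ideal.span {x} * a = Ideal.span {y} * Ideal.relNorm (𝓞 K) A

variable {K L}

theorem isPrincipalTimesNorm_top : IsPrincipalTimesNorm K L (⊤ : Ideal (𝓞 K)) :=
  ⟨1, 1, ⊤, one_ne_zero, one_ne_zero, top_ne_bot, by rw [Ideal.relNorm_top]⟩

theorem IsPrincipalTimesNorm.mul {a b : Ideal (𝓞 K)} (ha : IsPrincipalTimesNorm K L a)
    (hb : IsPrincipalTimesNorm K L b) : IsPrincipalTimesNorm K L (a * b) := by
  obtain ⟨x, y, A, hx, hy, hA, h⟩ := ha
  obtain ⟨x', y', A', hx', hy', hA', h'⟩ := hb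
  refine ⟨x * x', y * y', A * A', mul_ne_zero hx hx', mul_ne_zero hy hy', mul_ne_zero hA hA', ?_⟩
  rw [map_mul, ← Ideal.span_singleton_mul_span_singleton, ← Ideal.span_singleton_mul_span_singleton]
  calc Ideal.span {x} * Ideal.span {x'} * (a * b)
      = (Ideal.span {x} * a) * (Ideal.span {x'} * b) := by ring
    _ = (Ideal.span {y} * Ideal.relNorm (𝓞 K) A) * (Ideal.span {y'} * Ideal.relNorm (𝓞 K) A') := by
        rw [h, h']
    _ = _ := by ring

/-- If every nonzero prime is principal-times-norm, so is every nonzero ideal. -/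
theorem isPrincipalTimesNorm_of_primes
    (h : ∀ r : Ideal (𝓞 K), r.IsPrime → r ≠ ⊥ → IsPrincipalTimesNorm K L r)
    (a : Ideal (𝓞 K)) (ha : a ≠ ⊥) : IsPrincipalTimesNorm K L a := by
  revert ha
  refine UniqueFactorizationMonoid.induction_on_prime a (fun h0 => absurd rfl h0) ?_ ?_
  · intro x hx _
    rw [Ideal.isUnit_iff] at hx
    rw [hx]
    exact isPrincipalTimesNorm_top
  · intro b r hb hr ih _
    exact (h r (Ideal.isPrime_of_prime hr) hr.ne_zero).mul (ih hb)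

/-- Prime form: if some nonzero ideal is not principal-times-norm, some nonzero prime is not. -/
theorem exists_prime_of_exists
    (h : ∃ a : Ideal (𝓞 K), a ≠ ⊥ ∧ ¬ IsPrincipalTimesNorm K L a) :
    ∃ r : Ideal (𝓞 K), r.IsPrime ∧ r ≠ ⊥ ∧ ¬ IsPrincipalTimesNorm K L r := by
  by_contra hcon
  obtain ⟨a, ha, hna⟩ := h
  refine hna (isPrincipalTimesNorm_of_primes (fun r hr hr0 => ?_) a ha)
  by_contra hn
  exact hcon ⟨r, hr, hr0, hn⟩

/-- Some power of a nonzero ideal of `𝓞 K` is principal. -/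
theorem exists_pow_eq_span (I : Ideal (𝓞 K)) (hI : I ≠ ⊥) :
    ∃ (n : ℕ) (z : 𝓞 K), 0 < n ∧ z ≠ 0 ∧ I ^ n = Ideal.span {z} := by
  classical
  have hI0 : I ∈ nonZeroDivisors (Ideal (𝓞 K)) := mem_nonZeroDivisors_of_ne_zero hI
  set n := Nat.card (ClassGroup (𝓞 K)) with hn
  have hnpos : 0 < n := Nat.card_pos
  have h1 : ClassGroup.mk0 (⟨I, hI0⟩ ^ n : nonZeroDivisors (Ideal (𝓞 K))) = 1 := by
    rw [map_pow, hn]
    exact pow_card_eq_one'
  rw [ClassGroup.mk0_eq_one_iff] at h1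
  obtain ⟨z, hz⟩ := h1.principal
  have hpow : ((⟨I, hI0⟩ ^ n : nonZeroDivisors (Ideal (𝓞 K))) : Ideal (𝓞 K)) = I ^ n := by
    simp
  refine ⟨n, z, hnpos, ?_, ?_⟩
  · rintro rfl
    rw [hpow] at hz
    have : I ^ n = ⊥ := by rw [hz]; simp
    exact hI (pow_eq_zero_iff hnpos.ne' |>.mp this)
  · rw [← hpow, hz]

/-- The two-sided form `(x) b N(A) = (y) N(A')` implies the one-sided form. -/
theorem isPrincipalTimesNorm_of_twoSided {b : Ideal (𝓞 K)}
    (h : ∃ (x y : 𝓞 K) (A A' : Ideal (𝓞 L)), x ≠ 0 ∧ y ≠ 0 ∧ A ≠ ⊥ ∧ A' ≠ ⊥ ∧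
      Ideal.span {x} * b * Ideal.relNorm (𝓞 K) A = Ideal.span {y} * Ideal.relNorm (𝓞 K) A') :
    IsPrincipalTimesNorm K L b := by
  obtain ⟨x, y, A, A', hx, hy, hA, hA', h⟩ := h
  have hNA : Ideal.relNorm (𝓞 K) A ≠ ⊥ := by rwa [Ne, Ideal.relNorm_eq_bot_iff]
  obtain ⟨n, z, hn, hz, hpow⟩ := exists_pow_eq_span (Ideal.relNorm (𝓞 K) A) hNA
  obtain ⟨m, rfl⟩ : ∃ m, n = m + 1 := ⟨n - 1, by omega⟩
  refine ⟨x * z, y, A' * A ^ m, mul_ne_zero hx hz, hy, mul_ne_zero hA' (pow_ne_zero _ hA), ?_⟩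
  rw [map_mul, map_pow, ← Ideal.span_singleton_mul_span_singleton, ← hpow, pow_succ]
  calc Ideal.span {x} * (Ideal.relNorm (𝓞 K) A ^ m * Ideal.relNorm (𝓞 K) A) * b
      = (Ideal.span {x} * b * Ideal.relNorm (𝓞 K) A) * Ideal.relNorm (𝓞 K) A ^ m := by ring
    _ = (Ideal.span {y} * Ideal.relNorm (𝓞 K) A') * Ideal.relNorm (𝓞 K) A ^ m := by rw [h]
    _ = _ := by ring

end defs

section main

variable (K L : Type) [Field K] [Field L] [NumberField K] [NumberField L] [Algebra K L]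
  [IsGalois K L]

open Fermat.Agent.CFT.InvariantIdeal

/-- **Weak second inequality** for an everywhere unramified cyclic extension of prime degree `p`
of a totally complex number field: some nonzero ideal of `𝓞 K` is not `(x/y) · N_{L/K}(A)`. -/
theorem second_ineq (p : ℕ) [hp : Fact p.Prime] [IsTotallyComplex K]
    (hdeg : finrank K L = p) (hunr : Unramified K L) :
    ∃ a : Ideal (𝓞 K), a ≠ ⊥ ∧ ∀ (x y : 𝓞 K) (A : Ideal (𝓞 L)), x ≠ 0 → y ≠ 0 → A ≠ ⊥ →
      Ideal.span {x} * a ≠ Ideal.span {y} * Ideal.relNorm (𝓞 K) A := by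
  have hcard : Nat.card (L ≃ₐ[K] L) = p := by rw [IsGalois.card_aut_eq_finrank, hdeg]
  have hcyc : IsCyclic (L ≃ₐ[K] L) := isCyclic_of_prime_card hcard
  obtain ⟨s, hs⟩ := hcyc.exists_generator
  have hH := (UnitHerbrand.card_H1_eq s p hdeg hs).1
  have e2 : UnitHerbrand.unitD K L s = Hilbert94.unitD K L s := MonoidHom.ext fun v => rfl
  rw [e2] at hH
  exact Hilbert94.exists_ideal_not_norm hs hunr hp.out.two_le hH

/-- The same statement with the predicate `IsPrincipalTimesNorm`. -/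
theorem exists_not_isPrincipalTimesNorm (p : ℕ) [hp : Fact p.Prime] [IsTotallyComplex K]
    (hdeg : finrank K L = p) (hunr : Unramified K L) :
    ∃ a : Ideal (𝓞 K), a ≠ ⊥ ∧ ¬ IsPrincipalTimesNorm K L a := by
  obtain ⟨a, ha, h⟩ := second_ineq K L p hdeg hunr
  refine ⟨a, ha, ?_⟩
  rintro ⟨x, y, A, hx, hy, hA, hxy⟩
  exact h x y A hx hy hA hxy

/-- **Prime form**: some nonzero prime of `𝓞 K` is not principal-times-norm. -/
theorem exists_prime_not_isPrincipalTimesNorm (p : ℕ) [hp : Fact p.Prime] [IsTotallyComplex K]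
    (hdeg : finrank K L = p) (hunr : Unramified K L) :
    ∃ r : Ideal (𝓞 K), r.IsPrime ∧ r ≠ ⊥ ∧ ¬ IsPrincipalTimesNorm K L r :=
  exists_prime_of_exists (exists_not_isPrincipalTimesNorm K L p hdeg hunr)

/-- **`(H3)` of the crossing assembly**: for any map `π` on ideals whose "kernel" consists of
ideals that are principal times norms in the two-sided sense, some nonzero prime has `π r ≠ 1`. -/
theorem exists_prime_pi_ne_one (p : ℕ) [hp : Fact p.Prime] [IsTotallyComplex K]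
    (hdeg : finrank K L = p) (hunr : Unramified K L) {Q : Type*} [One Q]
    (π : Ideal (𝓞 K) → Q)
    (hπ : ∀ b : Ideal (𝓞 K), b ≠ ⊥ → π b = 1 →
      ∃ (x y : 𝓞 K) (A A' : Ideal (𝓞 L)), x ≠ 0 ∧ y ≠ 0 ∧ A ≠ ⊥ ∧ A' ≠ ⊥ ∧
        Ideal.span {x} * b * Ideal.relNorm (𝓞 K) A = Ideal.span {y} * Ideal.relNorm (𝓞 K) A') :
    ∃ r₀ : Ideal (𝓞 K), r₀.IsPrime ∧ r₀ ≠ ⊥ ∧ π r₀ ≠ 1 := by
  obtain ⟨r, hr, hr0, hn⟩ := exists_prime_not_isPrincipalTimesNorm K L p hdeg hunr
  exact ⟨r, hr, hr0, fun h1 => hn (isPrincipalTimesNorm_of_twoSided (hπ r hr0 h1))⟩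

end main

end Fermat.Agent.CFT.SecondIneq
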