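/-
Program E (S14), E-C1 analytic part, helper24.

`UnitWeightLattice`: the weight `W s` of `CFT/UnitWeight.lean` plugged into the lattice sum
comparison of `CFT/LatticeCompare.lean` (helper6), for lattices in the mixed space.

Exports (namespace `Fermat.Agent.CFT.UnitWeightLattice`):
* `W_lipschitz_rpow` : the Lipschitz-decay bound in the `rpow` shape of `LatticeCompare`.
* `summable_W_coset` : `W s` is summable over every coset of a lattice, `1 < s ≤ 2`.
* `W_coset_compare` : two cosets of a lattice have the same `W s`-sum up to a constant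
  independent of `s ∈ (1,2]`.
* `W_sublattice` : for `Λ' ≤ Λ`, the `W s`-sum over a coset of `Λ` is `[Λ : Λ']` times the
  `W s`-sum over `Λ'`, up to a constant independent of `s ∈ (1,2]`.
-/
import Fermat.Agent.CFT.UnitWeight
import Fermat.Agent.CFT.LatticeCompare

set_option autoImplicit false

noncomputable section

namespace Fermat.Agent.CFT.UnitWeightLattice

open NumberField NumberField.mixedEmbedding Module
open Fermat.Agent.CFT.UnitWeight Fermat.Agent.CFT.LatticeCompare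

open scoped Classical

variable (K : Type*) [Field K] [NumberField K]

/-- The Lipschitz-decay bound for `W s` in the shape used by `LatticeCompare`. -/
theorem W_lipschitz_rpow (d : ℝ) :
    ∃ C : ℝ, 0 ≤ C ∧ ∀ s ∈ Set.Icc (1 : ℝ) 2, ∀ x y : mixedSpace K, ‖x - y‖ ≤ d →
      |W K s x - W K s y| ≤ C * (1 + ‖x‖) ^ (-(finrank ℝ (mixedSpace K) + 1 : ℝ)) := by
  obtain ⟨C, hC0, hC⟩ := W_sub_le K d
  refine ⟨C, hC0, fun s hs x y hxy => ?_⟩
  have h := hC s hs x y hxy
  have h1 : (0 : ℝ) ≤ 1 + ‖x‖ := by positivity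
  have e : (1 + ‖x‖) ^ (-(finrank ℝ (mixedSpace K) + 1 : ℝ)) =
      ((1 + ‖x‖) ^ (finrank ℚ K + 1))⁻¹ := by
    rw [Real.rpow_neg h1, mixedEmbedding.finrank]
    congr 1
    have : ((finrank ℚ K : ℝ) + 1) = ((finrank ℚ K + 1 : ℕ) : ℝ) := by push_cast; ring
    rw [this, Real.rpow_natCast]
  rw [e]
  exact h

variable {K}

/-- `W s` is summable over every coset of a lattice of the mixed space, for `1 < s ≤ 2`. -/
theorem summable_W_coset (Λ : Submodule ℤ (mixedSpace K)) [DiscreteTopology Λ] [IsZLattice ℝ Λ]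
    {s : ℝ} (hs1 : 1 < s) (hs2 : s ≤ 2) (a : mixedSpace K) :
    Summable (fun l : Λ => W K s (a + (l : mixedSpace K))) := by
  obtain ⟨C, hC0, hC⟩ := W_le_rpow K
  have hn : (0 : ℝ) < finrank ℚ K := Nat.cast_pos.mpr finrank_pos
  refine summable_of_decay Λ (-((finrank ℚ K : ℝ) * s)) ?_ C (W K s) (fun x => ?_) a
  · rw [mixedEmbedding.finrank]
    have : (finrank ℚ K : ℝ) < (finrank ℚ K : ℝ) * s := by nlinarith
    linarith
  · rw [abs_of_nonneg (W_nonneg K s x)]
    exact hC s ⟨hs1.le, hs2⟩ x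

/-- **Coset comparison for `W s`**, uniform in `s ∈ (1,2]`. -/
theorem W_coset_compare (Λ : Submodule ℤ (mixedSpace K)) [DiscreteTopology Λ] [IsZLattice ℝ Λ] :
    ∃ B : ℝ, 0 ≤ B ∧ ∀ s ∈ Set.Ioc (1 : ℝ) 2, ∀ a a' : mixedSpace K,
      |∑' l : Λ, W K s (a + (l : mixedSpace K)) - ∑' l : Λ, W K s (a' + (l : mixedSpace K))|
        ≤ B := by
  obtain ⟨d, hd, B, hB⟩ := coset_compare Λ
  obtain ⟨C, hC0, hC⟩ := W_lipschitz_rpow K d
  refine ⟨|B| * C, by positivity, fun s hs a a' => ?_⟩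
  have h := (hB C (W K s) (fun x y hxy => hC s ⟨hs.1.le, hs.2⟩ x y hxy) a a'
    (summable_W_coset Λ hs.1 hs.2 a)).2
  exact h.trans (mul_le_mul_of_nonneg_right (le_abs_self B) hC0)

/-- **Sublattice comparison for `W s`**, uniform in `s ∈ (1,2]`. -/
theorem W_sublattice (Λ' Λ : Submodule ℤ (mixedSpace K)) [DiscreteTopology Λ] [IsZLattice ℝ Λ]
    [DiscreteTopology Λ'] [IsZLattice ℝ Λ'] (h : Λ' ≤ Λ) :
    ∃ B : ℝ, 0 ≤ B ∧ ∀ s ∈ Set.Ioc (1 : ℝ) 2, ∀ a : mixedSpace K,
      |∑' l : Λ, W K s (a + (l : mixedSpace K)) -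
        (Λ'.toAddSubgroup.relIndex Λ.toAddSubgroup : ℝ) * ∑' l : Λ', W K s (l : mixedSpace K)|
        ≤ B := by
  obtain ⟨d, hd, B, hB⟩ := sublattice Λ' Λ h
  obtain ⟨C, hC0, hC⟩ := W_lipschitz_rpow K d
  refine ⟨|B| * C, by positivity, fun s hs a => ?_⟩
  have hs0 : Summable (fun l : Λ' => W K s (l : mixedSpace K)) := by
    simpa using summable_W_coset Λ' hs.1 hs.2 (0 : mixedSpace K)
  have h := (hB C (W K s) (fun x y hxy => hC s ⟨hs.1.le, hs.2⟩ x y hxy) hs0 a).2
  exact h.trans (mul_le_mul_of_nonneg_right (le_abs_self B) hC0)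

end Fermat.Agent.CFT.UnitWeightLattice
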